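import Fermat.Agent.NN.N3b

/-!
# Theorem N3 (`r = p`): the geometric part of Mazur's principle at `p`
-/

set_option autoImplicit false
set_option linter.style.haveILetI false
set_option linter.unusedSectionVars false
set_option maxSynthPendingDepth 3

noncomputable section

attribute [-instance] HahnSeries.instModule HahnSeries.instSMul HahnSeries.instDistribMulAction
  HahnSeries.instSMulZeroClass

attribute [local instance 10000] Fermat.Agent.H29.instLS Fermat.Agent.H29.instIF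
  Fermat.Agent.H29.instIF2

namespace Fermat.Agent.NN

open ModularCurve HahnSeries Fermat.Agent.Igusa AlgebraicCurve Fermat.Agent.FF Fermat.Agent.H11Q
  Fermat.Agent.Q Module IntermediateField Fermat.Agent.H11N Fermat.Agent.P

local notation "kk" => IsLocalRing.ResidueField
local notation "Qb" => AlgebraicClosure ℚ

attribute [local instance] H12.isAlgClosed_kk

variable {M p : ℕ} [NeZero M] [hp : Fact p.Prime] {A : ValuationSubring Qb}

theorem redK_nsmul {m : ℕ} {x : JZero (M * p)} {u : modularFunctionFieldFullC (kk A) M}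
    (hu : RedK A M p m x u) (n : ℕ) : RedK A M p m (n • x) (u ^ n) := by
  induction n with
  | zero => rw [zero_smul, pow_zero]; exact RedK.one
  | succ n ih => rw [succ_nsmul, pow_succ]; exact ih.mul hu

/-- from level `2 M l` down to level `M` -/
theorem dvd_ord_nmC {l : ℕ} [hl : Fact l.Prime] (h2 : 2 ∣ M) (hp2 : p ≠ 2)
    (hlM : ¬ l ∣ M) (hk : ((M * l * 2 : ℕ) : kk A) ≠ 0)
    {u : modularFunctionFieldFullC (kk A) M} (hu : u ≠ 0)
    (h : ∀ w : Place (kk A) (modularFunctionFieldFullC (kk A) (M * l * 2)),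
      (p : ℤ) ∣ w.ord (Q.incl (kk A) (M * l) 2 (H12.betaC (kk A) M l u)) -
        w.ord (Q.incl (kk A) (M * l) 2 (Q.incl (kk A) M l u)))
    (v : Place (kk A) (modularFunctionFieldFullC (kk A) M)) :
    (p : ℤ) ∣ v.ord (nmC (kk A) M l u * (u⁻¹) ^ (l + 1)) := by
  have hk1 : ((M * l : ℕ) : kk A) ≠ 0 := Igusa.natCast_ne_zero_of_dvd (dvd_mul_right _ 2) hk
  haveI : NeZero (M * l) := ⟨mul_ne_zero (NeZero.ne M) hl.out.ne_zero⟩
  haveI : SepFF (kk A) (modularFunctionFieldFullC (kk A) (M * l * 2)) := sepFF_full hk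
  haveI : SepFF (kk A) (modularFunctionFieldFullC (kk A) (M * l)) := sepFF_full hk1
  haveI : HasPrincipalDivisors (kk A) (modularFunctionFieldFullC (kk A) (M * l * 2)) :=
    SepFF.hasPrincipalDivisors
  haveI : HasPrincipalDivisors (kk A) (modularFunctionFieldFullC (kk A) (M * l)) :=
    SepFF.hasPrincipalDivisors
  have hb0 : H12.betaC (kk A) M l u ≠ 0 := (_root_.map_ne_zero _).mpr hu
  have hi0 : Q.incl (kk A) M l u ≠ 0 := (_root_.map_ne_zero _).mpr hu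
  obtain ⟨z, hz⟩ : ∃ z, z = H12.betaC (kk A) M l u * (Q.incl (kk A) M l u)⁻¹ := ⟨_, rfl⟩
  have hz0 : z ≠ 0 := by rw [hz]; exact mul_ne_zero hb0 (inv_ne_zero hi0)
  have h1 : ∀ w : Place (kk A) (modularFunctionFieldFullC (kk A) (M * l)), (p : ℤ) ∣ w.ord z := by
    intro w
    have h3 : (p : ℤ) ∣ 2 * w.ord z := by
      refine dvd_two_mul_ord (Q.incl (kk A) (M * l) 2) (H12.integral_alphaC (kk A) (M * l) 2)
        (H12.fi_alphaC hk) (finrank_two (h2.mul_right l) hk) (fun w => SepFF.deg_eq_one w) w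
        (SepFF.deg_eq_one w) ?_
      intro w'
      rw [hz, map_mul, map_inv₀, w'.ord_mul ((_root_.map_ne_zero _).mpr hb0)
        (inv_ne_zero ((_root_.map_ne_zero _).mpr hi0)), w'.ord_inv, ← sub_eq_add_neg]
      exact h w'
    have h4 : IsCoprime (p : ℤ) ((2 : ℕ) : ℤ) :=
      Nat.isCoprime_iff_coprime.mpr ((Nat.coprime_primes hp.out Nat.prime_two).mpr hp2)
    exact h4.dvd_of_dvd_mul_left h3
  have h5 := dvd_ord_norm (Q.incl (kk A) M l) (H12.integral_alphaC (kk A) M l)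
    (H12.finite_alphaC (kk A) M l) (H12.nf_alphaC hk1) hp.out.ne_zero hz0 h1 v
  have h6 : H05.normAlong (Q.incl (kk A) M l) z = nmC (kk A) M l u * (u⁻¹) ^ (l + 1) := by
    rw [hz, ← map_inv₀]
    have h7 : H05.normAlong (Q.incl (kk A) M l) (Q.incl (kk A) M l u⁻¹) = (u⁻¹) ^ (l + 1) :=
      normAlong_map (Q.incl (kk A) M l) (H12.finrank_alphaC (kk A) M l hk1 hlM) u⁻¹
    rw [← h7]
    letI := algebraAlong (Q.incl (kk A) M l)
    exact map_mul (Algebra.norm (modularFunctionFieldFullC (kk A) M)) _ _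
  rw [h6] at h5
  exact h5

/-- the relation between the Kummer functions of `x` and `σ x` -/
theorem exists_gal_kum {x y : JZero (M * p)} {fx f : modularFunctionFieldBar (M * p)}
    (hfx : H05.Kum p x fx) (hf : H05.Kum p y f) {σ : Qb ≃ₐ[ℚ] Qb} {b : ℕ}
    (hb : σ • x = x + b • y) : ∃ g₁ : modularFunctionFieldBar (M * p),
      arithmeticGalois (modularFunctionFieldFull (M * p)) σ • fx = fx * (f ^ b * g₁ ^ p) := by
  have h1 : H05.Kum p (σ • x) (arithmeticGalois (modularFunctionFieldFull (M * p)) σ • fx) :=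
    hfx.smul (arithmeticGalois (modularFunctionFieldFull (M * p)) σ)
  rw [hb] at h1
  have h2 : H05.Kum p (x + b • y) (fx * f ^ b) := hfx.mul (H02N.kum_nat hf b)
  obtain ⟨g₁, -, h3⟩ := exists_kum_eq_mul_pow hp.out.ne_zero h1 h2
  exact ⟨g₁, by rw [h3, mul_assoc]⟩

theorem kap_aux (hpM : Nat.Coprime p M) (h2 : 2 ∣ M) (hA : A.LiesOverPrime p) {ζ : Qb}
    (hζ : IsPrimitiveRoot ζ p) {x y : JZero (M * p)} (hx : p • x = 0) (hy0 : y ≠ 0)
    (hy : y ∈ TSub A M p p hpM)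
    (ha0 : aStar M p y = 0) (ha1 : aStar M p (wS M p hpM • y) = 0)
    (hxI : ∀ σ ∈ A.inertiaSubgroupIn ℚ, ∃ b : ℕ, σ • x = x + b • y)
    (hv : ∃ v : Qb, v ∈ A ∧ v⁻¹ ∈ A ∧ v ≠ 0 ∧
      ∀ σ ∈ A.inertiaSubgroupIn ℚ, ∀ b : ℕ, σ • x = x + b • y → σ v = ζ ^ b * v)
    (heis : ∃ l : Nat.Primes, ¬ (l : ℕ) ∣ M * p ∧ ∃ c : ℤ,
      heckeOperatorBar (M * p) l y = c • y ∧ ¬ (p : ℤ) ∣ c - (l + 1)) :
    ∃ (u₀ : modularFunctionFieldFullC (kk A) M) (fx f : modularFunctionFieldBar (M * p)) (κ : ℤ),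
      RedK A M p p x u₀ ∧ H05.Kum p x fx ∧ H05.Kum p y f ∧
      ∀ {M' : ℕ} [NeZero M'] (hpM' : Nat.Coprime p M')
        (_ : SepFF (kk A) (modularFunctionFieldFullC (kk A) M'))
        (N : NodeLevel (alData M' p hpM') A (modularFunctionFieldFullC (kk A) M')) {d : ℕ}
        [NeZero d] (δ : Deg (alData M p hpM) (alData M' p hpM') d)
        (_ : ∀ v : Place Qb (modularFunctionFieldBar (M' * p)), (p : ℤ) ∣ v.ord (δ.δ fx))
        (_ : ∀ v : Place Qb (modularFunctionFieldBar (M' * p)), (p : ℤ) ∣ v.ord (δ.δ f))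
        (ι' : modularFunctionFieldFullC (kk A) M →+* modularFunctionFieldFullC (kk A) M')
        (_ : ∀ x, (ι' x : LaurentSeries (kk A)) = qExpand (kk A) d x)
        (v : Place (kk A) (modularFunctionFieldFullC (kk A) M')),
        (p : ℤ) ∣ v.ord (ι' u₀) - κ * N.T v := by
  obtain ⟨f, Y, hf, hYf, hYζ, hYG⟩ := exists_kumDat hpM h2 hA hζ hy0 hy ha0 ha1 heis
  obtain ⟨v, hvA, hvA', hv0, hvσ⟩ := hv
  obtain ⟨fx, hfx, hlx⟩ := exists_kum_lead hx
  have hfx0 : (fx : LaurentSeries Qb) ≠ 0 := fun h => hfx.ne_zero (Subtype.ext h)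
  obtain ⟨c, hc, u, hu, hu0, hred⟩ := exists_red_mul hA hpM (mem_full_of_bar fx.2) hfx0
  have hu0' : (⟨u, hu⟩ : modularFunctionFieldFullC (kk A) M) ≠ 0 :=
    fun h => hu0 (congrArg Subtype.val h)
  obtain ⟨lp⟩ := H11Q.hasPacks hp.out hA M hpM (Or.inl h2)
  have hlx' : ((alData M p hpM).e 0 fx).leadingCoeff = 1 :=
    (congrArg HahnSeries.leadingCoeff (al_e0 hpM fx)).trans hlx
  have hred' : Red A (HahnSeries.C c * (alData M p hpM).e 0 fx)
      ((⟨u, hu⟩ : modularFunctionFieldFullC (kk A) M) : LaurentSeries (kk A)) := by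
    have h3 : (HahnSeries.C c : LaurentSeries Qb) * (alData M p hpM).e 0 fx =
        HahnSeries.C c * (fx : LaurentSeries Qb) := congrArg _ (al_e0 hpM fx)
    rw [h3]
    exact hred
  have hint : (H26.embBC (K := IntermediateField.fixedField (A.inertiaSubgroupIn ℚ)) Qb
      (modularFunctionFieldFull (M * p))).IsIntegralElem fx := H23.R.isIntegral_embBC _ _ fx
  obtain ⟨κ, hκ⟩ := core_abs (D := alData M p hpM) (redHyp hpM hA) lp (inertData hpM hA)
    (galAct hpM A) (by rintro _ ⟨σ, hσ, rfl⟩; exact ⟨⟨σ, hσ⟩, rfl⟩) Y (fun σ => hYG σ σ.2)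
    (K' := laurentBaseChange (IntermediateField.fixedField (A.inertiaSubgroupIn ℚ))
      (modularFunctionFieldFull (M * p)))
    (H26.embBC (K := IntermediateField.fixedField (A.inertiaSubgroupIn ℚ)) Qb
      (modularFunctionFieldFull (M * p)))
    (fun σ z => H23.R.fixed_embBC _ _ (σ : Qb ≃ₐ[ℚ] Qb) σ.2 z) (fx := fx) hfx.ne_zero hint hlx'
    hvA hvA' hv0 (fun σ => by
      obtain ⟨b, hb⟩ := hxI σ σ.2
      obtain ⟨g₁, hg₁⟩ := exists_gal_kum hfx hf hb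
      refine ⟨b, g₁, ?_, ?_⟩
      · rw [hYf]
        exact hg₁
      · rw [hYζ]
        exact hvσ σ σ.2 b hb) hu0' hred'
  refine ⟨⟨u, hu⟩, fx, f, κ, ⟨hu0', fx, c, hfx, hc, hred⟩, hfx, hf, ?_⟩
  intro M' _ hpM' _ N d _ δ hdx hdy ι' hι' w
  refine hκ N (inertData hpM' hA) ?_ δ hdx ?_ ι' hι' w
  · rintro _ ⟨σ, hσ, rfl⟩
    exact ⟨⟨σ, hσ⟩, rfl⟩
  · rw [hYf]
    exact hdy

/-- **Theorem N3** (the condition `v ^ p ∈ K0F A` is not needed). -/
theorem n3_core0 (hpM : Nat.Coprime p M) (h2 : 2 ∣ M) (hp2 : p ≠ 2) (hA : A.LiesOverPrime p)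
    {ζ : Qb} (hζ : IsPrimitiveRoot ζ p) {x y : JZero (M * p)} (hx : p • x = 0) (hy0 : y ≠ 0)
    (hy : y ∈ TSub A M p p hpM)
    (ha0 : aStar M p y = 0) (ha1 : aStar M p (wS M p hpM • y) = 0)
    (hxI : ∀ σ ∈ A.inertiaSubgroupIn ℚ, ∃ b : ℕ, σ • x = x + b • y)
    (hv : ∃ v : Qb, v ∈ A ∧ v⁻¹ ∈ A ∧ v ≠ 0 ∧
      ∀ σ ∈ A.inertiaSubgroupIn ℚ, ∀ b : ℕ, σ • x = x + b • y → σ v = ζ ^ b * v)
    (heis : ∃ l : Nat.Primes, ¬ (l : ℕ) ∣ M * p ∧ ∃ c : ℤ,
      heckeOperatorBar (M * p) l y = c • y ∧ ¬ (p : ℤ) ∣ c - (l + 1))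
    {l : ℕ} [hl : Fact l.Prime] (hlN : ¬ l ∣ M * p) :
    ∃ u : modularFunctionFieldFullC (kk A) M,
      RedK A M p p (heckeOperatorBar (M * p) ⟨l, hl.out⟩ x - (l + 1) • x) u ∧
      ∀ v : Place (kk A) (modularFunctionFieldFullC (kk A) M), (p : ℤ) ∣ v.ord u := by
  obtain ⟨u₀, fx, f, κ, hu₀, hfx, hf, key⟩ :=
    kap_aux hpM h2 hA hζ hx hy0 hy ha0 ha1 hxI hv heis
  have hlM : ¬ l ∣ M := fun h => hlN (h.mul_right p)
  have hpl : Nat.Coprime p l := by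
    rw [Nat.coprime_primes hp.out hl.out]
    rintro rfl
    exact hlN (dvd_mul_left _ _)
  have hpMl : Nat.Coprime p (M * l) := Nat.Coprime.mul_right hpM hpl
  have hpM' : Nat.Coprime p (M * l * 2) :=
    Nat.Coprime.mul_right hpMl ((Nat.coprime_primes hp.out Nat.prime_two).mpr hp2)
  haveI : NeZero (M * l) := ⟨mul_ne_zero (NeZero.ne M) hl.out.ne_zero⟩
  have hk : ((M * l * 2 : ℕ) : kk A) ≠ 0 := Q.natCast_residue_ne_zero hp.out hA hpM'
  have hk1 : ((M * l : ℕ) : kk A) ≠ 0 := Igusa.natCast_ne_zero_of_dvd (dvd_mul_right _ 2) hk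
  have h4 : 4 ∣ M * l * 2 := by
    obtain ⟨c, rfl⟩ := h2
    exact ⟨c * l, by ring⟩
  haveI hS : SepFF (kk A) (modularFunctionFieldFullC (kk A) (M * l * 2)) := sepFF_full hk
  obtain ⟨N⟩ := exists_nodeLevel hpM' h4 hp2 hA
  -- divisibilities of levels
  have d1 : M * p ∣ M * l * p := ⟨l, by ring⟩
  have d2 : M * l * p ∣ M * l * 2 * p := ⟨2, by ring⟩
  have d3 : M * p ∣ M * l * 2 * p := d1.trans d2
  have d4 : M * p * l ∣ M * l * p := ⟨1, by ring⟩
  have hMM' : M ∣ M * l * 2 := ⟨l * 2, by ring⟩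
  haveI : Fact (Nat.Prime 2) := ⟨Nat.prime_two⟩
  have hinc : ∀ {g : modularFunctionFieldBar (M * p)},
      (∀ v : Place Qb (modularFunctionFieldBar (M * p)), (p : ℤ) ∣ v.ord g) →
      ∀ v : Place Qb (modularFunctionFieldBar (M * l * 2 * p)), (p : ℤ) ∣ v.ord (incN d3 g) := by
    intro g hg v
    have h5 : incN d3 g = incN d2 (incN d1 g) := by
      apply Subtype.ext
      rw [coe_incN, coe_incN, coe_incN]
    rw [h5]
    exact dvd_ord_map (incN d2) (int_incN (ℓ := 2) (by ring) d2)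
      (fun w => dvd_ord_map (incN d1) (int_incN (ℓ := l) (by ring) d1) hg w) v
  have hqe : ∀ {g : modularFunctionFieldBar (M * p)},
      (∀ v : Place Qb (modularFunctionFieldBar (M * p)), (p : ℤ) ∣ v.ord g) →
      ∀ v : Place Qb (modularFunctionFieldBar (M * l * 2 * p)),
        (p : ℤ) ∣ v.ord (incN d2 (H05.qe Qb l d4 g)) := by
    intro g hg v
    exact dvd_ord_map (incN d2) (int_incN (ℓ := 2) (by ring) d2)
      (fun w => dvd_ord_map (H05.qe Qb l d4) (int_qe (by ring) d4) hg w) v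
  have key1 := key hpM' hS N (degOne hpM hpM' hMM' d3) (hinc hfx.dvd) (hinc hf.dvd)
    (((Q.incl (kk A) (M * l) 2).comp (Q.incl (kk A) M l)).toRingHom)
    (fun x => by
      rw [qExpand_one_apply]
      exact (Q.coe_incl (kk A) (M * l) 2 _).trans (Q.coe_incl (kk A) M l x))
  have key2 := key hpM' hS N (degL hpM hpMl hpM' (dvd_mul_right _ 2) d4 d2) (hqe hfx.dvd)
    (hqe hf.dvd) (((Q.incl (kk A) (M * l) 2).comp (H12.betaC (kk A) M l)).toRingHom)
    (fun x => (Q.coe_incl (kk A) (M * l) 2 _).trans (H12.coe_betaC (kk A) M l x))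
  refine ⟨nmC (kk A) M l u₀ * (u₀⁻¹) ^ (l + 1), ?_, ?_⟩
  · have h6 := (hu₀.hecke hA hpM hlN).mul (redK_nsmul hu₀.inv (l + 1))
    rw [smul_neg, ← sub_eq_add_neg] at h6
    exact h6
  · refine dvd_ord_nmC h2 hp2 hlM hk hu₀.1 fun w => ?_
    have h7 := dvd_sub (key2 w) (key1 w)
    rw [sub_sub_sub_cancel_right] at h7
    exact h7

/-- **Theorem N3.** -/
theorem n3_core (hpM : Nat.Coprime p M) (h2 : 2 ∣ M) (hp2 : p ≠ 2) (hA : A.LiesOverPrime p)
    {ζ : Qb} (hζ : IsPrimitiveRoot ζ p) {x y : JZero (M * p)} (hx : p • x = 0) (hy0 : y ≠ 0)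
    (hy : y ∈ TSub A M p p hpM)
    (ha0 : aStar M p y = 0) (ha1 : aStar M p (wS M p hpM • y) = 0)
    (hxI : ∀ σ ∈ A.inertiaSubgroupIn ℚ, ∃ b : ℕ, σ • x = x + b • y)
    (hv : ∃ v : Qb, v ∈ A ∧ v⁻¹ ∈ A ∧ v ≠ 0 ∧ v ^ p ∈ K0F A ∧
      ∀ σ ∈ A.inertiaSubgroupIn ℚ, ∀ b : ℕ, σ • x = x + b • y → σ v = ζ ^ b * v)
    (heis : ∃ l : Nat.Primes, ¬ (l : ℕ) ∣ M * p ∧ ∃ c : ℤ,
      heckeOperatorBar (M * p) l y = c • y ∧ ¬ (p : ℤ) ∣ c - (l + 1))
    {l : ℕ} [hl : Fact l.Prime] (hlN : ¬ l ∣ M * p) :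
    ∃ u : modularFunctionFieldFullC (kk A) M,
      RedK A M p p (heckeOperatorBar (M * p) ⟨l, hl.out⟩ x - (l + 1) • x) u ∧
      ∀ v : Place (kk A) (modularFunctionFieldFullC (kk A) M), (p : ℤ) ∣ v.ord u := by
  obtain ⟨v, h1, h2', h3, -, h5⟩ := hv
  exact n3_core0 hpM h2 hp2 hA hζ hx hy0 hy ha0 ha1 hxI ⟨v, h1, h2', h3, h5⟩ heis hlN

end Fermat.Agent.NN
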