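import Fermat.Agent.NN.ModPack
import Fermat.Agent.Igusa.RTC

/-!
# The node data of `X₀(M r)` for `4 ∣ M`
-/

set_option autoImplicit false
set_option maxSynthPendingDepth 3
set_option linter.unusedSectionVars false

noncomputable section

open ModularCurve Module AlgebraicCurve IsLocalRing Polynomial
open Fermat.Agent.H11Q Fermat.Agent.H28 Fermat.Agent.Q Fermat.Agent.Igusa

attribute [-instance] HahnSeries.instModule HahnSeries.instSMul HahnSeries.instDistribMulAction
  HahnSeries.instSMulZeroClass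

attribute [local instance 10000] Fermat.Agent.H29.instLS Fermat.Agent.H29.instIF
  Fermat.Agent.H29.instIF2

namespace Fermat.Agent.NN

local notation "Qb" => AlgebraicClosure ℚ
local notation "kk" => IsLocalRing.ResidueField

section Z0

variable (l : ℕ) [hl : Fact l.Prime] {k : Type*} [Field k] [CharP k l]

/-- the reduction of `(t(q^l) - t^l)/l` and its derivative -/
theorem exists_GZ (hl2 : l ≠ 2) {H : LaurentSeries ℤ}
    (hH : qExpand ℤ l t4 = t4 ^ l + (l : LaurentSeries ℤ) * H) : ∃ Z : k[X],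
    coeffMap (Int.castRingHom k) H * evC (H4.tq k) (xi k l) = evC (H4.tq k) Z ∧
    theta (H4.tq k) ^ (l - 1) * evC (H4.tq k) (xi k l) ^ 2 =
      evC (H4.tq k) (X ^ (l - 1) * xi k l ^ 2 + derivative Z * xi k l - Z) := by
  obtain ⟨Z, hZ⟩ := exists_zPoly l hl2 hH
  refine ⟨Z.map (Int.castRingHom k), ?_⟩
  set t := H4.tq k with ht
  have htdef : coeffMap (Int.castRingHom k) t4 = t := rfl
  set h : LaurentSeries k := coeffMap (Int.castRingHom k) H with hh
  have hl1 : 1 ≤ l := hl.out.one_le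
  have hlL : (l : LaurentSeries k) = 0 := by
    have h5 : (l : LaurentSeries k) = HahnSeries.C (l : k) := (map_natCast _ l).symm
    rw [h5, CharP.cast_eq_zero, map_zero]
  have ht1 : qExpand k l t = t ^ l := qExpand_tq_char l t4
  have hxi : evC t (xi k l) = t - t ^ l ^ 2 := by
    rw [xi, map_sub, map_pow, evC_X]
  have h1 : h * evC t (xi k l) = evC t (Z.map (Int.castRingHom k)) := by
    rw [evC_map, hxi]
    have h2 := congrArg (coeffMap (Int.castRingHom k)) hZ
    rw [ringHom_evZ, htdef, map_add, map_nsmul, nsmul_eq_mul, hlL, zero_mul, add_zero, map_mul,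
      map_sub, map_pow, coeffMap_qExpand, htdef, ht1, ← pow_mul] at h2
    rw [h2, sq]
  refine ⟨h1, ?_⟩
  -- the derivative of `H`
  have h3 : theta t ^ l = t ^ (l - 1) * theta t + theta h := by
    have h4 := congrArg theta hH
    rw [theta_qExpand, map_add, theta_pow] at h4
    have h5 : theta ((l : LaurentSeries ℤ) * H) = (l : LaurentSeries ℤ) * theta H := by
      rw [← nsmul_eq_mul, map_nsmul, nsmul_eq_mul]
    rw [h5, mul_assoc, ← mul_add] at h4
    have h6 : (l : LaurentSeries ℤ) ≠ 0 := by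
      have h5 : (l : LaurentSeries ℤ) = HahnSeries.C (l : ℤ) := (map_natCast _ l).symm
      rw [h5]
      intro h0
      have h00 := HahnSeries.C_injective (h0.trans (map_zero _).symm)
      exact hl.out.ne_zero (by exact_mod_cast h00)
    have h7 := mul_left_cancel₀ h6 h4
    have h8 := congrArg (coeffMap (Int.castRingHom k)) h7
    rw [coeffMap_qExpand, map_add, map_mul, map_pow, ← theta_coeffMap, ← theta_coeffMap, htdef,
      ← hh] at h8
    rw [← h8, ← htdef, theta_coeffMap, qExpand_tq_char]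
  have h9 := congrArg theta h1
  rw [theta_mul, theta_evC, derivative_xi, map_one, one_mul, theta_evC] at h9
  have hne : theta t ≠ 0 := theta_t_ne H4
  have hpow : theta t ^ l = theta t ^ (l - 1) * theta t := by
    rw [← pow_succ, Nat.sub_add_cancel hl1]
  apply mul_left_cancel₀ hne
  rw [map_sub, map_add, map_mul, map_mul, map_pow, map_pow, evC_X]
  have h10 : theta h = theta t ^ (l - 1) * theta t - t ^ (l - 1) * theta t := by
    rw [← hpow, h3]; ring
  rw [h10] at h9
  linear_combination (evC t (xi k l)) * h9 - theta t * h1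

/-- the numerator does not vanish at the supersingular points. -/
theorem eval_Z_ne {S : Finset k} (hS : SSData H4 l k S) {Z : k[X]}
    (hZ : theta (H4.tq k) ^ (l - 1) * evC (H4.tq k) (xi k l) ^ 2 =
      evC (H4.tq k) (X ^ (l - 1) * xi k l ^ 2 + derivative Z * xi k l - Z)) {s : k}
    (hs : s ∈ S) : Z.eval s ≠ 0 := by
  classical
  set G : k[X] := X ^ (l - 1) * xi k l ^ 2 + derivative Z * xi k l - Z with hG
  set B : k[X] := ∏ x ∈ S.erase s, (X - C x) with hB
  have hA : ∏ x ∈ S, (X - C x) = (X - C s) * B := (Finset.mul_prod_erase S _ hs).symm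
  have hevA : evC (H4.tq k) (∏ x ∈ S, (X - C x)) = ∏ x ∈ S, (H4.tq k - HahnSeries.C x) := by
    rw [map_prod]
    refine Finset.prod_congr rfl fun x _ => ?_
    rw [map_sub, evC_X, evC_C]
  have h1 : G * ((X - C s) * B) ^ 2 = (H4.c.map (Int.castRingHom k)) ^ (l - 1) * xi k l ^ 2 := by
    apply evC_injective (H4.mn_tq k)
    rw [map_mul, map_mul, map_pow, map_pow, map_pow, ← hZ, ← hA, hevA, evC_map, ← hS.theta]
    ring
  have hxis : (xi k l).IsRoot s := by
    rw [IsRoot.def, xi, eval_sub, eval_X, eval_pow, eval_X, hS.frob2 s hs, sub_self]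
  obtain ⟨Q, hQ⟩ := dvd_iff_isRoot.mpr hxis
  have hQs : Q.eval s = 1 := by
    have h2 := congrArg (fun R : k[X] => R.eval s) (derivative_xi (k := k) l)
    simp only [hQ, derivative_mul, derivative_sub, derivative_X, derivative_C, eval_add, eval_mul,
      eval_sub, eval_X, eval_C, sub_self, zero_mul, add_zero, sub_zero, one_mul, eval_one] at h2
    exact h2
  have hXs : (X - C s : k[X]) ≠ 0 := X_sub_C_ne_zero s
  have h3 : G * B ^ 2 = (H4.c.map (Int.castRingHom k)) ^ (l - 1) * Q ^ 2 := by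
    apply mul_left_cancel₀ (pow_ne_zero 2 hXs)
    rw [hQ] at h1
    linear_combination h1
  have h4 := congrArg (eval s) h3
  have hcs : (H4.c.map (Int.castRingHom k)).eval s = evZ s H4.c := by
    rw [eval_map, evZ_apply]
  rw [eval_mul, eval_mul, eval_pow, eval_pow, eval_pow, hQs, one_pow, mul_one, hcs] at h4
  have h5 : G.eval s ≠ 0 := by
    intro h0
    rw [h0, zero_mul] at h4
    exact pow_ne_zero _ (hS.c_ne s hs) h4.symm
  intro h0
  apply h5
  rw [hG, eval_sub, eval_add, eval_mul, eval_mul, eval_pow (n := 2), hxis.eq_zero, h0]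
  ring

end Z0

section Mk

variable {K : Type*} [Field K] [CharZero K] [IsAlgClosed K] {r : ℕ} [hr : Fact r.Prime]
  (D : ALData K r) {A : ValuationSubring K}
  {Eb : IntermediateField (kk A) (LaurentSeries (kk A))}

theorem isInt_intCast (F : LaurentSeries ℤ) : IsInt A (coeffMap (Int.castRingHom K) F) := by
  intro n
  rw [coeffMap_coeff, eq_intCast]
  exact intCast_mem A _

theorem rd_intCast (F : LaurentSeries ℤ) :
    rd A (coeffMap (Int.castRingHom K) F) = coeffMap (Int.castRingHom (kk A)) F := by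
  ext n
  rw [rd_coeff, coeffMap_coeff, coeffMap_coeff, eq_intCast, eq_intCast,
    resid_of_mem A (intCast_mem A (F.coeff n))]
  exact map_intCast (residue A) (F.coeff n)

/-- **The node data exist.** -/
theorem exists_zdat (hr2 : r ≠ 2) (hA : A.LiesOverPrime r)
    (hj : (D.j : LaurentSeries K) = jqModC K) (ht : H4.tq K ∈ D.S₀) (htb : H4.tq (kk A) ∈ Eb)
    (hjb : jqModC (kk A) ∈ Eb)
    (hchart : ∀ x : D.S₀, IsIntegral (Algebra.adjoin K {D.j}) x → IsInt A (x : LaurentSeries K) →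
      ∃ y : Eb, (y : LaurentSeries (kk A)) = rd A (x : LaurentSeries K) ∧
        IsIntegral (Algebra.adjoin (kk A) {(⟨jqModC (kk A), hjb⟩ : Eb)}) y) :
    ∃ Z : ZDat D A Eb, Z.tb = ⟨H4.tq (kk A), htb⟩ ∧ 2 * Z.S.card = r - 1 := by
  haveI : IsAlgClosed (kk A) := H11Q.isAlgClosed_residueField A
  haveI : CharP (kk A) r := H11Q.charP_residue (A := A) hr.out hA
  obtain ⟨S, hS⟩ := exists_ssData_odd (k := kk A) r hr2
  obtain ⟨H, hH⟩ := exists_frob r t4
  obtain ⟨Z, hZ1, hZ2⟩ := exists_GZ (k := kk A) r hr2 hH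
  have hrK : (r : K) ≠ 0 := by exact_mod_cast hr.out.ne_zero
  have hd : (r : K)⁻¹ • ((H4.tq K) ^ r - qExpand K r (H4.tq K)) =
      -coeffMap (Int.castRingHom K) H := by
    have h1 := congrArg (coeffMap (Int.castRingHom K)) hH
    rw [coeffMap_qExpand, map_add, map_mul, map_pow, map_natCast] at h1
    have h2 : qExpand K r (H4.tq K) = H4.tq K ^ r + (r : LaurentSeries K) *
      coeffMap (Int.castRingHom K) H := h1
    rw [h2, sub_add_cancel_left, smul_neg, ← nsmul_eq_mul, ← Nat.cast_smul_eq_nsmul K, smul_smul,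
      inv_mul_cancel₀ hrK, one_smul]
  have htI : IsInt A (H4.tq K) := isInt_intCast t4
  have hrdt : rd A (H4.tq K) = H4.tq (kk A) := rd_intCast t4
  have htbne : H4.tq (kk A) ≠ 0 := by
    intro h
    have h1 := (H4.mn_tq (kk A)).1
    rw [h, HahnSeries.coeff_zero] at h1
    exact zero_ne_one h1
  -- the value of `j` at the supersingular points
  set tb : Eb := ⟨H4.tq (kk A), htb⟩ with htbd
  set jb : Eb := ⟨jqModC (kk A), hjb⟩ with hjbd
  have hcoe : ∀ p : ℤ[X], ((aeval tb (p.map (Int.castRingHom (kk A))) : Eb) :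
      LaurentSeries (kk A)) = evZ (H4.tq (kk A)) p := by
    intro p
    have h1 : aeval tb (p.map (Int.castRingHom (kk A))) = evZ tb p := by
      rw [aeval_def, eval₂_map, evZ_apply]
      congr 1
      exact Subsingleton.elim _ _
    rw [h1]
    exact ringHom_evZ (Eb.val : Eb →+* LaurentSeries (kk A)) tb p
  have hevC : ∀ p : (kk A)[X], ((aeval tb p : Eb) : LaurentSeries (kk A)) =
      evC (H4.tq (kk A)) p := by
    intro p
    rw [evC_apply]
    refine (Polynomial.hom_eval₂ p (algebraMap (kk A) Eb)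
      (Eb.val : Eb →+* LaurentSeries (kk A)) tb).trans ?_
    have h1 : (Eb.val : Eb →+* LaurentSeries (kk A)).comp (algebraMap (kk A) Eb) =
        HahnSeries.C := RingHom.ext fun c => algebraMap_eq_C c
    rw [h1]
    rfl
  have hjv : ∀ v : Place (kk A) Eb, ∀ σ ∈ S, 0 < v.ord (tb - algebraMap (kk A) Eb σ) →
      jb ∈ v.toValuationSubring := by
    intro v σ hσ hv
    have h1 : jb * aeval tb ((H4.W 1).map (Int.castRingHom (kk A))) =
        aeval tb ((H4.P ^ 3).map (Int.castRingHom (kk A))) := by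
      apply Subtype.ext
      change (jb : LaurentSeries (kk A)) * ((aeval tb ((H4.W 1).map _) : Eb) : LaurentSeries (kk A)) =
        ((aeval tb ((H4.P ^ 3).map _) : Eb) : LaurentSeries (kk A))
      rw [hcoe, hcoe, map_pow]
      exact H4.j_tq (R := kk A)
    have h2 : ((H4.W 1).map (Int.castRingHom (kk A))).eval σ ≠ 0 := by
      obtain ⟨e, x, he⟩ := H4.hWc 1 (one_dvd 4)
      have h3 := congrArg (evZ σ) he
      rw [map_pow, map_mul] at h3
      intro h4
      rw [eval_map, ← evZ_apply] at h4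
      rw [h4, zero_mul] at h3
      exact pow_ne_zero _ (hS.c_ne σ hσ) h3
    obtain ⟨h3, h4⟩ := ord_aeval_eq_zero hv h2
    have h5 : aeval tb ((H4.P ^ 3).map (Int.castRingHom (kk A))) ∈ v.toValuationSubring :=
      aeval_mem (mem_of_ord_sub hv) _
    rw [← h1] at h5
    by_cases hj0 : jb = 0
    · rw [hj0]; exact zero_mem _
    rw [H18.mem_iff, v.ord_mul hj0 h3, h4, add_zero] at h5
    exact (H18.mem_iff v).mpr h5
  refine ⟨{
    t := ⟨H4.tq K, ht⟩
    t_int := ?_
    t_mem := htI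
    d_mem := ?_
    tb := tb
    tb_eq := hrdt.symm
    tb_low := ?_
    hb := -Z
    hb_eq := ?_
    S := S
    S_pow := hS.frob2
    S_ne := fun σ hσ => ?_
    wj := ?_
    chart := fun v σ hσ hv x hx hi => ?_ }, rfl, ?_⟩
  · -- `t` is integral over `K[j]`
    set j' : Algebra.adjoin K {D.j} := ⟨D.j, Algebra.subset_adjoin rfl⟩ with hj'
    have h1 := H4.hlt 1 (one_dvd 4)
    have hU := H4.hU 1 (one_dvd 4)
    have hW := H4.hW 1 (one_dvd 4)
    refine ⟨(H4.U 1).map (Int.castRingHom _) - Polynomial.C j' * (H4.W 1).map (Int.castRingHom _),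
      ?_, ?_⟩
    · apply Monic.sub_of_left (hU.1.map _)
      refine lt_of_le_of_lt ((degree_mul_le _ _).trans (add_le_add_left degree_C_le _)) ?_
      rw [zero_add, degree_eq_natDegree (hW.1.map _).ne_zero,
        degree_eq_natDegree (hU.1.map _).ne_zero,
        hW.1.natDegree_map, hU.1.natDegree_map, hU.2, hW.2]
      exact_mod_cast h1
    · rw [eval₂_sub, eval₂_mul, eval₂_C, eval₂_map, eval₂_map]
      have h2 : ∀ p : ℤ[X], p.eval₂ ((algebraMap (Algebra.adjoin K {D.j}) D.S₀).comp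
          (Int.castRingHom _)) (⟨H4.tq K, ht⟩ : D.S₀) = evZ (⟨H4.tq K, ht⟩ : D.S₀) p := by
        intro p
        rw [evZ_apply]
        congr 1
      rw [h2, h2]
      apply Subtype.ext
      have h3 : ∀ p : ℤ[X], ((evZ (⟨H4.tq K, ht⟩ : D.S₀) p : D.S₀) : LaurentSeries K) =
          evZ (H4.tq K) p := fun p => ringHom_evZ (D.S₀.val : D.S₀ →+* LaurentSeries K) _ p
      change ((evZ (⟨H4.tq K, ht⟩ : D.S₀) (H4.U 1) : D.S₀) : LaurentSeries K) -
        (D.j : LaurentSeries K) * ((evZ (⟨H4.tq K, ht⟩ : D.S₀) (H4.W 1) : D.S₀) :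
          LaurentSeries K) = 0
      rw [h3, h3, hj, ← H4.jd_mul K 1 (one_dvd 4), jd_one, sub_self]
  · -- divisibility
    rw [hd]
    exact (isInt_intCast H).neg
  · -- the pole
    have h1 : (H4.tq (kk A)).order ≤ -1 :=
      HahnSeries.order_le_of_coeff_ne_zero (by rw [(H4.mn_tq (kk A)).1]; exact one_ne_zero)
    change (H4.tq (kk A)).order < 0
    omega
  · -- the reduction
    rw [hevC, map_neg]
    have h1 : rd A (-coeffMap (Int.castRingHom K) H) = -coeffMap (Int.castRingHom (kk A)) H := by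
      rw [rd_neg (isInt_intCast H), rd_intCast]
    have h2 : ((⟨H4.tq K, ht⟩ : D.S₀) : LaurentSeries K) = H4.tq K := rfl
    rw [h2, hd, h1, ← hZ1, xi, map_sub, map_pow, evC_X, neg_mul]
  · rw [eval_neg, neg_ne_zero]
    exact eval_Z_ne r hS hZ2 hσ
  · -- `j(q^r)` is integral over `K[j]`
    set j' : jA D := ⟨D.ι D.j, Algebra.subset_adjoin rfl⟩ with hj'
    refine ⟨(modPoly r).map (evZ j'), (modPoly_monic r).map _, ?_⟩
    rw [eval₂_map]
    apply Subtype.ext
    have h1 : ((Polynomial.eval₂ ((algebraMap (jA D) D.S).comp (evZ j')) (D.w (D.ι D.j))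
        (modPoly r) : D.S) : LaurentSeries K) =
        (modPoly r).eval₂ (evZ (jd K 1)) (jd K (1 * r)) := by
      have h2 := Polynomial.hom_eval₂ (modPoly r) ((algebraMap (jA D) D.S).comp (evZ j'))
        (D.S.val : D.S →+* LaurentSeries K) (D.w (D.ι D.j))
      refine h2.trans ?_
      have h3 : (D.S.val : D.S →+* LaurentSeries K) (D.w (D.ι D.j)) = jd K (1 * r) := by
        change (D.w (D.ι D.j) : LaurentSeries K) = _
        rw [D.coe_w_ι, hj, jd_congr K (one_mul r)]
        rfl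
      rw [h3]
      congr 1
      apply RingHom.ext
      intro p
      change (D.S.val : D.S →+* LaurentSeries K) ((algebraMap (jA D) D.S) (evZ j' p)) = _
      rw [ringHom_evZ, ringHom_evZ]
      congr 2
      change ((D.ι D.j : D.S) : LaurentSeries K) = _
      rw [D.coe_ι, hj, jd_one]
    rw [h1, modPoly_eval r K 1]
    rfl
  · -- the chart
    obtain ⟨y, hy, hyint⟩ := hchart x hx hi
    rw [mem_Vv_iff]
    exact ⟨y, hy, mem_valuationSubring_of_isIntegral v.toValuationSubring v.algebraMap_mem'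
      (hjv v σ hσ hv) hyint⟩
  · have h1 := hS.card
    have h2 : H4.κ = 2 := rfl
    rw [h2] at h1
    change 2 * S.card = r - 1
    omega

end Mk

section Mod

variable {M r : ℕ} [NeZero M] [hr : Fact r.Prime] {A : ValuationSubring Qb}

theorem tq_mem_full (k : Type*) [Field k] (h4 : 4 ∣ M) (hM : (M : k) ≠ 0) :
    H4.tq k ∈ modularFunctionFieldFullC k M := by
  have h : ((4 : ℕ) : k) ≠ 0 := by
    obtain ⟨m, hm⟩ := h4
    intro h0
    apply hM
    rw [hm, Nat.cast_mul, h0, zero_mul]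
  exact full_degeneracyC_le k h4 (H4.tq_mem k h)

theorem chart_mod (hℓ : r.Prime) (hA : A.LiesOverPrime r)
    (hyp : ¬ r ∣ M ∧ ((2 ∣ M ∧ r ≠ 2) ∨ (3 ∣ M ∧ r ≠ 3)))
    (x : modularFunctionFieldBar M) (hx : IsIntegral (Algebra.adjoin Qb {jX M}) x)
    (hi : IsInt A (x : LaurentSeries Qb)) :
    ∃ y : modularFunctionFieldFullC (kk A) M, (y : LaurentSeries (kk A)) =
        rd A (x : LaurentSeries Qb) ∧
      IsIntegral (Algebra.adjoin (kk A) {(⟨jqModC (kk A), jqModC_mem_full (kk A) M⟩ :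
        modularFunctionFieldFullC (kk A) M)}) y := by
  have hMk : (M : kk A) ≠ 0 :=
    Q.natCast_residue_ne_zero hℓ hA ((Nat.Prime.coprime_iff_not_dvd hℓ).2 hyp.1)
  have hch := H29.isChart_j hℓ hA hyp
  have hxZ : x ∈ (modRed M A).Z := mem_modRed hℓ hA hMk x hi
  have hjj : jX M = ((jZ M A : (modRed M A).Z) : modularFunctionFieldBar M) :=
    Subtype.ext (coe_jX M)
  rw [hjj] at hx
  have h2 := Cusp.intOver_of_isIntegral hch hxZ hx
  have h3 := hch.red_int x h2
  refine ⟨(modRed M A).ρ ⟨x, hch.mem x h2⟩, (rd_modRed ⟨x, hch.mem x h2⟩).symm, ?_⟩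
  have h4 : (modRed M A).ρ (jZ M A) = ⟨jqModC (kk A), jqModC_mem_full (kk A) M⟩ :=
    Subtype.ext (ρ_jZ M A)
  rwa [h4] at h3

/-- **The node data of `X₀(M r)`**, `4 ∣ M`. -/
theorem exists_zdat_mod (hrM : Nat.Coprime r M) (h4 : 4 ∣ M) (hr2 : r ≠ 2)
    (hA : A.LiesOverPrime r) :
    ∃ Z : ZDat (alData M r hrM) A (modularFunctionFieldFullC (kk A) M),
      (Z.tb : LaurentSeries (kk A)) = H4.tq (kk A) ∧ 2 * Z.S.card = r - 1 := by
  have hMk : (M : kk A) ≠ 0 := Q.natCast_residue_ne_zero hr.out hA hrM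
  have hMK : (M : Qb) ≠ 0 := by exact_mod_cast NeZero.ne M
  have hrM' : ¬ r ∣ M := (Nat.Prime.coprime_iff_not_dvd hr.out).1 hrM
  have h2M : 2 ∣ M := (by norm_num : 2 ∣ 4).trans h4
  have hyp : ¬ r ∣ M ∧ ((2 ∣ M ∧ r ≠ 2) ∨ (3 ∣ M ∧ r ≠ 3)) := ⟨hrM', Or.inl ⟨h2M, hr2⟩⟩
  obtain ⟨Z, hZ1, hZ2⟩ := exists_zdat (alData M r hrM) (A := A)
    (Eb := modularFunctionFieldFullC (kk A) M) hr2 hA (coe_jX M)
    (Q.mem_bar_of_full (tq_mem_full Qb h4 hMK)) (tq_mem_full (kk A) h4 hMk)
    (jqModC_mem_full (kk A) M) (chart_mod hr.out hA hyp)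
  refine ⟨Z, ?_, hZ2⟩
  rw [hZ1]

end Mod

end Fermat.Agent.NN
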