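import Fermat.Agent.NN.Triv
import Fermat.Agent.NN.ModZ
import Fermat.Agent.RV.K0
import Fermat.Agent.H23.R.Kummer

/-!
# The inertia field and the node theorem for `X₀(M r)`
-/

set_option autoImplicit false
set_option linter.style.haveILetI false
set_option linter.unusedSectionVars false
set_option maxSynthPendingDepth 3

noncomputable section

attribute [-instance] HahnSeries.instModule HahnSeries.instSMul HahnSeries.instDistribMulAction
  HahnSeries.instSMulZeroClass

attribute [local instance 10000] Fermat.Agent.H29.instLS Fermat.Agent.H29.instIF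
  Fermat.Agent.H29.instIF2

namespace Fermat.Agent.NN

open ModularCurve HahnSeries Fermat.Agent.Igusa AlgebraicCurve Fermat.Agent.FF Fermat.Agent.H11Q
  Fermat.Agent.Q Module

local notation "kk" => IsLocalRing.ResidueField
local notation "Qb" => AlgebraicClosure ℚ

/-- the field of elements fixed by inertia -/
def K0F (A : ValuationSubring Qb) : Subfield Qb where
  carrier := {z | ∀ σ ∈ A.inertiaSubgroupIn ℚ, σ z = z}
  mul_mem' ha hb σ hσ := by rw [map_mul, ha σ hσ, hb σ hσ]
  one_mem' σ _ := map_one σ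
  add_mem' ha hb σ hσ := by rw [map_add, ha σ hσ, hb σ hσ]
  zero_mem' σ _ := map_zero σ
  neg_mem' ha σ hσ := by rw [map_neg, ha σ hσ]
  inv_mem' a ha σ hσ := by rw [map_inv₀, ha σ hσ]

theorem mem_K0F {A : ValuationSubring Qb} {z : Qb} :
    z ∈ K0F A ↔ ∀ σ ∈ A.inertiaSubgroupIn ℚ, σ z = z := Iff.rfl

variable {M r : ℕ} [NeZero M] [hr : Fact r.Prime] {A : ValuationSubring Qb}

theorem exists_lift_K0F (hA : A.LiesOverPrime r) (c : kk A) : ∃ z ∈ K0F A, z ∈ A ∧ resid A z = c := by
  by_cases hc : c = 0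
  · subst hc
    exact ⟨0, zero_mem _, zero_mem _, resid_zero A⟩
  · obtain ⟨n, z, hz, hn, hzn, hres⟩ := H26.RV.exists_root_of_unity_lift hr.out hA hc
    refine ⟨z, fun σ hσ => H05.inertia_apply_rootOfUnity hr.out hA hn hσ hzn, hz, ?_⟩
    rw [resid_of_mem A hz, hres]

/-- the inertia data of `X₀(M r)` -/
def inertData (hrM : Nat.Coprime r M) (hA : A.LiesOverPrime r) :
    InertData (alData M r hrM) A (K0F A) where
  G := {τ | ∃ σ ∈ A.inertiaSubgroupIn ℚ, galB hrM σ = τ}
  fix z := by
    rw [mem_K0F]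
    constructor
    · intro h σ hσ
      exact h (galB hrM σ) ⟨σ, hσ, rfl⟩
    · rintro h _ ⟨σ, hσ, rfl⟩
      exact h σ hσ
  hk := exists_lift_K0F hA
  hval z hz hz0 := H12.exists_valuation_eq_zpow hr.out hA z hz0 hz

end Fermat.Agent.NN
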