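import Fermat.Agent.NN.Count
import Fermat.Agent.Descent.Canonical
import Fermat.Agent.H18_FunField
import Fermat.Agent.H18_Rational

/-!
# Geometry of a function field with a separating element; Riemann-Roch upper bounds
-/

set_option autoImplicit false
set_option linter.style.haveILetI false
set_option linter.unusedSectionVars false

noncomputable section

open AlgebraicCurve Module IsDedekindDomain
open scoped IntermediateField IntermediateField.algebraAdjoinAdjoin

namespace Fermat.Agent.NN

variable {k κ : Type*} [Field k] [Field κ] [Algebra k κ]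

section Step

theorem step_aux {D : Divisor k κ} {v : Place k κ} (hv : v.deg = 1) {f g : κ}
    (hf : f ∈ riemannRochSpace (D + Finsupp.single v 1))
    (hg : g ∈ riemannRochSpace (D + Finsupp.single v 1)) (hg' : g ∉ riemannRochSpace D) :
    ∃ c : k, f - c • g ∈ riemannRochSpace D := by
  classical
  have hne : g ≠ 0 := by
    rintro rfl
    exact hg' (Submodule.zero_mem _)
  have hord : ∀ z ∈ riemannRochSpace (D + Finsupp.single v 1), z ≠ 0 →
      ∀ w, w ≠ v → -D w ≤ w.ord z := by
    intro z hz hz0 w hw
    have := ((mem_riemannRochSpace_iff).mp hz w).resolve_left hz0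
    rwa [Finsupp.add_apply, Finsupp.single_eq_of_ne hw, add_zero] at this
  have hordv : ∀ z ∈ riemannRochSpace (D + Finsupp.single v 1), z ≠ 0 →
      -D v - 1 ≤ v.ord z := by
    intro z hz hz0
    have := ((mem_riemannRochSpace_iff).mp hz v).resolve_left hz0
    rw [Finsupp.add_apply, Finsupp.single_eq_same] at this
    omega
  have hgv : v.ord g = -D v - 1 := by
    apply le_antisymm _ (hordv g hg hne)
    by_contra hcon
    apply hg'
    rw [mem_riemannRochSpace_iff]
    intro w
    right
    by_cases hw : w = v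
    · subst hw; omega
    · exact hord g hg hne w hw
  rcases eq_or_ne f 0 with rfl | hf0
  · exact ⟨0, by rw [zero_smul, sub_zero]; exact Submodule.zero_mem _⟩
  have hq : 0 ≤ v.ord (f * g⁻¹) := by
    rw [v.ord_mul hf0 (inv_ne_zero hne), v.ord_inv, hgv]
    have := hordv f hf hf0
    omega
  obtain ⟨c, hc⟩ := H26.exists_ord_sub_pos v hv hq
  refine ⟨c, ?_⟩
  have hmem : f - c • g ∈ riemannRochSpace (D + Finsupp.single v 1) :=
    Submodule.sub_mem _ hf (Submodule.smul_mem _ _ hg)
  have hfac : f - c • g = (f * g⁻¹ - algebraMap k κ c) * g := by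
    rw [sub_mul, mul_assoc, inv_mul_cancel₀ hne, mul_one, Algebra.smul_def]
  rw [mem_riemannRochSpace_iff]
  intro w
  by_cases h0 : f - c • g = 0
  · exact Or.inl h0
  right
  by_cases hw : w = v
  · subst hw
    have h1 : f * g⁻¹ - algebraMap k κ c ≠ 0 := by
      intro h
      rw [hfac, h, zero_mul] at h0
      exact h0 rfl
    have h2 := hc.resolve_left h1
    rw [hfac, w.ord_mul h1 hne, hgv]
    omega
  · exact hord _ hmem h0 w hw

theorem finrank_step {D : Divisor k κ} {v : Place k κ} (hv : v.deg = 1)
    (hfin : Module.Finite k (riemannRochSpace D)) :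
    Module.Finite k (riemannRochSpace (D + Finsupp.single v 1)) ∧
      finrank k (riemannRochSpace (D + Finsupp.single v 1)) ≤
        finrank k (riemannRochSpace D) + 1 := by
  classical
  have hle : riemannRochSpace D ≤ riemannRochSpace (D + Finsupp.single v 1) := by
    intro z hz
    rw [mem_riemannRochSpace_iff] at hz ⊢
    intro w
    rcases hz w with h | h
    · exact Or.inl h
    · right
      have h1 : 0 ≤ (Finsupp.single v (1 : ℤ)) w := by
        rw [Finsupp.single_apply]
        split_ifs <;> norm_num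
      rw [Finsupp.add_apply]
      omega
  by_cases h : riemannRochSpace (D + Finsupp.single v 1) ≤ riemannRochSpace D
  · rw [le_antisymm h hle]
    exact ⟨hfin, Nat.le_succ _⟩
  · obtain ⟨g, hg, hg'⟩ := SetLike.not_le_iff_exists.mp h
    have hsup : riemannRochSpace (D + Finsupp.single v 1) =
        riemannRochSpace D ⊔ Submodule.span k {g} := by
      apply le_antisymm
      · intro f hf
        obtain ⟨c, hc⟩ := step_aux hv hf hg hg'
        have : f = (f - c • g) + c • g := by abel
        rw [this]
        exact Submodule.add_mem_sup hc (Submodule.smul_mem _ _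
          (Submodule.mem_span_singleton_self g))
      · exact sup_le hle ((Submodule.span_singleton_le_iff_mem _ _).mpr hg)
    rw [hsup]
    haveI := hfin
    refine ⟨Submodule.finite_sup _ _, ?_⟩
    refine (Submodule.finrank_add_le_finrank_add_finrank _ _).trans ?_
    refine Nat.add_le_add_left ?_ _
    have := finrank_span_le_card (R := k) ({g} : Set κ)
    simpa using this

theorem finrank_le_add_degree (hdeg : ∀ v : Place k κ, v.deg = 1) (n : ℕ) :
    ∀ D B : Divisor k κ, (∀ v, 0 ≤ B v) → Divisor.degree B = n →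
      Module.Finite k (riemannRochSpace D) →
      Module.Finite k (riemannRochSpace (D + B)) ∧
        finrank k (riemannRochSpace (D + B)) ≤ finrank k (riemannRochSpace D) + n := by
  classical
  induction n with
  | zero =>
    intro D B hB hd hfin
    have h0 : B = 0 := by
      ext v
      have := le_degree_of hdeg hB v
      rw [hd] at this
      exact le_antisymm (by exact_mod_cast this) (hB v)
    rw [h0, add_zero]
    exact ⟨hfin, le_rfl⟩
  | succ n ih =>
    intro D B hB hd hfin
    obtain ⟨v, hv⟩ : ∃ v, 0 < B v := by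
      by_contra hcon
      push Not at hcon
      have h0 : B = 0 := by
        ext v
        exact le_antisymm (hcon v) (hB v)
      rw [h0, map_zero] at hd
      omega
    set B' : Divisor k κ := B - Finsupp.single v 1 with hB'
    have hB'v : ∀ w, 0 ≤ B' w := by
      intro w
      rw [hB', Finsupp.sub_apply, Finsupp.single_apply]
      split_ifs with hw
      · subst hw; omega
      · rw [sub_zero]; exact hB w
    have hdB' : Divisor.degree B' = n := by
      rw [hB', map_sub, Divisor.degree_single, hdeg, hd]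
      push_cast
      ring
    obtain ⟨h1, h2⟩ := ih D B' hB'v hdB' hfin
    obtain ⟨h3, h4⟩ := finrank_step (D := D + B') (hdeg v) h1
    have he : D + B' + Finsupp.single v 1 = D + B := by
      rw [hB', add_assoc, sub_add_cancel]
    rw [he] at h3 h4
    exact ⟨h3, by omega⟩

end Step

section RR

variable [HasPrincipalDivisors k κ] (hdeg : ∀ v : Place k κ, v.deg = 1) (P : Place k κ) (g' : ℕ)

theorem ord_prod {ι : Type*} (s : Finset ι) (f : ι → κ) (hf : ∀ i ∈ s, f i ≠ 0) (v : Place k κ) :
    v.ord (∏ i ∈ s, f i) = ∑ i ∈ s, v.ord (f i) := by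
  classical
  induction s using Finset.induction with
  | empty => simp
  | insert a s ha ih =>
    rw [Finset.prod_insert ha, Finset.sum_insert ha, v.ord_mul (hf a (Finset.mem_insert_self a s))
      (Finset.prod_ne_zero_iff.mpr fun i hi => hf i (Finset.mem_insert_of_mem hi)),
      ih fun i hi => hf i (Finset.mem_insert_of_mem hi)]

include hdeg in
/-- a function with poles only at `P` vanishing at given places -/
theorem exists_vanish {y : κ} (hy : ∀ v, v ≠ P → 0 ≤ v.ord y) (hyP : P.ord y < 0)
    (E : Divisor k κ) : ∃ z : κ, z ≠ 0 ∧ (∀ v, v ≠ P → 0 ≤ v.ord z) ∧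
      ∀ v, v ≠ P → -E v ≤ v.ord z := by
  classical
  have hne : ∀ c : k, y - algebraMap k κ c ≠ 0 := by
    intro c h
    rw [sub_eq_zero] at h
    rw [h, H18.ord_algebraMap] at hyP
    exact lt_irrefl _ hyP
  have hc : ∀ v : Place k κ, ∃ c : k, v ≠ P → 0 < v.ord (y - algebraMap k κ c) := by
    intro v
    by_cases hv : v = P
    · exact ⟨0, fun h => absurd hv h⟩
    · obtain ⟨c, hc⟩ := H26.exists_ord_sub_pos v (hdeg v) (hy v hv)
      exact ⟨c, fun _ => hc.resolve_left (hne c)⟩
  choose c hc using hc
  have hreg : ∀ w : Place k κ, w ≠ P → ∀ a : k, 0 ≤ w.ord (y - algebraMap k κ a) := by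
    intro w hw a
    rw [← H18.mem_iff]
    exact sub_mem ((H18.mem_iff w).mpr (hy w hw)) (w.algebraMap_mem' a)
  set z : κ := ∏ v ∈ E.support, (y - algebraMap k κ (c v)) ^ (-E v).toNat with hz
  have hzf : ∀ v ∈ E.support, (y - algebraMap k κ (c v)) ^ (-E v).toNat ≠ 0 := fun v _ =>
    pow_ne_zero _ (hne _)
  have hterm : ∀ w : Place k κ, w ≠ P → ∀ v ∈ E.support,
      0 ≤ w.ord ((y - algebraMap k κ (c v)) ^ (-E v).toNat) := by
    intro w hw v _
    rw [H18.ord_pow]
    exact mul_nonneg (Int.natCast_nonneg _) (hreg w hw _)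
  refine ⟨z, Finset.prod_ne_zero_iff.mpr hzf, fun w hw => ?_, fun w hw => ?_⟩
  · rw [hz, ord_prod _ _ hzf]
    exact Finset.sum_nonneg (hterm w hw)
  · by_cases hwE : w ∈ E.support
    · rw [hz, ord_prod _ _ hzf]
      refine le_trans ?_ (Finset.single_le_sum (hterm w hw) hwE)
      rw [H18.ord_pow]
      have h1 := hc w hw
      have h2 : (-E w) ≤ ((-E w).toNat : ℤ) := Int.self_le_toNat _
      have h3 : (0 : ℤ) ≤ ((-E w).toNat : ℤ) := Int.natCast_nonneg _
      nlinarith
    · rw [Finsupp.notMem_support_iff] at hwE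
      rw [hwE, neg_zero, hz, ord_prod _ _ hzf]
      exact Finset.sum_nonneg (hterm w hw)

include hdeg in
theorem rr_upper {y : κ} (hy : ∀ v, v ≠ P → 0 ≤ v.ord y) (hyP : P.ord y < 0)
    (hdim : ∃ n₀ : ℕ, ∀ n : ℕ, n₀ ≤ n →
      Module.Finite k (riemannRochSpace (Finsupp.single P (n : ℤ))) ∧
      finrank k (riemannRochSpace (Finsupp.single P (n : ℤ))) + g' = n + 1)
    (E : Divisor k κ) : ∃ n₀ : ℕ, ∀ n : ℕ, n₀ ≤ n →
      Module.Finite k (riemannRochSpace (E + Finsupp.single P (n : ℤ))) ∧
      (finrank k (riemannRochSpace (E + Finsupp.single P (n : ℤ))) : ℤ) ≤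
        Divisor.degree E + n + 1 - g' := by
  classical
  obtain ⟨z, hz0, hz1, hz2⟩ := exists_vanish hdeg P hy hyP E
  obtain ⟨Δ, hΔ, hΔdeg⟩ := HasPrincipalDivisors.exists_divisor (K := k) z hz0
  obtain ⟨n₀, h⟩ := hdim
  refine ⟨n₀ + (E P).natAbs + (P.ord z).natAbs, fun n hn => ?_⟩
  -- `N = n + E P + ord_P z`
  obtain ⟨N, hN⟩ : ∃ N : ℕ, (N : ℤ) = n + E P + P.ord z := by
    refine ⟨(n + E P + P.ord z).toNat, Int.toNat_of_nonneg ?_⟩
    have h1 : -((E P).natAbs : ℤ) ≤ E P := by omega
    have h2 : -((P.ord z).natAbs : ℤ) ≤ P.ord z := by omega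
    omega
  obtain ⟨h1, h2⟩ := h N (by omega)
  set D' : Divisor k κ := Finsupp.single P (N : ℤ) - Δ with hD'
  have hmap : riemannRochSpace D' =
      (riemannRochSpace (Finsupp.single P (N : ℤ))).map (LinearMap.mulLeft k z) := by
    ext u
    rw [Submodule.mem_map]
    constructor
    · intro hu
      refine ⟨z⁻¹ * u, ?_, by rw [LinearMap.mulLeft_apply, mul_inv_cancel_left₀ hz0]⟩
      rw [mem_riemannRochSpace_iff] at hu ⊢
      intro v
      rcases hu v with rfl | hv
      · left; rw [mul_zero]
      · by_cases hu0 : u = 0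
        · left; rw [hu0, mul_zero]
        · right
          rw [v.ord_mul (inv_ne_zero hz0) hu0, v.ord_inv]
          rw [hD', Finsupp.sub_apply, hΔ] at hv
          omega
    · rintro ⟨u', hu', rfl⟩
      rw [LinearMap.mulLeft_apply, mem_riemannRochSpace_iff]
      rw [mem_riemannRochSpace_iff] at hu'
      intro v
      rcases hu' v with rfl | hv
      · left; rw [mul_zero]
      · by_cases hu0 : u' = 0
        · left; rw [hu0, mul_zero]
        · right
          rw [v.ord_mul hz0 hu0, hD', Finsupp.sub_apply, hΔ]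
          omega
  have hinj : Function.Injective (LinearMap.mulLeft k z) := fun a b hab =>
    mul_left_cancel₀ hz0 hab
  have hfr : finrank k (riemannRochSpace D') =
      finrank k (riemannRochSpace (Finsupp.single P (N : ℤ))) := by
    rw [hmap]
    exact (Submodule.equivMapOfInjective _ hinj _).finrank_eq.symm
  have hfin : Module.Finite k (riemannRochSpace D') := by
    rw [hmap]
    haveI := h1
    exact Module.Finite.map _ _
  set B : Divisor k κ := E + Finsupp.single P (n : ℤ) - D' with hB
  have hBv : ∀ v, 0 ≤ B v := by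
    intro v
    rw [hB, Finsupp.sub_apply, Finsupp.add_apply, hD', Finsupp.sub_apply, hΔ]
    by_cases hv : v = P
    · subst hv
      rw [Finsupp.single_eq_same, Finsupp.single_eq_same]
      omega
    · rw [Finsupp.single_eq_of_ne hv, Finsupp.single_eq_of_ne hv]
      have := hz2 v hv
      omega
  have hBdeg : Divisor.degree B = Divisor.degree E + n - N := by
    rw [hB, map_sub, map_add, hD', map_sub, hΔdeg, Divisor.degree_single, Divisor.degree_single,
      hdeg]
    push_cast
    ring
  have hB0 := degree_nonneg_of hBv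
  obtain ⟨b, hb⟩ := Int.eq_ofNat_of_zero_le hB0
  obtain ⟨h3, h4⟩ := finrank_le_add_degree hdeg b D' B hBv hb hfin
  have he : D' + B = E + Finsupp.single P (n : ℤ) := by rw [hB]; abel
  rw [he] at h3 h4
  refine ⟨h3, ?_⟩
  rw [hfr] at h4
  omega

end RR

/-! ### valuation rings and places, separable case -/

section Sep

variable (x : κ) (hx : Transcendental k x) [FiniteDimensional k⟮x⟯ κ]
  [Algebra.IsSeparable k⟮x⟯ κ]

instance isPID_adjoin' : IsPrincipalIdealRing (Algebra.adjoin k {x}) := by
  let f : Polynomial k →+* Algebra.adjoin k {x} :=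
    ((Polynomial.aeval (R := k) (⟨x, Algebra.self_mem_adjoin_singleton k x⟩ :
      Algebra.adjoin k {x})) : Polynomial k →ₐ[k] Algebra.adjoin k {x}).toRingHom
  have hf : Function.Surjective f := by
    rintro ⟨y, hy⟩
    have hy' := hy
    rw [Algebra.adjoin_singleton_eq_range_aeval] at hy'
    obtain ⟨p, hp⟩ := hy'
    refine ⟨p, Subtype.ext ?_⟩
    change (Algebra.adjoin k {x}).val (Polynomial.aeval _ p) = y
    rw [← Polynomial.aeval_algHom_apply]
    exact hp
  exact IsPrincipalIdealRing.of_surjective f hf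

/-- the integral closure of `k[x]`. -/
abbrev BX (x : κ) : Subalgebra (Algebra.adjoin k {x}) κ := integralClosure (Algebra.adjoin k {x}) κ

theorem BX_dedekind : IsDedekindDomain (BX (k := k) x) :=
  integralClosure.isDedekindDomain (Algebra.adjoin k {x}) k⟮x⟯ κ

theorem BX_frac : IsFractionRing (BX (k := k) x) κ :=
  integralClosure.isFractionRing_of_finite_extension k⟮x⟯ κ

omit [FiniteDimensional k⟮x⟯ κ] [Algebra.IsSeparable k⟮x⟯ κ] in
theorem BX_le {O : ValuationSubring κ} (hK : ∀ a : k, algebraMap k κ a ∈ O) (hxO : x ∈ O) (b : κ)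
    (hb : b ∈ BX (k := k) x) : b ∈ O := by
  have hA : ∀ a ∈ Algebra.adjoin k {x}, a ∈ O := by
    intro a ha
    let S : Subalgebra k κ := { O.toSubring with algebraMap_mem' := hK }
    have : Algebra.adjoin k {x} ≤ S := Algebra.adjoin_le (by
      intro y hy
      rw [Set.mem_singleton_iff] at hy
      rw [hy]
      exact hxO)
    exact this ha
  have hint : IsIntegral (Algebra.adjoin k {x}) b := hb
  let : Algebra (Algebra.adjoin k {x}) O :=
    ((Subring.subtype _).codRestrict O.toSubring (fun a => hA a.1 a.2) :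
      (Algebra.adjoin k {x}).toSubring →+* O).toAlgebra
  have : IsScalarTower (Algebra.adjoin k {x}) O κ := IsScalarTower.of_algebraMap_eq fun a => rfl
  have := hint.tower_top (A := O)
  obtain ⟨y, hy⟩ := IsIntegrallyClosed.isIntegral_iff.mp this
  exact hy ▸ y.2

theorem exists_heightOne {O : ValuationSubring κ} (hK : ∀ a : k, algebraMap k κ a ∈ O)
    (hxO : x ∈ O) (hne : O ≠ ⊤) : IsPrincipalIdealRing O := by
  classical
  haveI := BX_dedekind (k := k) x
  haveI := BX_frac (k := k) x
  let i : BX (k := k) x →+* O :=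
    ((Subring.subtype _).codRestrict O.toSubring (fun a => BX_le x hK hxO a.1 a.2) :
      (BX (k := k) x).toSubring →+* O)
  let p : Ideal (BX (k := k) x) := (IsLocalRing.maximalIdeal O).comap i
  have hp : p.IsPrime := Ideal.IsPrime.comap i
  have hinv : ∀ d : BX (k := k) x, d ∉ p → (d : κ)⁻¹ ∈ O := by
    intro b hb
    have hbu : IsUnit (i b) := by
      by_contra hnu
      exact hb ((IsLocalRing.mem_maximalIdeal _).mpr hnu)
    obtain ⟨c, hc⟩ := hbu.exists_right_inv
    have hc' : (b : κ) * (c : κ) = 1 := congrArg Subtype.val hc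
    have hcb : (c : κ) = (b : κ)⁻¹ := eq_inv_of_mul_eq_one_right hc'
    rw [← hcb]
    exact c.2
  have hp0 : p ≠ ⊥ := by
    intro h0
    apply hne
    refine SetLike.ext fun z => ⟨fun _ => ValuationSubring.mem_top z, fun _ => ?_⟩
    obtain ⟨a, b, hb, rfl⟩ := IsFractionRing.div_surjective (A := BX (k := k) x) z
    change (a : κ) / (b : κ) ∈ O
    rw [div_eq_mul_inv]
    refine mul_mem (BX_le x hK hxO a.1 a.2) (hinv b ?_)
    rw [h0]
    exact nonZeroDivisors.ne_zero hb
  let w : HeightOneSpectrum (BX (k := k) x) := ⟨p, hp, hp0⟩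
  suffices h : O = (w.valuation κ).valuationSubring by
    rw [h]
    exact Place.isPrincipalIdealRing_valuationSubring w
  have key : ∀ z : κ, w.valuation κ z ≤ 1 → ∃ (n d : BX (k := k) x), d ∉ p ∧
      z = (n : κ) * (d : κ)⁻¹ := by
    intro z hz
    obtain ⟨n, d, hd⟩ := w.exists_primeCompl_mul_eq_of_integer (K := κ) z hz
    refine ⟨n, d, d.2, ?_⟩
    have hd0 : ((d : BX (k := k) x) : κ) ≠ 0 := by
      intro h
      have h1 : (d : BX (k := k) x) = 0 := Subtype.ext h
      exact d.2 (h1 ▸ p.zero_mem)
    change z * ((d : BX (k := k) x) : κ) = (n : κ) at hd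
    field_simp
    exact hd
  apply le_antisymm
  · intro z hz
    rw [Valuation.mem_valuationSubring_iff]
    by_contra hcon
    push Not at hcon
    have hz0 : z ≠ 0 := by
      rintro rfl
      simp at hcon
    have hlt : w.valuation κ z⁻¹ < 1 := by
      rw [map_inv₀]
      exact inv_lt_one_of_one_lt₀ hcon
    obtain ⟨n, d, hd, hnd⟩ := key z⁻¹ hlt.le
    have hn : n ∈ p := by
      rw [← HeightOneSpectrum.valuation_lt_one_iff_mem (K := κ) w]
      have hd0 : ((d : BX (k := k) x) : κ) ≠ 0 := by
        intro h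
        have h1 : (d : BX (k := k) x) = 0 := Subtype.ext h
        exact hd (h1 ▸ p.zero_mem)
      have : algebraMap (BX (k := k) x) κ n = z⁻¹ * algebraMap (BX (k := k) x) κ d := by
        rw [hnd]
        change (n : κ) = (n : κ) * (d : κ)⁻¹ * (d : κ)
        field_simp
      change w.valuation κ (algebraMap (BX (k := k) x) κ n) < 1
      rw [this, map_mul]
      have h2 := w.valuation_le_one (K := κ) d
      exact mul_lt_one_of_nonneg_of_lt_one_left zero_le hlt h2
    have hmem : (⟨z, hz⟩ : O) * (i n * ⟨(d : κ)⁻¹, hinv d hd⟩) ∈ IsLocalRing.maximalIdeal O :=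
      Ideal.mul_mem_left _ _ (Ideal.mul_mem_right _ _ hn)
    have h1 : (⟨z, hz⟩ : O) * (i n * ⟨(d : κ)⁻¹, hinv d hd⟩) = 1 := by
      apply Subtype.ext
      change z * ((n : κ) * (d : κ)⁻¹) = 1
      rw [← hnd, mul_inv_cancel₀ hz0]
    rw [h1] at hmem
    exact (Ideal.ne_top_iff_one _).mp (IsLocalRing.maximalIdeal.isMaximal O).ne_top hmem
  · intro z hz
    rw [Valuation.mem_valuationSubring_iff] at hz
    obtain ⟨n, d, hd, rfl⟩ := key z hz
    exact mul_mem (BX_le x hK hxO n.1 n.2) (hinv d hd)

end Sep

/-- function fields with a separating element -/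
class SepFF (k κ : Type*) [Field k] [Field κ] [Algebra k κ] : Prop where
  ex : ∃ x : κ, Transcendental k x ∧ FiniteDimensional k⟮x⟯ κ ∧ Algebra.IsSeparable k⟮x⟯ κ

theorem SepFF.hasPrincipalDivisors [h : SepFF k κ] : HasPrincipalDivisors k κ := by
  obtain ⟨x, hx, h1, h2⟩ := h.ex
  exact H18.hasPrincipalDivisors_of_transcendental x hx

theorem SepFF.deg_eq_one [h : SepFF k κ] [IsAlgClosed k] (v : Place k κ) : v.deg = 1 := by
  obtain ⟨x, hx, h1, h2⟩ := h.ex
  letI := H18.ratFuncAlgebra x hx
  haveI := H18.ratFuncAlgebra_tower x hx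
  haveI := H18.ratFuncAlgebra_finite x hx
  haveI := H18.ratFuncAlgebra_separable x hx
  exact H18.deg_eq_one v

theorem SepFF.isPrincipalIdealRing [h : SepFF k κ] {O : ValuationSubring κ}
    (hK : ∀ a : k, algebraMap k κ a ∈ O) (hne : O ≠ ⊤) : IsPrincipalIdealRing O := by
  obtain ⟨x, hx, h1, h2⟩ := h.ex
  rcases O.mem_or_inv_mem x with hm | hm
  · exact exists_heightOne x hK hm hne
  · have he : k⟮x⁻¹⟯ = k⟮x⟯ := by
      apply le_antisymm
      · rw [IntermediateField.adjoin_simple_le_iff]
        exact inv_mem (IntermediateField.mem_adjoin_simple_self k x)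
      · rw [IntermediateField.adjoin_simple_le_iff]
        have := inv_mem (IntermediateField.mem_adjoin_simple_self k x⁻¹)
        rwa [inv_inv] at this
    have h1' : FiniteDimensional k⟮x⁻¹⟯ κ := by rw [he]; exact h1
    have h2' : Algebra.IsSeparable k⟮x⁻¹⟯ κ := by rw [he]; exact h2
    exact exists_heightOne x⁻¹ hK hm hne

/-- the place of a valuation ring -/
def plc [SepFF k κ] (O : ValuationSubring κ) (hK : ∀ a : k, algebraMap k κ a ∈ O)
    (hne : O ≠ ⊤) : Place k κ where
  toValuationSubring := O
  algebraMap_mem' := hK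
  ne_top' := hne
  isPrincipalIdealRing' := SepFF.isPrincipalIdealRing hK hne

/-- An element regular at all places where `x` is regular is integral over `k[x]`. -/
theorem isIntegral_of_places [SepFF k κ] (x z : κ)
    (h : ∀ v : Place k κ, x ∈ v.toValuationSubring → z ∈ v.toValuationSubring) :
    IsIntegral (Algebra.adjoin k {x}) z := by
  by_contra hcon
  set S : Subring κ := (integralClosure (Algebra.adjoin k {x}) κ).toSubring with hS
  have hSc : IsIntegrallyClosedIn S κ := by
    rw [Subring.isIntegrallyClosedIn_iff]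
    intro y hy
    have : IsIntegral (integralClosure (Algebra.adjoin k {x}) κ) y := hy
    exact isIntegral_trans (R := Algebra.adjoin k {x})
      (A := integralClosure (Algebra.adjoin k {x}) κ) y this
  have hzS : z ∉ S := hcon
  obtain ⟨W, hSW, hW⟩ := Subring.exists_le_valuationSubring_of_isIntegrallyClosedIn hzS
  have hK : ∀ a : k, algebraMap k κ a ∈ W := fun a => hSW (by
    change IsIntegral (Algebra.adjoin k {x}) _
    exact isIntegral_algebraMap (R := Algebra.adjoin k {x}) (x := algebraMap k _ a))
  have hne : W ≠ ⊤ := by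
    rintro rfl
    exact hW (ValuationSubring.mem_top z)
  apply hW
  refine h (plc W hK hne) (hSW ?_)
  change IsIntegral (Algebra.adjoin k {x}) _
  exact isIntegral_algebraMap (R := Algebra.adjoin k {x})
    (x := ⟨x, Algebra.self_mem_adjoin_singleton k x⟩)

/-- integral elements are regular -/
theorem mem_of_isIntegral_adjoin {v : Place k κ} {x z : κ} (hx : x ∈ v.toValuationSubring)
    (h : IsIntegral (Algebra.adjoin k {x}) z) : z ∈ v.toValuationSubring :=
  BX_le x (fun a => v.algebraMap_mem' a) hx z h

end Fermat.Agent.NN
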