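import Fermat.Agent.NN.N2a
import Fermat.Agent.H11N.Lift

/-!
# Mazur's principle at `r`: the geometric part (N2)
-/

set_option autoImplicit false
set_option linter.style.haveILetI false
set_option linter.unusedSectionVars false
set_option maxSynthPendingDepth 3

noncomputable section

attribute [-instance] HahnSeries.instModule HahnSeries.instSMul HahnSeries.instDistribMulAction
  HahnSeries.instSMulZeroClass

attribute [local instance 10000] Fermat.Agent.H29.instLS Fermat.Agent.H29.instIF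
  Fermat.Agent.H29.instIF2

namespace Fermat.Agent.NN

open ModularCurve HahnSeries Fermat.Agent.Igusa AlgebraicCurve Fermat.Agent.FF Fermat.Agent.H11Q
  Fermat.Agent.Q Module IntermediateField Fermat.Agent.H11N

local notation "kk" => IsLocalRing.ResidueField
local notation "Qb" => AlgebraicClosure ℚ

attribute [local instance] H12.isAlgClosed_kk

section Rat

variable {A : ValuationSubring Qb}

/-- `f` is fixed by inertia -/
def IFix (A : ValuationSubring Qb) {N : ℕ} [NeZero N] (f : modularFunctionFieldBar N) : Prop :=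
  ∀ σ ∈ A.inertiaSubgroupIn ℚ, arithmeticGalois (modularFunctionFieldFull N) σ • f = f

variable {N : ℕ} [NeZero N]

theorem IFix.mul {f g : modularFunctionFieldBar N} (hf : IFix A f) (hg : IFix A g) :
    IFix A (f * g) := fun σ hσ => by
  rw [smul_mul', hf σ hσ, hg σ hσ]

theorem IFix.inv {f : modularFunctionFieldBar N} (hf : IFix A f) : IFix A f⁻¹ := fun σ hσ => by
  rw [smul_inv'', hf σ hσ]

theorem IFix.one : IFix A (1 : modularFunctionFieldBar N) := fun _ _ => smul_one _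

theorem IFix.pow {f : modularFunctionFieldBar N} (hf : IFix A f) (n : ℕ) : IFix A (f ^ n) :=
  fun σ hσ => by rw [smul_pow', hf σ hσ]

theorem IFix.nmF {l : ℕ} [NeZero l] {f : modularFunctionFieldBar N} (hf : IFix A f) :
    IFix A (nmF l f) := fun σ hσ => by
  rw [← nmF_galois, hf σ hσ]

/-- Kummer functions fixed by inertia -/
theorem exists_kumI {m : ℕ} (hm : m ≠ 0) {x : JZero N} (hx : m • x = 0)
    (hI : ∀ σ ∈ A.inertiaSubgroupIn ℚ, σ • x = x) :
    ∃ f : modularFunctionFieldBar N, H05.Kum m x f ∧ IFix A f := by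
  obtain ⟨v, -⟩ := H05.exists_place_infinity_bc Qb N
  obtain ⟨f, hf⟩ := H23.R.kummer_descent (A.inertiaSubgroupIn ℚ) (modularFunctionFieldFull N)
    (H05.deg_eq_one_bc Qb N v) hm hx hI
  exact ⟨_, hf, fun σ hσ => H23.R.fixed_embBC _ _ σ hσ f⟩

end Rat

variable {M r : ℕ} [NeZero M] [hr : Fact r.Prime] {A : ValuationSubring Qb} {m : ℕ}

theorem ratS_of_ifix (hrM : Nat.Coprime r M) (hA : A.LiesOverPrime r)
    {f : modularFunctionFieldBar (M * r)} (hf : IFix A f) :
    RatS (alData M r hrM) (K0F A) f := by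
  refine (ratS_iff (inertData hrM hA)).2 ?_
  rintro _ ⟨σ, hσ, rfl⟩
  exact hf σ hσ

theorem zsmul_eq_C (c : Qb) (x : LaurentSeries Qb) : c • x = HahnSeries.C c * x := by
  rw [Algebra.smul_def, algebraMap_eq_C]

theorem red_nmF (hA : A.LiesOverPrime r) (hrM : Nat.Coprime r M) {l : ℕ} [hl : Fact l.Prime]
    (hlN : ¬ l ∣ M * r) (c : Qb) (f : modularFunctionFieldBar (M * r))
    (u : modularFunctionFieldFullC (kk A) M)
    (h : Red A (c • (f : LaurentSeries Qb)) (u : LaurentSeries (kk A))) :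
    Red A (c ^ (l + 1) • ((nmF l f : modularFunctionFieldBar (M * r)) : LaurentSeries Qb))
      ((nmC (kk A) M l u : modularFunctionFieldFullC (kk A) M) : LaurentSeries (kk A)) := by
  rw [zsmul_eq_C, ← C_mul_eq] at h
  have h0 := red_hecke hA hrM hlN _ u h
  have h1 : H05.normAlong (heckeAlphaBar Qb (M * r) l) (heckeBetaBar Qb (M * r) l
      (algebraMap Qb (modularFunctionFieldBar (M * r)) c * f)) =
      algebraMap Qb (modularFunctionFieldBar (M * r)) (c ^ (l + 1)) * nmF l f := by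
    have h2 := nm_mul (heckeAlphaBar Qb (M * r) l) (heckeBetaBar Qb (M * r) l)
      (algebraMap Qb (modularFunctionFieldBar (M * r)) c) f
    rw [nm_const, finrank_alpha Qb (M * r) l hlN] at h2
    exact h2
  rw [h1, C_mul_eq] at h0
  rw [zsmul_eq_C]
  exact h0

theorem zpow_aux (l : ℕ) (n : ℤ) (c : Qb) : (c ^ (-n)) ^ (l + 1) = c ^ (-(((l : ℤ) + 1) * n)) := by
  rw [← zpow_natCast, ← zpow_mul]
  congr 1
  push_cast
  ring

/-- valuations of norms -/
theorem hasVal_nmF (hA : A.LiesOverPrime r) (hrM : Nat.Coprime r M) {l : ℕ} [hl : Fact l.Prime]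
    (hlN : ¬ l ∣ M * r) {j : Fin 2} {f : modularFunctionFieldBar (M * r)} {n : ℤ}
    {φ : modularFunctionFieldFullC (kk A) M}
    (h : HasVal (alData M r hrM) A (modularFunctionFieldFullC (kk A) M) j f n φ) :
    HasVal (alData M r hrM) A (modularFunctionFieldFullC (kk A) M) j (nmF l f)
      (((l : ℤ) + 1) * n) (nmC (kk A) M l φ) := by
  refine ⟨nmC_ne_zero _ _ _ h.1, ?_⟩
  have h2 := h.2
  rcases fin2_cases j with rfl | rfl
  · have h3 := red_nmF hA hrM hlN _ f φ h2
    rw [zpow_aux] at h3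
    exact h3
  · have h3 := red_nmF hA hrM hlN _ (wBar M r hrM f) φ h2
    rw [zpow_aux, nmF_wBar hrM (by
      rw [Nat.coprime_primes hr.out hl.out]
      rintro rfl
      exact hlN (dvd_mul_left _ _))] at h3
    exact h3

theorem al_e0 (hrM : Nat.Coprime r M) (f : modularFunctionFieldBar (M * r)) :
    (alData M r hrM).e 0 f = (f : LaurentSeries Qb) := ALData.e_zero (alData M r hrM) f

theorem al_e1 (hrM : Nat.Coprime r M) (f : modularFunctionFieldBar (M * r)) :
    (alData M r hrM).e 1 f = (wBar M r hrM f : LaurentSeries Qb) :=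
  ALData.e_one (alData M r hrM) f

theorem HasVal.transfer {K : Type*} [Field K] {r : ℕ} [NeZero r] {D D' : ALData K r}
    {A : ValuationSubring K} {Eb Eb' : IntermediateField (kk A) (LaurentSeries (kk A))} {j : Fin 2}
    {f : D.S} {f' : D'.S} {n : ℤ} {φ : Eb} {φ' : Eb'} (he : D'.e j f' = D.e j f)
    (hφ : (φ' : LaurentSeries (kk A)) = φ) (h : HasVal D A Eb j f n φ) :
    HasVal D' A Eb' j f' n φ' := by
  refine ⟨fun h0 => h.1 (Subtype.ext ?_), ?_⟩
  · rw [← hφ, h0]; rfl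
  · rw [he, hφ]
    exact h.2

theorem al_e_incN {M' : ℕ} [NeZero M'] (hrM : Nat.Coprime r M) (hrM' : Nat.Coprime r M')
    (hMM' : M ∣ M') (h : M * r ∣ M' * r) (j : Fin 2) (f : modularFunctionFieldBar (M * r)) :
    (alData M' r hrM').e j (incN h f) = (alData M r hrM).e j f := by
  rcases fin2_cases j with rfl | rfl
  · rw [al_e0, al_e0]
    exact coe_incN h f
  · rw [al_e1, al_e1]
    exact wBar_incN hrM hrM' hMM' h f

theorem hasVal_incN {M' : ℕ} [NeZero M'] (hrM : Nat.Coprime r M) (hrM' : Nat.Coprime r M')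
    (hMM' : M ∣ M') (h : M * r ∣ M' * r) {j : Fin 2} {f : modularFunctionFieldBar (M * r)} {n : ℤ}
    {φ : modularFunctionFieldFullC (kk A) M} {φ' : modularFunctionFieldFullC (kk A) M'}
    (hφ : (φ' : LaurentSeries (kk A)) = φ)
    (hv : HasVal (alData M r hrM) A (modularFunctionFieldFullC (kk A) M) j f n φ) :
    HasVal (alData M' r hrM') A (modularFunctionFieldFullC (kk A) M') j (incN h f) n φ' :=
  HasVal.transfer (al_e_incN hrM hrM' hMM' h j f) hφ hv

theorem ifix_incN {N N' : ℕ} [NeZero N] [NeZero N'] (h : N ∣ N') {f : modularFunctionFieldBar N}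
    (hf : IFix A f) : IFix A (incN h f) := fun σ hσ => by
  rw [← incN_galois, hf σ hσ]

/-- **(N2), the functions**: let `f` be fixed by inertia, with all orders divisible by `m` and
the same valuation on the two components. Then the orders of the reductions are divisible by `m`
up to a factor `2`. -/
theorem two_mul_ord (hrM : Nat.Coprime r M) (h2 : 2 ∣ M) (hr2 : r ≠ 2)
    (hA : A.LiesOverPrime r) (hm : 0 < m) {x : JZero (M * r)}
    {f : modularFunctionFieldBar (M * r)} (hf : H05.Kum m x f) (hI : IFix A f)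
    {φ : Fin 2 → modularFunctionFieldFullC (kk A) M} {n : ℤ}
    (hval : ∀ j, HasVal (alData M r hrM) A (modularFunctionFieldFullC (kk A) M) j f n (φ j))
    (j : Fin 2) (v : Place (kk A) (modularFunctionFieldFullC (kk A) M)) :
    (m : ℤ) ∣ 2 * v.ord (φ j) := by
  have hrM' : Nat.Coprime r (M * 2) := by
    refine Nat.Coprime.mul_right hrM ?_
    rw [Nat.coprime_primes hr.out Nat.prime_two]
    exact hr2
  have h4 : 4 ∣ M * 2 := by
    obtain ⟨c, rfl⟩ := h2
    exact ⟨c, by ring⟩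
  have hMk : ((M * 2 : ℕ) : kk A) ≠ 0 := Q.natCast_residue_ne_zero hr.out hA hrM'
  have hMk' : (M : kk A) ≠ 0 := Q.natCast_residue_ne_zero hr.out hA hrM
  have hdvd : M * r ∣ M * 2 * r := ⟨2, by ring⟩
  obtain ⟨T, hT⟩ := node_mod' hrM' h4 hr2 hA
  have hkum := kum_pullN (N := M * r) (N' := M * 2 * r) (ℓ := 2) (by ring) hdvd hf
  have key := fun w => hT hm (f := incN hdvd f) hkum.ne_zero
    (ratS_of_ifix hrM' hA (ifix_incN hdvd hI)) hkum.dvd (n := fun _ => n)
    (φ := fun j => Q.incl (kk A) M 2 (φ j))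
    (fun j => hasVal_incN hrM hrM' (dvd_mul_right M 2) hdvd (Q.coe_incl (kk A) M 2 (φ j)) (hval j)) w
  haveI : SepFF (kk A) (modularFunctionFieldFullC (kk A) (M * 2)) := sepFF_full hMk
  haveI : SepFF (kk A) (modularFunctionFieldFullC (kk A) M) := sepFF_full hMk'
  haveI : HasPrincipalDivisors (kk A) (modularFunctionFieldFullC (kk A) (M * 2)) :=
    SepFF.hasPrincipalDivisors
  refine dvd_two_mul_ord (Q.incl (kk A) M 2) (H12.integral_alphaC (kk A) M 2)
    (H12.fi_alphaC hMk) (finrank_two h2 hMk) (fun w => SepFF.deg_eq_one w) v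
    (SepFF.deg_eq_one v) ?_
  intro w
  have h := key w
  simp only [sub_self, zero_mul, sub_zero, add_zero] at h
  rcases fin2_cases j with rfl | rfl
  · exact h.1
  · exact h.2

theorem hecke_wS (hrM : Nat.Coprime r M) {l : Nat.Primes} (hl : ¬ (l : ℕ) ∣ M * r)
    (x : JZero (M * r)) :
    heckeOperatorBar (M * r) l (wS M r hrM • x) = wS M r hrM • heckeOperatorBar (M * r) l x := by
  haveI : NeZero (l : ℕ) := ⟨l.2.ne_zero⟩
  rw [heckeOperatorBar_apply, heckeOperatorBar_apply]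
  refine H05.heckeOperatorAlong_wS hrM ?_ x
  rw [Nat.coprime_primes hr.out l.2]
  intro h
  exact hl (h ▸ dvd_mul_left _ _)

/-- `w_r` commutes with the Hecke algebra away from `M r` -/
theorem heckeJ_wS (hrM : Nat.Coprime r M) {t : HeckeAlg} (ht : t ∈ heckeAway (M * r))
    (x : JZero (M * r)) :
    heckeJ (M * r) t (wS M r hrM • x) = wS M r hrM • heckeJ (M * r) t x := by
  rw [heckeAway] at ht
  induction ht using Algebra.adjoin_induction generalizing x with
  | mem t ht =>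
    obtain ⟨l, hl, rfl⟩ := ht
    rw [heckeJ_gen]
    exact hecke_wS hrM hl x
  | algebraMap n =>
    have h1 : (algebraMap ℤ HeckeAlg) n = (n : HeckeAlg) := by simp
    rw [h1, map_intCast, Module.End.intCast_apply, Module.End.intCast_apply]
    exact (map_zsmul (DistribSMul.toAddMonoidHom (JZero (M * r)) (wS M r hrM)) n x).symm
  | add s t _ _ hs ht =>
    rw [map_add, LinearMap.add_apply, LinearMap.add_apply, hs, ht, smul_add]
  | mul s t _ _ hs ht =>
    rw [map_mul, Module.End.mul_apply, Module.End.mul_apply, ht, hs]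

/-- **(N2)** -/
theorem n2_core (hrM : Nat.Coprime r M) (h2 : 2 ∣ M) (hr2 : r ≠ 2)
    (hA : A.LiesOverPrime r) (hm : m ≠ 0) {x : JZero (M * r)} (hx : m • x = 0)
    (hI : ∀ σ ∈ A.inertiaSubgroupIn ℚ, σ • x = x) {l : ℕ} [hl : Fact l.Prime]
    (hlN : ¬ l ∣ M * r) :
    ∃ u : Fin 2 → modularFunctionFieldFullC (kk A) M,
      RedK A M r m (heckeOperatorBar (M * r) ⟨l, hl.out⟩ x - (l + 1) • x) (u 0) ∧
      RedK A M r m (wS M r hrM • (heckeOperatorBar (M * r) ⟨l, hl.out⟩ x - (l + 1) • x)) (u 1) ∧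
      ∀ j (v : Place (kk A) (modularFunctionFieldFullC (kk A) M)), (m : ℤ) ∣ 2 * v.ord (u j) := by
  have hrQ : (r : Qb) ≠ 0 := by exact_mod_cast hr.out.ne_zero
  obtain ⟨f, hf, hfI⟩ := exists_kumI hm hx hI
  obtain ⟨lp⟩ := H11Q.hasPacks hr.out hA M hrM (Or.inl h2)
  have hrat := ratS_of_ifix hrM hA hfI
  choose n φ hval using fun j => exists_hasVal (inertData hrM hA) (redHyp hrM hA) lp
    (g := f) hf.ne_zero hrat j
  have hK : H05.Kum m (heckeOperatorBar (M * r) ⟨l, hl.out⟩ x - (l + 1) • x)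
      (nmF l f * (f⁻¹) ^ (l + 1)) := by
    have h1 := (kum_hecke (l := l) hf).mul (kum_nsmul hf.inv (l + 1))
    rw [smul_neg, ← sub_eq_add_neg] at h1
    exact h1
  set F : modularFunctionFieldBar (M * r) := nmF l f * (f⁻¹) ^ (l + 1) with hF
  have hFI : IFix A F := (hfI.nmF).mul (hfI.inv.pow _)
  have hFval : ∀ j, HasVal (alData M r hrM) A (modularFunctionFieldFullC (kk A) M) j F 0
      (nmC (kk A) M l (φ j) * ((φ j)⁻¹) ^ (l + 1)) := by
    intro j
    have h1 := (hasVal_nmF hA hrM hlN (hval j)).mul hrQ (((hval j).inv).pow hrQ (l + 1))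
    have h3 : ((l : ℤ) + 1) * n j + ((l + 1 : ℕ) : ℤ) * (-n j) = 0 := by push_cast; ring
    rw [h3] at h1
    exact h1
  refine ⟨fun j => nmC (kk A) M l (φ j) * ((φ j)⁻¹) ^ (l + 1), ?_, ?_, fun j v =>
    two_mul_ord hrM h2 hr2 hA (Nat.pos_of_ne_zero hm) hK hFI hFval j v⟩
  · refine ⟨(hFval 0).1, F, (r : Qb) ^ (-(0 : ℤ)), hK, zpow_ne_zero _ hrQ, ?_⟩
    rw [← zsmul_eq_C, ← al_e0 hrM]
    exact (hFval 0).2
  · refine ⟨(hFval 1).1, wBar M r hrM F, (r : Qb) ^ (-(0 : ℤ)), ?_, zpow_ne_zero _ hrQ, ?_⟩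
    · exact hK.smul (wS M r hrM)
    · rw [← zsmul_eq_C, ← al_e1 hrM]
      exact (hFval 1).2

section BlackBox

variable (hrM : Nat.Coprime r M) (h2 : 2 ∣ M) (hr2 : r ≠ 2) (hA : A.LiesOverPrime r)

theorem two_redK {x : JZero (M * r)} {u : modularFunctionFieldFullC (kk A) M}
    (h : RedK A M r m x u)
    (hv : ∀ v : Place (kk A) (modularFunctionFieldFullC (kk A) M), (m : ℤ) ∣ 2 * v.ord u) :
    RedK A M r m (2 • x) (u * u) ∧
      ∀ v : Place (kk A) (modularFunctionFieldFullC (kk A) M), (m : ℤ) ∣ v.ord (u * u) := by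
  refine ⟨?_, fun v => ?_⟩
  · rw [two_smul]
    exact h.mul h
  · rw [v.ord_mul h.1 h.1, ← two_mul]
    exact hv v

include h2 hr2 hA in
/-- **(N2B)** -/
theorem n2B (C : H28.TwoCharts (H28.modRed M A)) (hm : m ≠ 0) {x : JZero (M * r)}
    (hx : m • x = 0) (hI : ∀ σ ∈ A.inertiaSubgroupIn ℚ, σ • x = x) {l : ℕ} [hl : Fact l.Prime]
    (hlN : ¬ l ∣ M * r) :
    (∃ y : JZero M, Occ C m r
      (2 • (heckeOperatorBar (M * r) ⟨l, hl.out⟩ x - (l + 1) • x)) y) ∧
    (∃ y : JZero M, Occ C m r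
      (wS M r hrM • 2 • (heckeOperatorBar (M * r) ⟨l, hl.out⟩ x - (l + 1) • x)) y) := by
  obtain ⟨u, hu0, hu1, hv⟩ := n2_core hrM h2 hr2 hA hm hx hI hlN
  obtain ⟨h3, h4⟩ := two_redK hu0 (hv 0)
  obtain ⟨h5, h6⟩ := two_redK hu1 (hv 1)
  refine ⟨exists_occ C hm h3 h4, ?_⟩
  rw [← nsmul_wS]
  exact exists_occ C hm h5 h6

include h2 hr2 hA in
/-- **(N2A)** -/
theorem n2A (hm : m ≠ 0) {x : JZero (M * r)}
    (hx : m • x = 0) (hI : ∀ σ ∈ A.inertiaSubgroupIn ℚ, σ • x = x) {l : ℕ} [hl : Fact l.Prime]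
    (hlN : ¬ l ∣ M * r) {t : HeckeAlg} (ht : t ∈ heckeAway (M * r))
    (h0 : CuspForm.heckeEvalForms M 2 t = 0) :
    heckeJ (M * r) t (2 • (heckeOperatorBar (M * r) ⟨l, hl.out⟩ x - (l + 1) • x)) ∈
      TSub A M r m hrM := by
  obtain ⟨u, hu0, hu1, hv⟩ := n2_core hrM h2 hr2 hA hm hx hI hlN
  obtain ⟨h3, h4⟩ := two_redK hu0 (hv 0)
  obtain ⟨h5, h6⟩ := two_redK hu1 (hv 1)
  rw [mem_TSub]
  refine ⟨occurrence_forms hA hrM (Or.inl h2) hm h3 h4 ht h0, ?_⟩
  rw [← heckeJ_wS hrM ht, ← nsmul_wS]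
  exact occurrence_forms hA hrM (Or.inl h2) hm h5 h6 ht h0

include hrM hA in
theorem ord_of_redK_smul (hm : m ≠ 0) {x : JZero (M * r)} (hx : m • x = 0) {c : ℤ}
    (hc : IsCoprime c (m : ℤ)) {u u' : modularFunctionFieldFullC (kk A) M}
    (hu : RedK A M r m x u) (hu' : RedK A M r m (c • x) u')
    (v : Place (kk A) (modularFunctionFieldFullC (kk A) M)) (h : (m : ℤ) ∣ 2 * v.ord u') :
    (m : ℤ) ∣ 2 * v.ord u := by
  haveI : HasPrincipalDivisors (kk A) (modularFunctionFieldFullC (kk A) M) := inferInstance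
  -- `u ^ c` and `u'`
  have key : ∀ (n : ℕ), RedK A M r m (n • x) (u ^ n) := by
    intro n
    induction n with
    | zero => rw [zero_smul, pow_zero]; exact RedK.one
    | succ n ih => rw [succ_nsmul, pow_succ]; exact ih.mul hu
  obtain ⟨n, hn⟩ : ∃ n : ℕ, (m : ℤ) ∣ c - n := by
    refine ⟨(c % m).toNat, ?_⟩
    rw [Int.toNat_of_nonneg (Int.emod_nonneg _ (by exact_mod_cast hm))]
    exact Int.dvd_self_sub_emod
  have hcn : c • x = n • x := by
    obtain ⟨d, hd⟩ := hn
    have h1 : c = n + d * m := by linarith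
    rw [h1, add_smul, mul_smul, natCast_zsmul, natCast_zsmul, hx, smul_zero, add_zero]
  rw [hcn] at hu'
  obtain ⟨e, w, he, hw, hew⟩ := hu'.unique hA hrM hm (key n)
  have h1 : v.ord u' = n * v.ord u + m * v.ord w := by
    rw [hew, v.ord_mul (mul_ne_zero ((_root_.map_ne_zero _).mpr he) (pow_ne_zero _ hu.1))
      (pow_ne_zero _ hw), v.ord_mul ((_root_.map_ne_zero _).mpr he) (pow_ne_zero _ hu.1),
      H18.ord_algebraMap, H18.ord_pow, H18.ord_pow, zero_add]
  have h2 : (m : ℤ) ∣ n * (2 * v.ord u) := by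
    have h3 : (n : ℤ) * (2 * v.ord u) = 2 * v.ord u' - m * (2 * v.ord w) := by rw [h1]; ring
    rw [h3]
    exact dvd_sub h (dvd_mul_right _ _)
  have h3 : (m : ℤ) ∣ c * (2 * v.ord u) := by
    have h4 : c * (2 * v.ord u) = (c - n) * (2 * v.ord u) + n * (2 * v.ord u) := by ring
    rw [h4]
    exact dvd_add (hn.mul_right _) h2
  exact (hc.symm.dvd_of_dvd_mul_left h3)

include hrM h2 hr2 hA in
/-- **(N2)** for eigenvectors: `T_l x = a x` with `a - l - 1` prime to `m`. -/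
theorem n2_ord (hm : m ≠ 0) {x : JZero (M * r)} (hx : m • x = 0)
    (hI : ∀ σ ∈ A.inertiaSubgroupIn ℚ, σ • x = x) {l : ℕ} [hl : Fact l.Prime]
    (hlN : ¬ l ∣ M * r) {a : ℤ} (ha : heckeOperatorBar (M * r) ⟨l, hl.out⟩ x = a • x)
    (hc : IsCoprime (a - (l + 1)) (m : ℤ)) {u : modularFunctionFieldFullC (kk A) M}
    (hu : RedK A M r m x u) (v : Place (kk A) (modularFunctionFieldFullC (kk A) M)) :
    (m : ℤ) ∣ 2 * v.ord u := by
  obtain ⟨u', hu0, -, hv⟩ := n2_core hrM h2 hr2 hA hm hx hI hlN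
  have h1 : heckeOperatorBar (M * r) ⟨l, hl.out⟩ x - (l + 1) • x = (a - (l + 1)) • x := by
    rw [ha, sub_smul]
    congr 1
  rw [h1] at hu0
  exact ord_of_redK_smul hrM hA hm hx hc hu hu0 v (hv 0 v)

end BlackBox

end Fermat.Agent.NN
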