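import Fermat.Agent.NN.Kum6
import Fermat.Agent.NN.N2
import Fermat.Agent.LR26.Norm
import Fermat.Agent.H02N.Common

/-!
# Kummer covers of modular curves: concrete data
-/

set_option autoImplicit false
set_option linter.style.haveILetI false
set_option linter.unusedSectionVars false
set_option maxSynthPendingDepth 3

noncomputable section

attribute [-instance] HahnSeries.instModule HahnSeries.instSMul HahnSeries.instDistribMulAction
  HahnSeries.instSMulZeroClass

attribute [local instance 10000] Fermat.Agent.H29.instLS Fermat.Agent.H29.instIF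
  Fermat.Agent.H29.instIF2

namespace Fermat.Agent.NN

open ModularCurve HahnSeries Fermat.Agent.Igusa AlgebraicCurve Fermat.Agent.FF Fermat.Agent.H11Q
  Fermat.Agent.Q Module IntermediateField Fermat.Agent.H11N

local notation "kk" => IsLocalRing.ResidueField
local notation "Qb" => AlgebraicClosure ℚ

attribute [local instance] H12.isAlgClosed_kk

section General

variable {K F F' : Type*} [Field K] [Field F] [Field F'] [Algebra K F] [Algebra K F']

/-- orders of pull backs -/
theorem dvd_ord_map (φ : F →ₐ[K] F') (hφ : φ.toRingHom.IsIntegral) {m : ℤ} {f : F}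
    (h : ∀ v : Place K F, m ∣ v.ord f) (w : Place K F') : m ∣ w.ord (φ f) := by
  rw [Place.ord_restrictAlong φ hφ]
  exact (h _).mul_left _

/-- orders of norms -/
theorem dvd_ord_norm [HasPrincipalDivisors K F'] (ψ : F →ₐ[K] F')
    (hψ : ψ.toRingHom.IsIntegral) (hfin : FiniteAlong K ψ) (hN : NormFormulaAlong K ψ hfin) {m : ℕ}
    (hm : m ≠ 0) {z : F'} (hz : z ≠ 0) (h : ∀ w : Place K F', (m : ℤ) ∣ w.ord z)
    (v : Place K F) : (m : ℤ) ∣ v.ord (H05.normAlong ψ z) := by
  obtain ⟨x, hx⟩ := H05.exists_kum_of_dvd hm hz h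
  letI := algebraAlong ψ
  haveI := isScalarTower_along ψ
  haveI := isIntegral_along ψ hψ
  haveI : Module.Finite F F' := hfin
  exact (hx.pushforward hN).dvd v

theorem normAlong_map (ψ : F →ₐ[K] F') {n : ℕ}
    (hn : finrankAlong K ψ = n) (u : F) : H05.normAlong ψ (ψ u) = u ^ n := by
  letI := algebraAlong ψ
  have h1 : ψ u = algebraMap F F' u := rfl
  have h2 : Module.finrank F F' = n := hn
  rw [H05.normAlong, h1, Algebra.norm_algebraMap, h2]

end General

variable {M p : ℕ} [NeZero M] [hp : Fact p.Prime] {A : ValuationSubring Qb}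

/-- all the data of the node theorem at level `M p`, `4 ∣ M`. -/
theorem exists_nodeLevel (hpM : Nat.Coprime p M) (h4 : 4 ∣ M) (hp2 : p ≠ 2)
    (hA : A.LiesOverPrime p) :
    Nonempty (NodeLevel (alData M p hpM) A (modularFunctionFieldFullC (kk A) M)) := by
  have hMk : (M : kk A) ≠ 0 := Q.natCast_residue_ne_zero hp.out hA hpM
  have h2 : 2 ∣ M := (by norm_num : 2 ∣ 4).trans h4
  have hpM' : ¬ p ∣ M := (Nat.Prime.coprime_iff_not_dvd hp.out).1 hpM
  haveI : SepFF (kk A) (modularFunctionFieldFullC (kk A) M) := sepFF_full hMk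
  haveI := SepFF.hasPrincipalDivisors (k := kk A) (κ := modularFunctionFieldFullC (kk A) M)
  obtain ⟨P, hP⟩ := exists_placeInf (kk A) M
  obtain ⟨C, hC⟩ := exists_charts (M := M) hpM h2 hp2 hA
  obtain ⟨lp, hO⟩ := exists_levelPack_reg hp.out hA hMk C hC P hP
  obtain ⟨Z, hZ1, hZ2⟩ := exists_zdat_mod hpM h4 hp2 hA
  obtain ⟨T, hT⟩ := Z.exists_T hP
  have hZ1' : Z.tb = ⟨H4.tq (kk A), tq_mem_full (kk A) h4 hMk⟩ := Subtype.ext hZ1
  have hdeg := degree_T h4 hMk Z.S T (fun v => by
    rw [hT, hZ1']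
    rfl)
  have hS : (genusFF Qb (modularFunctionFieldBar (M * p)) : ℤ) + 1 ≤
      2 * lp.g' + Divisor.degree T := by
    have h1 := genusFormula_rel (NeZero.ne M) hp.out hpM' h4
    have h3 := genusHyp (M * p)
    have h4 := genusHyp M
    have h5 : (lp.g' : ℚ) = genusFormula M := by rw [lp.g'_eq, ← h4]
    have h6 : (12 : ℚ) * (Divisor.degree T : ℤ) = ((p : ℚ) - 1) * dedekindPsi M := by
      have h7 : (2 * (Z.S.card : ℤ)) = (p : ℤ) - 1 := by
        have := hp.out.one_le
        have h8 : ((2 * Z.S.card : ℕ) : ℤ) = ((p - 1 : ℕ) : ℤ) := by rw [hZ2]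
        push_cast [this] at h8
        exact h8
      have h9 : 12 * Divisor.degree T = ((p : ℤ) - 1) * dedekindPsi M := by
        rw [← h7]
        linear_combination 2 * hdeg
      exact_mod_cast h9
    have h7 : ((genusFF Qb (modularFunctionFieldBar (M * p)) : ℤ) : ℚ) + 1 ≤
        2 * ((lp.g' : ℤ) : ℚ) + ((Divisor.degree T : ℤ) : ℚ) := by
      push_cast
      rw [h3, h5]
      linarith
    exact_mod_cast h7
  exact ⟨{
    R := redHyp hpM hA
    lp := lp
    Z := Z
    P := P
    hP := hP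
    hO := hO
    T := T
    hT := hT
    hS := hS }⟩

/-- the action of inertia -/
def galAct (hpM : Nat.Coprime p M) (A : ValuationSubring Qb) :
    GalAct (alData M p hpM) (A.inertiaSubgroupIn ℚ) where
  γ σ := galB hpM (σ : Qb ≃ₐ[ℚ] Qb)
  one _ := rfl
  mul _ _ _ := rfl

/-- the inclusion of levels -/
def degOne {M' : ℕ} [NeZero M'] (hpM : Nat.Coprime p M) (hpM' : Nat.Coprime p M') (hMM' : M ∣ M')
    (h : M * p ∣ M' * p) : Deg (alData M p hpM) (alData M' p hpM') 1 where
  δ := incN h
  e_δ j x := (al_e_incN hpM hpM' hMM' h j x).trans (qExpand_one_apply _).symm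

theorem al_e_qe {l : ℕ} [NeZero l] (hpM : Nat.Coprime p M) (hpM' : Nat.Coprime p (M * l))
    (h : M * p * l ∣ M * l * p) (j : Fin 2) (f : modularFunctionFieldBar (M * p)) :
    (alData (M * l) p hpM').e j (H05.qe Qb l h f) = qExpand Qb l ((alData M p hpM).e j f) := by
  rcases fin2_cases j with rfl | rfl
  · rw [al_e0, al_e0]
    exact H05.coe_qe Qb l h f
  · rw [al_e1, al_e1, H05.wBar_qe hpM hpM' h f]
    exact H05.coe_qe Qb l h _

/-- the degeneracy map `q ↦ q ^ l` -/
def degL {M' l : ℕ} [NeZero M'] [NeZero l] (hpM : Nat.Coprime p M) (hpl : Nat.Coprime p (M * l))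
    (hpM' : Nat.Coprime p M') (hMM' : M * l ∣ M') (h1 : M * p * l ∣ M * l * p)
    (h : M * l * p ∣ M' * p) : Deg (alData M p hpM) (alData M' p hpM') l where
  δ := (incN h).comp (H05.qe Qb l h1)
  e_δ j x := (al_e_incN hpl hpM' hMM' h j (H05.qe Qb l h1 x)).trans (al_e_qe hpM hpl h1 j x)

theorem int_qe {N N' l : ℕ} [NeZero N] [NeZero N'] [hl : Fact l.Prime] (hN' : N' = N * l)
    (h : N * l ∣ N') : (H05.qe Qb l h : modularFunctionFieldBar N →ₐ[Qb]
      modularFunctionFieldBar N').toRingHom.IsIntegral := by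
  subst hN'
  exact H05.heckeBetaBarIntegral Qb N l

end Fermat.Agent.NN
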