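import Fermat.Agent.H18_Places
import Mathlib.LinearAlgebra.Dimension.Constructions

/-!
# The counting lemma behind the node theorem
-/

set_option autoImplicit false

noncomputable section

open AlgebraicCurve Module

namespace Fermat.Agent.NN

variable {k κ : Type*} [Field k] [Field κ] [Algebra k κ]

/-- the coefficientwise floor of a divisor divided by `m` -/
def divFloor (m : ℕ) (D : Divisor k κ) : Divisor k κ :=
  D.mapRange (fun n => n / (m : ℤ)) (by simp)

/-- the coefficientwise remainder -/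
def divRem (m : ℕ) (D : Divisor k κ) : Divisor k κ :=
  D.mapRange (fun n => n % (m : ℤ)) (by simp)

@[simp] theorem divFloor_apply (m : ℕ) (D : Divisor k κ) (v : Place k κ) :
    divFloor m D v = D v / m := by simp [divFloor]

@[simp] theorem divRem_apply (m : ℕ) (D : Divisor k κ) (v : Place k κ) :
    divRem m D v = D v % m := by simp [divRem]

theorem divFloor_add_divRem (m : ℕ) (D : Divisor k κ) :
    (m : ℤ) • divFloor m D + divRem m D = D := by
  ext v
  rw [Finsupp.add_apply, Finsupp.smul_apply, divFloor_apply, divRem_apply, smul_eq_mul]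
  exact Int.mul_ediv_add_emod _ _

theorem degree_nonneg_of {D : Divisor k κ} (h : ∀ v, 0 ≤ D v) : 0 ≤ Divisor.degree D := by
  rw [Divisor.degree, Finsupp.liftAddHom_apply, Finsupp.sum]
  refine Finset.sum_nonneg fun v _ => ?_
  change 0 ≤ D v * (v.deg : ℤ)
  exact mul_nonneg (h v) (Int.natCast_nonneg _)

theorem le_degree_of {D : Divisor k κ} (hdeg : ∀ v : Place k κ, v.deg = 1)
    (h : ∀ v, 0 ≤ D v) (v : Place k κ) : D v ≤ Divisor.degree D := by
  classical
  have h1 : 0 ≤ Divisor.degree (D - Finsupp.single v (D v)) := by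
    apply degree_nonneg_of
    intro w
    rw [Finsupp.sub_apply, Finsupp.single_apply]
    split_ifs with hw
    · rw [hw, sub_self]
    · rw [sub_zero]; exact h w
  rw [map_sub, Divisor.degree_single, hdeg] at h1
  omega

theorem floor_bound {m : ℕ} (hm : 0 < m) {a b : ℤ} (h : 0 ≤ (m : ℤ) * a + b) : -(b / m) ≤ a := by
  have hm' : (0 : ℤ) < m := by exact_mod_cast hm
  have h1 := Int.mul_ediv_add_emod b m
  have h2 := Int.emod_lt_of_pos b hm'
  by_contra hcon
  push Not at hcon
  have h3 : a + b / m ≤ -1 := by omega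
  nlinarith

/-- bounded dimension of a space of tuples of functions -/
theorem finrank_le_of_pi {V C : Type*} [AddCommGroup V] [Module k V] [Fintype C]
    (X : Submodule k V) (f : C → V →ₗ[k] κ) (hf : ∀ x ∈ X, (∀ c, f c x = 0) → x = 0)
    (L : C → Submodule k κ) (hL : ∀ c, Module.Finite k (L c)) (hfL : ∀ x ∈ X, ∀ c, f c x ∈ L c) :
    Module.Finite k X ∧ finrank k X ≤ ∑ c, finrank k (L c) := by
  let F : X →ₗ[k] (∀ c, L c) :=
    LinearMap.pi fun c => ((f c).comp X.subtype).codRestrict (L c) (fun x => hfL x x.2 c)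
  have hinj : Function.Injective F := by
    rw [← LinearMap.ker_eq_bot, LinearMap.ker_eq_bot']
    intro x hx
    apply Subtype.ext
    apply hf x x.2
    intro c
    exact congrArg (fun y : (∀ c, L c) => (y c : κ)) hx
  refine ⟨Module.Finite.of_injective F hinj, ?_⟩
  have h1 := LinearMap.finrank_le_finrank_of_injective hinj
  rwa [Module.finrank_pi_fintype] at h1

/-- **The counting lemma.** -/
theorem counting [HasPrincipalDivisors k κ] (hdeg : ∀ v : Place k κ, v.deg = 1)
    (P : Place k κ) (g' : ℕ)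
    (hRR : ∀ E : Divisor k κ, ∃ n₀ : ℕ, ∀ n : ℕ, n₀ ≤ n →
      Module.Finite k (riemannRochSpace (E + Finsupp.single P (n : ℤ))) ∧
      (finrank k (riemannRochSpace (E + Finsupp.single P (n : ℤ))) : ℤ) ≤
        Divisor.degree E + n + 1 - g')
    {C : Type*} [Fintype C] [Nonempty C] (T : Divisor k κ)
    (m : ℕ) (hm : 0 < m) (φ : Fin 2 → C → κ) (hφ : ∀ j c, φ j c ≠ 0) (β : ℤ) (g : ℕ)
    {V : ℕ → Type*} [∀ n, AddCommGroup (V n)] [∀ n, Module k (V n)]
    (X : ∀ n, Submodule k (V n)) (r : ∀ n, Fin 2 → C → (V n →ₗ[k] κ))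
    (hr : ∀ n, ∀ x ∈ X n, (∀ j c, r n j c x = 0) → x = 0)
    (hXdim : ∃ n₀ : ℕ, ∀ n : ℕ, n₀ ≤ n →
      (Fintype.card C : ℤ) * (2 * n + 1 - g) ≤ finrank k (X n))
    (hX0 : ∀ n, ∀ x ∈ X n, ∀ c, r n 0 c x ≠ 0 → ∀ v : Place k κ,
      0 ≤ (m : ℤ) * (v.ord (r n 0 c x) + Finsupp.single P (n : ℤ) v) + (v.ord (φ 0 c) - β * T v))
    (hX1 : ∀ n, ∀ x ∈ X n, (∀ c, r n 0 c x = 0) → ∀ c, r n 1 c x ≠ 0 → ∀ v : Place k κ,
      0 ≤ (m : ℤ) * (v.ord (r n 1 c x) + Finsupp.single P (n : ℤ) v) +
        (v.ord (φ 1 c) - (m - β) * T v))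
    (hS : (g : ℤ) + 1 ≤ 2 * g' + Divisor.degree T) :
    ∀ c, ∀ v : Place k κ, (m : ℤ) ∣ v.ord (φ 0 c) - β * T v ∧
      (m : ℤ) ∣ v.ord (φ 1 c) + β * T v := by
  classical
  have hm' : (0 : ℤ) < m := by exact_mod_cast hm
  choose Δ hΔ hΔdeg using fun j c => HasPrincipalDivisors.exists_divisor (K := k) (φ j c) (hφ j c)
  set t : Fin 2 → ℤ := ![β, m - β] with ht
  set E' : Fin 2 → C → Divisor k κ := fun j c => Δ j c - t j • T with hE'
  have hE'v : ∀ j c v, E' j c v = v.ord (φ j c) - t j * T v := by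
    intro j c v
    rw [hE', Finsupp.sub_apply, Finsupp.smul_apply, smul_eq_mul, hΔ]
  have hE'deg : ∀ j c, Divisor.degree (E' j c) = -(t j * Divisor.degree T) := by
    intro j c
    rw [hE', map_sub, map_zsmul, hΔdeg, smul_eq_mul, zero_sub]
  have hdecomp : ∀ j c, (m : ℤ) * Divisor.degree (divFloor m (E' j c)) +
      Divisor.degree (divRem m (E' j c)) = -(t j * Divisor.degree T) := by
    intro j c
    rw [← hE'deg, ← smul_eq_mul, ← map_zsmul, ← map_add, divFloor_add_divRem]
  have hrem : ∀ j c, 0 ≤ Divisor.degree (divRem m (E' j c)) := fun j c =>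
    degree_nonneg_of fun v => by
      rw [divRem_apply]; exact Int.emod_nonneg _ hm'.ne'
  choose N₀ hN₀ using fun j c => hRR (divFloor m (E' j c))
  obtain ⟨n₀, hn₀⟩ := hXdim
  obtain ⟨n, hn1, hn2⟩ : ∃ n : ℕ, n₀ ≤ n ∧ ∀ j c, N₀ j c ≤ n :=
    ⟨n₀ + ∑ j, ∑ c, N₀ j c, Nat.le_add_right _ _, fun j c => by
      have h1 : N₀ j c ≤ ∑ c, N₀ j c := Finset.single_le_sum (fun _ _ => Nat.zero_le _)
        (Finset.mem_univ c)
      have h2 : ∑ c, N₀ j c ≤ ∑ j, ∑ c, N₀ j c :=
        Finset.single_le_sum (f := fun j => ∑ c, N₀ j c) (fun _ _ => Nat.zero_le _)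
          (Finset.mem_univ j)
      omega⟩
  set Lc : Fin 2 → C → Submodule k κ := fun j c =>
    riemannRochSpace (divFloor m (E' j c) + Finsupp.single P (n : ℤ)) with hLc
  have hLfin : ∀ j c, Module.Finite k (Lc j c) := fun j c => (hN₀ j c n (hn2 j c)).1
  have hLdim : ∀ j c, (finrank k (Lc j c) : ℤ) ≤
      Divisor.degree (divFloor m (E' j c)) + n + 1 - g' := fun j c => (hN₀ j c n (hn2 j c)).2
  -- membership
  have hmem : ∀ j c (y : κ), (y ≠ 0 → ∀ v : Place k κ,
      0 ≤ (m : ℤ) * (v.ord y + Finsupp.single P (n : ℤ) v) + E' j c v) → y ∈ Lc j c := by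
    intro j c y hy
    rw [hLc, mem_riemannRochSpace_iff]
    intro v
    by_cases h0 : y = 0
    · exact Or.inl h0
    · right
      have := floor_bound hm (hy h0 v)
      rw [Finsupp.add_apply, divFloor_apply]
      omega
  -- the kernel of the first projection
  set Y : Submodule k (V n) := X n ⊓ ⨅ c, LinearMap.ker (r n 0 c) with hY
  have hYmem : ∀ x, x ∈ Y ↔ x ∈ X n ∧ ∀ c, r n 0 c x = 0 := by
    intro x
    rw [hY, Submodule.mem_inf, Submodule.mem_iInf]
    simp only [LinearMap.mem_ker]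
  obtain ⟨hYfin, hYdim⟩ := finrank_le_of_pi Y (fun c => r n 1 c) (by
    intro x hx h1
    rw [hYmem] at hx
    refine hr n x hx.1 fun j c => ?_
    fin_cases j
    · exact hx.2 c
    · exact h1 c) (Lc 1) (hLfin 1) (by
    intro x hx c
    rw [hYmem] at hx
    refine hmem 1 c _ fun h0 v => ?_
    rw [hE'v]
    exact hX1 n x hx.1 hx.2 c h0 v)
  -- the image of the first projection
  let F : X n →ₗ[k] (∀ c, Lc 0 c) :=
    LinearMap.pi fun c => ((r n 0 c).comp (X n).subtype).codRestrict (Lc 0 c) (fun x => by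
      refine hmem 0 c _ fun h0 v => ?_
      rw [hE'v]
      exact hX0 n x x.2 c h0 v)
  have hker : finrank k (LinearMap.ker F) = finrank k Y := by
    have h1 : (LinearMap.ker F).map (X n).subtype = Y := by
      ext x
      rw [hYmem, Submodule.mem_map]
      constructor
      · rintro ⟨y, hy, rfl⟩
        refine ⟨y.2, fun c => ?_⟩
        exact congrArg (fun z : (∀ c, Lc 0 c) => (z c : κ)) (LinearMap.mem_ker.mp hy)
      · rintro ⟨hx, h0⟩
        refine ⟨⟨x, hx⟩, ?_, rfl⟩
        rw [LinearMap.mem_ker]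
        funext c
        exact Subtype.ext (h0 c)
    rw [← h1]
    exact (Submodule.equivMapOfInjective (X n).subtype (Submodule.injective_subtype _) _).finrank_eq
  have hrange : finrank k (LinearMap.range F) ≤ ∑ c, finrank k (Lc 0 c) := by
    have := Submodule.finrank_le (LinearMap.range F)
    rwa [Module.finrank_pi_fintype] at this
  have hXfin : Module.Finite k (X n) := by
    have h1 : Module.Finite k (LinearMap.ker F) := by
      have e : LinearMap.ker F ≃ₗ[k] Y := by
        refine LinearEquiv.ofBijective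
          (((X n).subtype.comp (LinearMap.ker F).subtype).codRestrict Y (fun y => ?_)) ⟨?_, ?_⟩
        · rw [hYmem]
          refine ⟨(y : X n).2, fun c => ?_⟩
          exact congrArg (fun z : (∀ c, Lc 0 c) => (z c : κ)) (LinearMap.mem_ker.mp y.2)
        · intro y y' h
          apply Subtype.ext
          apply Subtype.ext
          exact congrArg (fun z : Y => (z : V n)) h
        · rintro ⟨x, hx⟩
          rw [hYmem] at hx
          refine ⟨⟨⟨x, hx.1⟩, ?_⟩, rfl⟩
          rw [LinearMap.mem_ker]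
          funext c
          exact Subtype.ext (hx.2 c)
      exact Module.Finite.equiv e.symm
    have h2 : Module.Finite k (LinearMap.range F) := inferInstance
    have h3 : Module.Finite k (X n ⧸ LinearMap.ker F) :=
      Module.Finite.equiv F.quotKerEquivRange.symm
    exact Module.Finite.of_submodule_quotient (LinearMap.ker F)
  have hrn := LinearMap.finrank_range_add_finrank_ker F
  have hdimX := hn₀ n hn1
  -- put everything together
  have h1 : (finrank k (X n) : ℤ) ≤ ∑ c, (finrank k (Lc 0 c) : ℤ) + ∑ c, (finrank k (Lc 1 c) : ℤ) := by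
    have : finrank k (X n) ≤ ∑ c, finrank k (Lc 0 c) + ∑ c, finrank k (Lc 1 c) := by omega
    exact_mod_cast this
  have h2 : ∀ j, ∑ c, (finrank k (Lc j c) : ℤ) ≤
      ∑ c, (Divisor.degree (divFloor m (E' j c)) + n + 1 - g') := fun j =>
    Finset.sum_le_sum fun c _ => hLdim j c
  have h3 : ∀ j, (m : ℤ) * ∑ c, (Divisor.degree (divFloor m (E' j c)) + n + 1 - g') =
      Fintype.card C * (m * (n + 1 - g') - t j * Divisor.degree T) -
        ∑ c, Divisor.degree (divRem m (E' j c)) := by
    intro j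
    have : ∀ c, (m : ℤ) * (Divisor.degree (divFloor m (E' j c)) + n + 1 - g') =
        (m * (n + 1 - g') - t j * Divisor.degree T) - Divisor.degree (divRem m (E' j c)) := by
      intro c
      have := hdecomp j c
      linarith
    rw [Finset.mul_sum, Finset.sum_congr rfl fun c _ => this c, Finset.sum_sub_distrib,
      Finset.sum_const, Finset.card_univ, nsmul_eq_mul]
  have ht0 : t 0 = β := rfl
  have ht1 : t 1 = m - β := rfl
  have hcard : (0 : ℤ) < Fintype.card C := by exact_mod_cast Fintype.card_pos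
  have hsum : ∑ c, Divisor.degree (divRem m (E' 0 c)) +
      ∑ c, Divisor.degree (divRem m (E' 1 c)) ≤ 0 := by
    have h4 := h3 0
    have h5 := h3 1
    rw [ht0] at h4
    rw [ht1] at h5
    have h6 := h2 0
    have h7 := h2 1
    have h8 : (m : ℤ) * (Fintype.card C * (2 * n + 1 - g)) ≤
        m * ∑ c, (Divisor.degree (divFloor m (E' 0 c)) + n + 1 - g') +
        m * ∑ c, (Divisor.degree (divFloor m (E' 1 c)) + n + 1 - g') := by
      rw [← mul_add]
      apply mul_le_mul_of_nonneg_left _ hm'.le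
      linarith
    rw [h4, h5] at h8
    have h9 : (0 : ℤ) ≤ Fintype.card C * m * (2 * g' + Divisor.degree T - g - 1) :=
      mul_nonneg (mul_nonneg hcard.le hm'.le) (by linarith)
    linarith
  have hzero : ∀ j c, Divisor.degree (divRem m (E' j c)) = 0 := by
    have h4 : ∀ j, 0 ≤ ∑ c, Divisor.degree (divRem m (E' j c)) := fun j =>
      Finset.sum_nonneg fun c _ => hrem j c
    intro j c
    have h5 : ∑ c, Divisor.degree (divRem m (E' j c)) = 0 := by
      have h0 := h4 0
      have h1 := h4 1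
      fin_cases j
      · change ∑ c, Divisor.degree (divRem m (E' 0 c)) = 0
        linarith
      · change ∑ c, Divisor.degree (divRem m (E' 1 c)) = 0
        linarith
    exact (Finset.sum_eq_zero_iff_of_nonneg fun c _ => hrem j c).mp h5 c (Finset.mem_univ c)
  have hdvd : ∀ j c v, (m : ℤ) ∣ E' j c v := by
    intro j c v
    have h4 := le_degree_of hdeg (D := divRem m (E' j c)) (fun v => by
      rw [divRem_apply]; exact Int.emod_nonneg _ hm'.ne') v
    rw [hzero, divRem_apply] at h4
    have h5 := Int.emod_nonneg (E' j c v) hm'.ne'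
    exact Int.dvd_of_emod_eq_zero (le_antisymm h4 h5)
  intro c v
  have h4 := hdvd 0 c v
  have h5 := hdvd 1 c v
  rw [hE'v, ht0] at h4
  rw [hE'v, ht1] at h5
  refine ⟨h4, ?_⟩
  have : v.ord (φ 1 c) + β * T v = (v.ord (φ 1 c) - (m - β) * T v) + m * T v := by ring
  rw [this]
  exact dvd_add h5 (dvd_mul_right _ _)

end Fermat.Agent.NN
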