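import Fermat.Agent.NN.Triv

/-!
# Covers with Galois structure
-/

set_option autoImplicit false
set_option linter.style.haveILetI false
set_option linter.unusedSectionVars false
set_option maxSynthPendingDepth 3

noncomputable section

attribute [-instance] HahnSeries.instModule HahnSeries.instSMul HahnSeries.instDistribMulAction
  HahnSeries.instSMulZeroClass

attribute [local instance 10000] Fermat.Agent.H29.instLS Fermat.Agent.H29.instIF
  Fermat.Agent.H29.instIF2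

namespace Fermat.Agent.NN

open ModularCurve HahnSeries Fermat.Agent.Igusa AlgebraicCurve Fermat.Agent.FF Fermat.Agent.H11Q
  Fermat.Agent.Q Module

local notation "kk" => IsLocalRing.ResidueField

variable {K : Type*} [Field K] [CharZero K] [IsAlgClosed K] [Algebra ℚ K]
  [Algebra.IsAlgebraic ℚ K]
variable {r : ℕ} [NeZero r] {D : ALData K r} {A : ValuationSubring K}
  {Eb : IntermediateField (kk A) (LaurentSeries (kk A))}
variable {E : Type*} [Field E] [Algebra K E] [Algebra D.S E] [IsScalarTower K D.S E]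
  [FiniteDimensional D.S E] {C : Type*} [Fintype C] (Y : Cov D A Eb E C)
variable {K₀ : Subfield K} (I : InertData D A K₀)

/-- the Galois group acts on the cover -/
def GalCov : Prop := ∀ τ ∈ I.G, ∃ Γ : E →+* E, ∀ j c u, Y.e j c (Γ u) = coeffMap τ.σ (Y.e j c u)

/-- rational functions of the cover -/
def RatE (K₀ : Subfield K) (u : E) : Prop := ∀ j c l, (Y.e j c u).coeff l ∈ K₀

variable {Y I}

theorem gal_base {τ : D.Gal} {Γ : E →+* E}
    (hΓ : ∀ j c u, Y.e j c (Γ u) = coeffMap τ.σ (Y.e j c u)) (x : D.S) :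
    Γ (algebraMap D.S E x) = algebraMap D.S E (τ.g • x) := by
  obtain ⟨c⟩ := Y.nonempty
  apply (Y.e 0 c).injective
  change Y.e 0 c _ = Y.e 0 c _
  rw [hΓ, Y.e_base, Y.e_base, τ.e_smul]

theorem gal_fix {τ : D.Gal} (hτ : τ ∈ I.G) {Γ : E →+* E}
    (hΓ : ∀ j c u, Y.e j c (Γ u) = coeffMap τ.σ (Y.e j c u)) {c : C} {u : E}
    (hu : ∀ l, (Y.e 0 c u).coeff l ∈ K₀) : Γ u = u := by
  apply (Y.e 0 c).injective
  change Y.e 0 c _ = Y.e 0 c _
  rw [hΓ]
  ext l
  rw [coeffMap_coeff]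
  exact (I.fix _).mpr (hu l) τ hτ

theorem ratE_of_fix {u : E} (h : ∀ τ ∈ I.G, ∃ Γ : E →+* E,
    (∀ j c u, Y.e j c (Γ u) = coeffMap τ.σ (Y.e j c u)) ∧ Γ u = u) : RatE Y K₀ u := by
  intro j c l
  rw [← I.fix]
  intro τ hτ
  obtain ⟨Γ, hΓ, hu⟩ := h τ hτ
  have h1 := congrArg (fun x => (Y.e j c x).coeff l) hu
  simp only [hΓ, coeffMap_coeff] at h1
  exact h1

theorem ratE_of_one (hG : GalCov Y I) {c : C} {u : E} (hu : ∀ l, (Y.e 0 c u).coeff l ∈ K₀) :
    RatE Y K₀ u := by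
  refine ratE_of_fix (I := I) fun τ hτ => ?_
  obtain ⟨Γ, hΓ⟩ := hG τ hτ
  exact ⟨Γ, hΓ, gal_fix hτ hΓ hu⟩

theorem RatE.mul {f g : E} (hf : RatE Y K₀ f) (hg : RatE Y K₀ g) : RatE Y K₀ (f * g) := by
  intro j c l
  rw [map_mul]
  exact CoefIn.mul (R := K₀.toSubring) (fun l => hf j c l) (fun l => hg j c l) l

theorem RatE.one : RatE Y K₀ (1 : E) := by
  intro j c l
  rw [map_one, HahnSeries.coeff_one]
  split_ifs
  · exact K₀.one_mem
  · exact K₀.zero_mem

theorem RatE.pow {f : E} (hf : RatE Y K₀ f) (n : ℕ) : RatE Y K₀ (f ^ n) := by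
  induction n with
  | zero => rw [pow_zero]; exact RatE.one
  | succ n ih => rw [pow_succ]; exact ih.mul hf

theorem RatE.inv (hG : GalCov Y I) {f : E} (hf : RatE Y K₀ f) : RatE Y K₀ f⁻¹ := by
  obtain ⟨c⟩ := Y.nonempty
  refine ratE_of_fix (I := I) fun τ hτ => ?_
  obtain ⟨Γ, hΓ⟩ := hG τ hτ
  refine ⟨Γ, hΓ, ?_⟩
  rw [map_inv₀, gal_fix hτ hΓ (hf 0 c)]

theorem RatE.of {x : D.S} (hx : RatS D K₀ x) : RatE Y K₀ (algebraMap D.S E x) := by
  intro j c l
  rw [Y.e_base]
  exact hx j l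

/-- Galois stable spaces are spanned by rational functions. -/
theorem span_ratE (hG : GalCov Y I) (V : Submodule K E) [FiniteDimensional K V]
    (hst : ∀ τ ∈ I.G, ∀ Γ : E →+* E, (∀ j c u, Y.e j c (Γ u) = coeffMap τ.σ (Y.e j c u)) →
      ∀ v ∈ V, Γ v ∈ V) :
    V ≤ Submodule.span K {v | v ∈ V ∧ RatE Y K₀ v} := by
  obtain ⟨c⟩ := Y.nonempty
  have h := span_fixed V (Y.e 0 c).toLinearMap
    (fun v _ hv => (Y.e 0 c).injective (by rw [map_zero]; exact hv))
    {σ | ∃ τ ∈ I.G, τ.σ = σ} K₀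
    (fun z hz => (I.fix z).mp fun τ hτ => hz τ.σ ⟨τ, hτ, rfl⟩)
    (by
      rintro _ ⟨τ, hτ, rfl⟩ v hv
      obtain ⟨Γ, hΓ⟩ := hG τ hτ
      exact ⟨Γ v, hst τ hτ Γ hΓ v hv, hΓ 0 c v⟩)
  refine h.trans (Submodule.span_mono ?_)
  rintro v ⟨hv, hc⟩
  exact ⟨hv, ratE_of_one hG fun l => hc l⟩

theorem exists_ratE_ne (hG : GalCov Y I) (V : Submodule K E) [FiniteDimensional K V]
    (hst : ∀ τ ∈ I.G, ∀ Γ : E →+* E, (∀ j c u, Y.e j c (Γ u) = coeffMap τ.σ (Y.e j c u)) →
      ∀ v ∈ V, Γ v ∈ V) (hV : V ≠ ⊥) :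
    ∃ v ∈ V, v ≠ 0 ∧ RatE Y K₀ v := by
  by_contra hcon
  push Not at hcon
  apply hV
  rw [eq_bot_iff]
  refine (span_ratE hG V hst).trans ?_
  rw [Submodule.span_le]
  rintro v ⟨hv, hr⟩
  by_contra h0
  exact hcon v hv h0 hr

/-- integral elements are preserved -/
theorem isIntegral_gal {τ : D.Gal} {Γ : E →+* E}
    (hΓ : ∀ j c u, Y.e j c (Γ u) = coeffMap τ.σ (Y.e j c u)) {u : E}
    (hu : IsIntegral (rgA D) u) : IsIntegral (rgA D) (Γ u) := by
  obtain ⟨p, hp, hpu⟩ := hu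
  let φ : rgA D →+* rgA D :=
    { toFun := fun y => ⟨τ.g • (y : D.S), τ.rg_smul y.2⟩
      map_one' := Subtype.ext (smul_one _)
      map_mul' := fun a b => Subtype.ext (smul_mul' _ _ _)
      map_zero' := Subtype.ext (smul_zero _)
      map_add' := fun a b => Subtype.ext (smul_add _ _ _) }
  refine ⟨p.map φ, hp.map φ, ?_⟩
  rw [Polynomial.eval₂_map]
  have h2 := congrArg Γ hpu
  rw [map_zero] at h2
  rw [← h2]
  have h3 : (algebraMap (rgA D) E).comp φ = Γ.comp (algebraMap (rgA D) E) := by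
    refine RingHom.ext fun y => ?_
    exact (gal_base hΓ (y : D.S)).symm
  rw [h3]
  exact (Polynomial.hom_eval₂ p (algebraMap (rgA D) E) Γ u).symm

/-- the spaces `VSp` are Galois stable -/
theorem VSp_stableE {m : ℕ} (hm : m ≠ 0) {f : E} (hf : RatE Y K₀ f) (n : ℤ) :
    ∀ τ ∈ I.G, ∀ Γ : E →+* E, (∀ j c u, Y.e j c (Γ u) = coeffMap τ.σ (Y.e j c u)) →
      ∀ v ∈ VSp Y m hm f n, Γ v ∈ VSp Y m hm f n := by
  rintro τ hτ Γ hΓ v ⟨h1, h2⟩
  obtain ⟨c₀⟩ := Y.nonempty
  have h3 : (Γ v) ^ m * f = Γ (v ^ m * f) := by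
    rw [map_mul, map_pow, gal_fix hτ hΓ (hf 0 c₀)]
  refine ⟨?_, fun j c => ?_⟩
  · rw [h3]
    exact isIntegral_gal hΓ h1
  · rw [h3, hΓ]
    exact low_coeffMap τ.σ (h2 j c)

/-- the coefficients of the minimal polynomial of a rational element -/
theorem ratS_minpoly (hG : GalCov Y I) {g : E} (hg : RatE Y K₀ g) (i : ℕ) :
    RatS D K₀ ((minpoly D.S g).coeff i) := by
  obtain ⟨c₀⟩ := Y.nonempty
  rw [ratS_iff I]
  intro τ hτ
  obtain ⟨Γ, hΓ⟩ := hG τ hτ
  have hg1 : Γ g = g := gal_fix hτ hΓ (hg 0 c₀)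
  set θ : D.S →+* D.S := (SemilinearAut.toRingAut τ.g).toRingHom with hθ
  have hint : IsIntegral D.S g := Algebra.IsIntegral.isIntegral g
  have h1 : Polynomial.aeval g ((minpoly D.S g).map θ) = 0 := by
    rw [Polynomial.aeval_def, Polynomial.eval₂_map]
    have h2 := congrArg Γ (minpoly.aeval D.S g)
    rw [map_zero, Polynomial.aeval_def, Polynomial.hom_eval₂, hg1] at h2
    rw [← h2]
    congr 1
    refine RingHom.ext fun y => ?_
    exact (gal_base hΓ y).symm
  have h2 : (minpoly D.S g).map θ = minpoly D.S g := by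
    refine Polynomial.eq_of_monic_of_dvd_of_natDegree_le (minpoly.monic hint)
      ((minpoly.monic hint).map θ) (minpoly.dvd D.S g h1) ?_
    rw [(minpoly.monic hint).natDegree_map]
  have h3 := congrArg (fun P => P.coeff i) h2
  simp only [Polynomial.coeff_map] at h3
  exact h3

/-- scaled relation -/
theorem scaled_relation {F E : Type*} [Field F] [Field E] [Algebra F E] {u : E} (b : F)
    {n : ℕ} {c : ℕ → F}
    (h : u ^ n + ∑ i ∈ Finset.range n, algebraMap F E (c i) * u ^ i = 0) :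
    (algebraMap F E b * u) ^ n + ∑ i ∈ Finset.range n,
      algebraMap F E (b * c i * b ^ (n - 1 - i)) * (algebraMap F E b * u) ^ i = 0 := by
  have h1 : (algebraMap F E b * u) ^ n + ∑ i ∈ Finset.range n,
      algebraMap F E (b * c i * b ^ (n - 1 - i)) * (algebraMap F E b * u) ^ i =
      algebraMap F E b ^ n * (u ^ n + ∑ i ∈ Finset.range n, algebraMap F E (c i) * u ^ i) := by
    rw [mul_add, mul_pow, Finset.mul_sum]
    congr 1
    refine Finset.sum_congr rfl fun i hi => ?_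
    rw [Finset.mem_range] at hi
    rw [map_mul, map_mul, map_pow, mul_pow]
    have h2 : algebraMap F E b ^ n = algebraMap F E b * algebraMap F E b ^ (n - 1 - i) *
        algebraMap F E b ^ i := by
      rw [← pow_succ', ← _root_.pow_add]
      congr 1
      omega
    rw [h2]
    ring
  rw [h1, h, mul_zero]

/-- integrality from a relation -/
theorem isIntegral_of_relation {R₀ E : Type*} [CommRing R₀] [Field E] [Algebra R₀ E] {u : E}
    {n : ℕ} {c : ℕ → R₀}
    (h : u ^ n + ∑ i ∈ Finset.range n, algebraMap R₀ E (c i) * u ^ i = 0) : IsIntegral R₀ u := by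
  refine ⟨Polynomial.X ^ n + ∑ i ∈ Finset.range n, Polynomial.C (c i) * Polynomial.X ^ i, ?_, ?_⟩
  · apply Polynomial.monic_X_pow_add
    refine (Polynomial.degree_sum_le _ _).trans_lt ?_
    refine (Finset.sup_lt_iff (WithBot.bot_lt_coe _)).mpr ?_
    intro i hi
    exact (Polynomial.degree_C_mul_X_pow_le i _).trans_lt
      (WithBot.coe_lt_coe.mpr (Finset.mem_range.mp hi))
  · rw [Polynomial.eval₂_add, Polynomial.eval₂_pow, Polynomial.eval₂_X,
      Polynomial.eval₂_finsetSum, ← h]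
    congr 1
    refine Finset.sum_congr rfl fun i _ => ?_
    rw [Polynomial.eval₂_mul, Polynomial.eval₂_C, Polynomial.eval₂_pow, Polynomial.eval₂_X]

/-- rational denominators -/
theorem exists_denE (R : D.RedHyp A Eb) (lp : LevelPack A D.S₀ Eb r) (hG : GalCov Y I) {g : E}
    (hg : RatE Y K₀ g) : ∃ b : D.S, b ≠ 0 ∧ RatS D K₀ b ∧ D.Rg b ∧
      IsIntegral (rgA D) (algebraMap D.S E b * g) := by
  classical
  have hint : IsIntegral D.S g := Algebra.IsIntegral.isIntegral g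
  have h1 : ∀ i, ∃ b : D.S, b ≠ 0 ∧ RatS D K₀ b ∧ D.Rg b ∧ D.Rg (b * (minpoly D.S g).coeff i) := by
    intro i
    by_cases h0 : (minpoly D.S g).coeff i = 0
    · refine ⟨1, one_ne_zero, RatS.one, fun v _ _ => v.toValuationSubring.one_mem, ?_⟩
      rw [h0, mul_zero]
      exact fun v _ _ => v.toValuationSubring.zero_mem
    · exact exists_den I R lp h0 (ratS_minpoly hG hg i)
  choose b hb0 hbr hbR hbc using h1
  set n := (minpoly D.S g).natDegree with hn
  set B : D.S := ∏ i ∈ Finset.range n, b i with hB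
  have hBR : B ∈ rgA D := prod_mem fun i _ => hbR i
  have hBr : RatS D K₀ B := by
    rw [hB]
    have : ∀ s : Finset ℕ, RatS D K₀ (∏ i ∈ s, b i) := by
      intro s
      induction s using Finset.induction_on with
      | empty => rw [Finset.prod_empty]; exact RatS.one
      | insert a s ha ih => rw [Finset.prod_insert ha]; exact (hbr a).mul ih
    exact this _
  have hBc : ∀ i ∈ Finset.range n, B * (minpoly D.S g).coeff i ∈ rgA D := by
    intro i hi
    have h2 : B = (∏ k ∈ (Finset.range n).erase i, b k) * b i :=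
      (Finset.prod_erase_mul _ _ hi).symm
    rw [h2, mul_assoc]
    exact mul_mem (prod_mem fun k _ => hbR k) (hbc i)
  have hBc' : ∀ i, (if i ∈ Finset.range n then B * (minpoly D.S g).coeff i *
      B ^ (n - 1 - i) else 0) ∈ rgA D := by
    intro i
    split_ifs with hi
    · exact mul_mem (hBc i hi) (pow_mem hBR _)
    · exact zero_mem _
  refine ⟨B, Finset.prod_ne_zero_iff.mpr fun i _ => hb0 i, hBr, hBR, ?_⟩
  refine isIntegral_of_relation (n := n) (c := fun i => ⟨_, hBc' i⟩) ?_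
  have h3 := scaled_relation B (minpoly_relation (F := D.S) hint)
  rw [← hn] at h3
  rw [← h3]
  congr 1
  refine Finset.sum_congr rfl fun i hi => ?_
  have h4 : algebraMap (rgA D) E ⟨_, hBc' i⟩ = algebraMap D.S E (if i ∈ Finset.range n then
      B * (minpoly D.S g).coeff i * B ^ (n - 1 - i) else 0) := rfl
  rw [h4, if_pos hi]

/-! ### valuations -/

/-- `f` has valuation `n` along the component `(j, c)`, with reduction `φ` -/
def HasValE (Y : Cov D A Eb E C) (j : Fin 2) (c : C) (f : E) (n : ℤ) (φ : Eb) : Prop :=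
  φ ≠ 0 ∧ Red A ((r : K) ^ (-n) • Y.e j c f) (φ : LaurentSeries (kk A))

theorem HasValE.mul (hr : (r : K) ≠ 0) {j : Fin 2} {c : C} {f g : E} {n n' : ℤ} {φ ψ : Eb}
    (hf : HasValE Y j c f n φ) (hg : HasValE Y j c g n' ψ) :
    HasValE Y j c (f * g) (n + n') (φ * ψ) := by
  refine ⟨mul_ne_zero hf.1 hg.1, ?_⟩
  rw [map_mul, zpow_neg_smul_mul hr]
  exact hf.2.mul hg.2

theorem HasValE.inv {j : Fin 2} {c : C} {f : E} {n : ℤ} {φ : Eb}
    (hf : HasValE Y j c f n φ) : HasValE Y j c f⁻¹ (-n) φ⁻¹ := by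
  refine ⟨inv_ne_zero hf.1, ?_⟩
  have h1 := hf.2.inv (fun h => hf.1 (Subtype.ext h))
  have h2 : (r : K) ^ (-(-n)) • Y.e j c f⁻¹ = ((r : K) ^ (-n) • Y.e j c f)⁻¹ := by
    rw [map_inv₀ (Y.e j c), Algebra.smul_def, Algebra.smul_def, mul_inv,
      ← map_inv₀ (algebraMap K (LaurentSeries K)), zpow_neg (r : K) (-n)]
  rw [h2]
  exact h1

theorem HasValE.one (j : Fin 2) (c : C) : HasValE Y j c (1 : E) 0 1 := by
  refine ⟨one_ne_zero, ?_⟩
  rw [map_one, neg_zero, zpow_zero, one_smul]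
  exact Red.one

theorem HasValE.pow (hr : (r : K) ≠ 0) {j : Fin 2} {c : C} {f : E} {n : ℤ} {φ : Eb}
    (hf : HasValE Y j c f n φ) (m : ℕ) : HasValE Y j c (f ^ m) (m * n) (φ ^ m) := by
  induction m with
  | zero =>
    rw [pow_zero, pow_zero, Nat.cast_zero, zero_mul]; exact HasValE.one j c
  | succ m ih =>
    rw [pow_succ, pow_succ, Nat.cast_succ, add_mul, one_mul]
    exact ih.mul hr hf

/-- rational integral functions have a valuation -/
theorem exists_hasValE_int (R : D.RedHyp A Eb) (I : InertData D A K₀) {b : E} (hb0 : b ≠ 0)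
    (hb : RatE Y K₀ b) (hbR : IsIntegral (rgA D) b) (j : Fin 2) (c : C) :
    ∃ n φ, HasValE Y j c b n φ := by
  obtain ⟨a, hc0, hc1, hc2⟩ := att_of_DD R (Y.e_mem_DD R hbR j c)
    ((map_ne_zero_iff _ (Y.e j c).injective).mpr hb0)
  obtain ⟨l, hl⟩ : ∃ l, (rd A (a • Y.e j c b)).coeff l ≠ 0 := by
    by_contra hcon
    push Not at hcon
    exact hc2 (HahnSeries.ext (funext hcon))
  rw [rd_coeff, H11Q.coeff_smul'] at hl
  have hmem : a * (Y.e j c b).coeff l ∈ A := by
    have := hc1 l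
    rwa [H11Q.coeff_smul'] at this
  have hb1 : (Y.e j c b).coeff l ≠ 0 := by
    intro h
    rw [h, mul_zero, resid_zero] at hl
    exact hl rfl
  obtain ⟨n, hn⟩ := I.hval _ (hb j c l) hb1
  have hrK : (r : K) ≠ 0 := by exact_mod_cast R.prime.ne_zero
  have hunit : A.valuation (a * (Y.e j c b).coeff l) = 1 := by
    have h1 := (resid_ne_zero_iff A hmem).mp hl
    apply le_antisymm ((A.valuation_le_one_iff _).mpr hmem)
    have h2 := (A.valuation_le_one_iff _).mpr h1.1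
    rw [map_inv₀] at h2
    have h3 : A.valuation (a * (Y.e j c b).coeff l) ≠ 0 := (Valuation.ne_zero_iff _).mpr h1.2
    exact (inv_le_one₀ (zero_lt_iff.mpr h3)).mp h2
  set u : K := (r : K) ^ (-n) / a with hu
  have hval : A.valuation u = 1 := by
    rw [map_mul, hn] at hunit
    have hv0 : A.valuation (r : K) ^ n ≠ 0 := zpow_ne_zero _ ((Valuation.ne_zero_iff _).mpr hrK)
    have hvc : A.valuation a = (A.valuation (r : K) ^ n)⁻¹ := eq_inv_of_mul_eq_one_left hunit
    rw [hu, map_div₀, map_zpow₀, hvc, zpow_neg, div_self (inv_ne_zero hv0)]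
  have huA : u ∈ A := (A.valuation_le_one_iff _).mp hval.le
  have hu0 : resid A u ≠ 0 := by
    rw [resid_ne_zero_iff A huA]
    refine ⟨(A.valuation_le_one_iff _).mp ?_, ?_⟩
    · rw [map_inv₀, hval, inv_one]
    · rintro h
      rw [h, map_zero] at hval
      exact zero_ne_one hval
  have hred : Red A ((r : K) ^ (-n) • Y.e j c b)
      (HahnSeries.C (resid A u) * rd A (a • Y.e j c b)) := by
    have h1 := (Red.C (A := A) huA).mul (red_rd hc1)
    rw [← resid_of_mem A huA] at h1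
    convert h1 using 1
    rw [← algebraMap_eq_C, Algebra.smul_def, Algebra.smul_def, ← mul_assoc, ← map_mul, hu,
      div_mul_cancel₀ _ hc0]
  have hne : HahnSeries.C (resid A u) * rd A (a • Y.e j c b) ≠ 0 := by
    refine mul_ne_zero ?_ hc2
    exact (map_ne_zero_iff _ HahnSeries.C_injective).mpr hu0
  have hEb : HahnSeries.C (resid A u) * rd A (a • Y.e j c b) ∈ Eb := by
    refine mul_mem ?_ ?_
    · rw [← algebraMap_eq_C]; exact Eb.algebraMap_mem _
    · have h1 : a • Y.e j c b = Y.e j c (a • b) := (map_smul _ _ _).symm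
      rw [h1] at hc1 ⊢
      exact Y.red_mem j c (a • b) _ (red_rd hc1)
  exact ⟨n, ⟨_, hEb⟩, fun h => hne (congrArg Subtype.val h), hred⟩

/-- rational functions have a valuation -/
theorem exists_hasValE (R : D.RedHyp A Eb) (lp : LevelPack A D.S₀ Eb r) (hG : GalCov Y I) {g : E}
    (hg0 : g ≠ 0) (hg : RatE Y K₀ g) (j : Fin 2) (c : C) : ∃ n φ, HasValE Y j c g n φ := by
  have hrK : (r : K) ≠ 0 := by exact_mod_cast R.prime.ne_zero
  obtain ⟨b, hb0, hbr, hbR, hbg⟩ := exists_denE R lp hG hg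
  have hb0' : algebraMap D.S E b ≠ 0 := (_root_.map_ne_zero _).mpr hb0
  obtain ⟨n, φ, h1⟩ := exists_hasValE_int R I hb0' (RatE.of (Y := Y) hbr)
    (isIntegral_algebraMap (R := rgA D) (x := (⟨b, hbR⟩ : rgA D))) j c
  obtain ⟨n', ψ, h2⟩ := exists_hasValE_int R I (mul_ne_zero hb0' hg0)
    ((RatE.of (Y := Y) hbr).mul hg) hbg j c
  refine ⟨-n + n', φ⁻¹ * ψ, ?_⟩
  have h3 := h1.inv.mul hrK h2
  rwa [inv_mul_cancel_left₀ hb0'] at h3

/-! ### multiplication on the spaces `VSp` -/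

theorem mem_VSp_mul {m : ℕ} {hm : m ≠ 0} {f y : E} {n : ℤ} {u : E} :
    u ∈ VSp Y m hm (y ^ m * f) n ↔ u * y ∈ VSp Y m hm f n := by
  rw [mem_VSp, mem_VSp, mul_pow, mul_assoc]

/-- multiplication by `y` -/
def vspMul {m : ℕ} (hm : m ≠ 0) (f : E) {y : E} (hy : y ≠ 0) (n : ℤ) :
    VSp Y m hm (y ^ m * f) n ≃ₗ[K] VSp Y m hm f n where
  toFun u := ⟨(u : E) * y, mem_VSp_mul.mp u.2⟩
  map_add' u v := Subtype.ext (add_mul _ _ _)
  map_smul' c u := Subtype.ext (smul_mul_assoc _ _ _)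
  invFun u := ⟨(u : E) * y⁻¹, mem_VSp_mul.mpr (by
    rw [mul_assoc, inv_mul_cancel₀ hy, mul_one]; exact u.2)⟩
  left_inv u := Subtype.ext (by
    change (u : E) * y * y⁻¹ = u
    rw [mul_assoc, mul_inv_cancel₀ hy, mul_one])
  right_inv u := Subtype.ext (by
    change (u : E) * y⁻¹ * y = u
    rw [mul_assoc, inv_mul_cancel₀ hy, mul_one])

theorem VSp_const_mul {m : ℕ} (hm : m ≠ 0) (f : E) {a : K} (ha : a ≠ 0) (n : ℤ) :
    VSp Y m hm (a • f) n = VSp Y m hm f n := by
  have key : ∀ {a : K} {g : E}, g ∈ {u | IsIntegral (rgA D) u ∧ ∀ j c, Low (Y.e j c u) (m * (-n))} →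
      a • g ∈ {u | IsIntegral (rgA D) u ∧ ∀ j c, Low (Y.e j c u) (m * (-n))} := by
    rintro a g ⟨h1, h2⟩
    refine ⟨?_, fun j c => ?_⟩
    · rw [Algebra.smul_def]
      exact (isIntegral_const (D := D) a).mul h1
    · rw [map_smul]
      exact (h2 j c).smul _
  ext u
  rw [mem_VSp, mem_VSp, mul_smul_comm]
  constructor
  · intro h
    have := key (a := a⁻¹) h
    rwa [smul_smul, inv_mul_cancel₀ ha, one_smul] at this
  · intro h
    exact key (a := a) h

end Fermat.Agent.NN
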