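import Fermat.Agent.NN.CovG

/-!
# The node theorem for covers with Galois structure
-/

set_option autoImplicit false
set_option linter.style.haveILetI false
set_option linter.unusedSectionVars false
set_option maxSynthPendingDepth 3

noncomputable section

attribute [-instance] HahnSeries.instModule HahnSeries.instSMul HahnSeries.instDistribMulAction
  HahnSeries.instSMulZeroClass

attribute [local instance 10000] Fermat.Agent.H29.instLS Fermat.Agent.H29.instIF
  Fermat.Agent.H29.instIF2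

namespace Fermat.Agent.NN

open ModularCurve HahnSeries Fermat.Agent.Igusa AlgebraicCurve Fermat.Agent.FF Fermat.Agent.H11Q
  Fermat.Agent.Q Module

local notation "kk" => IsLocalRing.ResidueField

variable {K : Type*} [Field K] [CharZero K] [IsAlgClosed K] [Algebra ℚ K]
  [Algebra.IsAlgebraic ℚ K]
variable {r : ℕ} [NeZero r] {D : ALData K r} {A : ValuationSubring K}
  {Eb : IntermediateField (kk A) (LaurentSeries (kk A))}
variable {E : Type*} [Field E] [Algebra K E] [Algebra D.S E] [IsScalarTower K D.S E]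
  [FiniteDimensional D.S E] {C : Type*} [Fintype C] {Y : Cov D A Eb E C}
variable {K₀ : Subfield K} {I : InertData D A K₀}

theorem RatE.smul {f : E} (hf : RatE Y K₀ f) {c : K} (hc : c ∈ K₀) : RatE Y K₀ (c • f) := by
  intro j c' l
  rw [map_smul, H11Q.coeff_smul']
  exact K₀.mul_mem hc (hf j c' l)

set_option maxHeartbeats 1600000 in
/-- **The node theorem for covers with Galois structure.** -/
theorem node_cov (R : D.RedHyp A Eb) [SepFF (kk A) Eb] (lp : LevelPack A D.S₀ Eb r)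
    (Z : ZDat D A Eb) (P : Place (kk A) Eb)
    (hP : ∀ x : Eb, P.ord x = (x : LaurentSeries (kk A)).order)
    (hO : ∀ x ∈ lp.O, ∀ v : Place (kk A) Eb, v ≠ P → x ∈ Vv v) (T : Divisor (kk A) Eb)
    (hT : ∀ v, T v = ∑ σ ∈ Z.S, max (v.ord (Z.tb - algebraMap (kk A) Eb σ)) 0)
    (hS : (genusFF K D.S : ℤ) + 1 ≤ 2 * lp.g' + Divisor.degree T)
    (hG : GalCov Y I) {m : ℕ} (hm : 0 < m) {f : E} (hf0 : f ≠ 0) (hf : RatE Y K₀ f)
    (hV : ∃ n₀ : ℕ, ∀ n : ℕ, n₀ ≤ n → FiniteDimensional K (VSp Y m hm.ne' f n) ∧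
      (Fintype.card C : ℤ) * (2 * n + 1 - genusFF K D.S) ≤ finrank K (VSp Y m hm.ne' f n))
    {n : Fin 2 → C → ℤ} {φ : Fin 2 → C → Eb}
    (hval : ∀ j c, HasValE Y j c f (n j c) (φ j c))
    (hcong : ∀ j c c', (m : ℤ) ∣ n j c - n j c') (c₀ : C) (v : Place (kk A) Eb) :
    (m : ℤ) ∣ v.ord (φ 0 c₀) - (n 1 c₀ - n 0 c₀) * T v ∧
      (m : ℤ) ∣ v.ord (φ 1 c₀) + (n 1 c₀ - n 0 c₀) * T v := by
  have hrK : (r : K) ≠ 0 := by exact_mod_cast R.prime.ne_zero
  have hrK₀ : (r : K) ∈ K₀ := natCast_mem K₀ r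
  have hm' : (0 : ℤ) < m := by exact_mod_cast hm
  obtain ⟨n₀, hn₀⟩ := hV
  -- a rational multiplier
  obtain ⟨y, hy0, hyr, hyR⟩ : ∃ y : E, y ≠ 0 ∧ RatE Y K₀ y ∧ IsIntegral (rgA D) (y ^ m * f) := by
    set n' : ℕ := n₀ + genusFF K D.S with hn'
    obtain ⟨h1, h2⟩ := hn₀ n' (Nat.le_add_right _ _)
    haveI := h1
    have hne : VSp Y m hm.ne' f n' ≠ ⊥ := by
      intro h
      rw [h, finrank_bot] at h2
      haveI := Y.nonempty
      have h3 : (0 : ℤ) < (Fintype.card C : ℤ) := by exact_mod_cast Fintype.card_pos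
      have h4 : (0 : ℤ) < 2 * (n' : ℤ) + 1 - genusFF K D.S := by
        rw [hn']; push_cast; omega
      have := mul_pos h3 h4
      push_cast at h2
      linarith
    obtain ⟨y, hy, hy0, hyr⟩ := exists_ratE_ne hG _ (VSp_stableE (I := I) hm.ne' hf n') hne
    exact ⟨y, hy0, hyr, hy.1⟩
  choose b ψ hb using fun j c => exists_hasValE R lp hG hy0 hyr j c
  choose kap hkap using fun j c => hcong j c c₀
  -- the normalised function
  have hc0 : (r : K) ^ (-(n 0 c₀)) ≠ 0 := zpow_ne_zero _ hrK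
  set f' : E := (r : K) ^ (-(n 0 c₀)) • (y ^ m * f) with hf'
  have hf'0 : f' ≠ 0 := by
    rw [hf', Algebra.smul_def]
    exact mul_ne_zero ((_root_.map_ne_zero _).mpr hc0) (mul_ne_zero (pow_ne_zero _ hy0) hf0)
  have hf'r : RatE Y K₀ f' := ((hyr.pow m).mul hf).smul (zpow_mem hrK₀ _)
  have hf'R : IsIntegral (rgA D) f' := by
    rw [hf', Algebra.smul_def]
    exact (isIntegral_const (D := D) _).mul hyR
  set δ : ℤ := n 1 c₀ - n 0 c₀ with hδ
  set β : ℕ := (δ % m).toNat with hβ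
  have hβ0 : (β : ℤ) = δ % m := Int.toNat_of_nonneg (Int.emod_nonneg _ hm'.ne')
  have hβm : β ≤ m := by
    have h1 := Int.emod_lt_of_pos δ hm'
    omega
  have hδm := Int.mul_ediv_add_emod δ m
  set a : Fin 2 → C → ℤ := fun j c => b j c + kap j c + ![0, δ / m] j with ha
  have hval' : ∀ j c, Red A ((r : K) ^ (-((m : ℤ) * a j c + bet β j)) • Y.e j c f')
      ((ψ j c ^ m * φ j c : Eb) : LaurentSeries (kk A)) := by
    intro j c
    have h1 := ((hb j c).pow hrK m).mul hrK (hval j c)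
    have h2 := h1.2
    convert h2 using 1
    rw [hf', map_smul, smul_smul, ← zpow_add₀ hrK]
    congr 2
    have hk := hkap j c
    rcases fin2_cases j with rfl | rfl
    · have h3 : a 0 c = b 0 c + kap 0 c + 0 := rfl
      have h4 : (bet β 0 : ℤ) = 0 := rfl
      rw [h3, h4]
      linear_combination hk
    · have h3 : a 1 c = b 1 c + kap 1 c + δ / m := rfl
      have h4 : (bet β 1 : ℤ) = β := rfl
      rw [h3, h4, hβ0]
      have h5 : (m : ℤ) * (δ / m) + δ % m = δ := hδm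
      rw [hδ] at h5
      linear_combination hk - h5
  have hV' : ∃ n₀ : ℕ, ∀ n : ℕ, n₀ ≤ n →
      FiniteDimensional K (VSp Y m hm.ne' f' n) ∧
      VSp Y m hm.ne' f' n ≤ Submodule.span K {u | u ∈ VSp Y m hm.ne' f' n ∧
        ∀ (j : Fin 2) (c : C) l, (Y.e j c u).coeff l ∈ K₀} ∧
      (Fintype.card C : ℤ) * (2 * n + 1 - genusFF K D.S) ≤
        finrank K (VSp Y m hm.ne' f' n) := by
    refine ⟨n₀, fun n hn => ?_⟩
    obtain ⟨h1, h2⟩ := hn₀ n hn
    have heq : VSp Y m hm.ne' f' n = VSp Y m hm.ne' (y ^ m * f) n :=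
      VSp_const_mul hm.ne' _ hc0 n
    have hfin : FiniteDimensional K (VSp Y m hm.ne' f' n) := by
      rw [heq]
      haveI := h1
      exact Module.Finite.equiv (vspMul hm.ne' f hy0 n).symm
    refine ⟨hfin, ?_, ?_⟩
    · refine (span_ratE hG _ (VSp_stableE (I := I) hm.ne' hf'r n)).trans (Submodule.span_mono ?_)
      rintro v ⟨hv, hr⟩
      exact ⟨hv, fun j c l => hr j c l⟩
    · rw [heq, (vspMul hm.ne' f hy0 n).finrank_eq]
      exact h2
  have hφψ : ∀ j c, ψ j c ^ m * φ j c ≠ 0 := fun j c =>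
    mul_ne_zero (pow_ne_zero _ (hb j c).1) (hval j c).1
  have key := node_theorem Y R lp Z P hP hO K₀ I.hk I.hval (genusFF K D.S) T hT hS hm
    hf'0 hf'R (fun j c l => hf'r j c l) a β hβm
    (fun j c => ψ j c ^ m * φ j c) (fun j c => hφψ j c) (fun j c => hval' j c) hV' c₀ v
  have hexp : ∀ j, v.ord (ψ j c₀ ^ m * φ j c₀) = m * v.ord (ψ j c₀) + v.ord (φ j c₀) := fun j => by
    rw [v.ord_mul (pow_ne_zero _ (hb j c₀).1) (hval j c₀).1, H18.ord_pow]
  rw [hexp, hexp, hβ0] at key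
  obtain ⟨⟨c0, h0⟩, ⟨c1, h1⟩⟩ := key
  have hδ' : δ % m = δ - m * (δ / m) := by linarith
  rw [hδ'] at h0 h1
  refine ⟨⟨c0 - v.ord (ψ 0 c₀) - δ / m * T v, ?_⟩, ⟨c1 - v.ord (ψ 1 c₀) + δ / m * T v, ?_⟩⟩
  · linear_combination h0
  · linear_combination h1

end Fermat.Agent.NN
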