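import Fermat.Agent.H11Q.Lattice
import Fermat.Agent.H11Q.NumBdd

/-!
# Lattices over a subfield with the same residue field; descent of subspaces
-/

set_option autoImplicit false
set_option linter.style.haveILetI false

noncomputable section

open IsLocalRing ModularCurve Module

attribute [-instance] HahnSeries.instModule HahnSeries.instSMul HahnSeries.instDistribMulAction
  HahnSeries.instSMulZeroClass

namespace Fermat.Agent.NN

open H11Q

/-! ### pivots and descent -/

section Pivot

variable {K V ι : Type*} [Field K] [AddCommGroup V] [Module K V] [FiniteDimensional K V]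

theorem exists_pivots (f : ι → V →ₗ[K] K) (hf : ∀ v, (∀ i, f i v = 0) → v = 0) :
    ∃ (s : Set (Dual K V)) (b : Basis s K V) (p : s → ι),
      (∀ i, f (p i) (b i) = 1) ∧ ∀ i j, i ≠ j → f (p i) (b j) = 0 := by
  classical
  have hspan : Submodule.span K (Set.range f) = ⊤ := by
    have h1 : (Submodule.span K (Set.range f)).dualCoannihilator = ⊥ := by
      rw [eq_bot_iff]
      intro v hv
      rw [Submodule.mem_dualCoannihilator] at hv
      exact hf v fun i => hv _ (Submodule.subset_span ⟨i, rfl⟩)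
    have h2 := Subspace.dualCoannihilator_dualAnnihilator_eq
      (W := Submodule.span K (Set.range f))
    rw [← h2, h1, Submodule.dualAnnihilator_bot]
  obtain ⟨s, hs, hspan', hli⟩ := exists_linearIndependent K (Set.range f)
  have hs' : ⊤ ≤ Submodule.span K (Set.range (Subtype.val : s → Dual K V)) := by
    rw [Subtype.range_coe, hspan', hspan]
  let β : Basis s K (Dual K V) := Basis.mk hli hs'
  haveI : Finite s := Module.Finite.finite_basis β
  haveI : Fintype s := Fintype.ofFinite s
  let b : Basis s K V := β.dualBasis.map (evalEquiv K V).symm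
  have hb : ∀ i j : s, (i : Dual K V) (b j) = if i = j then 1 else 0 := by
    intro i j
    have h1 : (evalEquiv K V) (b j) = β.dualBasis j := by
      simp only [b, Basis.map_apply, LinearEquiv.apply_symm_apply]
    have h2 : (i : Dual K V) (b j) = (evalEquiv K V) (b j) (i : Dual K V) := rfl
    have h3 : (i : Dual K V) = β i := by rw [Basis.mk_apply]
    rw [h2, h1, h3, Basis.dualBasis_apply_self]
  choose p hp using fun i : s => hs i.2
  refine ⟨s, b, p, fun i => ?_, fun i j hij => ?_⟩
  · rw [hp, hb, if_pos rfl]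
  · rw [hp, hb, if_neg hij]

end Pivot

variable {K : Type*} [Field K]

/-- Descent: a finite dimensional space of series stable under a set of automorphisms is spanned
by its fixed elements. -/
theorem span_fixed {W : Type*} [AddCommGroup W] [Module K W] (V : Submodule K W)
    [FiniteDimensional K V] (e : W →ₗ[K] LaurentSeries K) (he : ∀ v ∈ V, e v = 0 → v = 0)
    (G : Set (K →+* K)) (K₀ : Subfield K) (hK₀ : ∀ z, (∀ σ ∈ G, σ z = z) → z ∈ K₀)
    (hst : ∀ σ ∈ G, ∀ v ∈ V, ∃ v' ∈ V, e v' = coeffMap σ (e v)) :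
    V ≤ Submodule.span K {v | v ∈ V ∧ CoefIn K₀.toSubring (e v)} := by
  classical
  let f : ℤ → V →ₗ[K] K := fun n => (coeffL K n).comp (e.comp V.subtype)
  have hf' : ∀ n (v : V), f n v = (e (v : W)).coeff n := fun n v => rfl
  have hf : ∀ v : V, (∀ n, f n v = 0) → v = 0 := by
    intro v hv
    apply Subtype.ext
    apply he v v.2
    ext n
    exact hv n
  obtain ⟨s, b, p, hp1, hp0⟩ := exists_pivots f hf
  -- coordinates
  have hcoord : ∀ v : V, (∀ i, f (p i) v = 0) → v = 0 := by
    intro v hv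
    haveI : Finite s := Module.Finite.finite_basis b
    haveI : Fintype s := Fintype.ofFinite s
    rw [← b.sum_repr v]
    refine Finset.sum_eq_zero fun j _ => ?_
    have h1 := hv j
    rw [← b.sum_repr v, map_sum, Finset.sum_eq_single j] at h1
    · rw [map_smul, hp1, smul_eq_mul, mul_one] at h1
      rw [h1, zero_smul]
    · intro i _ hij
      rw [map_smul, hp0 j i hij.symm, smul_zero]
    · intro h
      exact absurd (Finset.mem_univ j) h
  have hfix : ∀ j : s, CoefIn K₀.toSubring (e (b j : W)) := by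
    intro j n
    apply hK₀
    intro σ hσ
    obtain ⟨v', hv', he'⟩ := hst σ hσ (b j) (b j).2
    have h1 : (⟨v', hv'⟩ : V) = b j := by
      rw [← sub_eq_zero]
      apply hcoord
      intro i
      rw [map_sub, hf', hf', he', coeffMap_coeff]
      by_cases hij : i = j
      · subst hij
        have h2 := hp1 i
        rw [hf'] at h2
        rw [h2, map_one, sub_self]
      · have h2 := hp0 i j hij
        rw [hf'] at h2
        rw [h2, map_zero, sub_self]
    have h2 : v' = (b j : W) := congrArg Subtype.val h1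
    rw [h2] at he'
    have h3 := congrArg (fun x : LaurentSeries K => x.coeff n) he'
    simp only [coeffMap_coeff] at h3
    exact h3.symm
  intro v hv
  haveI : Finite s := Module.Finite.finite_basis b
  haveI : Fintype s := Fintype.ofFinite s
  have h1 : v = ∑ i, (b.repr ⟨v, hv⟩ i) • (b i : W) := by
    have := congrArg Subtype.val (b.sum_repr ⟨v, hv⟩)
    rw [AddSubmonoidClass.coe_finsetSum] at this
    exact this.symm
  rw [h1]
  exact Submodule.sum_mem _ fun i _ => Submodule.smul_mem _ _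
    (Submodule.subset_span ⟨(b i).2, hfix i⟩)

/-! ### lattices -/

section Lattice

variable (A : ValuationSubring K) (K₀ : Subfield K)
variable {W ι : Type*} [AddCommGroup W] [Module K W]

/-- elements with coefficients in `K₀` -/
def Rat (E : ι → W →ₗ[K] LaurentSeries K) (v : W) : Prop := ∀ i n, (E i v).coeff n ∈ K₀

variable {K₀}

theorem Rat.add {E : ι → W →ₗ[K] LaurentSeries K} {v w : W} (hv : Rat K₀ E v) (hw : Rat K₀ E w) :
    Rat K₀ E (v + w) := fun i n => by
  rw [map_add, HahnSeries.coeff_add]; exact K₀.add_mem (hv i n) (hw i n)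

theorem Rat.sub {E : ι → W →ₗ[K] LaurentSeries K} {v w : W} (hv : Rat K₀ E v) (hw : Rat K₀ E w) :
    Rat K₀ E (v - w) := fun i n => by
  rw [map_sub, HahnSeries.coeff_sub]; exact K₀.sub_mem (hv i n) (hw i n)

theorem Rat.smul {E : ι → W →ₗ[K] LaurentSeries K} {v : W} (hv : Rat K₀ E v) {c : K}
    (hc : c ∈ K₀) : Rat K₀ E (c • v) := fun i n => by
  rw [map_smul, coeff_smul']; exact K₀.mul_mem hc (hv i n)

theorem rat_zero (E : ι → W →ₗ[K] LaurentSeries K) : Rat K₀ E 0 := fun i n => by
  rw [map_zero]; exact K₀.zero_mem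

variable (K₀)

/-- reductions of the `K₀`-rational integral points of `V` -/
def red0 (hk : ∀ c : ResidueField A, ∃ z ∈ K₀, z ∈ A ∧ resid A z = c)
    (V : Submodule K W) (E : ι → W →ₗ[K] LaurentSeries K) :
    Submodule (ResidueField A) (ι → LaurentSeries (ResidueField A)) where
  carrier := {y | ∃ v ∈ V, Rat K₀ E v ∧ (∀ i, IsInt A (E i v)) ∧ ∀ i, y i = rd A (E i v)}
  zero_mem' := ⟨0, V.zero_mem, rat_zero E, fun i => by rw [map_zero]; exact IsInt.zero,
    fun i => by rw [map_zero, rd_zero]; rfl⟩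
  add_mem' := by
    rintro y y' ⟨v, hv, h0, h1, h2⟩ ⟨v', hv', h0', h1', h2'⟩
    refine ⟨v + v', V.add_mem hv hv', h0.add h0', fun i => ?_, fun i => ?_⟩
    · rw [map_add]; exact (h1 i).add (h1' i)
    · rw [map_add, rd_add (h1 i) (h1' i), ← h2, ← h2']; rfl
  smul_mem' := by
    rintro c y ⟨v, hv, h0, h1, h2⟩
    obtain ⟨a, ha0, ha, rfl⟩ := hk c
    refine ⟨a • v, V.smul_mem _ hv, h0.smul ha0, fun i => ?_, fun i => ?_⟩
    · rw [map_smul]; exact (h1 i).smul ha
    · rw [map_smul, rd_smul ha (h1 i), ← h2]; rfl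

variable {A K₀}

theorem mem_red0 {hk : ∀ c : ResidueField A, ∃ z ∈ K₀, z ∈ A ∧ resid A z = c}
    {V : Submodule K W} {E : ι → W →ₗ[K] LaurentSeries K}
    {y : ι → LaurentSeries (ResidueField A)} :
    y ∈ red0 A K₀ hk V E ↔
      ∃ v ∈ V, Rat K₀ E v ∧ (∀ i, IsInt A (E i v)) ∧ ∀ i, y i = rd A (E i v) := Iff.rfl

/-- joint attainedness for rational vectors implies it with rational scalars -/
theorem exists_rat_scale {E : ι → W →ₗ[K] LaurentSeries K} {v : W} (hv : Rat K₀ E v)
    (h : ∃ c : K, c ≠ 0 ∧ (∀ i, IsInt A (c • E i v)) ∧ ∃ i, rd A (c • E i v) ≠ 0) :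
    ∃ c ∈ K₀, c ≠ 0 ∧ (∀ i, IsInt A (c • E i v)) ∧ ∃ i, rd A (c • E i v) ≠ 0 := by
  obtain ⟨c, hc, h1, i, h2⟩ := h
  obtain ⟨n, hn⟩ : ∃ n, (rd A (c • E i v)).coeff n ≠ 0 := by
    by_contra hcon
    push Not at hcon
    exact h2 (HahnSeries.ext (funext hcon))
  rw [rd_coeff, coeff_smul', resid_ne_zero_iff A (by have := h1 i n; rwa [coeff_smul'] at this)]
    at hn
  set x := (E i v).coeff n with hx
  have hx0 : x ≠ 0 := right_ne_zero_of_mul hn.2
  have he : x⁻¹ = (c * x)⁻¹ * c := by
    rw [mul_inv, mul_comm c⁻¹, mul_assoc, inv_mul_cancel₀ hc, mul_one]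
  have hsm : ∀ j, x⁻¹ • E j v = (c * x)⁻¹ • (c • E j v) := fun j => by
    rw [smul_smul, ← he]
  refine ⟨x⁻¹, K₀.inv_mem (hv i n), inv_ne_zero hx0, fun j => ?_, i, ?_⟩
  · rw [hsm]; exact (h1 j).smul hn.1
  · have hu : resid A (c * x)⁻¹ ≠ 0 := by
      rw [resid_ne_zero_iff A hn.1, inv_inv]
      refine ⟨?_, inv_ne_zero hn.2⟩
      have := h1 i n
      rwa [coeff_smul'] at this
    rw [hsm, rd_smul hn.1 (h1 i)]
    intro h0
    apply h2
    ext m
    have h3 := congrArg (fun y : LaurentSeries (ResidueField A) => y.coeff m) h0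
    simp only [coeff_smul'] at h3
    exact (mul_eq_zero.mp h3).resolve_left hu

theorem red0_aux (hk : ∀ c : ResidueField A, ∃ z ∈ K₀, z ∈ A ∧ resid A z = c) (n : ℕ) :
    ∀ (V : Submodule K W) (E : ι → W →ₗ[K] LaurentSeries K),
    FiniteDimensional K V → finrank K V = n →
    V ≤ Submodule.span K {v | v ∈ V ∧ Rat K₀ E v} → JAtt A V E →
    FiniteDimensional (ResidueField A) (red0 A K₀ hk V E) ∧
      finrank (ResidueField A) (red0 A K₀ hk V E) = n := by
  induction n with
  | zero =>
    intro V E hfd hV _ _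
    have h0 : V = ⊥ := Submodule.finrank_eq_zero.1 hV
    have h1 : red0 A K₀ hk V E = ⊥ := by
      rw [eq_bot_iff]
      rintro y ⟨v, hv, _, _, h2⟩
      rw [h0, Submodule.mem_bot] at hv
      rw [Submodule.mem_bot]
      funext i
      rw [h2, hv, map_zero, rd_zero]
      rfl
    rw [h1]
    exact ⟨inferInstance, finrank_bot _ _⟩
  | succ n ih =>
    intro V E hfd hV hrat hatt
    obtain ⟨v, hv, hvr, hv0⟩ : ∃ v ∈ V, Rat K₀ E v ∧ v ≠ 0 := by
      by_contra hcon
      push Not at hcon
      have : V = ⊥ := by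
        rw [eq_bot_iff]
        refine hrat.trans ?_
        rw [Submodule.span_le]
        rintro w ⟨hw, hwr⟩
        exact hcon w hw hwr
      rw [this, finrank_bot] at hV
      omega
    obtain ⟨c, hcK, hc, h1, i₀, h2⟩ := exists_rat_scale hvr (hatt v hv hv0)
    obtain ⟨n₀, hn₀⟩ : ∃ n₀, (rd A (c • E i₀ v)).coeff n₀ ≠ 0 := by
      by_contra hcon
      push Not at hcon
      exact h2 (HahnSeries.ext (funext hcon))
    set v₁ : W := c • v with hv₁
    have hv₁V : v₁ ∈ V := V.smul_mem _ hv
    have hv₁r : Rat K₀ E v₁ := hvr.smul hcK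
    have hE : ∀ i, E i v₁ = c • E i v := fun i => by rw [hv₁, map_smul]
    have hint : ∀ i, IsInt A (E i v₁) := fun i => by rw [hE]; exact h1 i
    rw [← hE, rd_coeff, resid_ne_zero_iff A (hint i₀ n₀)] at hn₀
    let lam : W →ₗ[K] K := (coeffL K n₀).comp (E i₀)
    have hlam' : ∀ w, lam w = (E i₀ w).coeff n₀ := fun w => rfl
    have hlam : lam v₁ ≠ 0 := hn₀.2
    let V' : Submodule K W := V ⊓ LinearMap.ker lam
    have hV'fd : FiniteDimensional K V' := Submodule.finiteDimensional_inf_left _ _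
    obtain ⟨_, hfr⟩ := finrank_of_inf_ker V lam hv₁V hlam hV'fd
    have hV' : finrank K V' = n := by
      have : finrank K V = finrank K V' + 1 := hfr
      omega
    -- `V'` is rational
    have hrat' : V' ≤ Submodule.span K {v | v ∈ V' ∧ Rat K₀ E v} := by
      have key : ∀ w ∈ Submodule.span K {v | v ∈ V ∧ Rat K₀ E v},
          w - (lam w * (lam v₁)⁻¹) • v₁ ∈ Submodule.span K {v | v ∈ V' ∧ Rat K₀ E v} := by
        intro w hw
        induction hw using Submodule.span_induction with
        | mem w hw =>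
          refine Submodule.subset_span ⟨⟨V.sub_mem hw.1 (V.smul_mem _ hv₁V), ?_⟩, ?_⟩
          · rw [SetLike.mem_coe, LinearMap.mem_ker, map_sub, map_smul, smul_eq_mul, mul_assoc,
              inv_mul_cancel₀ hlam, mul_one, sub_self]
          · exact hw.2.sub (hv₁r.smul (K₀.mul_mem (hw.2 _ _) (K₀.inv_mem (hv₁r _ _))))
        | zero => rw [map_zero, zero_mul, zero_smul, sub_zero]; exact Submodule.zero_mem _
        | add x y _ _ hx hy =>
          have : x + y - (lam (x + y) * (lam v₁)⁻¹) • v₁ =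
              (x - (lam x * (lam v₁)⁻¹) • v₁) + (y - (lam y * (lam v₁)⁻¹) • v₁) := by
            rw [map_add, add_mul, add_smul]; abel
          rw [this]
          exact Submodule.add_mem _ hx hy
        | smul a x _ hx =>
          have : a • x - (lam (a • x) * (lam v₁)⁻¹) • v₁ =
              a • (x - (lam x * (lam v₁)⁻¹) • v₁) := by
            rw [smul_sub, ← mul_smul a (lam x * (lam v₁)⁻¹) v₁, map_smul, smul_eq_mul, mul_assoc]
          rw [this]
          exact Submodule.smul_mem _ _ hx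
      intro w hw
      have h3 := key w (hrat hw.1)
      have h4 : lam w = 0 := hw.2
      rwa [h4, zero_mul, zero_smul, sub_zero] at h3
    obtain ⟨ih1, ih2⟩ := ih V' E hV'fd hV' hrat' (fun w hw hw0 => hatt w hw.1 hw0)
    let μ : (ι → LaurentSeries (ResidueField A)) →ₗ[ResidueField A] (ResidueField A) :=
      (coeffL _ n₀).comp (LinearMap.proj i₀)
    have hμ : ∀ y, μ y = (y i₀).coeff n₀ := fun y => rfl
    have hker : red0 A K₀ hk V E ⊓ LinearMap.ker μ = red0 A K₀ hk V' E := by
      apply le_antisymm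
      · rintro y ⟨⟨w, hw, hwr, h3, h4⟩, hy⟩
        rw [SetLike.mem_coe, LinearMap.mem_ker, hμ, h4, rd_coeff] at hy
        set a : K := (E i₀ w).coeff n₀ * ((E i₀ v₁).coeff n₀)⁻¹ with ha
        have haA : a ∈ A := A.mul_mem _ _ (h3 i₀ n₀) hn₀.1
        have haK : a ∈ K₀ := K₀.mul_mem (hwr _ _) (K₀.inv_mem (hv₁r _ _))
        have hares : resid A a = 0 := by
          rw [ha, resid_mul A (h3 i₀ n₀) hn₀.1, hy, zero_mul]
        refine ⟨w - a • v₁, ⟨V.sub_mem hw (V.smul_mem _ hv₁V), ?_⟩, hwr.sub (hv₁r.smul haK),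
          fun i => ?_, fun i => ?_⟩
        · rw [SetLike.mem_coe, LinearMap.mem_ker, map_sub, map_smul, smul_eq_mul]
          change (E i₀ w).coeff n₀ - a * (E i₀ v₁).coeff n₀ = 0
          rw [ha, mul_assoc, inv_mul_cancel₀ hn₀.2, mul_one, sub_self]
        · rw [map_sub, map_smul]
          exact (h3 i).sub ((hint i).smul haA)
        · rw [map_sub, map_smul, rd_sub (h3 i) ((hint i).smul haA), rd_smul haA (hint i), hares,
            zero_smul, sub_zero, h4]
      · rintro y ⟨w, ⟨hw, hw'⟩, hwr, h3, h4⟩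
        refine ⟨⟨w, hw, hwr, h3, h4⟩, ?_⟩
        rw [SetLike.mem_coe, LinearMap.mem_ker, hμ, h4, rd_coeff]
        have : (E i₀ w).coeff n₀ = 0 := hw'
        rw [this, resid_zero]
    have hmem : (fun i => rd A (E i v₁)) ∈ red0 A K₀ hk V E :=
      ⟨v₁, hv₁V, hv₁r, hint, fun i => rfl⟩
    have hμ0 : μ (fun i => rd A (E i v₁)) ≠ 0 := by
      rw [hμ, rd_coeff, resid_ne_zero_iff A (hint i₀ n₀)]
      exact hn₀
    obtain ⟨h5, h6⟩ := finrank_of_inf_ker (red0 A K₀ hk V E) μ hmem hμ0 (by rw [hker]; exact ih1)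
    refine ⟨h5, ?_⟩
    rw [h6, hker, ih2]

theorem finrank_red0 (hk : ∀ c : ResidueField A, ∃ z ∈ K₀, z ∈ A ∧ resid A z = c)
    {V : Submodule K W} {E : ι → W →ₗ[K] LaurentSeries K} [hfd : FiniteDimensional K V]
    (hrat : V ≤ Submodule.span K {v | v ∈ V ∧ Rat K₀ E v}) (hatt : JAtt A V E) :
    finrank (ResidueField A) (red0 A K₀ hk V E) = finrank K V :=
  (red0_aux hk _ V E hfd rfl hrat hatt).2

end Lattice

end Fermat.Agent.NN
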