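import Fermat.Agent.Q.Conc3
import Fermat.Agent.NN.Geo
import Fermat.Agent.NN.Lat
import Fermat.Agent.H29.Inst

/-!
# Covers of the two component data: regularity of reductions and the bound at the nodes
-/

set_option autoImplicit false
set_option linter.style.haveILetI false
set_option linter.unusedSectionVars false
set_option maxSynthPendingDepth 3

noncomputable section

attribute [-instance] HahnSeries.instModule HahnSeries.instSMul HahnSeries.instDistribMulAction
  HahnSeries.instSMulZeroClass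

attribute [local instance 10000] Fermat.Agent.H29.instLS Fermat.Agent.H29.instIF
  Fermat.Agent.H29.instIF2

namespace Fermat.Agent.NN

open ModularCurve HahnSeries Fermat.Agent.Igusa AlgebraicCurve Fermat.Agent.FF Fermat.Agent.H11Q
  Fermat.Agent.Q Polynomial

local notation "kk" => IsLocalRing.ResidueField

section General

/-- reduction of a monic relation -/
theorem rd_relation {K : Type*} [Field K] {A : ValuationSubring K} {x : LaurentSeries K}
    (hx : IsInt A x) {n : ℕ} {a : ℕ → LaurentSeries K} (ha : ∀ i, IsInt A (a i))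
    (h : x ^ n + ∑ i ∈ Finset.range n, a i * x ^ i = 0)
    {Eb : IntermediateField (kk A) (LaurentSeries (kk A))} (T : Subring (LaurentSeries (kk A)))
    (hT : ∀ a ∈ Eb, (∃ p : Polynomial (LaurentSeries (kk A)), p.Monic ∧
      (∀ i, p.coeff i ∈ T) ∧ p.eval a = 0) → a ∈ T)
    (haT : ∀ i, rd A (a i) ∈ T) (hxE : rd A x ∈ Eb) : rd A x ∈ T := by
  apply hT _ hxE
  refine ⟨X ^ n + ∑ i ∈ Finset.range n, Polynomial.C (rd A (a i)) * X ^ i, ?_, ?_, ?_⟩
  · apply monic_X_pow_add
    refine (degree_sum_le _ _).trans_lt ?_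
    refine (Finset.sup_lt_iff (WithBot.bot_lt_coe _)).mpr ?_
    intro i hi
    exact (degree_C_mul_X_pow_le i _).trans_lt
      (WithBot.coe_lt_coe.mpr (Finset.mem_range.mp hi))
  · intro i
    rw [Polynomial.coeff_add, finsetSum_coeff, coeff_X_pow]
    refine T.add_mem ?_ (T.sum_mem fun k _ => ?_)
    · split_ifs
      · exact T.one_mem
      · exact T.zero_mem
    · rw [coeff_C_mul, coeff_X_pow]
      split_ifs
      · rw [mul_one]; exact haT k
      · rw [mul_zero]; exact T.zero_mem
  · have h1 := congrArg (rd A) h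
    have hterm : ∀ i ∈ Finset.range n, IsInt A (a i * x ^ i) := fun i _ => (ha i).mul (hx.pow i)
    rw [rd_add (hx.pow _) (IsInt.sum _ _ hterm), rd_sum _ _ hterm, rd_pow hx, rd_zero] at h1
    rw [eval_add, eval_pow, eval_X, eval_finsetSum, ← h1]
    congr 1
    refine Finset.sum_congr rfl fun i _ => ?_
    rw [eval_mul, eval_C, eval_pow, eval_X, rd_mul (ha i) (hx.pow i), rd_pow hx]

/-- coefficients of the minimal polynomial of an integral element are integral -/
theorem coeff_minpoly_integral {R₀ F E : Type*} [CommRing R₀] [Field F] [Field E] [Algebra R₀ F]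
    [Algebra F E] [Algebra R₀ E] [IsScalarTower R₀ F E] {u : E} (hu : IsIntegral R₀ u) (n : ℕ) :
    IsIntegral R₀ ((minpoly F u).coeff n) := by
  obtain ⟨p, hp, hpu⟩ := id hu
  refine isIntegral_coeff_of_dvd p _ hp (minpoly.monic hu.tower_top) ?_ n
  apply minpoly.dvd
  rw [aeval_map_algebraMap]
  exact hpu

theorem isIntegral_adjoin_map {K F E : Type*} [Field K] [Field F] [Field E] [Algebra K F]
    [Algebra K E] (φ : F →ₐ[K] E) {x : F} {z : E}
    (h : IsIntegral (Algebra.adjoin K {φ x}) z) :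
    ((φ : F →+* E).comp (algebraMap (Algebra.adjoin K {x}) F)).IsIntegralElem z := by
  have hmem : ∀ y : Algebra.adjoin K {x}, φ (y : F) ∈ Algebra.adjoin K {φ x} := by
    rintro ⟨y, hy⟩
    rw [← AlgHom.map_adjoin_singleton]
    exact ⟨y, hy, rfl⟩
  let f : Algebra.adjoin K {x} →+* Algebra.adjoin K {φ x} :=
    { toFun := fun y => ⟨φ (y : F), hmem y⟩
      map_one' := Subtype.ext (map_one φ)
      map_mul' := fun a b => Subtype.ext (map_mul φ _ _)
      map_zero' := Subtype.ext (map_zero φ)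
      map_add' := fun a b => Subtype.ext (map_add φ _ _) }
  have hf : Function.Surjective f := by
    rintro ⟨y, hy⟩
    have hy' := hy
    rw [← AlgHom.map_adjoin_singleton] at hy'
    obtain ⟨y', hy1, hy2⟩ := hy'
    exact ⟨⟨y', hy1⟩, Subtype.ext hy2⟩
  obtain ⟨p, hp, hpz⟩ := h
  have hl : p ∈ lifts f := by
    rw [lifts_iff_coeff_lifts]
    intro n
    exact hf _
  obtain ⟨q, hq, -, hqm⟩ := lifts_and_natDegree_eq_and_monic hl hp
  refine ⟨q, hqm, ?_⟩
  rw [← hpz, ← hq, eval₂_map]
  rfl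

/-- the minimal equation as a sum -/
theorem minpoly_relation {F E : Type*} [Field F] [Field E] [Algebra F E] {u : E}
    (hu : IsIntegral F u) :
    u ^ (minpoly F u).natDegree + ∑ i ∈ Finset.range (minpoly F u).natDegree,
      algebraMap F E ((minpoly F u).coeff i) * u ^ i = 0 := by
  have h1 := minpoly.aeval F u
  rw [aeval_def, eval₂_eq_sum_range, Finset.sum_range_succ] at h1
  rw [(minpoly.monic hu).coeff_natDegree, map_one, one_mul, add_comm] at h1
  exact h1

end General

section Vv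

variable {k : Type*} [Field k] {Eb : IntermediateField k (LaurentSeries k)}

/-- the valuation ring of a place of `Eb`, inside Laurent series -/
def Vv (v : Place k Eb) : Subring (LaurentSeries k) :=
  v.toValuationSubring.toSubring.map (Eb.val.toRingHom)

theorem mem_Vv {v : Place k Eb} {y : Eb} : (y : LaurentSeries k) ∈ Vv v ↔
    y ∈ v.toValuationSubring := by
  constructor
  · rintro ⟨y', hy', h⟩
    have : y' = y := Subtype.ext h
    rw [← this]
    exact hy'
  · intro h
    exact ⟨y, h, rfl⟩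

theorem mem_Vv_iff {v : Place k Eb} {x : LaurentSeries k} : x ∈ Vv v ↔
    ∃ y : Eb, (y : LaurentSeries k) = x ∧ y ∈ v.toValuationSubring := by
  constructor
  · rintro ⟨y', hy', h⟩
    exact ⟨y', h, hy'⟩
  · rintro ⟨y, rfl, h⟩
    exact mem_Vv.mpr h

theorem Vv_int (v : Place k Eb) : ∀ a ∈ Eb, (∃ p : Polynomial (LaurentSeries k), p.Monic ∧
      (∀ i, p.coeff i ∈ Vv v) ∧ p.eval a = 0) → a ∈ Vv v := by
  rintro a ha ⟨p, hp, hc, hpa⟩
  have hl : p ∈ lifts ((algebraMap Eb (LaurentSeries k)).comp v.toValuationSubring.subtype) := by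
    rw [lifts_iff_coeff_lifts]
    intro n
    obtain ⟨y, hy, hy'⟩ := hc n
    exact ⟨⟨y, hy⟩, hy'⟩
  obtain ⟨r, hr, -, hrm⟩ := lifts_and_natDegree_eq_and_monic hl hp
  have hint : IsIntegral v.toValuationSubring (⟨a, ha⟩ : Eb) := by
    refine ⟨r, hrm, ?_⟩
    apply (algebraMap Eb (LaurentSeries k)).injective
    rw [map_zero, ← hpa, ← hr, eval_map, hom_eval₂]
    rfl
  obtain ⟨y, hy⟩ := IsIntegrallyClosed.isIntegral_iff.mp hint
  exact ⟨y, y.2, congrArg Subtype.val hy⟩

end Vv

variable {K : Type*} [Field K] [CharZero K] [IsAlgClosed K] [Algebra ℚ K]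
  [Algebra.IsAlgebraic ℚ K]
variable {r : ℕ} [NeZero r] {D : ALData K r} {A : ValuationSubring K}
  {Eb : IntermediateField (kk A) (LaurentSeries (kk A))}

/-- functions of level `M r` with poles only at the two cusps, as a subalgebra -/
def rgA (D : ALData K r) : Subalgebra K D.S where
  carrier := {z | D.Rg z}
  mul_mem' := fun ha hb v h0 h1 => mul_mem (ha v h0 h1) (hb v h0 h1)
  add_mem' := fun ha hb v h0 h1 => add_mem (ha v h0 h1) (hb v h0 h1)
  algebraMap_mem' := fun c v _ _ => v.algebraMap_mem' c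

theorem mem_rgA {z : D.S} : z ∈ rgA D ↔ D.Rg z := Iff.rfl

/-- the functions with poles only at cusps: integral over `K[j]` -/
abbrev jA (D : ALData K r) : Subalgebra K D.S := Algebra.adjoin K {D.ι D.j}

theorem rgA_integral (R : D.RedHyp A Eb) {z : D.S} (hz : z ∈ rgA D) : IsIntegral (jA D) z := by
  haveI := R.fun₁
  exact Q.ALData.Rg.isIntegral D hz

/-- `rgA` is integrally closed -/
theorem mem_rgA_of_isIntegral {z : D.S} (hz : IsIntegral (rgA D) z) : z ∈ rgA D := by
  intro v h0 h1
  obtain ⟨p, hp, hpz⟩ := hz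
  let f : rgA D →+* v.toValuationSubring :=
    { toFun := fun x => ⟨x, x.2 v h0 h1⟩
      map_one' := rfl
      map_mul' := fun _ _ => rfl
      map_zero' := rfl
      map_add' := fun _ _ => rfl }
  have hint : IsIntegral v.toValuationSubring z := by
    refine ⟨p.map f, hp.map f, ?_⟩
    rw [eval₂_map]
    exact hpz
  obtain ⟨y, hy⟩ := IsIntegrallyClosed.isIntegral_iff.mp hint
  rw [← hy]
  exact y.2

/-- A cover of the two component data, completely split along the two Gauss valuations. -/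
structure Cov (D : ALData K r) (A : ValuationSubring K)
    (Eb : IntermediateField (kk A) (LaurentSeries (kk A)))
    (E : Type*) [Field E] [Algebra K E] [Algebra D.S E] [IsScalarTower K D.S E]
    [FiniteDimensional D.S E] (C : Type*) [Fintype C] where
  e : Fin 2 → C → (E →ₐ[K] LaurentSeries K)
  e_base : ∀ j c x, e j c (algebraMap D.S E x) = D.e j x
  inj : ∀ j, Function.Injective (e j)
  card : Fintype.card C = Module.finrank D.S E
  mem_FL : ∀ j c x, e j c x ∈ FL A
  red_mem : ∀ j c x u, Red A (e j c x) u → u ∈ Eb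

namespace Cov

variable {E : Type*} [Field E] [Algebra K E] [Algebra D.S E] [IsScalarTower K D.S E]
  [FiniteDimensional D.S E] {C : Type*} [Fintype C] (Y : Cov D A Eb E C)

include Y in
theorem nonempty : Nonempty C := by
  rw [← Fintype.card_pos_iff, Y.card]
  exact Module.finrank_pos

theorem coeff_int {u : E} (hi : ∀ j c, IsInt A (Y.e j c u)) (n : ℕ)
    (j : Fin 2) : IsInt A (D.e j ((minpoly D.S u).coeff n)) := by
  classical
  haveI : CharZero D.S := charZero_of_injective_algebraMap (algebraMap K D.S).injective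
  obtain ⟨c₀⟩ := Y.nonempty
  have h := minpoly_coeff_mem (E := D.S) (F := E) c₀ (fun c => (Y.e j c).toRingHom)
    (fun c c' h => Y.inj j (AlgHom.ext fun x => congrArg (fun f : E →+* LaurentSeries K => f x) h))
    (fun c => RingHom.ext fun x => by
      change Y.e j c (algebraMap D.S E x) = Y.e j c₀ (algebraMap D.S E x)
      rw [Y.e_base, Y.e_base]) Y.card (intL A) u
    (fun c => isInt_iff_mem.mp (hi j c)) n
  rw [isInt_iff_mem]
  have h2 : (Y.e j c₀).toRingHom (algebraMap D.S E ((minpoly D.S u).coeff n)) =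
      D.e j ((minpoly D.S u).coeff n) := Y.e_base j c₀ _
  rw [← h2]
  exact h

/-- reductions of integral elements -/
theorem rd_mem_of (T : Subring (LaurentSeries (kk A)))
    (hT : ∀ a ∈ Eb, (∃ p : Polynomial (LaurentSeries (kk A)), p.Monic ∧
      (∀ i, p.coeff i ∈ T) ∧ p.eval a = 0) → a ∈ T) {u : E}
    (hi : ∀ j c, IsInt A (Y.e j c u)) (j : Fin 2) (c : C)
    (hc : ∀ n, rd A (D.e j ((minpoly D.S u).coeff n)) ∈ T) : rd A (Y.e j c u) ∈ T := by
  refine rd_relation (hi j c) (n := (minpoly D.S u).natDegree)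
    (a := fun i => D.e j ((minpoly D.S u).coeff i)) (fun i => Y.coeff_int hi i j) ?_ T hT hc
    (Y.red_mem j c u _ (red_rd (hi j c)))
  have h1 := congrArg (Y.e j c) (minpoly_relation (F := D.S) (u := u)
    (Algebra.IsIntegral.isIntegral u))
  rw [map_add, map_pow, map_sum, map_zero] at h1
  rw [← h1]
  congr 1
  refine Finset.sum_congr rfl fun i _ => ?_
  rw [map_mul, map_pow, Y.e_base]

/-- reductions of functions with poles only over the two cusps -/
theorem rd_mem_O (R : D.RedHyp A Eb) (lp : LevelPack A D.S₀ Eb r) {u : E}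
    (hu : IsIntegral (rgA D) u) (hi : ∀ j c, IsInt A (Y.e j c u)) (j : Fin 2) (c : C) :
    rd A (Y.e j c u) ∈ lp.O := by
  refine Y.rd_mem_of lp.O.toSubring lp.O_int hi j c fun n => ?_
  refine R.rd_mem_O lp ?_ (fun j' => Y.coeff_int hi n j') j
  exact mem_rgA_of_isIntegral (coeff_minpoly_integral (F := D.S) hu n)

end Cov

/-- cuspidal functions of level `M r`: reductions are regular at the places where `j` is. -/
theorem base_rd_mem (R : D.RedHyp A Eb) {v : Place (kk A) Eb}
    (hchart : ∀ x : D.S₀, IsIntegral (Algebra.adjoin K {D.j}) x → IsInt A (x : LaurentSeries K) →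
      rd A (x : LaurentSeries K) ∈ Vv v)
    {z : D.S} (hz : IsIntegral (jA D) z) (hi : ∀ j, IsInt A (D.e j z)) :
    rd A (z : LaurentSeries K) ∈ Vv v := by
  have hcf : ∀ n, IsIntegral (Algebra.adjoin K {D.j}) (D.cf z n) := by
    intro n
    letI := algebraAlong (IntermediateField.inclusion D.le)
    haveI : Module.Finite D.S₀ D.S := D.fin
    letI : Algebra (Algebra.adjoin K {D.j}) D.S := Subalgebra.toAlgebra _
    haveI : IsScalarTower (Algebra.adjoin K {D.j}) D.S₀ D.S :=
      IsScalarTower.of_algebraMap_eq fun _ => rfl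
    have h1 : IsIntegral (Algebra.adjoin K {D.j}) z :=
      isIntegral_adjoin_map (IntermediateField.inclusion D.le) hz
    exact coeff_minpoly_integral (F := D.S₀) h1 n
  have hi0 : IsInt A (z : LaurentSeries K) := hi 0
  refine rd_relation hi0 (n := D.dg z) (a := fun i => (D.cf z i : LaurentSeries K))
    (fun i => R.isInt_cf hi i) ?_ (Vv v) (Vv_int v)
    (fun i => hchart _ (hcf i) (R.isInt_cf hi i)) (R.red_mem _ z.2 _ (red_rd hi0))
  have h1 := congrArg (fun x : D.S => (x : LaurentSeries K)) (D.sum_cf z)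
  have h2 : ((z ^ D.dg z + ∑ i ∈ Finset.range (D.dg z), D.ι (D.cf z i) * z ^ i : D.S) :
        LaurentSeries K) = (z : LaurentSeries K) ^ D.dg z +
        ∑ i ∈ Finset.range (D.dg z), (D.cf z i : LaurentSeries K) * (z : LaurentSeries K) ^ i := by
    rw [AddMemClass.coe_add, SubmonoidClass.coe_pow, AddSubmonoidClass.coe_finsetSum]
    congr 1
  rw [← h2]
  exact h1

/-- `w` preserves the cuspidal functions -/
theorem jA_w (hwj : IsIntegral (jA D) (D.w (D.ι D.j))) {z : D.S} (hz : IsIntegral (jA D) z) :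
    IsIntegral (jA D) (D.w z) := by
  -- `w z` is integral over `K[w j]`
  have h1 : IsIntegral (Algebra.adjoin K {D.w (D.ι D.j)}) (D.w z) := by
    obtain ⟨p, hp, hpz⟩ := hz
    have hmem : ∀ y : jA D, D.w (y : D.S) ∈ Algebra.adjoin K {D.w (D.ι D.j)} := by
      rintro ⟨y, hy⟩
      have := (Subalgebra.mem_map (S := Algebra.adjoin K {D.ι D.j})
        (f := (D.w : D.S →ₐ[K] D.S))).mpr ⟨y, hy, rfl⟩
      rwa [AlgHom.map_adjoin_singleton] at this
    let f : jA D →+* Algebra.adjoin K {D.w (D.ι D.j)} :=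
      { toFun := fun y => ⟨D.w (y : D.S), hmem y⟩
        map_one' := Subtype.ext (map_one D.w)
        map_mul' := fun a b => Subtype.ext (map_mul D.w _ _)
        map_zero' := Subtype.ext (map_zero D.w)
        map_add' := fun a b => Subtype.ext (map_add D.w _ _) }
    refine ⟨p.map f, hp.map f, ?_⟩
    rw [eval₂_map]
    have h2 := congrArg D.w hpz
    rw [map_zero] at h2
    rw [← h2]
    exact (hom_eval₂ p (algebraMap (jA D) D.S) (D.w : D.S →+* D.S) z).symm
  -- and `K[w j]` is integral over `K[j]`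
  obtain ⟨p, hp, hpz⟩ := h1
  have hint : ∀ y ∈ Algebra.adjoin K {D.w (D.ι D.j)}, IsIntegral (jA D) y := by
    intro y hy
    induction hy using Algebra.adjoin_induction with
    | mem y hy =>
      rw [Set.mem_singleton_iff] at hy
      rw [hy]; exact hwj
    | algebraMap a => exact isIntegral_algebraMap (x := algebraMap K (jA D) a)
    | add a b _ _ ha hb => exact ha.add hb
    | mul a b _ _ ha hb => exact ha.mul hb
  by_cases hdeg : p.natDegree = 0
  · exfalso
    have h3 : p = 1 := eq_one_of_monic_natDegree_zero hp hdeg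
    rw [h3, eval₂_one] at hpz
    exact one_ne_zero hpz
  refine IsIntegral.of_aeval_monic_of_isIntegral_coeff
    (p := p.map (algebraMap (Algebra.adjoin K {D.w (D.ι D.j)}) D.S)) (hp.map _) ?_ ?_ ?_
  · rw [hp.natDegree_map]; exact hdeg
  · rw [eval_map, hpz]; exact isIntegral_zero
  · intro i
    rw [coeff_map]
    exact hint _ (p.coeff i).2

theorem base_rd_mem' (R : D.RedHyp A Eb) (hwj : IsIntegral (jA D) (D.w (D.ι D.j)))
    {v : Place (kk A) Eb}
    (hchart : ∀ x : D.S₀, IsIntegral (Algebra.adjoin K {D.j}) x → IsInt A (x : LaurentSeries K) →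
      rd A (x : LaurentSeries K) ∈ Vv v)
    {z : D.S} (hz : IsIntegral (jA D) z) (hi : ∀ j, IsInt A (D.e j z)) (j : Fin 2) :
    rd A (D.e j z) ∈ Vv v := by
  rcases fin2_cases j with rfl | rfl
  · exact base_rd_mem R hchart hz hi
  · refine base_rd_mem R hchart (z := D.w z) (jA_w hwj hz) (fun j => ?_)
    rcases fin2_cases j with rfl | rfl
    · exact hi 1
    · rw [D.e_one_w]; exact hi 0

namespace Cov

variable {E : Type*} [Field E] [Algebra K E] [Algebra D.S E] [IsScalarTower K D.S E]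
  [FiniteDimensional D.S E] {C : Type*} [Fintype C] (Y : Cov D A Eb E C)

/-- reductions of cuspidal functions of the cover -/
theorem rd_mem_Vv (R : D.RedHyp A Eb) (hwj : IsIntegral (jA D) (D.w (D.ι D.j)))
    {v : Place (kk A) Eb}
    (hchart : ∀ x : D.S₀, IsIntegral (Algebra.adjoin K {D.j}) x → IsInt A (x : LaurentSeries K) →
      rd A (x : LaurentSeries K) ∈ Vv v)
    {u : E} (hu : IsIntegral (jA D) u) (hi : ∀ j c, IsInt A (Y.e j c u)) (j : Fin 2) (c : C) :
    rd A (Y.e j c u) ∈ Vv v := by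
  refine Y.rd_mem_of (Vv v) (Vv_int v) hi j c fun n => ?_
  exact base_rd_mem' R hwj hchart (coeff_minpoly_integral (F := D.S) hu n)
    (fun j' => Y.coeff_int hi n j') j

/-- functions with poles only over the two cusps are cuspidal -/
theorem cusp_of_rg (R : D.RedHyp A Eb) {u : E} (hu : IsIntegral (rgA D) u) :
    IsIntegral (jA D) u := by
  obtain ⟨p, hp, hpu⟩ := hu
  by_cases hdeg : p.natDegree = 0
  · exfalso
    have h3 : p = 1 := eq_one_of_monic_natDegree_zero hp hdeg
    rw [h3, eval₂_one] at hpu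
    exact one_ne_zero hpu
  refine IsIntegral.of_aeval_monic_of_isIntegral_coeff
    (p := p.map (algebraMap (rgA D) E)) (hp.map _) ?_ ?_ ?_
  · rw [hp.natDegree_map]; exact hdeg
  · rw [eval_map, hpu]; exact isIntegral_zero
  · intro i
    rw [coeff_map]
    have h4 : IsIntegral (jA D) ((p.coeff i : rgA D) : D.S) := rgA_integral R (p.coeff i).2
    have h5 : algebraMap (rgA D) E (p.coeff i) = algebraMap D.S E ((p.coeff i : rgA D) : D.S) := rfl
    rw [h5]
    exact h4.algebraMap

end Cov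

/-- the special function `t` and the supersingular values -/
structure ZDat (D : ALData K r) (A : ValuationSubring K)
    (Eb : IntermediateField (kk A) (LaurentSeries (kk A))) where
  t : D.S₀
  t_int : IsIntegral (Algebra.adjoin K {D.j}) t
  t_mem : IsInt A (t : LaurentSeries K)
  d_mem : IsInt A ((r : K)⁻¹ • ((t : LaurentSeries K) ^ r - qExpand K r (t : LaurentSeries K)))
  tb : Eb
  tb_eq : (tb : LaurentSeries (kk A)) = rd A (t : LaurentSeries K)
  tb_low : (tb : LaurentSeries (kk A)).order < 0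
  hb : Polynomial (kk A)
  hb_eq : rd A ((r : K)⁻¹ • ((t : LaurentSeries K) ^ r - qExpand K r (t : LaurentSeries K))) *
    ((tb : LaurentSeries (kk A)) - (tb : LaurentSeries (kk A)) ^ r ^ 2) =
      ((aeval tb hb : Eb) : LaurentSeries (kk A))
  S : Finset (kk A)
  S_pow : ∀ σ ∈ S, σ ^ r ^ 2 = σ
  S_ne : ∀ σ ∈ S, hb.eval σ ≠ 0
  wj : IsIntegral (jA D) (D.w (D.ι D.j))
  chart : ∀ v : Place (kk A) Eb, ∀ σ ∈ S, 0 < v.ord (tb - algebraMap (kk A) Eb σ) →
    ∀ x : D.S₀, IsIntegral (Algebra.adjoin K {D.j}) x → IsInt A (x : LaurentSeries K) →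
      rd A (x : LaurentSeries K) ∈ Vv v

section Ord

variable {k κ : Type*} [Field k] [Field κ] [Algebra k κ]

theorem mem_of_ord_sub {v : Place k κ} {x : κ} {σ : k} (h : 0 < v.ord (x - algebraMap k κ σ)) :
    x ∈ v.toValuationSubring := by
  have h1 : x - algebraMap k κ σ ∈ v.toValuationSubring := (H18.mem_iff v).mpr h.le
  have h2 := add_mem h1 (v.algebraMap_mem' σ)
  rwa [sub_add_cancel] at h2

theorem aeval_mem {v : Place k κ} {x : κ} (hx : x ∈ v.toValuationSubring) (P : Polynomial k) :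
    aeval x P ∈ v.toValuationSubring := by
  rw [aeval_eq_sum_range]
  refine sum_mem fun i _ => ?_
  rw [Algebra.smul_def]
  exact mul_mem (v.algebraMap_mem' _) (pow_mem hx _)

theorem ord_aeval_eq_zero {v : Place k κ} {x : κ} {σ : k}
    (h : 0 < v.ord (x - algebraMap k κ σ)) {P : Polynomial k} (hP : P.eval σ ≠ 0) :
    aeval x P ≠ 0 ∧ v.ord (aeval x P) = 0 := by
  obtain ⟨Q, hQ⟩ : (X - Polynomial.C σ) ∣ P - Polynomial.C (P.eval σ) :=
    X_sub_C_dvd_sub_C_eval
  have hx := mem_of_ord_sub h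
  have h1 : aeval x P = algebraMap k κ (P.eval σ) + (x - algebraMap k κ σ) * aeval x Q := by
    have h2 := congrArg (aeval x) hQ
    rw [map_sub, map_mul, map_sub, aeval_X, aeval_C, aeval_C, sub_eq_iff_eq_add'] at h2
    exact h2
  have hc : algebraMap k κ (P.eval σ) ≠ 0 := (_root_.map_ne_zero _).mpr hP
  have h3 : (x - algebraMap k κ σ) * aeval x Q = 0 ∨
      v.ord (algebraMap k κ (P.eval σ)) < v.ord ((x - algebraMap k κ σ) * aeval x Q) := by
    by_cases h0 : (x - algebraMap k κ σ) * aeval x Q = 0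
    · exact Or.inl h0
    · right
      rw [H18.ord_algebraMap, v.ord_mul (left_ne_zero_of_mul h0) (right_ne_zero_of_mul h0)]
      have := (H18.mem_iff v).mp (aeval_mem hx Q)
      omega
  have h4 := H18.ord_add_eq_of_lt v hc h3
  rw [← h1, H18.ord_algebraMap] at h4
  refine ⟨h4.2, h4.1⟩

/-- the order of `x - x^N` at a point where the value of `x` is fixed by `N`-th power -/
theorem ord_sub_pow {v : Place k κ} {x : κ} {σ : k} {N : ℕ} (hN0 : (N : k) = 0)
    (hσ : σ ^ N = σ) (h : 0 < v.ord (x - algebraMap k κ σ)) :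
    x - x ^ N ≠ 0 ∧ v.ord (x - x ^ N) = v.ord (x - algebraMap k κ σ) := by
  set P : Polynomial k := X - X ^ N with hP
  have hroot : P.IsRoot σ := by
    rw [IsRoot.def, hP, eval_sub, eval_X, eval_pow, eval_X, hσ, sub_self]
  obtain ⟨Q, hQ⟩ := dvd_iff_isRoot.mpr hroot
  have hQσ : Q.eval σ = 1 := by
    have h1 := congrArg (fun R : Polynomial k => (derivative R).eval σ) hQ
    simp only [hP, derivative_sub, derivative_X, derivative_X_pow, derivative_mul, eval_sub,
      eval_one, eval_mul, eval_add, eval_X, eval_C, derivative_C, sub_self, zero_mul, add_zero,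
      sub_zero, one_mul, hN0, map_zero] at h1
    exact h1.symm
  obtain ⟨h1, h2⟩ := ord_aeval_eq_zero h (P := Q) (by rw [hQσ]; exact one_ne_zero)
  have h3 : x - x ^ N = (x - algebraMap k κ σ) * aeval x Q := by
    have h4 := congrArg (aeval x) hQ
    rw [hP, map_sub, map_pow, aeval_X, map_mul, map_sub, aeval_X, aeval_C] at h4
    exact h4
  have hne : x - algebraMap k κ σ ≠ 0 := by
    intro h0
    rw [h0, v.ord_zero] at h
    exact lt_irrefl _ h
  refine ⟨by rw [h3]; exact mul_ne_zero hne h1, ?_⟩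
  rw [h3, v.ord_mul hne h1, h2, add_zero]

end Ord

namespace ZDat

variable (Z : ZDat D A Eb)

/-- the functions `t^r - t(q^r)` and its image under `w` -/
def zt : Fin 2 → D.S :=
  ![D.ι Z.t ^ r - D.w (D.ι Z.t), D.w (D.ι Z.t ^ r - D.w (D.ι Z.t))]

theorem zt_zero : Z.zt 0 = D.ι Z.t ^ r - D.w (D.ι Z.t) := rfl

theorem zt_one : Z.zt 1 = D.w (D.ι Z.t ^ r - D.w (D.ι Z.t)) := rfl

theorem e_zt (a : Fin 2) : D.e a (Z.zt a) =
    (Z.t : LaurentSeries K) ^ r - qExpand K r (Z.t : LaurentSeries K) := by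
  rcases fin2_cases a with rfl | rfl
  · rw [zt_zero, map_sub, map_pow, D.e_zero_ι, D.e_zero_w, D.e_one_ι]
  · rw [zt_one, D.e_one_w, map_sub, map_pow, D.e_zero_ι, D.e_zero_w, D.e_one_ι]

theorem e_zt' (a : Fin 2) : D.e (1 - a) (Z.zt a) =
    qExpand K r (Z.t : LaurentSeries K) ^ r - (Z.t : LaurentSeries K) := by
  rcases fin2_cases a with rfl | rfl
  · change D.e 1 (Z.zt 0) = _
    rw [zt_zero, map_sub, map_pow, D.e_one_ι, D.e_one_w, D.e_zero_ι]
  · change D.e 0 (Z.zt 1) = _
    rw [zt_one, D.e_zero_w, map_sub, map_pow, D.e_one_ι, D.e_one_w, D.e_zero_ι]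

theorem isIntegral_t : IsIntegral (jA D) (D.ι Z.t) := by
  have h := Z.t_int
  obtain ⟨p, hp, hpz⟩ := h
  have hmem : ∀ y : Algebra.adjoin K {D.j}, D.ι (y : D.S₀) ∈ jA D := by
    rintro ⟨y, hy⟩
    have := (Subalgebra.mem_map (S := Algebra.adjoin K {D.j}) (f := D.ι)).mpr ⟨y, hy, rfl⟩
    rwa [AlgHom.map_adjoin_singleton] at this
  let f : Algebra.adjoin K {D.j} →+* jA D :=
    { toFun := fun y => ⟨D.ι (y : D.S₀), hmem y⟩
      map_one' := Subtype.ext (map_one D.ι)
      map_mul' := fun a b => Subtype.ext (map_mul D.ι _ _)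
      map_zero' := Subtype.ext (map_zero D.ι)
      map_add' := fun a b => Subtype.ext (map_add D.ι _ _) }
  refine ⟨p.map f, hp.map f, ?_⟩
  rw [eval₂_map]
  have h2 := congrArg D.ι hpz
  rw [map_zero] at h2
  rw [← h2]
  exact (hom_eval₂ p (algebraMap (Algebra.adjoin K {D.j}) D.S₀) (D.ι : D.S₀ →+* D.S) Z.t).symm

theorem isIntegral_zt (a : Fin 2) : IsIntegral (jA D) (Z.zt a) := by
  have h1 := Z.isIntegral_t
  have h2 := jA_w Z.wj h1
  have h3 : IsIntegral (jA D) (Z.zt 0) := (h1.pow r).sub h2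
  rcases fin2_cases a with rfl | rfl
  · exact h3
  · exact jA_w Z.wj h3

variable {E : Type*} [Field E] [Algebra K E] [Algebra D.S E] [IsScalarTower K D.S E]
  [FiniteDimensional D.S E] {C : Type*} [Fintype C] (Y : Cov D A Eb E C)

/-- **The bound at the nodes.** -/
theorem bound (R : D.RedHyp A Eb) (a : Fin 2) {u : E} (hu : IsIntegral (jA D) u) (β : ℕ)
    (h0 : ∀ c, IsInt A (Y.e a c u))
    (h1 : ∀ c, IsInt A (((r : K)⁻¹) ^ β • Y.e (1 - a) c u)) {v : Place (kk A) Eb} {σ : kk A}
    (hσ : σ ∈ Z.S) (hv : 0 < v.ord (Z.tb - algebraMap (kk A) Eb σ)) (c : C) (y : Eb)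
    (hy : (y : LaurentSeries (kk A)) = rd A (Y.e a c u)) (hy0 : y ≠ 0) :
    (β : ℤ) * v.ord (Z.tb - algebraMap (kk A) Eb σ) ≤ v.ord y := by
  have hp := R.prime
  have hrK : (r : K) ≠ 0 := by exact_mod_cast hp.ne_zero
  have hrk : ((r : ℕ) : kk A) = 0 := by
    haveI := H11Q.charP_residue (A := A) hp R.lies
    exact CharP.cast_eq_zero (kk A) r
  set d : LaurentSeries K :=
    (r : K)⁻¹ • ((Z.t : LaurentSeries K) ^ r - qExpand K r (Z.t : LaurentSeries K)) with hd
  set g : E := algebraMap K E (((r : K)⁻¹) ^ β) * (u * algebraMap D.S E (Z.zt a) ^ β) with hg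
  have hgint : IsIntegral (jA D) g := by
    have h2 : IsIntegral (jA D) (algebraMap K E (((r : K)⁻¹) ^ β)) := by
      have h3 : algebraMap K E (((r : K)⁻¹) ^ β) =
          algebraMap (jA D) E (algebraMap K (jA D) (((r : K)⁻¹) ^ β)) := by
        rw [IsScalarTower.algebraMap_apply K D.S E]
        rfl
      rw [h3]
      exact isIntegral_algebraMap
    exact h2.mul (hu.mul ((Z.isIntegral_zt a).algebraMap.pow β))
  have hea : ∀ c, Y.e a c g = Y.e a c u * d ^ β := by
    intro c
    rw [hg, map_mul, map_mul, map_pow (Y.e a c), Y.e_base, Z.e_zt, AlgHom.commutes, hd,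
      Algebra.smul_def, mul_pow, ← map_pow]
    ring
  have hea' : ∀ c, Y.e (1 - a) c g = (((r : K)⁻¹) ^ β • Y.e (1 - a) c u) *
      (qExpand K r (Z.t : LaurentSeries K) ^ r - (Z.t : LaurentSeries K)) ^ β := by
    intro c
    rw [hg, map_mul, map_mul, map_pow (Y.e (1 - a) c), Y.e_base, Z.e_zt', AlgHom.commutes,
      Algebra.smul_def]
    ring
  have hq : IsInt A (qExpand K r (Z.t : LaurentSeries K)) := (isInt_qExpand r).mpr Z.t_mem
  have hgi : ∀ j c, IsInt A (Y.e j c g) := by
    intro j c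
    by_cases hj : j = a
    · subst hj
      rw [hea]
      exact (h0 c).mul (Z.d_mem.pow β)
    · have hj' : j = 1 - a := by
        rcases fin2_cases j with rfl | rfl <;> rcases fin2_cases a with rfl | rfl <;>
          first | rfl | exact absurd rfl hj
      rw [hj', hea']
      exact (h1 c).mul (((hq.pow r).sub Z.t_mem).pow β)
  have hmem := Y.rd_mem_Vv R Z.wj (Z.chart v σ hσ hv) hgint hgi a c
  rw [hea, rd_mul (h0 c) (Z.d_mem.pow β), rd_pow Z.d_mem, ← hy] at hmem
  obtain ⟨G, hG, hGv⟩ := mem_Vv_iff.mp hmem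
  have hN : ((r ^ 2 : ℕ) : kk A) = 0 := by
    rw [Nat.cast_pow, hrk]; exact zero_pow two_ne_zero
  obtain ⟨hz0, hz⟩ := ord_sub_pow hN (Z.S_pow σ hσ) hv
  obtain ⟨hh0, hh⟩ := ord_aeval_eq_zero hv (Z.S_ne σ hσ)
  have hrel : y * aeval Z.tb Z.hb ^ β = G * (Z.tb - Z.tb ^ r ^ 2) ^ β := by
    apply Subtype.ext
    change (y : LaurentSeries (kk A)) * (((aeval Z.tb Z.hb : Eb) : LaurentSeries (kk A))) ^ β =
      (G : LaurentSeries (kk A)) *
        ((Z.tb : LaurentSeries (kk A)) - (Z.tb : LaurentSeries (kk A)) ^ r ^ 2) ^ β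
    rw [← Z.hb_eq, hG, mul_pow]
    ring
  have hG0 : G ≠ 0 := by
    rintro rfl
    rw [zero_mul] at hrel
    exact mul_ne_zero hy0 (pow_ne_zero _ hh0) hrel
  have h5 := congrArg v.ord hrel
  rw [v.ord_mul hy0 (pow_ne_zero _ hh0), v.ord_mul hG0 (pow_ne_zero _ hz0), H18.ord_pow,
    H18.ord_pow, hh, hz, mul_zero, add_zero] at h5
  rw [h5]
  have h6 := (H18.mem_iff v).mp hGv
  linarith

end ZDat

end Fermat.Agent.NN
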