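import Mathlib

/-!
# Kummer extensions `F(f^{1/p})`: explicit algebra
-/

set_option autoImplicit false
set_option linter.unusedSectionVars false

noncomputable section

namespace Fermat.Agent.NN

open Polynomial

section Kummer

variable {K F L : Type*} [Field K] [Field F] [Field L] [Algebra K F] [Algebra K L]
  {p : ℕ} [hp : Fact p.Prime]

/-- the Kummer polynomial -/
def kpol (p : ℕ) (f : F) : F[X] := X ^ p - Polynomial.C f

theorem kpol_monic (f : F) : (kpol p f).Monic := monic_X_pow_sub_C f hp.out.ne_zero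

theorem kpol_natDegree (f : F) : (kpol p f).natDegree = p := natDegree_X_pow_sub_C

theorem eval₂_kpol {T : Type*} [CommRing T] (i : F →+* T) (x : T) (f : F) :
    (kpol p f).eval₂ i x = x ^ p - i f := by
  rw [kpol, eval₂_sub, eval₂_pow, eval₂_X, eval₂_C]

/-- the Kummer extension -/
abbrev KE (p : ℕ) (f : F) := AdjoinRoot (kpol p f)

theorem kpol_irreducible {f : F} (h : ∀ g : F, g ^ p ≠ f) : Irreducible (kpol p f) :=
  X_pow_sub_C_irreducible_of_prime hp.out h

theorem finrank_KE (f : F) : Module.finrank F (KE p f) = p := by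
  rw [(AdjoinRoot.powerBasis' (kpol_monic (p := p) f)).finrank,
    AdjoinRoot.powerBasis'_dim, kpol_natDegree]

instance finite_KE (f : F) : Module.Finite F (KE p f) :=
  (AdjoinRoot.powerBasis' (kpol_monic (p := p) f)).finite

theorem root_pow (f : F) : (AdjoinRoot.root (kpol p f)) ^ p = AdjoinRoot.of (kpol p f) f := by
  have h := AdjoinRoot.eval₂_root (kpol p f)
  rw [eval₂_kpol, sub_eq_zero] at h
  exact h

/-- explicit representation -/
theorem exists_repr (f : F) (u : KE p f) : ∃ a : ℕ → F,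
    u = ∑ i ∈ Finset.range p, AdjoinRoot.of (kpol p f) (a i) * AdjoinRoot.root (kpol p f) ^ i := by
  set P := AdjoinRoot.modByMonicHom (kpol_monic (p := p) f) u with hP
  refine ⟨fun i => P.coeff i, ?_⟩
  have h1 : AdjoinRoot.mk (kpol p f) P = u := AdjoinRoot.mk_leftInverse (kpol_monic f) u
  have h2 : P.natDegree < p := by
    have h3 : P.degree < (kpol p f).degree := by
      obtain ⟨Q, hQ⟩ := AdjoinRoot.mk_surjective u
      rw [hP, ← hQ, AdjoinRoot.modByMonicHom_mk]
      exact degree_modByMonic_lt _ (kpol_monic f)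
    by_cases hP0 : P = 0
    · rw [hP0, natDegree_zero]; exact hp.out.pos
    · rw [← kpol_natDegree (p := p) f]
      exact natDegree_lt_natDegree hP0 h3
  conv_lhs => rw [← h1, P.as_sum_range' p h2]
  rw [map_sum]
  refine Finset.sum_congr rfl fun i _ => ?_
  rw [← C_mul_X_pow_eq_monomial, map_mul, map_pow, AdjoinRoot.mk_C, AdjoinRoot.mk_X]

/-- the character `c ↦ ζ ^ c` -/
def chi {ζ : K} (hζ : IsPrimitiveRoot ζ p) : AddChar (ZMod p) K :=
  AddChar.zmodChar p hζ.pow_eq_one

theorem chi_apply {ζ : K} (hζ : IsPrimitiveRoot ζ p) (c : ZMod p) : chi hζ c = ζ ^ c.val := rfl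

theorem chi_natCast {ζ : K} (hζ : IsPrimitiveRoot ζ p) (n : ℕ) : chi hζ (n : ZMod p) = ζ ^ n :=
  AddChar.zmodChar_apply' _ _

theorem chi_pow_p {ζ : K} (hζ : IsPrimitiveRoot ζ p) (c : ZMod p) : chi hζ c ^ p = 1 := by
  rw [chi_apply, ← pow_mul, mul_comm, pow_mul, hζ.pow_eq_one, one_pow]

theorem chi_ne_zero {ζ : K} (hζ : IsPrimitiveRoot ζ p) (c : ZMod p) : chi hζ c ≠ 0 := by
  intro h
  have := chi_pow_p hζ c
  rw [h, zero_pow hp.out.ne_zero] at this
  exact zero_ne_one this

theorem chi_injective {ζ : K} (hζ : IsPrimitiveRoot ζ p) : Function.Injective (chi hζ) := by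
  intro a b h
  rw [chi_apply, chi_apply] at h
  exact ZMod.val_injective p (hζ.pow_inj (ZMod.val_lt a) (ZMod.val_lt b) h)

theorem chi_mul_nat {ζ : K} (hζ : IsPrimitiveRoot ζ p) (c : ZMod p) (i : ℕ) :
    chi hζ (c * (i : ZMod p)) = chi hζ c ^ i := by
  rw [mul_comm, ← nsmul_eq_mul, AddChar.map_nsmul_eq_pow]

/-- orthogonality -/
theorem sum_chi_pow {ζ : K} (hζ : IsPrimitiveRoot ζ p) {i : ℕ} (hi : i < p) :
    ∑ c : ZMod p, chi hζ c ^ i = if i = 0 then (p : K) else 0 := by
  have h := AddChar.sum_mulShift (i : ZMod p)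
    (AddChar.zmodChar_primitive_of_primitive_root p hζ)
  have h1 : ((i : ZMod p) = 0) ↔ i = 0 := by
    rw [ZMod.natCast_eq_zero_iff]
    constructor
    · intro h
      exact Nat.eq_zero_of_dvd_of_lt h hi
    · rintro rfl
      exact dvd_zero p
  simp only [h1, ZMod.card] at h
  have h2 : (if i = 0 then (p : K) else 0) = ((if i = 0 then p else 0 : ℕ) : K) := by
    split_ifs <;> simp
  rw [h2, ← h]
  exact Finset.sum_congr rfl fun c _ => (chi_mul_nat hζ c i).symm

variable {f : F}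

/-- the embeddings of the Kummer extension -/
def kemb (φ : F →ₐ[K] L) {h : L} (hh : h ^ p = φ f) {ζ : K} (hζ : IsPrimitiveRoot ζ p)
    (c : ZMod p) : KE p f →ₐ[K] L :=
  AdjoinRoot.liftAlgHom (kpol p f) φ (algebraMap K L (chi hζ c) * h) (by
    refine (eval₂_kpol _ _ f).trans ?_
    rw [mul_pow, hh, ← map_pow, chi_pow_p, map_one, one_mul]
    exact sub_self _)

section Emb

variable (φ : F →ₐ[K] L) {h : L} (hh : h ^ p = φ f) {ζ : K} (hζ : IsPrimitiveRoot ζ p)

theorem kemb_of (c : ZMod p) (x : F) : kemb φ hh hζ c (AdjoinRoot.of (kpol p f) x) = φ x := by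
  rw [kemb, AdjoinRoot.liftAlgHom_of]

theorem kemb_root (c : ZMod p) : kemb φ hh hζ c (AdjoinRoot.root (kpol p f)) =
    algebraMap K L (chi hζ c) * h := by
  rw [kemb, AdjoinRoot.liftAlgHom_root]

theorem kemb_sum (c : ZMod p) (a : ℕ → F) :
    kemb φ hh hζ c (∑ i ∈ Finset.range p, AdjoinRoot.of (kpol p f) (a i) *
      AdjoinRoot.root (kpol p f) ^ i) =
    ∑ i ∈ Finset.range p, φ (a i) * (algebraMap K L (chi hζ c) ^ i * h ^ i) := by
  rw [map_sum]
  refine Finset.sum_congr rfl fun i _ => ?_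
  rw [map_mul, map_pow, kemb_of, kemb_root, mul_pow]

theorem kemb_inj (hh0 : h ≠ 0) : Function.Injective (kemb φ hh hζ) := by
  intro c c' hc
  have h1 := congrArg (fun g : KE p f →ₐ[K] L => g (AdjoinRoot.root (kpol p f))) hc
  simp only [kemb_root] at h1
  exact chi_injective hζ ((algebraMap K L).injective (mul_right_cancel₀ hh0 h1))

end Emb

/-- traces -/
theorem exists_trace (u : KE p f) : ∃ a : F, ∀ (φ : F →ₐ[K] L) {h : L} (hh : h ^ p = φ f) {ζ : K}
    (hζ : IsPrimitiveRoot ζ p), φ a = ∑ c : ZMod p, kemb φ hh hζ c u := by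
  obtain ⟨a, rfl⟩ := exists_repr f u
  refine ⟨(p : F) * a 0, fun φ h hh ζ hζ => ?_⟩
  simp only [kemb_sum]
  rw [Finset.sum_comm]
  have h1 : ∀ i ∈ Finset.range p, (∑ c : ZMod p, φ (a i) * (algebraMap K L (chi hζ c) ^ i * h ^ i))
      = if i = 0 then (p : L) * φ (a 0) else 0 := by
    intro i hi
    rw [← Finset.mul_sum, ← Finset.sum_mul]
    simp only [← map_pow, ← map_sum]
    rw [sum_chi_pow hζ (Finset.mem_range.mp hi)]
    split_ifs with h0
    · subst h0
      rw [map_natCast, pow_zero]; ring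
    · rw [map_zero, zero_mul, mul_zero]
  rw [Finset.sum_congr rfl h1, Finset.sum_ite_eq' _ 0, if_pos (Finset.mem_range.mpr hp.out.pos),
    map_mul, map_natCast]

/-- deck transformations -/
def ktau (f : F) {ζ : K} (hζ : IsPrimitiveRoot ζ p) (t : ZMod p) : KE p f →ₐ[K] KE p f :=
  AdjoinRoot.liftAlgHom (kpol p f) (AdjoinRoot.ofAlgHom K (kpol p f))
    (algebraMap K (KE p f) (chi hζ t) * AdjoinRoot.root (kpol p f)) (by
    refine (eval₂_kpol _ _ f).trans ?_
    rw [mul_pow, root_pow, ← map_pow, chi_pow_p, map_one, one_mul]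
    exact sub_self _)

theorem ktau_of {ζ : K} (hζ : IsPrimitiveRoot ζ p) (t : ZMod p) (x : F) :
    ktau f hζ t (AdjoinRoot.of (kpol p f) x) = AdjoinRoot.of (kpol p f) x := by
  rw [ktau, AdjoinRoot.liftAlgHom_of]
  rfl

theorem ktau_root {ζ : K} (hζ : IsPrimitiveRoot ζ p) (t : ZMod p) :
    ktau f hζ t (AdjoinRoot.root (kpol p f)) =
      algebraMap K (KE p f) (chi hζ t) * AdjoinRoot.root (kpol p f) := by
  rw [ktau, AdjoinRoot.liftAlgHom_root]

theorem kemb_ktau (φ : F →ₐ[K] L) {h : L} (hh : h ^ p = φ f) {ζ : K} (hζ : IsPrimitiveRoot ζ p)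
    (c t : ZMod p) (u : KE p f) :
    kemb φ hh hζ c (ktau f hζ t u) = kemb φ hh hζ (c + t) u := by
  obtain ⟨a, rfl⟩ := exists_repr f u
  rw [map_sum, map_sum, map_sum]
  refine Finset.sum_congr rfl fun i _ => ?_
  rw [map_mul, map_pow, ktau_of, ktau_root, map_mul, map_pow, kemb_of, map_mul, kemb_root,
    AlgHom.commutes, map_mul, map_pow, kemb_of, kemb_root, AddChar.map_add_eq_mul, map_mul]
  ring

theorem ktau_injective {ζ : K} (hζ : IsPrimitiveRoot ζ p) (hf : ∀ g : F, g ^ p ≠ f)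
    (t : ZMod p) : Function.Injective (ktau f hζ t) := by
  haveI : Fact (Irreducible (kpol p f)) := ⟨kpol_irreducible hf⟩
  exact (ktau f hζ t).toRingHom.injective

/-- the eigencomponents -/
theorem eigen_proj {ζ : K} (hζ : IsPrimitiveRoot ζ p) (a : ℕ → F) {i : ℕ} (hi : i < p) :
    (p : KE p f) * (AdjoinRoot.of (kpol p f) (a i) * AdjoinRoot.root (kpol p f) ^ i) =
      ∑ t : ZMod p, algebraMap K (KE p f) (chi hζ (-t) ^ i) *
        ktau f hζ t (∑ k ∈ Finset.range p, AdjoinRoot.of (kpol p f) (a k) *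
          AdjoinRoot.root (kpol p f) ^ k) := by
  have h1 : ∀ t : ZMod p, algebraMap K (KE p f) (chi hζ (-t) ^ i) *
        ktau f hζ t (∑ k ∈ Finset.range p, AdjoinRoot.of (kpol p f) (a k) *
          AdjoinRoot.root (kpol p f) ^ k) =
      ∑ k ∈ Finset.range p, algebraMap K (KE p f) (chi hζ (-t) ^ i * chi hζ t ^ k) *
        (AdjoinRoot.of (kpol p f) (a k) * AdjoinRoot.root (kpol p f) ^ k) := by
    intro t
    rw [map_sum, Finset.mul_sum]
    refine Finset.sum_congr rfl fun k _ => ?_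
    rw [map_mul (ktau f hζ t), map_pow (ktau f hζ t), ktau_of, ktau_root,
      map_mul (algebraMap K (KE p f)), map_pow (algebraMap K (KE p f)) (chi hζ t), mul_pow]
    ring
  simp only [h1]
  rw [Finset.sum_comm]
  have h2 : ∀ k ∈ Finset.range p, (∑ t : ZMod p, algebraMap K (KE p f)
      (chi hζ (-t) ^ i * chi hζ t ^ k) *
        (AdjoinRoot.of (kpol p f) (a k) * AdjoinRoot.root (kpol p f) ^ k)) =
      if k = i then (p : KE p f) * (AdjoinRoot.of (kpol p f) (a i) *
        AdjoinRoot.root (kpol p f) ^ i) else 0 := by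
    intro k hk
    rw [← Finset.sum_mul, ← map_sum]
    have h3 : ∑ t : ZMod p, chi hζ (-t) ^ i * chi hζ t ^ k =
        ∑ t : ZMod p, chi hζ (t * ((k : ZMod p) - (i : ZMod p))) := by
      refine Finset.sum_congr rfl fun t _ => ?_
      rw [← chi_mul_nat, ← chi_mul_nat, ← AddChar.map_add_eq_mul]
      congr 1
      ring
    have h4 := AddChar.sum_mulShift ((k : ZMod p) - (i : ZMod p))
      (AddChar.zmodChar_primitive_of_primitive_root p hζ)
    have h5 : ((k : ZMod p) - (i : ZMod p) = 0) ↔ k = i := by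
      rw [sub_eq_zero, ZMod.natCast_eq_natCast_iff', Nat.mod_eq_of_lt (Finset.mem_range.mp hk),
        Nat.mod_eq_of_lt hi]
    simp only [h5, ZMod.card] at h4
    rw [h3]
    change algebraMap K (KE p f) (∑ t : ZMod p, AddChar.zmodChar p _ (t * (_ - _))) * _ = _
    rw [h4]
    split_ifs with h6
    · subst h6
      rw [map_natCast]
    · rw [Nat.cast_zero, map_zero, zero_mul]
  rw [Finset.sum_congr rfl h2, Finset.sum_ite_eq' _ i, if_pos (Finset.mem_range.mpr hi)]

end Kummer

end Fermat.Agent.NN
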