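import Fermat.Agent.NN.Node
import Fermat.Agent.Q.Conc5

/-!
# The node theorem for `X₀(M r)` itself (trivial cover)
-/

set_option autoImplicit false
set_option linter.style.haveILetI false
set_option linter.unusedSectionVars false
set_option maxSynthPendingDepth 3

noncomputable section

attribute [-instance] HahnSeries.instModule HahnSeries.instSMul HahnSeries.instDistribMulAction
  HahnSeries.instSMulZeroClass

attribute [local instance 10000] Fermat.Agent.H29.instLS Fermat.Agent.H29.instIF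
  Fermat.Agent.H29.instIF2

namespace Fermat.Agent.NN

open ModularCurve HahnSeries Fermat.Agent.Igusa AlgebraicCurve Fermat.Agent.FF Fermat.Agent.H11Q
  Fermat.Agent.Q Module

local notation "kk" => IsLocalRing.ResidueField

variable {K : Type*} [Field K] [CharZero K] [IsAlgClosed K] [Algebra ℚ K]
  [Algebra.IsAlgebraic ℚ K]
variable {r : ℕ} [NeZero r] {D : ALData K r} {A : ValuationSubring K}
  {Eb : IntermediateField (kk A) (LaurentSeries (kk A))}

/-- The trivial cover. -/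
def trivCov (R : D.RedHyp A Eb) : Cov D A Eb D.S Unit where
  e j _ := D.e j
  e_base _ _ _ := rfl
  inj _ _ _ _ := rfl
  card := by rw [Fintype.card_unit, Module.finrank_self]
  mem_FL j _ x := R.e_mem_FL j x
  red_mem j _ x u hu := by
    rcases fin2_cases j with rfl | rfl
    · exact R.red_mem _ x.2 u hu
    · exact R.red_mem _ (D.w x).2 u hu

theorem trivCov_e (R : D.RedHyp A Eb) (j : Fin 2) (c : Unit) (x : D.S) :
    (trivCov R).e j c x = D.e j x := rfl

theorem isIntegral_rgA_iff {z : D.S} : IsIntegral (rgA D) z ↔ D.Rg z := by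
  constructor
  · exact mem_rgA_of_isIntegral
  · intro h
    exact isIntegral_algebraMap (R := rgA D) (x := (⟨z, h⟩ : rgA D))

theorem mem_VSp_triv (R : D.RedHyp A Eb) {m : ℕ} {hm : m ≠ 0} {f : D.S} {n : ℤ} {u : D.S} :
    u ∈ VSp (trivCov R) m hm f n ↔ D.Rg (u ^ m * f) ∧
      ∀ j, Low (D.e j (u ^ m * f)) (m * (-n)) := by
  rw [mem_VSp]
  refine and_congr isIntegral_rgA_iff ?_
  exact ⟨fun h j => h j (), fun h j _ => h j⟩

/-- comparison with the Riemann–Roch spaces -/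
theorem VSp_eq_M (R : D.RedHyp A Eb) (lp : LevelPack A D.S₀ Eb r) {m : ℕ} (hm : m ≠ 0) {f : D.S}
    (hf : f ≠ 0) {Dv : Divisor K D.S} (hD : ∀ v, (m : ℤ) * Dv v = v.ord f) (n : ℤ) :
    VSp (trivCov R) m hm f n = (R.twoComp lp).M Dv n := by
  ext z
  by_cases hz : z = 0
  · subst hz
    exact ⟨fun _ => Submodule.zero_mem _, fun _ => Submodule.zero_mem _⟩
  · rw [mem_VSp_triv, TwoComp.mem_M_iff' hm hf hD hz]
    exact Iff.rfl

/-! ### the inertia field -/

/-- a set of Galois elements with fixed field `K₀`, unramified with full residue field -/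
structure InertData (D : ALData K r) (A : ValuationSubring K) (K₀ : Subfield K) where
  G : Set D.Gal
  fix : ∀ z : K, (∀ τ ∈ G, τ.σ z = z) ↔ z ∈ K₀
  hk : ∀ c : kk A, ∃ z ∈ K₀, z ∈ A ∧ resid A z = c
  hval : ∀ z ∈ K₀, z ≠ 0 → ∃ n : ℤ, A.valuation z = A.valuation (r : K) ^ n

variable {K₀ : Subfield K} (I : InertData D A K₀)

/-- rational functions -/
def RatS (D : ALData K r) (K₀ : Subfield K) (g : D.S) : Prop := ∀ j l, (D.e j g).coeff l ∈ K₀

include I

theorem ratS_iff {g : D.S} : RatS D K₀ g ↔ ∀ τ ∈ I.G, τ.g • g = g := by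
  constructor
  · intro h τ hτ
    refine (D.e 0).injective ?_
    change D.e 0 (τ.g • g) = D.e 0 g
    rw [τ.e_smul]
    ext l
    rw [coeffMap_coeff]
    exact (I.fix _).mpr (h 0 l) τ hτ
  · intro h j l
    rw [← I.fix]
    intro τ hτ
    have h1 := congrArg (fun x => (D.e j x).coeff l) (h τ hτ)
    simp only [τ.e_smul, coeffMap_coeff] at h1
    exact h1

theorem ratS_of_zero {g : D.S} (h : ∀ l, (D.e 0 g).coeff l ∈ K₀) : RatS D K₀ g := by
  rw [ratS_iff I]
  intro τ hτ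
  refine (D.e 0).injective ?_
  change D.e 0 (τ.g • g) = D.e 0 g
  rw [τ.e_smul]
  ext l
  rw [coeffMap_coeff]
  exact (I.fix _).mpr (h l) τ hτ

/-- Galois stable spaces are spanned by rational functions. -/
theorem span_ratS (V : Submodule K D.S) [FiniteDimensional K V]
    (hst : ∀ τ ∈ I.G, ∀ v ∈ V, τ.g • v ∈ V) :
    V ≤ Submodule.span K {v | v ∈ V ∧ RatS D K₀ v} := by
  have h := span_fixed V (D.e 0).toLinearMap
    (fun v _ hv => (D.e 0).injective (by rw [map_zero]; exact hv))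
    {σ | ∃ τ ∈ I.G, τ.σ = σ} K₀
    (fun z hz => (I.fix z).mp fun τ hτ => hz τ.σ ⟨τ, hτ, rfl⟩)
    (by
      rintro _ ⟨τ, hτ, rfl⟩ v hv
      exact ⟨τ.g • v, hst τ hτ v hv, τ.e_smul 0 v⟩)
  refine h.trans (Submodule.span_mono ?_)
  rintro v ⟨hv, hc⟩
  exact ⟨hv, ratS_of_zero I fun l => hc l⟩

theorem exists_ratS_ne (V : Submodule K D.S) [FiniteDimensional K V]
    (hst : ∀ τ ∈ I.G, ∀ v ∈ V, τ.g • v ∈ V) (hV : V ≠ ⊥) :
    ∃ v ∈ V, v ≠ 0 ∧ RatS D K₀ v := by
  by_contra hcon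
  push Not at hcon
  apply hV
  rw [eq_bot_iff]
  refine (span_ratS I V hst).trans ?_
  rw [Submodule.span_le]
  rintro v ⟨hv, hr⟩
  by_contra h0
  exact hcon v hv h0 hr

omit I in
theorem RatS.mul {f g : D.S} (hf : RatS D K₀ f) (hg : RatS D K₀ g) : RatS D K₀ (f * g) := by
  intro j l
  rw [map_mul]
  exact CoefIn.mul (R := K₀.toSubring) (fun l => hf j l) (fun l => hg j l) l

omit I in
theorem RatS.one : RatS D K₀ (1 : D.S) := by
  intro j l
  rw [map_one, HahnSeries.coeff_one]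
  split_ifs
  · exact K₀.one_mem
  · exact K₀.zero_mem

omit I in
theorem RatS.pow {f : D.S} (hf : RatS D K₀ f) (n : ℕ) : RatS D K₀ (f ^ n) := by
  induction n with
  | zero => rw [pow_zero]; exact RatS.one
  | succ n ih => rw [pow_succ]; exact ih.mul hf

omit I in
theorem RatS.smul {f : D.S} (hf : RatS D K₀ f) {c : K} (hc : c ∈ K₀) : RatS D K₀ (c • f) := by
  intro j l
  rw [map_smul, H11Q.coeff_smul']
  exact K₀.mul_mem hc (hf j l)

theorem RatS.inv {f : D.S} (hf : RatS D K₀ f) : RatS D K₀ f⁻¹ := by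
  rw [ratS_iff I] at hf ⊢
  intro τ hτ
  have h := map_inv₀ (SemilinearAut.toRingAut τ.g).toRingHom f
  have h2 : (SemilinearAut.toRingAut τ.g).toRingHom f = f := hf τ hτ
  rw [h2] at h
  exact h

omit I in
theorem smul_mul_gal (τ : D.Gal) (x y : D.S) : τ.g • (x * y) = (τ.g • x) * (τ.g • y) :=
  map_mul (SemilinearAut.toRingAut τ.g).toRingHom x y

omit I in
theorem smul_pow_gal (τ : D.Gal) (x : D.S) (n : ℕ) : τ.g • (x ^ n) = (τ.g • x) ^ n :=
  map_pow (SemilinearAut.toRingAut τ.g).toRingHom x n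

omit I in
theorem low_coeffMap {k' : Type*} [Field k'] (σ : k' →+* k') {x : LaurentSeries k'} {n : ℤ}
    (h : Low x n) : Low (coeffMap σ x) n := fun i hi => by
  rw [coeffMap_coeff, h i hi, map_zero]

/-- the space of `u` with `u ^ m f` cuspidal is Galois stable for rational `f` -/
theorem VSp_stable (R : D.RedHyp A Eb) {m : ℕ} (hm : m ≠ 0) {f : D.S} (hf : RatS D K₀ f) (n : ℤ) :
    ∀ τ ∈ I.G, ∀ v ∈ VSp (trivCov R) m hm f n, τ.g • v ∈ VSp (trivCov R) m hm f n := by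
  intro τ hτ v hv
  rw [mem_VSp_triv] at hv ⊢
  have h1 : (τ.g • v) ^ m * f = τ.g • (v ^ m * f) := by
    rw [smul_mul_gal, smul_pow_gal, (ratS_iff I).mp hf τ hτ]
  rw [h1]
  refine ⟨τ.rg_smul hv.1, fun j => ?_⟩
  rw [τ.e_smul]
  exact low_coeffMap τ.σ (hv.2 j)

/-- rational multipliers -/
theorem exists_mult (R : D.RedHyp A Eb) (lp : LevelPack A D.S₀ Eb r) {m : ℕ} (hm : m ≠ 0)
    {f : D.S} (hf0 : f ≠ 0) (hf : RatS D K₀ f) (hdvd : ∀ v : Place K D.S, (m : ℤ) ∣ v.ord f) :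
    ∃ y : D.S, y ≠ 0 ∧ RatS D K₀ y ∧ D.Rg (y ^ m * f) := by
  haveI := R.fun₁
  obtain ⟨Dv, hD⟩ := TwoComp.exists_D hdvd
  have hdeg := TwoComp.degree_eq_zero hm hD
  have h1 := (R.twoComp lp).finrank_M Dv (n := genusFF K D.S) (by rw [hdeg]; omega)
  have h2 : (R.twoComp lp).M Dv (genusFF K D.S) ≠ ⊥ := by
    intro h
    rw [h, finrank_bot, hdeg] at h1
    push_cast at h1
    have : (0 : ℤ) ≤ genusFF K D.S := Int.natCast_nonneg _
    linarith
  rw [← VSp_eq_M R lp hm hf0 hD] at h2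
  haveI : FiniteDimensional K (VSp (trivCov R) m hm f (genusFF K D.S)) := by
    rw [VSp_eq_M R lp hm hf0 hD]; infer_instance
  obtain ⟨y, hy, hy0, hyr⟩ := exists_ratS_ne I _ (VSp_stable I R hm hf _) h2
  exact ⟨y, hy0, hyr, (mem_VSp_triv R).mp hy |>.1⟩

/-- rational denominators -/
theorem exists_den (R : D.RedHyp A Eb) (lp : LevelPack A D.S₀ Eb r) {g : D.S} (hg0 : g ≠ 0)
    (hg : RatS D K₀ g) : ∃ b : D.S, b ≠ 0 ∧ RatS D K₀ b ∧ D.Rg b ∧ D.Rg (b * g) := by
  haveI := R.fun₁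
  set T := R.twoComp lp with hT
  set E : Divisor K D.S := (FF.div g).mapRange (fun n => min n 0) (by simp) with hE
  have hEv : ∀ v, E v = min (v.ord g) 0 := by
    intro v
    rw [hE, Finsupp.mapRange_apply, FF.div_apply]
  set n : ℤ := |Divisor.degree E| + genusFF K D.S with hn
  have hpos : (0 : ℤ) ≤ genusFF K D.S := Int.natCast_nonneg _
  have habs := neg_abs_le (Divisor.degree E)
  have habs' := abs_nonneg (Divisor.degree E)
  have h1 := T.finrank_M E (n := n) (by omega)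
  -- the stable space
  set V : Submodule K D.S := VSp (trivCov R) 1 one_ne_zero (1 : D.S) n ⊓
    VSp (trivCov R) 1 one_ne_zero g n with hV
  have hrow1 : ∀ z, z ∈ VSp (trivCov R) 1 one_ne_zero (1 : D.S) n ↔
      D.Rg z ∧ ∀ j, Low (D.e j z) (-n) := by
    intro z
    rw [mem_VSp_triv, pow_one, mul_one, Nat.cast_one, one_mul]
  have hrow2 : ∀ z, z ∈ VSp (trivCov R) 1 one_ne_zero g n ↔
      D.Rg (z * g) ∧ ∀ j, Low (D.e j (z * g)) (-n) := by
    intro z
    rw [mem_VSp_triv, pow_one, Nat.cast_one, one_mul]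
  have hMV : T.M E n ≤ V := by
    intro z hz
    by_cases hz0 : z = 0
    · rw [hz0]; exact Submodule.zero_mem _
    rw [T.mem_M_iff hz0] at hz
    have hle : ∀ v, 0 ≤ v.ord z + E v → 0 ≤ v.ord z ∧ 0 ≤ v.ord (z * g) := by
      intro v hv
      rw [hEv] at hv
      rw [v.ord_mul hz0 hg0]
      have := min_le_left (v.ord g) 0
      have := min_le_right (v.ord g) 0
      constructor <;> linarith
    have hzg := mul_ne_zero hz0 hg0
    refine ⟨(hrow1 z).mpr ⟨fun v h0 h1 => (H18.mem_iff v).mpr (hle v (hz.1 v h0 h1)).1, fun j => ?_⟩,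
      (hrow2 z).mpr ⟨fun v h0 h1 => (H18.mem_iff v).mpr (hle v (hz.1 v h0 h1)).2, fun j => ?_⟩⟩
    · have h2 := hz.2 j
      have h3 : Low (T.e j z) (-n) ↔ -n ≤ (T.P j).ord z := T.low_e_iff hz0
      refine h3.mpr ?_
      rw [hEv] at h2
      have := min_le_right ((T.P j).ord g) 0
      linarith
    · have h2 := hz.2 j
      have h3 : Low (T.e j (z * g)) (-n) ↔ -n ≤ (T.P j).ord (z * g) := T.low_e_iff hzg
      refine h3.mpr ?_
      rw [hEv] at h2
      rw [(T.P j).ord_mul hz0 hg0]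
      have := min_le_left ((T.P j).ord g) 0
      linarith
  have hVne : V ≠ ⊥ := by
    intro h
    rw [h, le_bot_iff] at hMV
    rw [hMV, finrank_bot] at h1
    push_cast at h1
    linarith
  have hD0 : ∀ v : Place K D.S, ((1 : ℕ) : ℤ) * (0 : Divisor K D.S) v = v.ord (1 : D.S) := by
    intro v
    rw [v.ord_one]
    simp
  haveI : FiniteDimensional K (VSp (trivCov R) 1 one_ne_zero (1 : D.S) n) := by
    rw [VSp_eq_M R lp one_ne_zero one_ne_zero hD0]; infer_instance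
  haveI : FiniteDimensional K V := Submodule.finiteDimensional_inf_left _ _
  obtain ⟨b, hb, hb0, hbr⟩ := exists_ratS_ne I V (fun τ hτ v hv =>
    ⟨VSp_stable I R one_ne_zero RatS.one n τ hτ v hv.1,
      VSp_stable I R one_ne_zero hg n τ hτ v hv.2⟩) hVne
  exact ⟨b, hb0, hbr, ((hrow1 b).mp hb.1).1, ((hrow2 b).mp hb.2).1⟩

/-! ### valuations of rational functions -/

omit I in
/-- `f` has valuation `n` along the `j`-th component, with reduction `φ` -/
def HasVal (D : ALData K r) (A : ValuationSubring K)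
    (Eb : IntermediateField (kk A) (LaurentSeries (kk A))) (j : Fin 2) (f : D.S) (n : ℤ)
    (φ : Eb) : Prop :=
  φ ≠ 0 ∧ Red A ((r : K) ^ (-n) • D.e j f) (φ : LaurentSeries (kk A))

omit I in
theorem zpow_neg_smul_mul (hr : (r : K) ≠ 0) (n n' : ℤ) (x y : LaurentSeries K) :
    (r : K) ^ (-(n + n')) • (x * y) = ((r : K) ^ (-n) • x) * ((r : K) ^ (-n') • y) := by
  have h1 : (r : K) ^ (-(n + n')) = (r : K) ^ (-n) * (r : K) ^ (-n') := by
    rw [← zpow_add₀ hr]; congr 1; ring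
  simp only [Algebra.smul_def]
  rw [h1, map_mul]
  ring

omit I in
theorem HasVal.mul (hr : (r : K) ≠ 0) {j : Fin 2} {f g : D.S} {n n' : ℤ} {φ ψ : Eb}
    (hf : HasVal D A Eb j f n φ) (hg : HasVal D A Eb j g n' ψ) :
    HasVal D A Eb j (f * g) (n + n') (φ * ψ) := by
  refine ⟨mul_ne_zero hf.1 hg.1, ?_⟩
  rw [map_mul, zpow_neg_smul_mul hr]
  exact hf.2.mul hg.2

omit I in
theorem HasVal.inv {j : Fin 2} {f : D.S} {n : ℤ} {φ : Eb}
    (hf : HasVal D A Eb j f n φ) : HasVal D A Eb j f⁻¹ (-n) φ⁻¹ := by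
  refine ⟨inv_ne_zero hf.1, ?_⟩
  have h1 := hf.2.inv (fun h => hf.1 (Subtype.ext h))
  have h2 : (r : K) ^ (-(-n)) • D.e j f⁻¹ = ((r : K) ^ (-n) • D.e j f)⁻¹ := by
    rw [map_inv₀ (D.e j), Algebra.smul_def, Algebra.smul_def, mul_inv,
      ← map_inv₀ (algebraMap K (LaurentSeries K)), zpow_neg (r : K) (-n)]
  rw [h2]
  exact h1

omit I in
theorem HasVal.one (j : Fin 2) : HasVal D A Eb j (1 : D.S) 0 1 := by
  refine ⟨one_ne_zero, ?_⟩
  rw [map_one, neg_zero, zpow_zero, one_smul]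
  exact Red.one

omit I in
theorem HasVal.pow (hr : (r : K) ≠ 0) {j : Fin 2} {f : D.S} {n : ℤ} {φ : Eb}
    (hf : HasVal D A Eb j f n φ) (m : ℕ) : HasVal D A Eb j (f ^ m) (m * n) (φ ^ m) := by
  induction m with
  | zero =>
    rw [pow_zero, pow_zero, Nat.cast_zero, zero_mul]; exact HasVal.one j
  | succ m ih =>
    rw [pow_succ, pow_succ, Nat.cast_succ, add_mul, one_mul]
    exact ih.mul hr hf

omit I in
/-- uniqueness of the valuation -/
theorem HasVal.unique (R : D.RedHyp A Eb) {j : Fin 2} {f : D.S} {n n' : ℤ} {φ ψ : Eb}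
    (hf : HasVal D A Eb j f n φ) (hg : HasVal D A Eb j f n' ψ) : n = n' ∧ φ = ψ := by
  have hrK : (r : K) ≠ 0 := by exact_mod_cast R.prime.ne_zero
  have hr1 : (r : K) ∈ A := natCast_mem A r
  have hres : resid A (r : K) = 0 := by
    haveI := H11Q.charP_residue (A := A) R.prime R.lies
    rw [resid_of_mem A hr1]
    have : IsLocalRing.residue A (⟨(r : K), hr1⟩ : A) = ((r : ℕ) : kk A) :=
      map_natCast (IsLocalRing.residue A) r
    rw [this, CharP.cast_eq_zero]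
  have key : ∀ {n n' : ℤ} {φ ψ : Eb}, HasVal D A Eb j f n φ → HasVal D A Eb j f n' ψ →
      ¬ n < n' := by
    intro n n' φ ψ h1 h2 hlt
    obtain ⟨d, hd⟩ : ∃ d : ℕ, n' = n + (d + 1) := ⟨(n' - n - 1).toNat, by omega⟩
    have h3 : (r : K) ^ (-n) • D.e j f = HahnSeries.C ((r : K) ^ (d + 1)) *
        ((r : K) ^ (-n') • D.e j f) := by
      rw [← algebraMap_eq_C, Algebra.smul_def, Algebra.smul_def, ← mul_assoc, ← map_mul]
      congr 2
      rw [← zpow_natCast, ← zpow_add₀ hrK]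
      congr 1
      push_cast
      rw [hd]
      ring
    have h4 := (Red.C (A := A) (pow_mem hr1 (d + 1))).mul h2.2
    rw [← h3] at h4
    have h5 := h1.2.unique h4
    apply h1.1
    apply Subtype.ext
    rw [h5]
    have h6 : IsLocalRing.residue A ⟨(r : K) ^ (d + 1), pow_mem hr1 (d + 1)⟩ = 0 := by
      rw [← resid_of_mem A (pow_mem hr1 (d + 1)), pow_succ, resid_mul A (pow_mem hr1 d) hr1, hres,
        mul_zero]
    rw [h6, map_zero, zero_mul]
    rfl
  have hn : n = n' := le_antisymm (not_lt.mp (key hg hf)) (not_lt.mp (key hf hg))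
  subst hn
  exact ⟨rfl, Subtype.ext (hf.2.unique hg.2)⟩

/-- rational cuspidal functions have a valuation -/
theorem exists_hasVal_rg (R : D.RedHyp A Eb) {b : D.S} (hb0 : b ≠ 0) (hb : RatS D K₀ b)
    (hbR : D.Rg b) (j : Fin 2) : ∃ n φ, HasVal D A Eb j b n φ := by
  obtain ⟨c, hc0, hc1, hc2⟩ := att_of_DD R (R.e_mem_DD hbR j)
    ((map_ne_zero_iff _ (D.e j).injective).mpr hb0)
  obtain ⟨l, hl⟩ : ∃ l, (rd A (c • D.e j b)).coeff l ≠ 0 := by
    by_contra hcon
    push Not at hcon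
    exact hc2 (HahnSeries.ext (funext hcon))
  rw [rd_coeff, H11Q.coeff_smul'] at hl
  have hmem : c * (D.e j b).coeff l ∈ A := by
    have := hc1 l
    rwa [H11Q.coeff_smul'] at this
  have hb1 : (D.e j b).coeff l ≠ 0 := by
    intro h
    rw [h, mul_zero, resid_zero] at hl
    exact hl rfl
  obtain ⟨n, hn⟩ := I.hval _ (hb j l) hb1
  have hrK : (r : K) ≠ 0 := by exact_mod_cast R.prime.ne_zero
  -- the unit `r^(-n) / c`
  have hunit : A.valuation (c * (D.e j b).coeff l) = 1 := by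
    have h1 := (resid_ne_zero_iff A hmem).mp hl
    apply le_antisymm ((A.valuation_le_one_iff _).mpr hmem)
    have h2 := (A.valuation_le_one_iff _).mpr h1.1
    rw [map_inv₀] at h2
    have h3 : A.valuation (c * (D.e j b).coeff l) ≠ 0 := (Valuation.ne_zero_iff _).mpr h1.2
    exact (inv_le_one₀ (zero_lt_iff.mpr h3)).mp h2
  set u : K := (r : K) ^ (-n) / c with hu
  have hval : A.valuation u = 1 := by
    rw [map_mul, hn] at hunit
    have hv0 : A.valuation (r : K) ^ n ≠ 0 := zpow_ne_zero _ ((Valuation.ne_zero_iff _).mpr hrK)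
    have hvc : A.valuation c = (A.valuation (r : K) ^ n)⁻¹ := eq_inv_of_mul_eq_one_left hunit
    rw [hu, map_div₀, map_zpow₀, hvc, zpow_neg, div_self (inv_ne_zero hv0)]
  have huA : u ∈ A := (A.valuation_le_one_iff _).mp hval.le
  have hu0 : resid A u ≠ 0 := by
    rw [resid_ne_zero_iff A huA]
    refine ⟨(A.valuation_le_one_iff _).mp ?_, ?_⟩
    · rw [map_inv₀, hval, inv_one]
    · rintro h
      rw [h, map_zero] at hval
      exact zero_ne_one hval
  have hred : Red A ((r : K) ^ (-n) • D.e j b)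
      (HahnSeries.C (resid A u) * rd A (c • D.e j b)) := by
    have h1 := (Red.C (A := A) huA).mul (red_rd hc1)
    rw [← resid_of_mem A huA] at h1
    convert h1 using 1
    rw [← algebraMap_eq_C, Algebra.smul_def, Algebra.smul_def, ← mul_assoc, ← map_mul, hu,
      div_mul_cancel₀ _ hc0]
  have hne : HahnSeries.C (resid A u) * rd A (c • D.e j b) ≠ 0 := by
    refine mul_ne_zero ?_ hc2
    exact (map_ne_zero_iff _ HahnSeries.C_injective).mpr hu0
  have hEb : HahnSeries.C (resid A u) * rd A (c • D.e j b) ∈ Eb := by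
    refine mul_mem ?_ ?_
    · rw [← algebraMap_eq_C]; exact Eb.algebraMap_mem _
    · have h1 : c • D.e j b = D.e j (c • b) := (map_smul _ _ _).symm
      rw [h1] at hc1 ⊢
      exact (trivCov R).red_mem j () (c • b) _ (red_rd hc1)
  exact ⟨n, ⟨_, hEb⟩, fun h => hne (congrArg Subtype.val h), hred⟩

/-- rational functions have a valuation -/
theorem exists_hasVal (R : D.RedHyp A Eb) (lp : LevelPack A D.S₀ Eb r) {g : D.S} (hg0 : g ≠ 0)
    (hg : RatS D K₀ g) (j : Fin 2) : ∃ n φ, HasVal D A Eb j g n φ := by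
  have hrK : (r : K) ≠ 0 := by exact_mod_cast R.prime.ne_zero
  obtain ⟨b, hb0, hbr, hbR, hbg⟩ := exists_den I R lp hg0 hg
  obtain ⟨n, φ, h1⟩ := exists_hasVal_rg I R hb0 hbr hbR j
  obtain ⟨n', ψ, h2⟩ := exists_hasVal_rg I R (mul_ne_zero hb0 hg0) (hbr.mul hg) hbg j
  refine ⟨-n + n', φ⁻¹ * ψ, ?_⟩
  have h3 := h1.inv.mul hrK h2
  rwa [inv_mul_cancel_left₀ hb0] at h3

set_option maxHeartbeats 1600000 in
/-- **Theorem N1 for `X₀(M r)`.** -/
theorem node_triv (R : D.RedHyp A Eb) [SepFF (kk A) Eb] (lp : LevelPack A D.S₀ Eb r)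
    (Z : ZDat D A Eb) (P : Place (kk A) Eb)
    (hP : ∀ x : Eb, P.ord x = (x : LaurentSeries (kk A)).order)
    (hO : ∀ x ∈ lp.O, ∀ v : Place (kk A) Eb, v ≠ P → x ∈ Vv v) (T : Divisor (kk A) Eb)
    (hT : ∀ v, T v = ∑ σ ∈ Z.S, max (v.ord (Z.tb - algebraMap (kk A) Eb σ)) 0)
    (hS : (genusFF K D.S : ℤ) + 1 ≤ 2 * lp.g' + Divisor.degree T)
    {m : ℕ} (hm : 0 < m) {f : D.S} (hf0 : f ≠ 0) (hf : RatS D K₀ f)
    (hdvd : ∀ v : Place K D.S, (m : ℤ) ∣ v.ord f) {n : Fin 2 → ℤ} {φ : Fin 2 → Eb}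
    (hval : ∀ j, HasVal D A Eb j f (n j) (φ j)) (v : Place (kk A) Eb) :
    (m : ℤ) ∣ v.ord (φ 0) - (n 1 - n 0) * T v ∧ (m : ℤ) ∣ v.ord (φ 1) + (n 1 - n 0) * T v := by
  haveI := R.fun₁
  have hrK : (r : K) ≠ 0 := by exact_mod_cast R.prime.ne_zero
  have hrK₀ : (r : K) ∈ K₀ := natCast_mem K₀ r
  obtain ⟨y, hy0, hyr, hyR⟩ := exists_mult I R lp hm.ne' hf0 hf hdvd
  choose b ψ hb using fun j => exists_hasVal I R lp hy0 hyr j
  -- the normalised function
  set f' : D.S := (r : K) ^ (-(n 0)) • (y ^ m * f) with hf'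
  have hf'0 : f' ≠ 0 := by
    rw [hf', Algebra.smul_def]
    exact mul_ne_zero ((_root_.map_ne_zero _).mpr (zpow_ne_zero _ hrK))
      (mul_ne_zero (pow_ne_zero _ hy0) hf0)
  have hf'r : RatS D K₀ f' := ((hyr.pow m).mul hf).smul (zpow_mem hrK₀ _)
  have hf'R : D.Rg f' := by
    intro v h0 h1
    rw [hf', Algebra.smul_def]
    exact mul_mem (v.algebraMap_mem' _) (hyR v h0 h1)
  have hord : ∀ v : Place K D.S, v.ord f' = m * v.ord y + v.ord f := by
    intro v
    rw [hf', Algebra.smul_def, v.ord_mul ((_root_.map_ne_zero _).mpr (zpow_ne_zero _ hrK))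
      (mul_ne_zero (pow_ne_zero _ hy0) hf0), H18.ord_algebraMap,
      v.ord_mul (pow_ne_zero _ hy0) hf0, H18.ord_pow, zero_add]
  have hdvd' : ∀ v : Place K D.S, (m : ℤ) ∣ v.ord f' := fun v => by
    rw [hord]; exact dvd_add (dvd_mul_right _ _) (hdvd v)
  have hm' : (0 : ℤ) < m := by exact_mod_cast hm
  set δ : ℤ := n 1 - n 0 with hδ
  set β : ℕ := (δ % m).toNat with hβ
  have hβ0 : (β : ℤ) = δ % m := Int.toNat_of_nonneg (Int.emod_nonneg _ hm'.ne')
  have hβm : β ≤ m := by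
    have h1 := Int.emod_lt_of_pos δ hm'
    omega
  have hδm := Int.mul_ediv_add_emod δ m
  set a : Fin 2 → Unit → ℤ := fun j _ => b j + ![0, δ / m] j with ha
  have hval' : ∀ j, Red A ((r : K) ^ (-((m : ℤ) * a j () + bet β j)) • D.e j f')
      ((ψ j ^ m * φ j : Eb) : LaurentSeries (kk A)) := by
    intro j
    have h1 := ((hb j).pow hrK m).mul hrK (hval j)
    have h2 := h1.2
    convert h2 using 1
    rw [hf', map_smul, smul_smul, ← zpow_add₀ hrK]
    congr 2
    rcases fin2_cases j with rfl | rfl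
    · have h3 : a 0 () = b 0 + 0 := rfl
      have h4 : (bet β 0 : ℤ) = 0 := rfl
      rw [h3, h4]; ring
    · have h3 : a 1 () = b 1 + δ / m := rfl
      have h4 : (bet β 1 : ℤ) = β := rfl
      rw [h3, h4, hβ0]
      have h5 : (m : ℤ) * (b 1 + δ / m) + δ % m = m * b 1 + δ := by
        rw [mul_add, add_assoc, hδm]
      rw [h5, hδ]; ring
  obtain ⟨Dv, hD⟩ := TwoComp.exists_D hdvd'
  have hdeg := TwoComp.degree_eq_zero hm.ne' hD
  have hV : ∃ n₀ : ℕ, ∀ n : ℕ, n₀ ≤ n →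
      FiniteDimensional K (VSp (trivCov R) m hm.ne' f' n) ∧
      VSp (trivCov R) m hm.ne' f' n ≤ Submodule.span K {u | u ∈ VSp (trivCov R) m hm.ne' f' n ∧
        ∀ (j : Fin 2) (c : Unit) l, ((trivCov R).e j c u).coeff l ∈ K₀} ∧
      (Fintype.card Unit : ℤ) * (2 * n + 1 - genusFF K D.S) ≤
        finrank K (VSp (trivCov R) m hm.ne' f' n) := by
    refine ⟨genusFF K D.S, fun n hn => ?_⟩
    have hfin : FiniteDimensional K (VSp (trivCov R) m hm.ne' f' n) := by
      rw [VSp_eq_M R lp hm.ne' hf'0 hD]; infer_instance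
    refine ⟨hfin, ?_, ?_⟩
    · refine (span_ratS I _ (VSp_stable I R hm.ne' hf'r n)).trans (Submodule.span_mono ?_)
      rintro v ⟨hv, hr⟩
      exact ⟨hv, fun j _ l => hr j l⟩
    · rw [VSp_eq_M R lp hm.ne' hf'0 hD]
      have h1 := (R.twoComp lp).finrank_M Dv (n := n) (by rw [hdeg]; omega)
      rw [hdeg] at h1
      rw [Fintype.card_unit]
      push_cast
      linarith
  have hφψ : ∀ j, ψ j ^ m * φ j ≠ 0 := fun j => mul_ne_zero (pow_ne_zero _ (hb j).1) (hval j).1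
  have key := node_theorem (trivCov R) R lp Z P hP hO K₀ I.hk I.hval (genusFF K D.S) T hT hS hm
    hf'0 (isIntegral_rgA_iff.mpr hf'R) (fun j _ l => hf'r j l) a β hβm
    (fun j _ => ψ j ^ m * φ j) (fun j _ => hφψ j) (fun j _ => hval' j) hV () v
  have hexp : ∀ j, v.ord (ψ j ^ m * φ j) = m * v.ord (ψ j) + v.ord (φ j) := fun j => by
    rw [v.ord_mul (pow_ne_zero _ (hb j).1) (hval j).1, H18.ord_pow]
  rw [hexp, hexp, hβ0] at key
  obtain ⟨⟨c0, h0⟩, ⟨c1, h1⟩⟩ := key
  have hδ' : δ % m = δ - m * (δ / m) := by linarith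
  rw [hδ'] at h0 h1
  refine ⟨⟨c0 - v.ord (ψ 0) - δ / m * T v, ?_⟩, ⟨c1 - v.ord (ψ 1) + δ / m * T v, ?_⟩⟩
  · linear_combination h0
  · linear_combination h1

end Fermat.Agent.NN
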