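import Fermat.Agent.NN.Kum1
import Fermat.Agent.NN.Triv
import Fermat.Agent.H01.P.GeoNew

/-!
# Kummer covers split at the two components
-/

set_option autoImplicit false
set_option linter.style.haveILetI false
set_option linter.unusedSectionVars false
set_option maxSynthPendingDepth 3

noncomputable section

attribute [-instance] HahnSeries.instModule HahnSeries.instSMul HahnSeries.instDistribMulAction
  HahnSeries.instSMulZeroClass

attribute [local instance 10000] Fermat.Agent.H29.instLS Fermat.Agent.H29.instIF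
  Fermat.Agent.H29.instIF2

namespace Fermat.Agent.NN

open ModularCurve HahnSeries Fermat.Agent.Igusa AlgebraicCurve Fermat.Agent.FF Fermat.Agent.H11Q
  Fermat.Agent.Q Fermat.Agent.P

local notation "kk" => IsLocalRing.ResidueField

section Small

variable {K : Type*} [Field K] [CharZero K] [Algebra ℚ K] [Algebra.IsAlgebraic ℚ K]
  {A : ValuationSubring K} {p : ℕ} [hp : Fact p.Prime]

/-- powers of small elements are arbitrarily small -/
theorem exists_pow_small (hA : A.LiesOverPrime p) {z y : LaurentSeries K} (hz : z ∈ FL A)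
    (hy : y ∈ FL A) (h : Red A z 0) : ∃ N₀ : ℕ, ∀ N, N₀ ≤ N → Red A (z ^ N * y) 0 := by
  by_cases hz0 : z = 0
  · refine ⟨1, fun N hN => ?_⟩
    rw [hz0, zero_pow (by omega), zero_mul]
    exact Red.zero
  by_cases hy0 : y = 0
  · refine ⟨0, fun N _ => ?_⟩
    rw [hy0, mul_zero]
    exact Red.zero
  obtain ⟨c, hc, v, hv0, hv⟩ := Q.exists_red hp.out hA hz hz0
  obtain ⟨d, hd, v', hv'0, hv'⟩ := Q.exists_red hp.out hA hy hy0
  have h1 : z = HahnSeries.C c⁻¹ * (HahnSeries.C c * z) := by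
    rw [← mul_assoc, ← map_mul, inv_mul_cancel₀ hc, map_one, one_mul]
  have h2 : y = HahnSeries.C d⁻¹ * (HahnSeries.C d * y) := by
    rw [← mul_assoc, ← map_mul, inv_mul_cancel₀ hd, map_one, one_mul]
  rw [h1] at h
  obtain ⟨hmem, hres⟩ := h.scale hv hv0
  have hres0 : IsLocalRing.residue A ⟨c⁻¹, hmem⟩ = 0 := by
    by_contra hne
    exact mul_ne_zero ((map_ne_zero_iff _ HahnSeries.C_injective).mpr hne) hv0 hres.symm
  obtain ⟨n, hn⟩ := exists_pow_div_mem hA hmem (inv_ne_zero hc) hres0 hd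
  refine ⟨n + 1, fun N hN => ?_⟩
  obtain ⟨k, rfl⟩ : ∃ k, N = n + (k + 1) := ⟨N - n - 1, by omega⟩
  set e : K := (c⁻¹) ^ n / d * (c⁻¹) ^ (k + 1) with he
  have hkA : (c⁻¹) ^ (k + 1) ∈ A := A.toSubring.pow_mem hmem _
  have heA : e ∈ A := A.mul_mem _ _ hn hkA
  have he0 : resid A e = 0 := by
    rw [he, resid_mul A hn hkA, pow_succ, resid_mul A (A.toSubring.pow_mem hmem _) hmem,
      resid_of_mem A hmem, hres0, mul_zero, mul_zero]
  have h3 : z ^ (n + (k + 1)) * y = HahnSeries.C e *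
      ((HahnSeries.C c * z) ^ (n + (k + 1)) * (HahnSeries.C d * y)) := by
    have h4 : (HahnSeries.C e : LaurentSeries K) * (HahnSeries.C c ^ (n + (k + 1)) *
        HahnSeries.C d) = 1 := by
      rw [← map_pow, ← map_mul, ← map_mul, he]
      have h5 : c⁻¹ ^ n / d * c⁻¹ ^ (k + 1) * (c ^ (n + (k + 1)) * d) = 1 := by
        have h6 : c⁻¹ ^ n * c ^ n = 1 := by rw [← mul_pow, inv_mul_cancel₀ hc, one_pow]
        have h7 : c⁻¹ ^ (k + 1) * c ^ (k + 1) = 1 := by
          rw [← mul_pow, inv_mul_cancel₀ hc, one_pow]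
        have h8 : d / d = 1 := div_self hd
        rw [_root_.pow_add c]
        calc c⁻¹ ^ n / d * c⁻¹ ^ (k + 1) * (c ^ n * c ^ (k + 1) * d) =
            (c⁻¹ ^ n * c ^ n) * (c⁻¹ ^ (k + 1) * c ^ (k + 1)) * (d / d) := by ring
          _ = 1 := by rw [h6, h7, h8]; ring
      rw [h5, map_one]
    calc z ^ (n + (k + 1)) * y = 1 * (z ^ (n + (k + 1)) * y) := (one_mul _).symm
      _ = _ := by rw [← h4]; ring
  rw [h3]
  have h4 := (P.red_C heA).mul ((hv.pow (n + (k + 1))).mul hv')
  rwa [he0, map_zero, zero_mul] at h4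

end Small

variable {K : Type*} [Field K] [CharZero K] [IsAlgClosed K] [Algebra ℚ K]
  [Algebra.IsAlgebraic ℚ K]
variable {p : ℕ} [hp : Fact p.Prime] {D : ALData K p} {A : ValuationSubring K}
  {Eb : IntermediateField (kk A) (LaurentSeries (kk A))}

/-- data for a Kummer cover completely split along the two components -/
structure KumDat (D : ALData K p) (A : ValuationSubring K) where
  f : D.S
  nroot : ∀ g : D.S, g ^ p ≠ f
  ζ : K
  prim : IsPrimitiveRoot ζ p
  h : Fin 2 → LaurentSeries K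
  h_pow : ∀ j, h j ^ p = D.e j f
  h_FL : ∀ j, h j ∈ FL A
  k : Fin 2 → D.S
  s : Fin 2 → LaurentSeries K
  s_red : ∀ j, Red A (s j) 0
  loc : ∀ j, h j * D.e j (k j) = 1 + HahnSeries.C (ζ - 1) * s j

namespace KumDat

variable (Y : KumDat D A)

instance fact_irr : Fact (Irreducible (kpol p Y.f)) := ⟨kpol_irreducible Y.nroot⟩

/-- the function field of the cover -/
abbrev E := KE p Y.f

theorem f_ne : Y.f ≠ 0 := fun h => Y.nroot 0 (by rw [h, zero_pow hp.out.ne_zero])

theorem h_ne (j : Fin 2) : Y.h j ≠ 0 := by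
  intro h
  have h1 := Y.h_pow j
  rw [h, zero_pow hp.out.ne_zero] at h1
  exact Y.f_ne ((map_eq_zero_iff _ (D.e j).injective).mp h1.symm)

/-- the embeddings -/
def e (j : Fin 2) (c : ZMod p) : Y.E →ₐ[K] LaurentSeries K :=
  kemb (D.e j) (Y.h_pow j) Y.prim c

theorem e_of (j : Fin 2) (c : ZMod p) (x : D.S) :
    Y.e j c (AdjoinRoot.of (kpol p Y.f) x) = D.e j x := kemb_of _ _ _ c x

theorem e_root (j : Fin 2) (c : ZMod p) : Y.e j c (AdjoinRoot.root (kpol p Y.f)) =
    HahnSeries.C (chi Y.prim c) * Y.h j := by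
  rw [← algebraMap_eq_C]
  exact kemb_root _ _ _ c

theorem e_mem_FL (R : D.RedHyp A Eb) (j : Fin 2) (c : ZMod p) (u : Y.E) : Y.e j c u ∈ FL A := by
  obtain ⟨a, rfl⟩ := exists_repr Y.f u
  rw [map_sum]
  refine sum_mem fun i _ => ?_
  rw [map_mul, map_pow, e_of, e_root]
  exact mul_mem (R.e_mem_FL j _) (pow_mem (mul_mem (C_mem_FL _) (Y.h_FL j)) _)

/-- the reductions of `((root * k) - 1) / w` -/
def theta (j : Fin 2) : Y.E := algebraMap K Y.E (Y.ζ - 1)⁻¹ *
  (AdjoinRoot.root (kpol p Y.f) * AdjoinRoot.of (kpol p Y.f) (Y.k j) - 1)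

theorem red_theta (hA : A.LiesOverPrime p) (j : Fin 2) (c : ZMod p) :
    Red A (Y.e j c (Y.theta j)) (HahnSeries.C (c.val : kk A)) := by
  obtain ⟨u, hw⟩ := exists_varpi hA Y.prim
  obtain ⟨h4, h5⟩ := zeta_pow_sub hw c.val
  have hζA : Y.ζ ∈ A := H11Q.mem_of_pow_eq_one hp.out.ne_zero hw.prim.pow_eq_one
  have h6 : Y.e j c (Y.theta j) = HahnSeries.C ((Y.ζ ^ c.val - 1) / (Y.ζ - 1)) +
      HahnSeries.C (Y.ζ ^ c.val) * Y.s j := by
    rw [theta, map_mul, map_sub, map_mul, e_of, e_root, map_one, AlgHom.commutes, mul_assoc,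
      Y.loc, algebraMap_eq_C, chi_apply, map_div₀, map_sub, map_one, map_inv₀]
    have h9 : (HahnSeries.C (Y.ζ - 1) : LaurentSeries K) ≠ 0 :=
      (map_ne_zero_iff _ HahnSeries.C_injective).mpr hw.ne
    have h10 : HahnSeries.C (Y.ζ - 1) = (HahnSeries.C Y.ζ - 1 : LaurentSeries K) := by
      rw [map_sub, map_one]
    have h11 : HahnSeries.C (Y.ζ ^ c.val - 1) =
        (HahnSeries.C (Y.ζ ^ c.val) - 1 : LaurentSeries K) := by
      rw [map_sub, map_one]
    rw [h10] at h9 ⊢
    rw [h11]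
    field_simp
    ring
  rw [h6]
  have h7 := (P.red_C h4).add ((P.red_C (A.toSubring.pow_mem hζA c.val)).mul (Y.s_red j))
  rwa [mul_zero, add_zero, h5] at h7

/-- approximate idempotents -/
def idem (j : Fin 2) (c : ZMod p) : Y.E := 1 - (Y.theta j - (c.val : Y.E)) ^ (p - 1)

theorem red_idem (hA : A.LiesOverPrime p) (j : Fin 2) (c c' : ZMod p) :
    Red A (Y.e j c' (Y.idem j c)) (if c' = c then 1 else 0) := by
  have hnat : Red A ((c.val : LaurentSeries K)) (HahnSeries.C (c.val : kk A)) := by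
    have h1 := P.red_C (natCast_mem A c.val)
    have h2 : resid A ((c.val : ℕ) : K) = (c.val : kk A) := by
      rw [resid_of_mem A (natCast_mem A c.val)]
      exact map_natCast (IsLocalRing.residue A) c.val
    rw [h2, map_natCast] at h1
    exact h1
  have h3 : Red A (Y.e j c' (Y.idem j c))
      (1 - (HahnSeries.C (c'.val : kk A) - HahnSeries.C (c.val : kk A)) ^ (p - 1)) := by
    rw [idem, map_sub, map_one, map_pow, map_sub, map_natCast]
    exact Red.one.sub (((Y.red_theta hA j c').sub hnat).pow _)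
  convert h3 using 1
  haveI : CharP (kk A) p := H05.charP_residueField hp.out hA
  set φ : ZMod p →+* kk A := ZMod.castHom (dvd_refl p) (kk A) with hφ
  have h4 : (HahnSeries.C (c'.val : kk A) - HahnSeries.C (c.val : kk A) : LaurentSeries (kk A)) =
      HahnSeries.C (φ (c' - c)) := by
    rw [map_sub φ, map_sub HahnSeries.C]
    congr 2
    · rw [← map_natCast φ, ZMod.natCast_zmod_val]
    · rw [← map_natCast φ, ZMod.natCast_zmod_val]
  have hp1 : p - 1 ≠ 0 := by have := hp.out.two_le; omega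
  rw [h4, ← map_pow, ← map_pow]
  split_ifs with h
  · rw [h, sub_self, zero_pow hp1, map_zero, map_zero, sub_zero]
  · rw [ZMod.pow_card_sub_one_eq_one (sub_ne_zero.mpr h), map_one, map_one, sub_self]

/-- **Reductions of functions of the cover lie in the function field of the component.** -/
theorem red_mem (R : D.RedHyp A Eb) (j : Fin 2) (c : ZMod p) (x : Y.E)
    (v : LaurentSeries (kk A)) (hv : Red A (Y.e j c x) v) : v ∈ Eb := by
  classical
  have hA := R.lies
  have h1 : ∀ c' : ZMod p, ∃ N₀ : ℕ, ∀ N, N₀ ≤ N → c' ≠ c →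
      Red A (Y.e j c' (Y.idem j c) ^ N * Y.e j c' x) 0 := by
    intro c'
    by_cases hc : c' = c
    · exact ⟨0, fun _ _ h => absurd hc h⟩
    · have h2 := Y.red_idem hA j c c'
      rw [if_neg hc] at h2
      obtain ⟨N₀, hN₀⟩ := exists_pow_small hA (Y.e_mem_FL R j c' _) (Y.e_mem_FL R j c' x) h2
      exact ⟨N₀, fun N hN _ => hN₀ N hN⟩
  choose N₀ hN₀ using h1
  set N := ∑ c' : ZMod p, N₀ c' with hN
  have hle : ∀ c', N₀ c' ≤ N := fun c' =>
    Finset.single_le_sum (f := N₀) (fun _ _ => Nat.zero_le _) (Finset.mem_univ c')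
  have h2 : ∀ c' : ZMod p, Red A (Y.e j c' (Y.idem j c ^ N * x)) (if c' = c then v else 0) := by
    intro c'
    rw [map_mul, map_pow]
    split_ifs with hc
    · subst hc
      have h3 := Y.red_idem hA j c' c'
      rw [if_pos rfl] at h3
      have h4 := (h3.pow N).mul hv
      rwa [one_pow, one_mul] at h4
    · exact hN₀ c' N (hle c') hc
  obtain ⟨a, ha⟩ := exists_trace (K := K) (L := LaurentSeries K) (Y.idem j c ^ N * x)
  have h3 : D.e j a = ∑ c' : ZMod p, Y.e j c' (Y.idem j c ^ N * x) :=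
    ha (D.e j) (Y.h_pow j) Y.prim
  have h4 : Red A (D.e j a) v := by
    have key : ∀ S : Finset (ZMod p), Red A (∑ c' ∈ S, Y.e j c' (Y.idem j c ^ N * x))
        (∑ c' ∈ S, if c' = c then v else 0) := by
      intro S
      induction S using Finset.induction_on with
      | empty => rw [Finset.sum_empty, Finset.sum_empty]; exact Red.zero
      | insert b S hb ih =>
        rw [Finset.sum_insert hb, Finset.sum_insert hb]
        exact (h2 b).add ih
    have h5 := key Finset.univ
    rw [Finset.sum_ite_eq' Finset.univ c, if_pos (Finset.mem_univ _)] at h5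
    rw [h3]
    exact h5
  rcases fin2_cases j with rfl | rfl
  · exact R.red_mem _ a.2 v h4
  · exact R.red_mem _ (D.w a).2 v h4

/-- **The cover.** -/
def cov (R : D.RedHyp A Eb) : Cov D A Eb Y.E (ZMod p) where
  e := Y.e
  e_base j c x := Y.e_of j c x
  inj j := kemb_inj (D.e j) (Y.h_pow j) Y.prim (Y.h_ne j)
  card := by rw [ZMod.card]; exact (finrank_KE (p := p) Y.f).symm
  mem_FL := Y.e_mem_FL R
  red_mem := Y.red_mem R

end KumDat

end Fermat.Agent.NN
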