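import Fermat.Agent.NN.Kum2
import Fermat.Agent.NN.CovN

/-!
# Kummer covers: the dimension of the Riemann–Roch type spaces
-/

set_option autoImplicit false
set_option linter.style.haveILetI false
set_option linter.unusedSectionVars false
set_option maxSynthPendingDepth 3

noncomputable section

attribute [-instance] HahnSeries.instModule HahnSeries.instSMul HahnSeries.instDistribMulAction
  HahnSeries.instSMulZeroClass

attribute [local instance 10000] Fermat.Agent.H29.instLS Fermat.Agent.H29.instIF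
  Fermat.Agent.H29.instIF2

namespace Fermat.Agent.NN

open ModularCurve HahnSeries Fermat.Agent.Igusa AlgebraicCurve Fermat.Agent.FF Fermat.Agent.H11Q
  Fermat.Agent.Q Module

local notation "kk" => IsLocalRing.ResidueField

section Gen

variable {K : Type*} [Field K] [CharZero K] [IsAlgClosed K] [Algebra ℚ K]
  [Algebra.IsAlgebraic ℚ K]
variable {r : ℕ} [NeZero r] {D : ALData K r} {A : ValuationSubring K}
  {Eb : IntermediateField (kk A) (LaurentSeries (kk A))}
variable {E : Type*} [Field E] [Algebra K E] [Algebra D.S E] [IsScalarTower K D.S E]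
  [FiniteDimensional D.S E] {C : Type*} [Fintype C] {Y : Cov D A Eb E C}

theorem isIntegral_base_iff {x : D.S} : IsIntegral (rgA D) (algebraMap D.S E x) ↔ D.Rg x := by
  rw [isIntegral_algebraMap_iff (algebraMap D.S E).injective]
  exact isIntegral_rgA_iff

/-- integral elements are preserved by deck transformations -/
theorem isIntegral_deck {τ : E →ₐ[K] E} (hτ : ∀ x : D.S, τ (algebraMap D.S E x) =
    algebraMap D.S E x) {u : E} (hu : IsIntegral (rgA D) u) : IsIntegral (rgA D) (τ u) := by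
  obtain ⟨p, hp, hpu⟩ := hu
  refine ⟨p, hp, ?_⟩
  have h2 := congrArg τ hpu
  rw [map_zero] at h2
  rw [← h2]
  have h3 : algebraMap (rgA D) E = (τ : E →+* E).comp (algebraMap (rgA D) E) := by
    refine RingHom.ext fun y => ?_
    exact (hτ (y : D.S)).symm
  conv_lhs => rw [h3]
  exact (Polynomial.hom_eval₂ p (algebraMap (rgA D) E) (τ : E →+* E) u).symm

/-- the spaces `VSp` of functions of the base are stable under deck transformations -/
theorem VSp_deck {τ : E →ₐ[K] E} (hτ : ∀ x : D.S, τ (algebraMap D.S E x) =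
    algebraMap D.S E x) {π : C → C} (hπ : ∀ j c u, Y.e j c (τ u) = Y.e j (π c) u)
    {m : ℕ} {hm : m ≠ 0} {fx : D.S} {n : ℤ} {v : E}
    (hv : v ∈ VSp Y m hm (algebraMap D.S E fx) n) : τ v ∈ VSp Y m hm (algebraMap D.S E fx) n := by
  obtain ⟨h1, h2⟩ := hv
  have h3 : (τ v) ^ m * algebraMap D.S E fx = τ (v ^ m * algebraMap D.S E fx) := by
    rw [map_mul, map_pow, hτ]
  refine ⟨?_, fun j c => ?_⟩
  · rw [h3]; exact isIntegral_deck hτ h1
  · rw [h3, hπ]; exact h2 j (π c)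

end Gen

variable {K : Type*} [Field K] [CharZero K] [IsAlgClosed K] [Algebra ℚ K]
  [Algebra.IsAlgebraic ℚ K]
variable {p : ℕ} [hp : Fact p.Prime] {D : ALData K p} {A : ValuationSubring K}
  {Eb : IntermediateField (kk A) (LaurentSeries (kk A))}

namespace KumDat

variable (Y : KumDat D A) (R : D.RedHyp A Eb)

theorem cov_e (j : Fin 2) (c : ZMod p) (u : Y.E) : (Y.cov R).e j c u = Y.e j c u := rfl

theorem algebraMap_eq (x : D.S) : algebraMap D.S Y.E x = AdjoinRoot.of (kpol p Y.f) x := rfl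

theorem root_ne : AdjoinRoot.root (kpol p Y.f) ≠ (0 : Y.E) := by
  intro h
  have h1 := root_pow (p := p) Y.f
  rw [h, zero_pow hp.out.ne_zero] at h1
  exact Y.f_ne ((map_eq_zero _).mp h1.symm)

theorem pow_comp (a fx : D.S) (i : ℕ) :
    (AdjoinRoot.of (kpol p Y.f) a * AdjoinRoot.root (kpol p Y.f) ^ i) ^ p *
      algebraMap D.S Y.E fx = algebraMap D.S Y.E (a ^ p * (fx * Y.f ^ i)) := by
  rw [algebraMap_eq, algebraMap_eq, mul_pow, ← pow_mul, mul_comm i p, pow_mul, root_pow,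
    map_mul, map_mul, map_pow, map_pow]
  ring

theorem comp_mem_iff {a fx : D.S} {i : ℕ} {n : ℤ} :
    AdjoinRoot.of (kpol p Y.f) a * AdjoinRoot.root (kpol p Y.f) ^ i ∈
      VSp (Y.cov R) p hp.out.ne_zero (algebraMap D.S Y.E fx) n ↔
    a ∈ VSp (trivCov R) p hp.out.ne_zero (fx * Y.f ^ i) n := by
  rw [mem_VSp_triv, mem_VSp, pow_comp]
  refine and_congr isIntegral_base_iff ?_
  constructor
  · intro h j
    have := h j 0
    rwa [(Y.cov R).e_base] at this
  · intro h j c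
    rw [(Y.cov R).e_base]
    exact h j

theorem ktau_mem {fx : D.S} {n : ℤ} (t : ZMod p) {v : Y.E}
    (hv : v ∈ VSp (Y.cov R) p hp.out.ne_zero (algebraMap D.S Y.E fx) n) :
    ktau Y.f Y.prim t v ∈ VSp (Y.cov R) p hp.out.ne_zero (algebraMap D.S Y.E fx) n :=
  VSp_deck (fun x => ktau_of Y.prim t x) (π := fun c => c + t)
    (fun j c u => kemb_ktau (D.e j) (Y.h_pow j) Y.prim c t u) hv

/-- the eigencomponents -/
theorem comp_mem {fx : D.S} {n : ℤ} {a : ℕ → D.S}
    (hv : ∑ i ∈ Finset.range p, AdjoinRoot.of (kpol p Y.f) (a i) *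
      AdjoinRoot.root (kpol p Y.f) ^ i ∈
      VSp (Y.cov R) p hp.out.ne_zero (algebraMap D.S Y.E fx) n) {i : ℕ} (hi : i < p) :
    a i ∈ VSp (trivCov R) p hp.out.ne_zero (fx * Y.f ^ i) n := by
  rw [← comp_mem_iff]
  set V := VSp (Y.cov R) p hp.out.ne_zero (algebraMap D.S Y.E fx) n with hV
  have h1 := eigen_proj (f := Y.f) Y.prim a hi
  have h2 : (p : Y.E) * (AdjoinRoot.of (kpol p Y.f) (a i) * AdjoinRoot.root (kpol p Y.f) ^ i) ∈
      V := by
    rw [h1]
    refine V.sum_mem fun t _ => ?_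
    rw [← Algebra.smul_def]
    exact V.smul_mem _ (Y.ktau_mem R t hv)
  have h3 : (p : Y.E) * (AdjoinRoot.of (kpol p Y.f) (a i) * AdjoinRoot.root (kpol p Y.f) ^ i) =
      (p : K) • (AdjoinRoot.of (kpol p Y.f) (a i) * AdjoinRoot.root (kpol p Y.f) ^ i) := by
    rw [Algebra.smul_def, map_natCast]
  rw [h3] at h2
  have hpK : (p : K) ≠ 0 := by exact_mod_cast hp.out.ne_zero
  have h4 := V.smul_mem (p : K)⁻¹ h2
  rwa [smul_smul, inv_mul_cancel₀ hpK, one_smul] at h4

theorem comp_eq_zero {a : ℕ → D.S}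
    (hv : ∑ i ∈ Finset.range p, AdjoinRoot.of (kpol p Y.f) (a i) *
      AdjoinRoot.root (kpol p Y.f) ^ i = 0) {i : ℕ} (hi : i < p) : a i = 0 := by
  have h1 := eigen_proj (f := Y.f) Y.prim a hi
  rw [hv] at h1
  simp only [map_zero, mul_zero, Finset.sum_const_zero] at h1
  have hpE : (p : Y.E) ≠ 0 := by
    haveI : CharZero Y.E := charZero_of_injective_algebraMap (algebraMap K Y.E).injective
    exact_mod_cast hp.out.ne_zero
  have h2 := (mul_eq_zero.mp h1).resolve_left hpE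
  have h3 := (mul_eq_zero.mp h2).resolve_right (pow_ne_zero _ Y.root_ne)
  exact (map_eq_zero _).mp h3

/-- the map from the eigencomponents -/
def phi (fx : D.S) (n : ℤ) :
    ((i : Fin p) → VSp (trivCov R) p hp.out.ne_zero (fx * Y.f ^ (i : ℕ)) n) →ₗ[K]
      VSp (Y.cov R) p hp.out.ne_zero (algebraMap D.S Y.E fx) n where
  toFun a := ⟨∑ i : Fin p, AdjoinRoot.of (kpol p Y.f) (a i : D.S) *
      AdjoinRoot.root (kpol p Y.f) ^ (i : ℕ),
    Submodule.sum_mem _ fun i _ => (Y.comp_mem_iff R).mpr (a i).2⟩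
  map_add' a b := Subtype.ext (by
    change ∑ i : Fin p, AdjoinRoot.of (kpol p Y.f) ((a i : D.S) + (b i : D.S)) * _ = _ + _
    simp only [map_add, add_mul, Finset.sum_add_distrib])
  map_smul' c a := Subtype.ext (by
    change ∑ i : Fin p, AdjoinRoot.of (kpol p Y.f) (c • (a i : D.S)) * _ = c • _
    rw [Finset.smul_sum]
    refine Finset.sum_congr rfl fun i _ => ?_
    rw [← Y.algebraMap_eq, ← Y.algebraMap_eq, ← smul_mul_assoc]
    congr 1
    rw [Algebra.smul_def, Algebra.smul_def, map_mul, ← IsScalarTower.algebraMap_apply K D.S Y.E])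

theorem phi_apply (fx : D.S) (n : ℤ) (a) : (Y.phi R fx n a : Y.E) =
    ∑ i : Fin p, AdjoinRoot.of (kpol p Y.f) (a i : D.S) *
      AdjoinRoot.root (kpol p Y.f) ^ (i : ℕ) := rfl

/-- extension by zero -/
def extF (a : Fin p → D.S) (i : ℕ) : D.S := if h : i < p then a ⟨i, h⟩ else 0

theorem sum_extF (a : Fin p → D.S) : ∑ i : Fin p, AdjoinRoot.of (kpol p Y.f) (a i) *
      AdjoinRoot.root (kpol p Y.f) ^ (i : ℕ) =
    ∑ i ∈ Finset.range p, AdjoinRoot.of (kpol p Y.f) (extF a i) *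
      AdjoinRoot.root (kpol p Y.f) ^ i := by
  rw [Finset.sum_range]
  refine Finset.sum_congr rfl fun i _ => ?_
  rw [extF, dif_pos i.2]

theorem phi_bijective (fx : D.S) (n : ℤ) : Function.Bijective (Y.phi R fx n) := by
  constructor
  · rw [injective_iff_map_eq_zero]
    intro a ha
    have h1 := congrArg (Subtype.val) ha
    rw [phi_apply, Y.sum_extF (fun i => (a i : D.S))] at h1
    funext i
    apply Subtype.ext
    have h2 := Y.comp_eq_zero h1 i.2
    rw [extF, dif_pos i.2] at h2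
    exact h2
  · rintro ⟨u, hu⟩
    obtain ⟨a, rfl⟩ := exists_repr Y.f u
    refine ⟨fun i => ⟨a i, Y.comp_mem R hu i.2⟩, Subtype.ext ?_⟩
    rw [phi_apply]
    exact (Finset.sum_range fun i => AdjoinRoot.of (kpol p Y.f) (a i) *
      AdjoinRoot.root (kpol p Y.f) ^ i).symm

set_option maxHeartbeats 1600000 in
/-- **The dimension.** -/
theorem finrank_VSp (lp : LevelPack A D.S₀ Eb p) {fx : D.S} (hfx : fx ≠ 0)
    (hdx : ∀ v : Place K D.S, (p : ℤ) ∣ v.ord fx)
    (hdy : ∀ v : Place K D.S, (p : ℤ) ∣ v.ord Y.f) {n : ℕ} (hn : genusFF K D.S ≤ n) :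
    FiniteDimensional K (VSp (Y.cov R) p hp.out.ne_zero (algebraMap D.S Y.E fx) n) ∧
    (Fintype.card (ZMod p) : ℤ) * (2 * n + 1 - genusFF K D.S) ≤
      finrank K (VSp (Y.cov R) p hp.out.ne_zero (algebraMap D.S Y.E fx) n) := by
  haveI := R.fun₁
  have hi0 : ∀ i : ℕ, fx * Y.f ^ i ≠ 0 := fun i => mul_ne_zero hfx (pow_ne_zero _ Y.f_ne)
  have hid : ∀ (i : ℕ) (v : Place K D.S), (p : ℤ) ∣ v.ord (fx * Y.f ^ i) := by
    intro i v
    rw [v.ord_mul hfx (pow_ne_zero _ Y.f_ne), H18.ord_pow]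
    exact dvd_add (hdx v) ((hdy v).mul_left _)
  have key : ∀ i : Fin p, FiniteDimensional K
      (VSp (trivCov R) p hp.out.ne_zero (fx * Y.f ^ (i : ℕ)) n) ∧
      (2 * (n : ℤ) + 1 - genusFF K D.S) ≤
        finrank K (VSp (trivCov R) p hp.out.ne_zero (fx * Y.f ^ (i : ℕ)) n) := by
    intro i
    obtain ⟨Dv, hD⟩ := TwoComp.exists_D (hid i)
    have hdeg := TwoComp.degree_eq_zero hp.out.ne_zero hD
    refine ⟨?_, ?_⟩
    · rw [VSp_eq_M R lp hp.out.ne_zero (hi0 i) hD]; infer_instance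
    · rw [VSp_eq_M R lp hp.out.ne_zero (hi0 i) hD]
      have h1 := (R.twoComp lp).finrank_M Dv (n := n) (by rw [hdeg]; omega)
      rw [hdeg] at h1
      linarith
  haveI := fun i => (key i).1
  haveI hfree : ∀ i : Fin p, Module.Free K
      (VSp (trivCov R) p hp.out.ne_zero (fx * Y.f ^ (i : ℕ)) n) := fun i =>
    Module.Free.of_divisionRing K _
  have hpi : FiniteDimensional K
      ((i : Fin p) → VSp (trivCov R) p hp.out.ne_zero (fx * Y.f ^ (i : ℕ)) n) :=
    Module.Finite.pi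
  set e := LinearEquiv.ofBijective (Y.phi R fx n) (Y.phi_bijective R fx n) with he
  refine ⟨Module.Finite.equiv e, ?_⟩
  rw [← e.finrank_eq, Module.finrank_pi_fintype, ZMod.card]
  push_cast
  have h1 : (p : ℤ) * (2 * n + 1 - genusFF K D.S) =
      ∑ _i : Fin p, (2 * (n : ℤ) + 1 - genusFF K D.S) := by
    rw [Finset.sum_const, Finset.card_univ, Fintype.card_fin, nsmul_eq_mul]
  rw [h1]
  exact Finset.sum_le_sum fun i _ => (key i).2

/-- the dimension, for `fx * k ^ p` -/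
theorem finrank_VSp' (lp : LevelPack A D.S₀ Eb p) {fx : D.S} (hfx : fx ≠ 0)
    (hdx : ∀ v : Place K D.S, (p : ℤ) ∣ v.ord fx)
    (hdy : ∀ v : Place K D.S, (p : ℤ) ∣ v.ord Y.f) {k : Y.E} (hk : k ≠ 0) {f' : Y.E}
    (hf' : f' = k ^ p * algebraMap D.S Y.E fx) :
    ∃ n₀ : ℕ, ∀ n : ℕ, n₀ ≤ n →
    FiniteDimensional K (VSp (Y.cov R) p hp.out.pos.ne' f' n) ∧
    (Fintype.card (ZMod p) : ℤ) * (2 * n + 1 - genusFF K D.S) ≤
      finrank K (VSp (Y.cov R) p hp.out.pos.ne' f' n) := by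
  subst hf'
  refine ⟨genusFF K D.S, fun n hn => ?_⟩
  obtain ⟨h1, h2⟩ := Y.finrank_VSp R lp hfx hdx hdy hn
  haveI := h1
  refine ⟨Module.Finite.equiv (vspMul hp.out.ne_zero (algebraMap D.S Y.E fx) hk n).symm, ?_⟩
  rw [(vspMul hp.out.ne_zero (algebraMap D.S Y.E fx) hk n).finrank_eq]
  exact h2

end KumDat

end Fermat.Agent.NN
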