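import Fermat.Agent.NN.Kum3

/-!
# Kummer covers: Galois action, pull back
-/

set_option autoImplicit false
set_option linter.style.haveILetI false
set_option linter.unusedSectionVars false
set_option maxSynthPendingDepth 3

noncomputable section

attribute [-instance] HahnSeries.instModule HahnSeries.instSMul HahnSeries.instDistribMulAction
  HahnSeries.instSMulZeroClass

attribute [local instance 10000] Fermat.Agent.H29.instLS Fermat.Agent.H29.instIF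
  Fermat.Agent.H29.instIF2

namespace Fermat.Agent.NN

open ModularCurve HahnSeries Fermat.Agent.Igusa AlgebraicCurve Fermat.Agent.FF Fermat.Agent.H11Q
  Fermat.Agent.Q Module

local notation "kk" => IsLocalRing.ResidueField

section QE

variable {K : Type*} [Field K] {A : ValuationSubring K}

theorem qExpand_coeff_cases (d : ℕ) [NeZero d] (x : LaurentSeries K) (l : ℤ) :
    (qExpand K d x).coeff l = 0 ∨ ∃ l', (qExpand K d x).coeff l = x.coeff l' := by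
  by_cases h : (d : ℤ) ∣ l
  · obtain ⟨k, rfl⟩ := h
    exact Or.inr ⟨k, qExpand_coeff_mul d x k⟩
  · exact Or.inl (qExpand_coeff_of_not_dvd d x h)

theorem qExpand_coeff_mem {d : ℕ} [NeZero d] {x : LaurentSeries K} {S : Type*} [SetLike S K]
    [ZeroMemClass S K] {s : S} (h : ∀ l, x.coeff l ∈ s) (l : ℤ) : (qExpand K d x).coeff l ∈ s := by
  rcases qExpand_coeff_cases d x l with h1 | ⟨l', h1⟩
  · rw [h1]; exact zero_mem s
  · rw [h1]; exact h l'

theorem qExpand_mem_DD [CharZero K] [Algebra ℚ K] [Algebra.IsAlgebraic ℚ K] (d : ℕ) [NeZero d]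
    {x : LaurentSeries K} (hx : x ∈ DD A) : qExpand K d x ∈ DD A := by
  obtain ⟨⟨c, hc, hc0, hcx⟩, E, hE, hEc⟩ := hx
  refine ⟨⟨c, hc, hc0, ?_⟩, E, hE, fun n => qExpand_coeff_mem hEc n⟩
  have h1 := qExpand_mem_intL d ⟨_, hcx⟩
  rwa [map_mul, qExpand_C] at h1

theorem qExpand_mem_FL [CharZero K] [Algebra ℚ K] [Algebra.IsAlgebraic ℚ K] (d : ℕ) [NeZero d]
    {x : LaurentSeries K} (hx : x ∈ FL A) : qExpand K d x ∈ FL A := by
  rw [mem_FL] at hx ⊢
  obtain ⟨P, hP, Q, hQ, rfl⟩ := hx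
  exact ⟨_, qExpand_mem_DD d hP, _, qExpand_mem_DD d hQ, (map_div₀ _ _ _).symm⟩

/-- roots of unity in Laurent series -/
theorem eq_chi_mul {p : ℕ} [hp : Fact p.Prime] {ζ : K} (hζ : IsPrimitiveRoot ζ p)
    {x y : LaurentSeries K} (hy : y ≠ 0) (h : x ^ p = y ^ p) :
    ∃ c : ZMod p, x = HahnSeries.C (chi hζ c) * y := by
  have h1 : IsPrimitiveRoot (HahnSeries.C ζ : LaurentSeries K) p :=
    hζ.map_of_injective HahnSeries.C_injective
  have h2 : (x / y) ^ p = 1 := by rw [div_pow, h, div_self (pow_ne_zero _ hy)]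
  obtain ⟨i, hi, hi'⟩ := h1.eq_pow_of_pow_eq_one h2
  refine ⟨(i : ZMod p), ?_⟩
  rw [chi_natCast, map_pow, hi', div_mul_cancel₀ _ hy]

end QE

variable {K : Type*} [Field K] [CharZero K] [IsAlgClosed K] [Algebra ℚ K]
  [Algebra.IsAlgebraic ℚ K]
variable {p : ℕ} [hp : Fact p.Prime] {D : ALData K p} {A : ValuationSubring K}
  {Eb : IntermediateField (kk A) (LaurentSeries (kk A))}

namespace KumDat

variable (Y : KumDat D A)

/-- the Galois structure -/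
def Gal (S : Set (K →+* K)) : Prop :=
  ∀ σ ∈ S, ∃ (a : ℕ) (g : D.S), σ Y.ζ = Y.ζ ^ a ∧
    ∀ j, coeffMap σ (Y.h j) = (Y.h j) ^ a * D.e j g

theorem chi_gal {σ : K →+* K} {a : ℕ} (h : σ Y.ζ = Y.ζ ^ a) (c : ZMod p) :
    σ (chi Y.prim c) = chi Y.prim c ^ a := by
  rw [chi_apply, map_pow, h, ← pow_mul, ← pow_mul, mul_comm]

theorem coeffMap_C' {K : Type*} [Field K] (σ : K →+* K) (x : K) :
    coeffMap σ (HahnSeries.C x : LaurentSeries K) = HahnSeries.C (σ x) := by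
  rw [HahnSeries.C_apply, coeffMap_single, HahnSeries.C_apply]

theorem exists_gal {τ : D.Gal} {a : ℕ} {g : D.S} (hζ : τ.σ Y.ζ = Y.ζ ^ a)
    (hg : ∀ j, coeffMap τ.σ (Y.h j) = (Y.h j) ^ a * D.e j g) :
    ∃ Γ : Y.E →+* Y.E, ∀ j c u, Y.e j c (Γ u) = coeffMap τ.σ (Y.e j c u) := by
  set θ : D.S →+* D.S := (SemilinearAut.toRingAut τ.g).toRingHom with hθ
  have hθe : ∀ j x, D.e j (θ x) = coeffMap τ.σ (D.e j x) := fun j x => τ.e_smul j x
  have hf : θ Y.f = Y.f ^ a * g ^ p := by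
    apply (D.e 0).injective
    change D.e 0 _ = D.e 0 _
    rw [hθe, ← Y.h_pow, map_pow, hg, map_mul, map_pow, map_pow, ← Y.h_pow, mul_pow, ← pow_mul,
      ← pow_mul, mul_comm a p]
  let Γ : Y.E →+* Y.E := AdjoinRoot.lift ((AdjoinRoot.of (kpol p Y.f)).comp θ)
    (AdjoinRoot.root (kpol p Y.f) ^ a * AdjoinRoot.of (kpol p Y.f) g) (by
      refine (eval₂_kpol _ _ Y.f).trans ?_
      rw [mul_pow, ← pow_mul, mul_comm a p, pow_mul, root_pow, RingHom.comp_apply, hf,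
        map_mul, map_pow, map_pow]
      exact sub_self _)
  have hof : ∀ x, Γ (AdjoinRoot.of (kpol p Y.f) x) = AdjoinRoot.of (kpol p Y.f) (θ x) :=
    fun x => AdjoinRoot.lift_of _
  have hroot : Γ (AdjoinRoot.root (kpol p Y.f)) =
      AdjoinRoot.root (kpol p Y.f) ^ a * AdjoinRoot.of (kpol p Y.f) g := AdjoinRoot.lift_root _
  refine ⟨Γ, fun j c u => ?_⟩
  obtain ⟨b, rfl⟩ := exists_repr Y.f u
  rw [map_sum, map_sum, map_sum, map_sum]
  refine Finset.sum_congr rfl fun i _ => ?_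
  have h1 : Y.e j c (Γ (AdjoinRoot.of (kpol p Y.f) (b i))) =
      coeffMap τ.σ (Y.e j c (AdjoinRoot.of (kpol p Y.f) (b i))) := by
    rw [hof, e_of, e_of, hθe]
  have h2 : Y.e j c (Γ (AdjoinRoot.root (kpol p Y.f))) =
      coeffMap τ.σ (Y.e j c (AdjoinRoot.root (kpol p Y.f))) := by
    rw [hroot, map_mul, map_pow, e_root, e_of, map_mul, coeffMap_C', Y.chi_gal hζ, hg,
      mul_pow (HahnSeries.C _), map_pow HahnSeries.C]
    ring
  rw [map_mul, map_pow, map_mul, map_pow, h1, h2, map_mul, map_pow, map_mul, map_pow]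

theorem galCov (R : D.RedHyp A Eb) {K₀ : Subfield K} (I : InertData D A K₀)
    {S : Set (K →+* K)} (hG : Y.Gal S) (hS : ∀ τ ∈ I.G, τ.σ ∈ S) : GalCov (Y.cov R) I := by
  intro τ hτ
  obtain ⟨a, g, h1, h2⟩ := hG τ.σ (hS τ hτ)
  exact Y.exists_gal h1 h2

end KumDat

/-- a degeneracy map `q ↦ q ^ d` -/
structure Deg (D D' : ALData K p) (d : ℕ) [NeZero d] where
  δ : D.S →ₐ[K] D'.S
  e_δ : ∀ j x, D'.e j (δ x) = qExpand K d (D.e j x)

namespace KumDat

variable (Y : KumDat D A) {D' : ALData K p} {d : ℕ} [NeZero d] (δ : Deg D D' d)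

/-- pull back of Kummer data -/
def pull (hn : ∀ g : D'.S, g ^ p ≠ δ.δ Y.f) : KumDat D' A where
  f := δ.δ Y.f
  nroot := hn
  ζ := Y.ζ
  prim := Y.prim
  h j := qExpand K d (Y.h j)
  h_pow j := by rw [← map_pow, Y.h_pow, δ.e_δ]
  h_FL j := qExpand_mem_FL d (Y.h_FL j)
  k j := δ.δ (Y.k j)
  s j := qExpand K d (Y.s j)
  s_red j := by
    have h := (Y.s_red j).qExpand d
    rwa [map_zero] at h
  loc j := by
    rw [δ.e_δ, ← map_mul, Y.loc, map_add, map_one, map_mul, qExpand_C]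

theorem pull_f (hn : ∀ g : D'.S, g ^ p ≠ δ.δ Y.f) : (Y.pull δ hn).f = δ.δ Y.f := rfl
theorem pull_h (hn : ∀ g : D'.S, g ^ p ≠ δ.δ Y.f) (j : Fin 2) :
    (Y.pull δ hn).h j = qExpand K d (Y.h j) := rfl
theorem pull_ζ (hn : ∀ g : D'.S, g ^ p ≠ δ.δ Y.f) : (Y.pull δ hn).ζ = Y.ζ := rfl
theorem pull_chi (hn : ∀ g : D'.S, g ^ p ≠ δ.δ Y.f) (c : ZMod p) :
    chi (Y.pull δ hn).prim c = chi Y.prim c := rfl

theorem pull_gal (hn : ∀ g : D'.S, g ^ p ≠ δ.δ Y.f) {S : Set (K →+* K)} (hG : Y.Gal S) :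
    (Y.pull δ hn).Gal S := by
  intro σ hσ
  obtain ⟨a, g, h1, h2⟩ := hG σ hσ
  refine ⟨a, δ.δ g, h1, fun j => ?_⟩
  rw [pull_h, ModularCurve.coeffMap_qExpand, h2, map_mul, map_pow, δ.e_δ]

/-- the map of function fields -/
theorem exists_psi (hn : ∀ g : D'.S, g ^ p ≠ δ.δ Y.f) : ∃ ψ : Y.E →+* (Y.pull δ hn).E,
    (∀ x : D.S, ψ (algebraMap D.S Y.E x) = algebraMap D'.S (Y.pull δ hn).E (δ.δ x)) ∧
    ∀ j c u, (Y.pull δ hn).e j c (ψ u) = qExpand K d (Y.e j c u) := by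
  let ψ : Y.E →+* (Y.pull δ hn).E :=
    AdjoinRoot.lift ((AdjoinRoot.of (kpol p (Y.pull δ hn).f)).comp (δ.δ : D.S →+* D'.S))
      (AdjoinRoot.root (kpol p (Y.pull δ hn).f)) (by
      refine (eval₂_kpol _ _ Y.f).trans ?_
      rw [root_pow, RingHom.comp_apply]
      exact sub_self _)
  have hof : ∀ x, ψ (AdjoinRoot.of (kpol p Y.f) x) =
      AdjoinRoot.of (kpol p (Y.pull δ hn).f) (δ.δ x) := fun x => AdjoinRoot.lift_of _
  have hroot : ψ (AdjoinRoot.root (kpol p Y.f)) =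
      AdjoinRoot.root (kpol p (Y.pull δ hn).f) := AdjoinRoot.lift_root _
  refine ⟨ψ, hof, fun j c u => ?_⟩
  obtain ⟨b, rfl⟩ := exists_repr Y.f u
  rw [map_sum, map_sum, map_sum, map_sum]
  refine Finset.sum_congr rfl fun i _ => ?_
  have h1 : (Y.pull δ hn).e j c (ψ (AdjoinRoot.of (kpol p Y.f) (b i))) =
      qExpand K d (Y.e j c (AdjoinRoot.of (kpol p Y.f) (b i))) := by
    rw [hof, e_of, e_of, δ.e_δ]
  have h2 : (Y.pull δ hn).e j c (ψ (AdjoinRoot.root (kpol p Y.f))) =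
      qExpand K d (Y.e j c (AdjoinRoot.root (kpol p Y.f))) := by
    rw [hroot, e_root, e_root, map_mul, qExpand_C, pull_h, pull_chi]
  rw [map_mul, map_pow, map_mul, map_pow, h1, h2, map_mul, map_pow, map_mul, map_pow]

/-- the case where the pull back splits -/
theorem exists_psi_triv {g₀ : D'.S} (hg₀ : g₀ ^ p = δ.δ Y.f) :
    ∃ (ψ : Y.E →+* D'.S) (c₁ : ZMod p), (∀ x : D.S, ψ (algebraMap D.S Y.E x) = δ.δ x) ∧
    ∀ (j : Fin 2) (u : Y.E), D'.e j (ψ u) = qExpand K d (Y.e j (![0, c₁] j) u) := by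
  have key : ∀ (j : Fin 2) {g : D'.S} (hg : g ^ p = δ.δ Y.f),
      ∃ c : ZMod p, D'.e j g = HahnSeries.C (chi Y.prim c) * qExpand K d (Y.h j) := by
    intro j g hg
    apply eq_chi_mul Y.prim
    · exact (map_ne_zero_iff _ (qExpand_injective d)).mpr (Y.h_ne j)
    · rw [← map_pow, hg, δ.e_δ, ← map_pow, Y.h_pow]
  obtain ⟨c₀, hc₀⟩ := key 0 hg₀
  obtain ⟨g, hgdef⟩ : ∃ g : D'.S, g = algebraMap K D'.S (chi Y.prim (-c₀)) * g₀ := ⟨_, rfl⟩
  have hg : g ^ p = δ.δ Y.f := by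
    rw [hgdef, mul_pow, hg₀, ← map_pow, chi_pow_p, map_one, one_mul]
  have hg0 : D'.e 0 g = HahnSeries.C (chi Y.prim 0) * qExpand K d (Y.h 0) := by
    rw [hgdef, map_mul, hc₀, AlgHom.commutes, algebraMap_eq_C, ← mul_assoc, ← map_mul,
      ← AddChar.map_add_eq_mul, neg_add_cancel]
  obtain ⟨c₁, hc₁⟩ := key 1 hg
  let ψ : Y.E →+* D'.S := AdjoinRoot.lift (δ.δ : D.S →+* D'.S) g (by
      refine (eval₂_kpol _ _ Y.f).trans ?_
      rw [hg]
      exact sub_self _)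
  have hof : ∀ x, ψ (AdjoinRoot.of (kpol p Y.f) x) = δ.δ x := fun x => AdjoinRoot.lift_of _
  have hroot : ψ (AdjoinRoot.root (kpol p Y.f)) = g := AdjoinRoot.lift_root _
  refine ⟨ψ, c₁, hof, fun j u => ?_⟩
  have hgj : D'.e j g = HahnSeries.C (chi Y.prim (![0, c₁] j)) * qExpand K d (Y.h j) := by
    rcases fin2_cases j with rfl | rfl
    · exact hg0
    · exact hc₁
  obtain ⟨b, rfl⟩ := exists_repr Y.f u
  rw [map_sum, map_sum, map_sum, map_sum]
  refine Finset.sum_congr rfl fun i _ => ?_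
  have h1 : D'.e j (ψ (AdjoinRoot.of (kpol p Y.f) (b i))) =
      qExpand K d (Y.e j (![0, c₁] j) (AdjoinRoot.of (kpol p Y.f) (b i))) := by
    rw [hof, e_of, δ.e_δ]
  have h2 : D'.e j (ψ (AdjoinRoot.root (kpol p Y.f))) =
      qExpand K d (Y.e j (![0, c₁] j) (AdjoinRoot.root (kpol p Y.f))) := by
    rw [hroot, e_root, hgj, map_mul, qExpand_C]
  rw [map_mul, map_pow, map_mul, map_pow, h1, h2, map_mul, map_pow, map_mul, map_pow]

end KumDat

end Fermat.Agent.NN
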