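import Fermat.Agent.NN.Kum4

/-!
# The node theorem for pull backs of Kummer covers
-/

set_option autoImplicit false
set_option linter.style.haveILetI false
set_option linter.unusedSectionVars false
set_option maxSynthPendingDepth 3

noncomputable section

attribute [-instance] HahnSeries.instModule HahnSeries.instSMul HahnSeries.instDistribMulAction
  HahnSeries.instSMulZeroClass

attribute [local instance 10000] Fermat.Agent.H29.instLS Fermat.Agent.H29.instIF
  Fermat.Agent.H29.instIF2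

namespace Fermat.Agent.NN

open ModularCurve HahnSeries Fermat.Agent.Igusa AlgebraicCurve Fermat.Agent.FF Fermat.Agent.H11Q
  Fermat.Agent.Q Module

local notation "kk" => IsLocalRing.ResidueField

variable {K : Type*} [Field K] [CharZero K] [IsAlgClosed K] [Algebra ℚ K]
  [Algebra.IsAlgebraic ℚ K]

/-- all the data for the node theorem at a given level -/
structure NodeLevel {r : ℕ} [NeZero r] (D : ALData K r) (A : ValuationSubring K)
    (Eb : IntermediateField (kk A) (LaurentSeries (kk A))) where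
  R : D.RedHyp A Eb
  lp : LevelPack A D.S₀ Eb r
  Z : ZDat D A Eb
  P : Place (kk A) Eb
  hP : ∀ x : Eb, P.ord x = (x : LaurentSeries (kk A)).order
  hO : ∀ x ∈ lp.O, ∀ v : Place (kk A) Eb, v ≠ P → x ∈ Vv v
  T : Divisor (kk A) Eb
  hT : ∀ v, T v = ∑ σ ∈ Z.S, max (v.ord (Z.tb - algebraMap (kk A) Eb σ)) 0
  hS : (genusFF K D.S : ℤ) + 1 ≤ 2 * lp.g' + Divisor.degree T

variable {p : ℕ} [hp : Fact p.Prime] {D : ALData K p} {A : ValuationSubring K}
  {Eb : IntermediateField (kk A) (LaurentSeries (kk A))}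

theorem qExpand_smul' {K : Type*} [Field K] (d : ℕ) [NeZero d] (c : K) (x : LaurentSeries K) :
    qExpand K d (c • x) = c • qExpand K d x := by
  rw [Algebra.smul_def, Algebra.smul_def, map_mul, algebraMap_eq_C, qExpand_C]

set_option maxHeartbeats 800000 in
/-- **The node theorem for pull backs.** -/
theorem node_pull (Y : KumDat D A) (R : D.RedHyp A Eb) {K₀ : Subfield K} {S : Set (K →+* K)}
    (hG : Y.Gal S) {D' : ALData K p} {Eb' : IntermediateField (kk A) (LaurentSeries (kk A))}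
    [SepFF (kk A) Eb'] (N : NodeLevel D' A Eb') (I' : InertData D' A K₀)
    (hS' : ∀ τ ∈ I'.G, τ.σ ∈ S) {d : ℕ} [NeZero d] (δ : Deg D D' d) {fx : D.S} (hfx : fx ≠ 0)
    {k : Y.E} (hk : k ≠ 0) (hRat : RatE (Y.cov R) K₀ (k ^ p * algebraMap D.S Y.E fx))
    (hdx : ∀ v : Place K D'.S, (p : ℤ) ∣ v.ord (δ.δ fx))
    (hdy : ∀ v : Place K D'.S, (p : ℤ) ∣ v.ord (δ.δ Y.f))
    {n : Fin 2 → ZMod p → ℤ} {φ : Fin 2 → ZMod p → Eb}
    (hval : ∀ j c, HasValE (Y.cov R) j c (k ^ p * algebraMap D.S Y.E fx) (n j c) (φ j c))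
    (hcong : ∀ j c c', (p : ℤ) ∣ n j c - n j c') {φ' : Fin 2 → ZMod p → Eb'}
    (hφ' : ∀ j c, (φ' j c : LaurentSeries (kk A)) = qExpand (kk A) d (φ j c))
    (v : Place (kk A) Eb') : (p : ℤ) ∣ v.ord (φ' 0 0) - (n 1 0 - n 0 0) * N.T v := by
  have hδ : Function.Injective δ.δ := δ.δ.toRingHom.injective
  have hfx' : δ.δ fx ≠ 0 := (map_ne_zero_iff _ hδ).mpr hfx
  have hf0 : k ^ p * algebraMap D.S Y.E fx ≠ 0 :=
    mul_ne_zero (pow_ne_zero _ hk) ((_root_.map_ne_zero _).mpr hfx)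
  have hφ0 : ∀ j c, φ' j c ≠ 0 := by
    intro j c h
    have h1 := hφ' j c
    rw [h] at h1
    have h2 : qExpand (kk A) d (φ j c : LaurentSeries (kk A)) = 0 := h1.symm
    rw [map_eq_zero_iff _ (qExpand_injective d)] at h2
    exact (hval j c).1 (Subtype.ext h2)
  -- the reduction after pull back
  have hred : ∀ (j : Fin 2) (c : ZMod p) (x : LaurentSeries K),
      x = qExpand K d (Y.e j c (k ^ p * algebraMap D.S Y.E fx)) →
      Red A ((p : K) ^ (-(n j c)) • x) (φ' j c : LaurentSeries (kk A)) := by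
    rintro j c _ rfl
    rw [← qExpand_smul', hφ']
    exact (hval j c).2.qExpand d
  have hrat : ∀ (j : Fin 2) (c : ZMod p) (x : LaurentSeries K),
      x = qExpand K d (Y.e j c (k ^ p * algebraMap D.S Y.E fx)) → ∀ l, x.coeff l ∈ K₀ := by
    rintro j c _ rfl l
    exact qExpand_coeff_mem (hRat j c) l
  by_cases h : ∃ g : D'.S, g ^ p = δ.δ Y.f
  · obtain ⟨g₀, hg₀⟩ := h
    obtain ⟨ψ, c₁, h1, h2⟩ := Y.exists_psi_triv δ hg₀
    have hF : ψ (k ^ p * algebraMap D.S Y.E fx) = ψ k ^ p * δ.δ fx := by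
      rw [map_mul, map_pow, h1]
    have hψk : ψ k ≠ 0 := (_root_.map_ne_zero ψ).mpr hk
    have key := node_triv I' N.R N.lp N.Z N.P N.hP N.hO N.T N.hT N.hS hp.out.pos
      (f := ψ (k ^ p * algebraMap D.S Y.E fx)) ((_root_.map_ne_zero ψ).mpr hf0)
      (fun j l => hrat j _ _ (h2 j _) l)
      (fun v => by
        rw [hF, v.ord_mul (pow_ne_zero _ hψk) hfx', H18.ord_pow]
        exact dvd_add (dvd_mul_right _ _) (hdx v))
      (n := fun j => n j (![0, c₁] j)) (φ := fun j => φ' j (![0, c₁] j))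
      (fun j => ⟨hφ0 _ _, hred j _ _ (h2 j _)⟩) v
    have h3 : (p : ℤ) ∣ v.ord (φ' 0 0) - (n 1 c₁ - n 0 0) * N.T v := key.1
    have h4 := (hcong 1 c₁ 0).mul_right (N.T v)
    have h5 := dvd_add h3 h4
    have h6 : v.ord (φ' 0 0) - (n 1 0 - n 0 0) * N.T v =
        v.ord (φ' 0 0) - (n 1 c₁ - n 0 0) * N.T v + (n 1 c₁ - n 1 0) * N.T v := by ring
    rw [h6]
    exact h5
  · push Not at h
    obtain ⟨ψ, h1, h2⟩ := Y.exists_psi δ h
    have hF : ψ (k ^ p * algebraMap D.S Y.E fx) = ψ k ^ p *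
        algebraMap D'.S (Y.pull δ h).E (δ.δ fx) := by
      rw [map_mul, map_pow, h1]
    have hψk : ψ k ≠ 0 := (_root_.map_ne_zero ψ).mpr hk
    have key := node_cov (Y := (Y.pull δ h).cov N.R) (I := I') N.R N.lp N.Z N.P N.hP N.hO N.T
      N.hT N.hS ((Y.pull δ h).galCov N.R I' (Y.pull_gal δ h hG) hS') hp.out.pos
      (f := ψ (k ^ p * algebraMap D.S Y.E fx)) ((_root_.map_ne_zero ψ).mpr hf0)
      (fun j c l => hrat j c _ (h2 j c _) l)
      ((Y.pull δ h).finrank_VSp' N.R N.lp hfx' hdx hdy hψk hF)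
      (n := n) (φ := φ')
      (fun j c => ⟨hφ0 _ _, hred j c _ (h2 j c _)⟩) hcong 0 v
    exact key.1

end Fermat.Agent.NN
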