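import Fermat.Agent.NN.Kum5
import Fermat.Agent.H23.R.Kummer

/-!
# Kummer covers: Hilbert 90 and the valuations of the descended function
-/

set_option autoImplicit false
set_option linter.style.haveILetI false
set_option linter.unusedSectionVars false
set_option maxSynthPendingDepth 3

noncomputable section

attribute [-instance] HahnSeries.instModule HahnSeries.instSMul HahnSeries.instDistribMulAction
  HahnSeries.instSMulZeroClass

attribute [local instance 10000] Fermat.Agent.H29.instLS Fermat.Agent.H29.instIF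
  Fermat.Agent.H29.instIF2

namespace Fermat.Agent.NN

open ModularCurve HahnSeries Fermat.Agent.Igusa AlgebraicCurve Fermat.Agent.FF Fermat.Agent.H11Q
  Fermat.Agent.Q Module

local notation "kk" => IsLocalRing.ResidueField

variable {K : Type*} [Field K] [CharZero K] [IsAlgClosed K] [Algebra ℚ K]
  [Algebra.IsAlgebraic ℚ K]

/-- uniqueness of the valuation -/
theorem val_unique {r : ℕ} (hr : r.Prime) {A : ValuationSubring K} (hA : A.LiesOverPrime r)
    {x : LaurentSeries K} {n n' : ℤ} {φ ψ : LaurentSeries (kk A)} (hφ : φ ≠ 0) (hψ : ψ ≠ 0)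
    (h : Red A ((r : K) ^ (-n) • x) φ) (h' : Red A ((r : K) ^ (-n') • x) ψ) : n = n' := by
  have hrK : (r : K) ≠ 0 := by exact_mod_cast hr.ne_zero
  have hr1 : (r : K) ∈ A := natCast_mem A r
  have hres : resid A (r : K) = 0 := by
    haveI := H11Q.charP_residue (A := A) hr hA
    rw [resid_of_mem A hr1]
    have : IsLocalRing.residue A (⟨(r : K), hr1⟩ : A) = ((r : ℕ) : kk A) :=
      map_natCast (IsLocalRing.residue A) r
    rw [this, CharP.cast_eq_zero]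
  have key : ∀ {n n' : ℤ} {φ ψ : LaurentSeries (kk A)}, φ ≠ 0 → Red A ((r : K) ^ (-n) • x) φ →
      Red A ((r : K) ^ (-n') • x) ψ → ¬ n < n' := by
    intro n n' φ ψ h0 h1 h2 hlt
    obtain ⟨d, hd⟩ : ∃ d : ℕ, n' = n + (d + 1) := ⟨(n' - n - 1).toNat, by omega⟩
    have h3 : (r : K) ^ (-n) • x = HahnSeries.C ((r : K) ^ (d + 1)) *
        ((r : K) ^ (-n') • x) := by
      rw [← algebraMap_eq_C, Algebra.smul_def, Algebra.smul_def, ← mul_assoc, ← map_mul]
      congr 2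
      rw [← zpow_natCast, ← zpow_add₀ hrK]
      congr 1
      push_cast
      rw [hd]
      ring
    have h4 := (Red.C (A := A) (pow_mem hr1 (d + 1))).mul h2
    rw [← h3] at h4
    have h5 := h1.unique h4
    apply h0
    rw [h5]
    have h6 : IsLocalRing.residue A ⟨(r : K) ^ (d + 1), pow_mem hr1 (d + 1)⟩ = 0 := by
      rw [← resid_of_mem A (pow_mem hr1 (d + 1)), pow_succ, resid_mul A (pow_mem hr1 d) hr1, hres,
        mul_zero]
    rw [h6, map_zero, zero_mul]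
  exact le_antisymm (not_lt.mp (key hψ h' h)) (not_lt.mp (key hφ h h'))

theorem leadingCoeff_mul' {K : Type*} [Field K] (x y : LaurentSeries K) :
    (x * y).leadingCoeff = x.leadingCoeff * y.leadingCoeff :=
  H26.laurent_leadingCoeff_mul x y

theorem leadingCoeff_C' {K : Type*} [Field K] (c : K) :
    (HahnSeries.C c : LaurentSeries K).leadingCoeff = c := by
  rw [HahnSeries.C_apply, HahnSeries.leadingCoeff_of_single]

theorem leadingCoeff_ne {K : Type*} [Field K] {x : LaurentSeries K} (hx : x ≠ 0) :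
    x.leadingCoeff ≠ 0 := HahnSeries.leadingCoeff_ne_zero.2 hx

theorem leadingCoeff_mem {K : Type*} [Field K] {K₀ : Subfield K} {x : LaurentSeries K}
    (h : ∀ l, x.coeff l ∈ K₀) : x.leadingCoeff ∈ K₀ := by
  by_cases hx : x = 0
  · rw [hx, HahnSeries.leadingCoeff_zero]; exact K₀.zero_mem
  · rw [HahnSeries.leadingCoeff_eq]
    exact h _

variable {p : ℕ} [hp : Fact p.Prime] {D : ALData K p} {A : ValuationSubring K}
  {Eb : IntermediateField (kk A) (LaurentSeries (kk A))}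

/-- a group acting on the constants -/
structure GalAct (D : ALData K p) (H : Type*) [Group H] where
  γ : H → D.Gal
  one : ∀ z, (γ 1).σ z = z
  mul : ∀ σ τ z, (γ (σ * τ)).σ z = (γ σ).σ ((γ τ).σ z)

namespace KumDat

variable (Y : KumDat D A) {H : Type*} [Group H] (G : GalAct D H)
  (hG : ∀ σ : H, ∃ (a : ℕ) (g : D.S), (G.γ σ).σ Y.ζ = Y.ζ ^ a ∧
    ∀ j, coeffMap (G.γ σ).σ (Y.h j) = (Y.h j) ^ a * D.e j g)

/-- the Galois maps -/
def Gm (σ : H) : Y.E →+* Y.E :=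
  (Y.exists_gal (hG σ).choose_spec.choose_spec.1 (hG σ).choose_spec.choose_spec.2).choose

theorem e_Gm (σ : H) (j : Fin 2) (c : ZMod p) (u : Y.E) :
    Y.e j c (Y.Gm G hG σ u) = coeffMap (G.γ σ).σ (Y.e j c u) :=
  (Y.exists_gal (hG σ).choose_spec.choose_spec.1
    (hG σ).choose_spec.choose_spec.2).choose_spec j c u

theorem e_inj (j : Fin 2) (c : ZMod p) : Function.Injective (Y.e j c) := (Y.e j c).toRingHom.injective

theorem Gm_of (σ : H) (x : D.S) : Y.Gm G hG σ (algebraMap D.S Y.E x) =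
    algebraMap D.S Y.E ((G.γ σ).g • x) := by
  apply Y.e_inj 0 0
  rw [e_Gm, algebraMap_eq, algebraMap_eq, e_of, e_of, (G.γ σ).e_smul]

theorem Gm_one (u : Y.E) : Y.Gm G hG 1 u = u := by
  apply Y.e_inj 0 0
  rw [e_Gm]
  ext l
  rw [coeffMap_coeff, G.one]

theorem Gm_mul (σ τ : H) (u : Y.E) : Y.Gm G hG (σ * τ) u = Y.Gm G hG σ (Y.Gm G hG τ u) := by
  apply Y.e_inj 0 0
  rw [e_Gm, e_Gm, e_Gm]
  ext l
  rw [coeffMap_coeff, coeffMap_coeff, coeffMap_coeff, G.mul]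

theorem Gm_ktau (σ : H) (t : ZMod p) (u : Y.E) :
    Y.Gm G hG σ (ktau Y.f Y.prim t u) = ktau Y.f Y.prim t (Y.Gm G hG σ u) := by
  apply Y.e_inj 0 0
  have h1 : ∀ (c : ZMod p) (v : Y.E), Y.e 0 c (ktau Y.f Y.prim t v) = Y.e 0 (c + t) v :=
    fun c v => kemb_ktau (D.e 0) (Y.h_pow 0) Y.prim c t v
  rw [e_Gm, h1, h1, e_Gm]

/-- **Hilbert 90.** -/
theorem hilbert {K' : Type*} [Field K'] (ι : K' →+* D.S)
    (hι : ∀ σ z, (G.γ σ).g • ι z = ι z) {fx : D.S} (hfx : fx ≠ 0) (hint : ι.IsIntegralElem fx)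
    (hlx : (D.e 0 fx).leadingCoeff = 1)
    (hx : ∀ σ : H, ∃ (b : ℕ) (g₁ : D.S), (G.γ σ).g • fx = fx * (Y.f ^ b * g₁ ^ p)) :
    ∃ k : Y.E, k ≠ 0 ∧ ∀ σ, Y.Gm G hG σ (k ^ p * algebraMap D.S Y.E fx) =
      k ^ p * algebraMap D.S Y.E fx := by
  letI : Algebra K' Y.E := ((algebraMap D.S Y.E).comp ι).toAlgebra
  let Φ : H →* (Y.E ≃ₐ[K'] Y.E) :=
    { toFun := fun σ => AlgEquiv.ofRingEquiv (f := RingEquiv.ofRingHom (Y.Gm G hG σ)
          (Y.Gm G hG σ⁻¹)
          (RingHom.ext fun u => by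
            rw [RingHom.comp_apply, ← Gm_mul, mul_inv_cancel, Gm_one, RingHom.id_apply])
          (RingHom.ext fun u => by
            rw [RingHom.comp_apply, ← Gm_mul, inv_mul_cancel, Gm_one, RingHom.id_apply]))
        (fun z => by
          change Y.Gm G hG σ (algebraMap D.S Y.E (ι z)) = algebraMap D.S Y.E (ι z)
          rw [Gm_of, hι])
      map_one' := AlgEquiv.ext fun u => Y.Gm_one G hG u
      map_mul' := fun σ τ => AlgEquiv.ext fun u => Y.Gm_mul G hG σ τ u }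
  have hΦ : ∀ σ u, Φ σ u = Y.Gm G hG σ u := fun σ u => rfl
  have hf0 : algebraMap D.S Y.E fx ≠ 0 := (_root_.map_ne_zero _).mpr hfx
  obtain ⟨u, hu0, hu⟩ := H23.R.descent_abstract Φ (m := p) (f := algebraMap D.S Y.E fx) hf0
    (by
      obtain ⟨q, hq, hqf⟩ := hint
      refine ⟨q, hq, ?_⟩
      have h2 := congrArg (algebraMap D.S Y.E) hqf
      rw [map_zero, Polynomial.hom_eval₂] at h2
      exact h2)
    (fun g => (Y.e 0 0 g).leadingCoeff = 1)
    (by rw [map_one, HahnSeries.leadingCoeff_one])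
    (fun a b ha hb => by rw [map_mul, leadingCoeff_mul', ha, hb, one_mul])
    (fun σ a ha => by
      rw [hΦ, e_Gm]
      have h1 := H26.leadingCoeff_coeffMap (G.γ σ).σ (Y.e 0 0 a)
      rw [h1, ha, map_one])
    (fun a ha h0 => by
      rw [h0, map_zero, HahnSeries.leadingCoeff_zero] at ha
      exact zero_ne_one ha)
    (fun a b ha hb hab => Y.e_inj 0 0 (H23.R.laurent_root_unique hp.out.ne_zero ha hb (by
      rw [← map_pow, ← map_pow, hab])))
    (by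
      intro σ
      obtain ⟨b, g₁, h1⟩ := hx σ
      obtain ⟨g, hg⟩ : ∃ g : Y.E, g = AdjoinRoot.root (kpol p Y.f) ^ b *
        algebraMap D.S Y.E g₁ := ⟨_, rfl⟩
      have h2 : Φ σ (algebraMap D.S Y.E fx) = algebraMap D.S Y.E fx * g ^ p := by
        rw [hΦ, Gm_of, h1, hg, map_mul, map_mul, map_pow, map_pow, mul_pow, ← pow_mul,
          mul_comm b p, pow_mul, root_pow]
        rfl
      have hg0 : g ≠ 0 := by
        rintro h0
        rw [h0, zero_pow hp.out.ne_zero, mul_zero, hΦ] at h2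
        exact hf0 ((_root_.map_eq_zero (Y.Gm G hG σ)).mp h2)
      obtain ⟨l, hl⟩ : ∃ l, l = (Y.e 0 0 g).leadingCoeff := ⟨_, rfl⟩
      have hl0 : l ≠ 0 := hl ▸ leadingCoeff_ne ((map_ne_zero_iff _ (Y.e_inj 0 0)).mpr hg0)
      have hlp : l ^ p = 1 := by
        have h3 := congrArg (fun v => (Y.e 0 0 v).leadingCoeff) h2
        simp only [hΦ, e_Gm, map_mul, map_pow] at h3
        rw [H26.leadingCoeff_coeffMap, leadingCoeff_mul', H23.R.leadingCoeff_pow, ← hl,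
          algebraMap_eq, e_of, hlx, map_one, one_mul] at h3
        exact h3.symm
      refine ⟨algebraMap K Y.E l⁻¹ * g, ?_, ?_⟩
      · rw [map_mul, AlgHom.commutes, algebraMap_eq_C, leadingCoeff_mul', leadingCoeff_C', ← hl,
          inv_mul_cancel₀ hl0]
      · rw [h2, mul_pow, ← map_pow, inv_pow, hlp, inv_one, map_one, one_mul])
  refine ⟨u⁻¹, inv_ne_zero hu0, fun σ => ?_⟩
  have h3 := hu σ
  rw [hΦ] at h3
  rw [mul_comm]
  exact h3

theorem ktau_base (t : ZMod p) (x : D.S) : ktau Y.f Y.prim t (algebraMap D.S Y.E x) =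
    algebraMap D.S Y.E x := ktau_of Y.prim t x

theorem e_ktau (t : ZMod p) (j : Fin 2) (c : ZMod p) (u : Y.E) :
    Y.e j c (ktau Y.f Y.prim t u) = Y.e j (c + t) u :=
  kemb_ktau (D.e j) (Y.h_pow j) Y.prim c t u

theorem ktau_ne (t : ZMod p) {u : Y.E} (hu : u ≠ 0) : ktau Y.f Y.prim t u ≠ 0 :=
  (map_ne_zero_iff _ (ktau_injective Y.prim Y.nroot t)).mpr hu

/-- Galois action on `τ k / k` -/
theorem Gm_quot {fx : D.S} (hfx : fx ≠ 0) {k : Y.E} (hk : k ≠ 0) {σ : H}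
    (hfix : Y.Gm G hG σ (k ^ p * algebraMap D.S Y.E fx) = k ^ p * algebraMap D.S Y.E fx)
    {b : ℕ} {g₁ : D.S} (hx : (G.γ σ).g • fx = fx * (Y.f ^ b * g₁ ^ p)) (t : ZMod p) :
    Y.Gm G hG σ (ktau Y.f Y.prim t k / k) =
      algebraMap K Y.E (chi Y.prim t ^ b)⁻¹ * (ktau Y.f Y.prim t k / k) := by
  have hf0 : algebraMap D.S Y.E fx ≠ 0 := (_root_.map_ne_zero _).mpr hfx
  obtain ⟨ρ, hρ⟩ : ∃ ρ : Y.E, ρ = AdjoinRoot.root (kpol p Y.f) := ⟨_, rfl⟩
  have hρp : ρ ^ p = algebraMap D.S Y.E Y.f := by rw [hρ]; exact root_pow Y.f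
  obtain ⟨γ₁, hγ₁⟩ : ∃ γ₁ : Y.E, γ₁ = algebraMap D.S Y.E g₁ := ⟨_, rfl⟩
  have h1 : (Y.Gm G hG σ k * (ρ ^ b * γ₁)) ^ p = k ^ p := by
    apply mul_right_cancel₀ hf0
    rw [← hfix, map_mul (Y.Gm G hG σ), map_pow (Y.Gm G hG σ), Gm_of, hx, map_mul, map_mul,
      map_pow, map_pow, ← hρp, ← hγ₁]
    ring
  obtain ⟨c, hc⟩ : ∃ c : ZMod p, Y.Gm G hG σ k * (ρ ^ b * γ₁) =
      algebraMap K Y.E (chi Y.prim c) * k := by
    obtain ⟨c, hc⟩ := eq_chi_mul Y.prim (x := Y.e 0 0 (Y.Gm G hG σ k * (ρ ^ b * γ₁)))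
      (y := Y.e 0 0 k) ((map_ne_zero_iff _ (Y.e_inj 0 0)).mpr hk) (by
        rw [← map_pow, h1, map_pow])
    refine ⟨c, Y.e_inj 0 0 ?_⟩
    rw [hc, map_mul, AlgHom.commutes, algebraMap_eq_C]
  have hcK : algebraMap K Y.E (chi Y.prim c) ≠ 0 :=
    (_root_.map_ne_zero _).mpr (chi_ne_zero Y.prim c)
  have htK : algebraMap K Y.E (chi Y.prim t) ≠ 0 :=
    (_root_.map_ne_zero _).mpr (chi_ne_zero Y.prim t)
  have hρ0 : ρ ^ b * γ₁ ≠ 0 := by
    intro h0
    rw [h0, mul_zero] at hc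
    exact mul_ne_zero hcK hk hc.symm
  have h3 := congrArg (ktau Y.f Y.prim t) hc
  have h4 : ktau Y.f Y.prim t (ρ ^ b * γ₁) =
      algebraMap K Y.E (chi Y.prim t) ^ b * (ρ ^ b * γ₁) := by
    rw [map_mul, map_pow, hρ, ktau_root, hγ₁, ktau_base, mul_pow]
    ring
  rw [map_mul (ktau Y.f Y.prim t) (Y.Gm G hG σ k), h4,
    map_mul (ktau Y.f Y.prim t) (algebraMap K Y.E _), AlgHom.commutes] at h3
  have hGk : Y.Gm G hG σ k ≠ 0 := (_root_.map_ne_zero (Y.Gm G hG σ)).mpr hk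
  rw [map_div₀, Gm_ktau, map_inv₀, map_pow]
  rw [div_eq_iff hGk]
  apply mul_right_cancel₀ hρ0
  have htb := pow_ne_zero b htK
  apply mul_left_cancel₀ htb
  calc algebraMap K Y.E (chi Y.prim t) ^ b * (ktau Y.f Y.prim t (Y.Gm G hG σ k) *
        (ρ ^ b * γ₁)) = ktau Y.f Y.prim t (Y.Gm G hG σ k) *
        (algebraMap K Y.E (chi Y.prim t) ^ b * (ρ ^ b * γ₁)) := by ring
    _ = algebraMap K Y.E (chi Y.prim c) * ktau Y.f Y.prim t k := h3
    _ = (algebraMap K Y.E (chi Y.prim c) * k) * (ktau Y.f Y.prim t k / k) := by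
        field_simp
    _ = (Y.Gm G hG σ k * (ρ ^ b * γ₁)) * (ktau Y.f Y.prim t k / k) := by rw [hc]
    _ = _ := by field_simp

/-- **The valuations of the descended function are constant modulo `p`.** -/
theorem val_cong (R : D.RedHyp A Eb) (lp : LevelPack A D.S₀ Eb p) {K₀ : Subfield K}
    (I : InertData D A K₀) (hI' : ∀ τ ∈ I.G, ∃ σ : H, G.γ σ = τ)
    {fx : D.S} (hfx : fx ≠ 0) {k : Y.E} (hk : k ≠ 0)
    (hfix : ∀ σ, Y.Gm G hG σ (k ^ p * algebraMap D.S Y.E fx) = k ^ p * algebraMap D.S Y.E fx)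
    {v : K} (hv : v ∈ A) (hv' : v⁻¹ ∈ A) (hv0 : v ≠ 0)
    (hx : ∀ σ : H, ∃ (b : ℕ) (g₁ : D.S), (G.γ σ).g • fx = fx * (Y.f ^ b * g₁ ^ p) ∧
      (G.γ σ).σ v = Y.ζ ^ b * v)
    {n : Fin 2 → ZMod p → ℤ} {φ : Fin 2 → ZMod p → Eb}
    (hval : ∀ j c, HasValE (Y.cov R) j c (k ^ p * algebraMap D.S Y.E fx) (n j c) (φ j c))
    (j : Fin 2) (c c' : ZMod p) : (p : ℤ) ∣ n j c - n j c' := by
  have hpK : (p : K) ≠ 0 := by exact_mod_cast hp.out.ne_zero
  have hGal : GalCov (Y.cov R) I := by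
    intro τ hτ
    obtain ⟨σ, rfl⟩ := hI' τ hτ
    exact ⟨Y.Gm G hG σ, Y.e_Gm G hG σ⟩
  set t : ZMod p := c - c' with ht
  obtain ⟨q, hq⟩ : ∃ q : Y.E, q = ktau Y.f Y.prim t k / k := ⟨_, rfl⟩
  have hq0 : q ≠ 0 := by rw [hq]; exact div_ne_zero (Y.ktau_ne t hk) hk
  obtain ⟨l, hl⟩ : ∃ l, l = (Y.e 0 0 q).leadingCoeff := ⟨_, rfl⟩
  have hl0 : l ≠ 0 := hl ▸ leadingCoeff_ne ((map_ne_zero_iff _ (Y.e_inj 0 0)).mpr hq0)
  have hGq : ∀ σ b g₁, (G.γ σ).g • fx = fx * (Y.f ^ b * g₁ ^ p) →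
      Y.Gm G hG σ q = algebraMap K Y.E (chi Y.prim t ^ b)⁻¹ * q := by
    intro σ b g₁ h
    rw [hq]
    exact Y.Gm_quot G hG hfx hk (hfix σ) h t
  have hGl : ∀ σ b g₁, (G.γ σ).g • fx = fx * (Y.f ^ b * g₁ ^ p) →
      (G.γ σ).σ l = (chi Y.prim t ^ b)⁻¹ * l := by
    intro σ b g₁ h
    have h1 := congrArg (fun v => (Y.e 0 0 v).leadingCoeff) (hGq σ b g₁ h)
    simp only [e_Gm, map_mul, AlgHom.commutes, algebraMap_eq_C] at h1
    rw [H26.leadingCoeff_coeffMap, leadingCoeff_mul', leadingCoeff_C', ← hl] at h1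
    exact h1
  -- the constant `z`
  have hz : l * v ^ t.val ∈ K₀ := by
    rw [← I.fix]
    intro τ hτ
    obtain ⟨σ, rfl⟩ := hI' τ hτ
    obtain ⟨b, g₁, h1, h2⟩ := hx σ
    rw [map_mul, map_pow, h2, hGl σ b g₁ h1, chi_apply]
    have h3 : Y.ζ ^ t.val ≠ 0 := chi_ne_zero Y.prim t
    have h4 : (Y.ζ ^ b * v) ^ t.val = (Y.ζ ^ t.val) ^ b * v ^ t.val := by
      rw [mul_pow, ← pow_mul, ← pow_mul, mul_comm b]
    rw [h4]
    field_simp
  have hz0 : l * v ^ t.val ≠ 0 := mul_ne_zero hl0 (pow_ne_zero _ hv0)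
  obtain ⟨e, he⟩ := I.hval _ hz hz0
  have hvv : A.valuation v = 1 := by
    apply le_antisymm ((A.valuation_le_one_iff _).mpr hv)
    have h2 := (A.valuation_le_one_iff _).mpr hv'
    rw [map_inv₀] at h2
    exact (inv_le_one₀ (zero_lt_iff.mpr ((Valuation.ne_zero_iff _).mpr hv0))).mp h2
  have hvl : A.valuation l = A.valuation (p : K) ^ e := by
    rw [map_mul, map_pow, hvv, one_pow, mul_one] at he
    exact he
  -- valuation of the constant
  have hvalc : ∀ c, HasValE (Y.cov R) j c (algebraMap K Y.E l) e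
      (algebraMap (kk A) Eb (resid A ((p : K) ^ (-e) * l))) := by
    intro c
    have hv1 : A.valuation ((p : K) ^ (-e) * l) = 1 := by
      rw [map_mul, hvl, map_zpow₀, ← zpow_add₀ ((Valuation.ne_zero_iff _).mpr hpK),
        neg_add_cancel, zpow_zero]
    have hA1 : (p : K) ^ (-e) * l ∈ A := (A.valuation_le_one_iff _).mp hv1.le
    refine ⟨?_, ?_⟩
    · rw [Ne, _root_.map_eq_zero]
      rw [← Ne, resid_ne_zero_iff A hA1]
      refine ⟨(A.valuation_le_one_iff _).mp ?_, ?_⟩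
      · rw [map_inv₀, hv1, inv_one]
      · rintro h
        rw [h, map_zero] at hv1
        exact zero_ne_one hv1
    · have h1 : (Y.cov R).e j c (algebraMap K Y.E l) = HahnSeries.C l := by
        rw [AlgHom.commutes, algebraMap_eq_C]
      have h2 : ((p : K) ^ (-e) • (Y.cov R).e j c (algebraMap K Y.E l)) =
          HahnSeries.C ((p : K) ^ (-e) * l) := by
        rw [h1, Algebra.smul_def, algebraMap_eq_C, ← map_mul]
      rw [h2]
      have h3 := P.red_C hA1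
      have h4 : ∀ a : kk A, ((algebraMap (kk A) Eb a : Eb) : LaurentSeries (kk A)) =
          HahnSeries.C a := fun a => by rw [← algebraMap_eq_C]; rfl
      rw [h4]
      exact h3
  -- the normalised quotient is rational
  obtain ⟨g0, hg0⟩ : ∃ g0 : Y.E, g0 = algebraMap K Y.E l⁻¹ * q := ⟨_, rfl⟩
  have hlE : algebraMap K Y.E l ≠ 0 := (_root_.map_ne_zero _).mpr hl0
  have hg00 : g0 ≠ 0 := by
    rw [hg0]
    exact mul_ne_zero ((_root_.map_ne_zero _).mpr (inv_ne_zero hl0)) hq0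
  have hqg : q = algebraMap K Y.E l * g0 := by
    rw [hg0, ← mul_assoc, ← map_mul, mul_inv_cancel₀ hl0, map_one, one_mul]
  have hGc : ∀ (σ : H) (a : K), Y.Gm G hG σ (algebraMap K Y.E a) =
      algebraMap K Y.E ((G.γ σ).σ a) := by
    intro σ a
    apply Y.e_inj 0 0
    rw [e_Gm, AlgHom.commutes, AlgHom.commutes, algebraMap_eq_C, algebraMap_eq_C, coeffMap_C']
  have hg0r : RatE (Y.cov R) K₀ g0 := by
    refine ratE_of_fix (I := I) fun τ hτ => ?_
    obtain ⟨σ, rfl⟩ := hI' τ hτ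
    refine ⟨Y.Gm G hG σ, Y.e_Gm G hG σ, ?_⟩
    obtain ⟨b, g₁, h1, -⟩ := hx σ
    rw [hg0, map_mul, hGc, map_inv₀, hGl σ b g₁ h1, hGq σ b g₁ h1, ← mul_assoc, ← map_mul]
    congr 2
    have h3 : chi Y.prim t ^ b ≠ 0 := pow_ne_zero _ (chi_ne_zero Y.prim t)
    field_simp
  obtain ⟨m, ψ, hm⟩ := exists_hasValE R lp hGal hg00 hg0r j c'
  have h5 := ((((hvalc c').mul hpK hm).pow hpK p).mul hpK (hval j c'))
  rw [← hqg] at h5
  have h6 : q ^ p * (k ^ p * algebraMap D.S Y.E fx) =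
      ktau Y.f Y.prim t (k ^ p * algebraMap D.S Y.E fx) := by
    rw [map_mul, map_pow, ktau_base, hq, div_pow]
    have := pow_ne_zero p hk
    field_simp
  rw [h6] at h5
  have h7 : (Y.cov R).e j c' (ktau Y.f Y.prim t (k ^ p * algebraMap D.S Y.E fx)) =
      (Y.cov R).e j c (k ^ p * algebraMap D.S Y.E fx) := by
    rw [cov_e, cov_e, e_ktau, ht, add_sub_cancel]
  have h8 := h5.2
  rw [h7] at h8
  have h9 := val_unique hp.out R.lies (fun h => (hval j c).1 (Subtype.ext h))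
    (fun h => h5.1 (Subtype.ext h)) (hval j c).2 h8
  rw [h9]
  exact ⟨e + m, by ring⟩

end KumDat

end Fermat.Agent.NN
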