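import Fermat.Agent.NN.Cover

/-!
# The node theorem
-/

set_option autoImplicit false
set_option linter.style.haveILetI false
set_option linter.unusedSectionVars false
set_option maxSynthPendingDepth 3

noncomputable section

attribute [-instance] HahnSeries.instModule HahnSeries.instSMul HahnSeries.instDistribMulAction
  HahnSeries.instSMulZeroClass

attribute [local instance 10000] Fermat.Agent.H29.instLS Fermat.Agent.H29.instIF
  Fermat.Agent.H29.instIF2

namespace Fermat.Agent.NN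

open ModularCurve HahnSeries Fermat.Agent.Igusa AlgebraicCurve Fermat.Agent.FF Fermat.Agent.H11Q
  Fermat.Agent.Q Module

local notation "kk" => IsLocalRing.ResidueField

variable {K : Type*} [Field K] [CharZero K] [IsAlgClosed K] [Algebra ℚ K]
  [Algebra.IsAlgebraic ℚ K]
variable {r : ℕ} [NeZero r] {D : ALData K r} {A : ValuationSubring K}
  {Eb : IntermediateField (kk A) (LaurentSeries (kk A))}

section Tdiv

variable (Z : ZDat D A Eb) {P : Place (kk A) Eb}
  (hP : ∀ x : Eb, P.ord x = (x : LaurentSeries (kk A)).order)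

include hP

theorem ZDat.ord_P_tb_sub (σ : kk A) : P.ord (Z.tb - algebraMap (kk A) Eb σ) < 0 := by
  have h0 : P.ord Z.tb < 0 := by rw [hP]; exact Z.tb_low
  by_contra hcon
  push Not at hcon
  have h1 : Z.tb - algebraMap (kk A) Eb σ ∈ P.toValuationSubring := (H18.mem_iff P).mpr hcon
  have h2 := add_mem h1 (P.algebraMap_mem' σ)
  rw [sub_add_cancel, H18.mem_iff] at h2
  omega

theorem ZDat.tb_sub_ne (σ : kk A) : Z.tb - algebraMap (kk A) Eb σ ≠ 0 := by
  intro h
  have := Z.ord_P_tb_sub hP σ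
  rw [h, P.ord_zero] at this
  exact lt_irrefl _ this

variable [HasPrincipalDivisors (kk A) Eb]

/-- the divisor of the supersingular points, with multiplicities -/
theorem ZDat.exists_T : ∃ T : Divisor (kk A) Eb, ∀ v : Place (kk A) Eb,
    T v = ∑ σ ∈ Z.S, max (v.ord (Z.tb - algebraMap (kk A) Eb σ)) 0 := by
  classical
  choose Δ hΔ _ using fun σ => HasPrincipalDivisors.exists_divisor (K := kk A)
    (Z.tb - algebraMap (kk A) Eb σ) (Z.tb_sub_ne hP σ)
  refine ⟨∑ σ ∈ Z.S, (Δ σ).mapRange (fun n => max n 0) (by simp), fun v => ?_⟩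
  rw [Finsupp.finsetSum_apply]
  refine Finset.sum_congr rfl fun σ _ => ?_
  rw [Finsupp.mapRange_apply, hΔ]

omit [HasPrincipalDivisors (kk A) Eb] in
/-- values of the divisor -/
theorem ZDat.T_cases (v : Place (kk A) Eb) :
    (∑ σ ∈ Z.S, max (v.ord (Z.tb - algebraMap (kk A) Eb σ)) 0 = 0) ∨
    (v ≠ P ∧ ∃ σ ∈ Z.S, 0 < v.ord (Z.tb - algebraMap (kk A) Eb σ) ∧
      ∑ σ ∈ Z.S, max (v.ord (Z.tb - algebraMap (kk A) Eb σ)) 0 =
        v.ord (Z.tb - algebraMap (kk A) Eb σ)) := by
  classical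
  by_cases h : ∃ σ ∈ Z.S, 0 < v.ord (Z.tb - algebraMap (kk A) Eb σ)
  · right
    obtain ⟨σ, hσ, hv⟩ := h
    refine ⟨?_, σ, hσ, hv, ?_⟩
    · rintro rfl
      have := Z.ord_P_tb_sub hP σ
      omega
    · rw [Finset.sum_eq_single_of_mem σ hσ, max_eq_left hv.le]
      intro τ _ hτ
      apply max_eq_right
      have hne : algebraMap (kk A) Eb (σ - τ) ≠ 0 := by
        rw [Ne, map_eq_zero, sub_eq_zero]
        exact fun h => hτ h.symm
      have h1 : Z.tb - algebraMap (kk A) Eb τ =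
          algebraMap (kk A) Eb (σ - τ) + (Z.tb - algebraMap (kk A) Eb σ) := by
        rw [map_sub]; ring
      have h2 := H18.ord_add_eq_of_lt v hne (g := Z.tb - algebraMap (kk A) Eb σ)
        (Or.inr (by rw [H18.ord_algebraMap]; exact hv))
      rw [h1, h2.1, H18.ord_algebraMap]
  · left
    push Not at h
    exact Finset.sum_eq_zero fun σ hσ => max_eq_right (h σ hσ)

end Tdiv

namespace Cov

variable {E : Type*} [Field E] [Algebra K E] [Algebra D.S E] [IsScalarTower K D.S E]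
  [FiniteDimensional D.S E] {C : Type*} [Fintype C] (Y : Cov D A Eb E C)

theorem e_mem_DD (R : D.RedHyp A Eb) {u : E} (hu : IsIntegral (rgA D) u) (j : Fin 2) (c : C) :
    Y.e j c u ∈ DD A := by
  haveI := H08.mulArchimedean_valueGroup R.prime R.lies
  refine mem_DD_of_FL (Y.mem_FL j c u) (mem_bddL_of_isIntegral (Y.mem_FL j c u) ?_)
  obtain ⟨p, hp, hpu⟩ := hu
  let f : rgA D →+* bddL A :=
    { toFun := fun y => ⟨D.e j (y : D.S), (R.e_mem_DD y.2 j).1⟩
      map_one' := Subtype.ext (map_one (D.e j))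
      map_mul' := fun a b => Subtype.ext (map_mul (D.e j) _ _)
      map_zero' := Subtype.ext (map_zero (D.e j))
      map_add' := fun a b => Subtype.ext (map_add (D.e j) _ _) }
  refine ⟨p.map f, hp.map f, ?_⟩
  rw [Polynomial.eval₂_map]
  have h2 := congrArg (Y.e j c) hpu
  rw [map_zero] at h2
  rw [← h2]
  have h3 : (algebraMap (bddL A) (LaurentSeries K)).comp f =
      ((Y.e j c : E →+* LaurentSeries K)).comp (algebraMap (rgA D) E) := by
    refine RingHom.ext fun y => ?_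
    exact (Y.e_base j c (y : D.S)).symm
  rw [h3]
  exact (Polynomial.hom_eval₂ p (algebraMap (rgA D) E) (Y.e j c : E →+* LaurentSeries K) u).symm

end Cov

theorem DD_smul (A : ValuationSubring K) {x : LaurentSeries K} (hx : x ∈ DD A) (c : K) :
    c • x ∈ DD A := by
  rw [Algebra.smul_def, algebraMap_eq_C]
  exact mul_mem (C_mem_DD c) hx

theorem att_of_DD (R : D.RedHyp A Eb) {x : LaurentSeries K} (hx : x ∈ DD A) (h0 : x ≠ 0) :
    Att A x := by
  obtain ⟨c, hc, h1, h2⟩ := exists_redL_ne_zero R.prime R.lies hx h0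
  have h3 : c • x = HahnSeries.C c * x := by rw [Algebra.smul_def, algebraMap_eq_C]
  refine ⟨c, hc, ?_, ?_⟩
  · rw [h3, isInt_iff_mem]; exact h1
  · rw [h3, rd_eq_redL h1]; exact h2

theorem isInt_of_red (R : D.RedHyp A Eb) {x : LaurentSeries K} (hx : x ∈ DD A)
    {u : LaurentSeries (kk A)} (hu : Red A x u) : IsInt A x ∧ rd A x = u := by
  obtain ⟨h1, h2⟩ := mem_intL_of_red R.prime R.lies hx hu
  exact ⟨isInt_iff_mem.mpr h1, by rw [rd_eq_redL h1]; exact h2⟩

/-- discreteness over `K₀` -/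
theorem isInt_inv_smul {A : ValuationSubring K} {K₀ : Subfield K}
    (hval : ∀ z ∈ K₀, z ≠ 0 → ∃ n : ℤ, A.valuation z = A.valuation (r : K) ^ n)
    (hr : (r : K) ∈ A.nonunits) (hr0 : (r : K) ≠ 0)
    {x : LaurentSeries K} (hx : ∀ n, x.coeff n ∈ K₀) (hi : IsInt A x) (h0 : rd A x = 0) :
    IsInt A ((r : K)⁻¹ • x) := by
  intro n
  rw [H11Q.coeff_smul']
  by_cases hn : x.coeff n = 0
  · rw [hn, mul_zero]; exact A.zero_mem
  obtain ⟨k, hk⟩ := hval _ (hx n) hn
  have h1 : resid A (x.coeff n) = 0 := by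
    have := congrArg (fun y : LaurentSeries (kk A) => y.coeff n) h0
    simpa using this
  rw [resid_eq_zero_iff A (hi n), ValuationSubring.mem_nonunits_iff, hk] at h1
  rw [ValuationSubring.mem_nonunits_iff] at hr
  have hv0 : A.valuation (r : K) ≠ 0 := (A.valuation.ne_zero_iff).mpr hr0
  have hk1 : 0 < k := by
    by_contra hcon
    push Not at hcon
    have : 1 ≤ A.valuation (r : K) ^ k := by
      obtain ⟨l, rfl⟩ := Int.eq_ofNat_of_zero_le (neg_nonneg.mpr hcon) |>.imp fun l hl => by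
        exact (neg_eq_iff_eq_neg.mp hl)
      rw [zpow_neg, zpow_natCast, one_le_inv₀ (zero_lt_iff.mpr (pow_ne_zero _ hv0))]
      exact pow_le_one₀ zero_le hr.le
    exact absurd h1 (not_lt.mpr this)
  rw [← A.valuation_le_one_iff, map_mul, map_inv₀, hk, ← zpow_neg_one, ← zpow_add₀ hv0]
  obtain ⟨l, hl⟩ := Int.eq_ofNat_of_zero_le (show 0 ≤ -1 + k by omega)
  rw [hl, zpow_natCast]
  exact pow_le_one₀ zero_le hr.le

/-! ### the Riemann-Roch type spaces -/

section VSp

variable {E : Type*} [Field E] [Algebra K E] [Algebra D.S E] [IsScalarTower K D.S E]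
  [FiniteDimensional D.S E] {C : Type*} [Fintype C] (Y : Cov D A Eb E C)

/-- a root of an integral element is integral -/
theorem isIntegral_of_pow' {R₀ : Type*} [CommRing R₀] [Algebra R₀ E] {x : E} {n : ℕ} (hn : n ≠ 0)
    (h : IsIntegral R₀ (x ^ n)) : IsIntegral R₀ x := by
  exact IsIntegral.of_pow (Nat.pos_of_ne_zero hn) h

/-- the functions `u` such that `u ^ m * f` has poles only over the cusps, of order `≤ m n` -/
def VSp (m : ℕ) (hm : m ≠ 0) (f : E) (n : ℤ) : Submodule K E where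
  carrier := {u | IsIntegral (rgA D) (u ^ m * f) ∧ ∀ j c, Low (Y.e j c (u ^ m * f)) (m * (-n))}
  zero_mem' := by
    refine ⟨?_, fun j c => ?_⟩
    · rw [zero_pow hm, zero_mul]; exact isIntegral_zero
    · rw [zero_pow hm, zero_mul, map_zero]; exact low_zero _
  add_mem' := by
    rintro u u' ⟨h1, h2⟩ ⟨h1', h2'⟩
    have key : ∀ i ∈ Finset.range (m + 1),
        IsIntegral (rgA D) (u ^ i * u' ^ (m - i) * f) ∧
        ∀ j c, Low (Y.e j c (u ^ i * u' ^ (m - i) * f)) (m * (-n)) := by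
      intro i hi
      rw [Finset.mem_range] at hi
      have hpow : (u ^ i * u' ^ (m - i) * f) ^ m = (u ^ m * f) ^ i * (u' ^ m * f) ^ (m - i) := by
        have : f ^ m = f ^ i * f ^ (m - i) := by rw [← _root_.pow_add]; congr 1; omega
        rw [mul_pow, mul_pow, this, mul_pow, mul_pow, ← pow_mul, ← pow_mul, ← pow_mul, ← pow_mul,
          mul_comm i m, mul_comm (m - i) m]
        ring
      refine ⟨isIntegral_of_pow' hm (by rw [hpow]; exact (h1.pow i).mul (h1'.pow (m - i))),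
        fun j c => ?_⟩
      refine low_of_pow hm ?_
      rw [← map_pow, hpow, map_mul, map_pow, map_pow]
      have h3 := ((h2 j c).pow i).mul ((h2' j c).pow (m - i))
      convert h3 using 1
      rw [Nat.cast_sub (by omega)]
      ring
    have hsum : (u + u') ^ m * f =
        ∑ i ∈ Finset.range (m + 1), (m.choose i : K) • (u ^ i * u' ^ (m - i) * f) := by
      rw [add_pow, Finset.sum_mul]
      refine Finset.sum_congr rfl fun i _ => ?_
      rw [Algebra.smul_def, map_natCast]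
      ring
    refine ⟨?_, fun j c => ?_⟩
    · rw [hsum]
      refine IsIntegral.sum _ fun i hi => ?_
      rw [Algebra.smul_def]
      have h3 : algebraMap K E (m.choose i : K) =
          algebraMap (rgA D) E (algebraMap K (rgA D) (m.choose i : K)) := by
        rw [IsScalarTower.algebraMap_apply K D.S E]
        rfl
      rw [h3]
      exact isIntegral_algebraMap.mul (key i hi).1
    · rw [hsum, map_sum]
      intro l hl
      rw [HahnSeries.coeff_sum]
      refine Finset.sum_eq_zero fun i hi => ?_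
      rw [map_smul]
      exact ((key i hi).2 j c).smul _ l hl
  smul_mem' := by
    rintro a u ⟨h1, h2⟩
    have hs : (a • u) ^ m * f = (a ^ m) • (u ^ m * f) := by
      rw [smul_pow, smul_mul_assoc]
    refine ⟨?_, fun j c => ?_⟩
    · rw [hs, Algebra.smul_def]
      have h3 : algebraMap K E (a ^ m) =
          algebraMap (rgA D) E (algebraMap K (rgA D) (a ^ m)) := by
        rw [IsScalarTower.algebraMap_apply K D.S E]
        rfl
      rw [h3]
      exact isIntegral_algebraMap.mul h1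
    · rw [hs, map_smul]
      exact (h2 j c).smul _

theorem mem_VSp {m : ℕ} {hm : m ≠ 0} {f : E} {n : ℤ} {u : E} : u ∈ VSp Y m hm f n ↔
    IsIntegral (rgA D) (u ^ m * f) ∧ ∀ j c, Low (Y.e j c (u ^ m * f)) (m * (-n)) := Iff.rfl

/-- scalars of the base are integral -/
theorem isIntegral_const (a : K) : IsIntegral (rgA D) (algebraMap K E a) := by
  have h3 : algebraMap K E a = algebraMap (rgA D) E (algebraMap K (rgA D) a) := by
    rw [IsScalarTower.algebraMap_apply K D.S E]
    rfl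
  rw [h3]
  exact isIntegral_algebraMap

end VSp

/-! ### the main theorem -/

section Main

variable {E : Type*} [Field E] [Algebra K E] [Algebra D.S E] [IsScalarTower K D.S E]
  [FiniteDimensional D.S E] {C : Type*} [Fintype C] (Y : Cov D A Eb E C)

/-- exponents -/
def bet (β : ℕ) : Fin 2 → ℕ := ![0, β]

/-- the scaled expansions of `u f` -/
def EI (m : ℕ) (f : E) (a : Fin 2 → C → ℤ) (β : ℕ) (i : Fin 2 × C) : E →ₗ[K] LaurentSeries K :=
  ((r : K) ^ (-(((m : ℤ) - 1) * a i.1 i.2 + bet β i.1))) •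
    ((Y.e i.1 i.2).toLinearMap.comp (LinearMap.mulRight K f))

theorem EI_apply (m : ℕ) (f : E) (a : Fin 2 → C → ℤ) (β : ℕ) (i : Fin 2 × C) (u : E) :
    EI Y m f a β i u =
      (r : K) ^ (-(((m : ℤ) - 1) * a i.1 i.2 + bet β i.1)) • Y.e i.1 i.2 (u * f) := rfl

theorem EI_apply' (m : ℕ) (f : E) (a : Fin 2 → C → ℤ) (β : ℕ) (i : Fin 2 × C) (u : E) :
    EI Y m f a β i u = Y.e i.1 i.2
      (algebraMap K E ((r : K) ^ (-(((m : ℤ) - 1) * a i.1 i.2 + bet β i.1))) * (u * f)) := by
  rw [EI_apply, ← map_smul, Algebra.smul_def]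

variable (R : D.RedHyp A Eb)

include R

/-- the basic identity between `u ^ m f` and `u f`. -/
theorem key_identity {m : ℕ} (hm : 0 < m) (f : E) (a : Fin 2 → C → ℤ) (β : ℕ) (j : Fin 2) (c : C)
    (u : E) :
    ((r : K) ^ (-(bet β j : ℤ)) • Y.e j c (u ^ m * f)) *
      ((r : K) ^ (-((m : ℤ) * a j c + bet β j)) • Y.e j c f) ^ (m - 1) =
      (EI Y m f a β (j, c) u) ^ m := by
  have hrK : (r : K) ≠ 0 := by exact_mod_cast R.prime.ne_zero
  obtain ⟨m, rfl⟩ : ∃ m', m = m' + 1 := ⟨m - 1, by omega⟩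
  have h1 : (r : K) ^ (-(bet β j : ℤ)) *
      ((r : K) ^ (-(((m + 1 : ℕ) : ℤ) * a j c + bet β j))) ^ m =
      ((r : K) ^ (-((((m + 1 : ℕ) : ℤ) - 1) * a j c + bet β j))) ^ (m + 1) := by
    rw [← zpow_natCast, ← zpow_mul, ← zpow_natCast, ← zpow_mul, ← zpow_add₀ hrK]
    congr 1
    push_cast
    ring
  rw [EI_apply, Nat.add_sub_cancel]
  simp only [Algebra.smul_def]
  have h2 := congrArg (algebraMap K (LaurentSeries K)) h1
  rw [map_mul, map_pow, map_pow] at h2
  rw [map_mul (Y.e j c), map_mul (Y.e j c), map_pow (Y.e j c)]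
  set x := Y.e j c u
  set y := Y.e j c f
  set p₀ := algebraMap K (LaurentSeries K) ((r : K) ^ (-(bet β j : ℤ)))
  set q₀ := algebraMap K (LaurentSeries K)
    ((r : K) ^ (-(((m + 1 : ℕ) : ℤ) * a j c + bet β j)))
  set s₀ := algebraMap K (LaurentSeries K)
    ((r : K) ^ (-((((m + 1 : ℕ) : ℤ) - 1) * a j c + bet β j)))
  calc p₀ * (x ^ (m + 1) * y) * (q₀ * y) ^ m = (p₀ * q₀ ^ m) * (x ^ (m + 1) * y ^ (m + 1)) := by
        rw [mul_pow, pow_succ y m]; ring
    _ = (s₀ * (x * y)) ^ (m + 1) := by rw [h2, mul_pow, mul_pow]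

variable {m : ℕ} (hm : 0 < m) {f : E} (hf : IsIntegral (rgA D) f) (a : Fin 2 → C → ℤ) (β : ℕ)
  (φ : Fin 2 → C → Eb) (hφ : ∀ j c, φ j c ≠ 0)
  (hred : ∀ j c, Red A ((r : K) ^ (-((m : ℤ) * a j c + bet β j)) • Y.e j c f)
    (φ j c : LaurentSeries (kk A)))

include hm hf

theorem uf_integral {u : E} (hu : IsIntegral (rgA D) (u ^ m * f)) : IsIntegral (rgA D) (u * f) := by
  refine isIntegral_of_pow' hm.ne' ?_
  have : (u * f) ^ m = (u ^ m * f) * f ^ (m - 1) := by
    obtain ⟨m, rfl⟩ : ∃ m', m = m' + 1 := ⟨m - 1, by omega⟩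
    rw [Nat.add_sub_cancel, mul_pow, pow_succ f m]
    ring
  rw [this]
  exact hu.mul (hf.pow _)

theorem EI_mem_DD {u : E} (hu : IsIntegral (rgA D) (u ^ m * f)) (i : Fin 2 × C) :
    EI Y m f a β i u ∈ DD A := by
  rw [EI_apply]
  exact DD_smul A (Y.e_mem_DD R (uf_integral R hm hf hu) i.1 i.2) _

include hred hφ

/-- reduction of `u ^ m f` -/
theorem red_umf {u : E} (hu : IsIntegral (rgA D) (u ^ m * f)) (j : Fin 2) (c : C)
    (hi : IsInt A (EI Y m f a β (j, c) u)) (ρ : Eb)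
    (hρ : (ρ : LaurentSeries (kk A)) = rd A (EI Y m f a β (j, c) u)) :
    IsInt A ((r : K) ^ (-(bet β j : ℤ)) • Y.e j c (u ^ m * f)) ∧
    rd A ((r : K) ^ (-(bet β j : ℤ)) • Y.e j c (u ^ m * f)) =
      (((ρ * (φ j c)⁻¹) ^ m * φ j c : Eb) : LaurentSeries (kk A)) := by
  apply isInt_of_red R (DD_smul A (Y.e_mem_DD R hu j c) _)
  have h1 : Red A ((EI Y m f a β (j, c) u) ^ m) ((ρ : LaurentSeries (kk A)) ^ m) := by
    rw [hρ]
    exact (red_rd hi).pow m
  have hφ0 : (φ j c : LaurentSeries (kk A)) ≠ 0 := fun h => hφ j c (Subtype.ext h)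
  have h2 := (hred j c).pow (m - 1)
  have h3 := h1.div h2 (pow_ne_zero _ hφ0)
  have hne : ((r : K) ^ (-((m : ℤ) * a j c + bet β j)) • Y.e j c f) ^ (m - 1) ≠ 0 :=
    h2.ne_zero (pow_ne_zero _ hφ0)
  rw [← key_identity Y R hm f a β j c u, mul_div_assoc, div_self hne, mul_one] at h3
  convert h3 using 1
  obtain ⟨m, rfl⟩ : ∃ m', m = m' + 1 := ⟨m - 1, by omega⟩
  rw [Nat.add_sub_cancel]
  change ((ρ : LaurentSeries (kk A)) * (φ j c : LaurentSeries (kk A))⁻¹) ^ (m + 1) * _ = _
  rw [mul_pow, inv_pow, pow_succ (φ j c : LaurentSeries (kk A)) m, mul_inv]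
  field_simp

end Main

end Fermat.Agent.NN
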