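import Fermat.Agent.NN.ModT
import Fermat.Agent.RR.Genus

/-!
# Theorem N1 for the modular curves `X₀(M r)`, `4 ∣ M`
-/

set_option autoImplicit false
set_option linter.style.haveILetI false
set_option linter.unusedSectionVars false
set_option maxSynthPendingDepth 3

noncomputable section

attribute [-instance] HahnSeries.instModule HahnSeries.instSMul HahnSeries.instDistribMulAction
  HahnSeries.instSMulZeroClass

attribute [local instance 10000] Fermat.Agent.H29.instLS Fermat.Agent.H29.instIF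
  Fermat.Agent.H29.instIF2

namespace Fermat.Agent.NN

open ModularCurve HahnSeries Fermat.Agent.Igusa AlgebraicCurve Fermat.Agent.FF Fermat.Agent.H11Q
  Fermat.Agent.Q Module IntermediateField

local notation "kk" => IsLocalRing.ResidueField
local notation "Qb" => AlgebraicClosure ℚ

/-- the genus formula, for `genusFF` -/
def GenusHyp : Prop := ∀ (N : ℕ) [NeZero N],
  (genusFF Qb (modularFunctionFieldBar N) : ℚ) = genusFormula N

variable {M r : ℕ} [NeZero M] [hr : Fact r.Prime] {A : ValuationSubring Qb}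

/-- the two charts -/
theorem exists_charts (hrM : Nat.Coprime r M) (h2 : 2 ∣ M) (hr2 : r ≠ 2)
    (hA : A.LiesOverPrime r) : ∃ C : H28.TwoCharts (H28.modRed M A),
      (C.t₁ : modularFunctionFieldBar M) = H28.jBar M := by
  have hyp : ¬ r ∣ M ∧ ((2 ∣ M ∧ r ≠ 2) ∨ (3 ∣ M ∧ r ≠ 3)) :=
    ⟨(Nat.Prime.coprime_iff_not_dvd hr.out).1 hrM, Or.inl ⟨h2, hr2⟩⟩
  exact ⟨H28.modCharts M A (H29.isChart_j hr.out hA hyp) (H29.isChart_jinv hr.out hA hyp), rfl⟩

/-- the conclusion of N1 for the divisor `T` -/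
def NodeRel (hrM : Nat.Coprime r M) (A : ValuationSubring Qb)
    (T : Divisor (kk A) (modularFunctionFieldFullC (kk A) M)) : Prop :=
  ∀ {m : ℕ}, 0 < m → ∀ {f : modularFunctionFieldBar (M * r)}, f ≠ 0 →
    RatS (alData M r hrM) (K0F A) f →
    (∀ v : Place Qb (modularFunctionFieldBar (M * r)), (m : ℤ) ∣ v.ord f) →
    ∀ {n : Fin 2 → ℤ} {φ : Fin 2 → modularFunctionFieldFullC (kk A) M},
    (∀ j, HasVal (alData M r hrM) A (modularFunctionFieldFullC (kk A) M) j f (n j) (φ j)) →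
    ∀ v : Place (kk A) (modularFunctionFieldFullC (kk A) M),
      (m : ℤ) ∣ v.ord (φ 0) - (n 1 - n 0) * T v ∧ (m : ℤ) ∣ v.ord (φ 1) + (n 1 - n 0) * T v

/-- **Theorem N1.** -/
theorem node_mod (hG : GenusHyp) (hrM : Nat.Coprime r M) (h4 : 4 ∣ M) (hr2 : r ≠ 2)
    (hA : A.LiesOverPrime r) :
    ∃ T : Divisor (kk A) (modularFunctionFieldFullC (kk A) M), NodeRel hrM A T := by
  haveI : IsAlgClosed (kk A) := H11Q.isAlgClosed_residueField A
  have hMk : (M : kk A) ≠ 0 := Q.natCast_residue_ne_zero hr.out hA hrM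
  have h2 : 2 ∣ M := (by norm_num : 2 ∣ 4).trans h4
  have hrM' : ¬ r ∣ M := (Nat.Prime.coprime_iff_not_dvd hr.out).1 hrM
  haveI : SepFF (kk A) (modularFunctionFieldFullC (kk A) M) := sepFF_full hMk
  haveI := SepFF.hasPrincipalDivisors (k := kk A) (κ := modularFunctionFieldFullC (kk A) M)
  obtain ⟨P, hP⟩ := exists_placeInf (kk A) M
  obtain ⟨C, hC⟩ := exists_charts (M := M) hrM h2 hr2 hA
  obtain ⟨lp, hO⟩ := exists_levelPack_reg hr.out hA hMk C hC P hP
  obtain ⟨Z, hZ1, hZ2⟩ := exists_zdat_mod hrM h4 hr2 hA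
  obtain ⟨T, hT⟩ := Z.exists_T hP
  refine ⟨T, ?_⟩
  have hZ1' : Z.tb = ⟨H4.tq (kk A), tq_mem_full (kk A) h4 hMk⟩ := Subtype.ext hZ1
  have hdeg := degree_T h4 hMk Z.S T (fun v => by
    rw [hT, hZ1']
    rfl)
  have hS : (genusFF Qb (modularFunctionFieldBar (M * r)) : ℤ) + 1 ≤
      2 * lp.g' + Divisor.degree T := by
    have h1 := genusFormula_rel (NeZero.ne M) hr.out hrM' h4
    have h3 := hG (M * r)
    have h4 := hG M
    have h5 : (lp.g' : ℚ) = genusFormula M := by rw [lp.g'_eq, ← h4]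
    have h6 : (12 : ℚ) * (Divisor.degree T : ℤ) = ((r : ℚ) - 1) * dedekindPsi M := by
      have h7 : (2 * (Z.S.card : ℤ)) = (r : ℤ) - 1 := by
        have := hr.out.one_le
        have h8 : ((2 * Z.S.card : ℕ) : ℤ) = ((r - 1 : ℕ) : ℤ) := by rw [hZ2]
        push_cast [this] at h8
        exact h8
      have h9 : 12 * Divisor.degree T = ((r : ℤ) - 1) * dedekindPsi M := by
        rw [← h7]
        linear_combination 2 * hdeg
      exact_mod_cast h9
    have h7 : ((genusFF Qb (modularFunctionFieldBar (M * r)) : ℤ) : ℚ) + 1 ≤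
        2 * ((lp.g' : ℤ) : ℚ) + ((Divisor.degree T : ℤ) : ℚ) := by
      push_cast
      rw [h3, h5]
      linarith
    exact_mod_cast h7
  intro m hm f hf0 hf hdvd n φ hval v
  exact node_triv (inertData hrM hA) (redHyp hrM hA) lp Z P hP hO T hT hS hm hf0 hf hdvd hval v

theorem genusHyp : GenusHyp := fun N _ => Fermat.Agent.RR.genusFF_bar N

/-- **Theorem N1** (unconditional). -/
theorem node_mod' (hrM : Nat.Coprime r M) (h4 : 4 ∣ M) (hr2 : r ≠ 2)
    (hA : A.LiesOverPrime r) :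
    ∃ T : Divisor (kk A) (modularFunctionFieldFullC (kk A) M), NodeRel hrM A T :=
  node_mod genusHyp hrM h4 hr2 hA

end Fermat.Agent.NN
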