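import Fermat.Agent.NN.Node
import Fermat.Agent.H11Q.Packs
import Fermat.Agent.H27.ConstU
import Fermat.Agent.Descent.PlaceLift

/-!
# The level package of `X₀(M)`, the place at infinity and separability, in the format of `NN`
-/

set_option autoImplicit false
set_option maxSynthPendingDepth 3
set_option linter.unusedSectionVars false

noncomputable section

open ModularCurve Module AlgebraicCurve IsLocalRing IsDedekindDomain
open Fermat.Agent.H11Q Fermat.Agent.H28 Fermat.Agent.Q

attribute [-instance] HahnSeries.instModule HahnSeries.instSMul HahnSeries.instDistribMulAction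
  HahnSeries.instSMulZeroClass

attribute [local instance 10000] Fermat.Agent.H29.instLS Fermat.Agent.H29.instIF
  Fermat.Agent.H29.instIF2

namespace Fermat.Agent.NN

local notation "Qb" => AlgebraicClosure ℚ
local notation "kk" => IsLocalRing.ResidueField

section Cusp

variable {L : Type*} [Field L] [IsAlgClosed L] {A : ValuationSubring L} {F Fb : Type*}
  [Field F] [Field Fb] [Algebra L F] [Algebra (ResidueField A) Fb]
  {D : RedData A F Fb} {C : TwoCharts D} (Z : Cusp C)

/-- elements of `OO` are regular away from the cusp -/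
theorem OO_regular {P : Place (ResidueField A) Fb}
    (hP : ∀ z : Fb, z ≠ 0 → (Z.eb z).order = P.ord z) {y : Fb} (hy : y ∈ Z.OO)
    {v : Place (ResidueField A) Fb} (hv : v ≠ P) : y ∈ v.toValuationSubring := by
  obtain ⟨h1, n, hn⟩ := Z.mem_OO.1 hy
  have hne : ∀ z : Fb, z ≠ 0 → Z.eb z ≠ 0 := fun z hz h =>
    hz (Z.eb.toRingHom.injective (by rw [map_zero]; exact h))
  have hlow : ∀ {z : Fb}, z ≠ 0 → ∀ {n : ℤ}, Low (Z.eb z) n ↔ n ≤ P.ord z := by
    intro z hz n
    rw [low_iff (hne z hz), hP z hz]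
  by_cases ht : D.ρ C.t₁ ∈ v.toValuationSubring
  · exact mem_valuationSubring_of_isIntegral v.toValuationSubring v.algebraMap_mem' ht h1
  · have ht0 : D.ρ C.t₂ = (D.ρ C.t₁)⁻¹ := eq_inv_of_mul_eq_one_right C.ρ_mul_eq
    have ht2 : D.ρ C.t₂ ∈ v.toValuationSubring := by
      rw [ht0]
      exact (v.toValuationSubring.mem_or_inv_mem (D.ρ C.t₁)).resolve_left ht
    have hPt : D.ρ C.t₂ ∈ P.toValuationSubring := by
      have h2 : D.ρ C.t₂ ≠ 0 := right_ne_zero_of_mul_eq_one C.ρ_mul_eq
      rw [H18.mem_iff, ← hlow h2]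
      exact Z.lowb0
    have hchP : ∀ r : CR (ResidueField A) (D.ρ C.t₂),
        algebraMap (CR (ResidueField A) (D.ρ C.t₂)) Fb r ∈ P.toValuationSubring :=
      (inChart_iff P).2 hPt
    have hchv : ∀ r : CR (ResidueField A) (D.ρ C.t₂),
        algebraMap (CR (ResidueField A) (D.ρ C.t₂)) Fb r ∈ v.toValuationSubring :=
      (inChart_iff v).2 ht2
    have hcP : (H18.center P hchP).asIdeal = Z.Pb₂ := by
      ext r
      rcases eq_or_ne r 0 with rfl | hr
      · exact ⟨fun _ => zero_mem _, fun _ => zero_mem _⟩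
      · rw [H18.center_asIdeal, H18.mem_centerIdeal P hchP hr, Z.mem_Pb₂,
          hlow (fun h => hr (Subtype.ext h))]
        exact Iff.rfl
    have hnot : ¬ Z.Pb₂ ≤ (H18.center v hchv).asIdeal := by
      intro hle
      apply hv
      have h3 : Z.Pb₂ = (H18.center v hchv).asIdeal :=
        Z.isRat_Pb₂.isMaximal.eq_of_le (H18.center v hchv).isPrime.ne_top hle
      have h4 : H18.center v hchv = H18.center P hchP := by
        apply HeightOneSpectrum.ext
        rw [← h3, hcP]
      rw [← H18.placeOfPrime_center v hchv, h4, H18.placeOfPrime_center]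
    obtain ⟨p, hp, hpv⟩ := Set.not_subset.1 hnot
    have hp0 : p ≠ 0 := by
      rintro rfl
      exact hpv (zero_mem _)
    have hp0' : (p : Fb) ≠ 0 := fun h => hp0 (Subtype.ext h)
    have h5 : v.ord (p : Fb) = 0 := by
      have h3 : ¬ 0 < v.ord (algebraMap (CR (ResidueField A) (D.ρ C.t₂)) Fb p) := fun h4 =>
        hpv ((H18.mem_centerIdeal v hchv hp0).2 h4)
      have h5 : (algebraMap (CR (ResidueField A) (D.ρ C.t₂)) Fb p) ∈ v.toValuationSubring :=
        hchv p
      rw [H18.mem_iff] at h5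
      exact le_antisymm (not_lt.1 h3) h5
    have h6 := hn (p ^ n) (Ideal.pow_mem_pow hp n)
    have h7 : ((p ^ n : CR (ResidueField A) (D.ρ C.t₂)) : Fb) = (p : Fb) ^ n := rfl
    rw [h7] at h6
    have h8 := mem_valuationSubring_of_isIntegral v.toValuationSubring v.algebraMap_mem' ht2 h6
    rcases eq_or_ne y 0 with rfl | hx
    · exact zero_mem _
    rw [H18.mem_iff, v.ord_mul hx (pow_ne_zero _ hp0'), H18.ord_pow, h5, mul_zero, add_zero] at h8
    exact (H18.mem_iff v).2 h8

end Cusp

section Mod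

variable {M : ℕ} [NeZero M] {A : ValuationSubring Qb} {ℓ : ℕ}

/-- the place at infinity of the special fibre -/
theorem exists_placeInf (k : Type*) [Field k] (M : ℕ) :
    ∃ P : Place k (modularFunctionFieldFullC k M),
      ∀ x : modularFunctionFieldFullC k M, P.ord x = (x : LaurentSeries k).order := by
  apply H26.exists_place_order
  have hj : (jqModC k).order = -1 := by
    apply le_antisymm
    · apply HahnSeries.order_le_of_coeff_ne_zero
      rw [coeff_jqModC_neg_one]
      exact one_ne_zero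
    · rw [HahnSeries.le_order_iff_forall (jqModC_ne_zero_of_nontrivial k)]
      intro j hj
      exact coeff_jqModC_of_lt k hj
  refine ⟨⟨jqModC k, jqModC_mem_full k M⟩⁻¹, ?_⟩
  have h1 : (((⟨jqModC k, jqModC_mem_full k M⟩⁻¹ : modularFunctionFieldFullC k M)) :
      LaurentSeries k) = (jqModC k)⁻¹ := rfl
  have h2 : (jqModC k) * (jqModC k)⁻¹ = 1 := mul_inv_cancel₀ (jqModC_ne_zero_of_nontrivial k)
  have h3 := congrArg HahnSeries.order h2
  rw [HahnSeries.order_mul (jqModC_ne_zero_of_nontrivial k)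
    (inv_ne_zero (jqModC_ne_zero_of_nontrivial k)), hj, HahnSeries.order_one] at h3
  rw [h1]
  omega

/-- **The level package of the modular function field**, with regularity. -/
theorem exists_levelPack_reg (hℓ : ℓ.Prime) (hA : A.LiesOverPrime ℓ)
    (hM : (M : ResidueField A) ≠ 0) (C : TwoCharts (modRed M A))
    (hC : (C.t₁ : modularFunctionFieldBar M) = jBar M)
    (P : Place (kk A) (modularFunctionFieldFullC (kk A) M))
    (hP : ∀ x : modularFunctionFieldFullC (kk A) M, P.ord x = (x : LaurentSeries (kk A)).order) :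
    ∃ lp : LevelPack A (modularFunctionFieldBar M)
      (modularFunctionFieldFullC (ResidueField A) M) ℓ,
      ∀ x ∈ lp.O, ∀ v : Place (kk A) (modularFunctionFieldFullC (kk A) M), v ≠ P → x ∈ Vv v := by
  haveI := H11Q.isAlgClosed_residueField A
  obtain ⟨σ, hσ⟩ := H05.exists_isFrobeniusAt hℓ hA
  refine ⟨levelPack (cuspMod hℓ hA hM C hC) rfl rfl ℓ ?_, ?_⟩
  · intro φ hφ
    refine ⟨fun x => arithmeticGalois (modularFunctionFieldFull M) σ • x,
      fun x => arithmeticGalois (modularFunctionFieldFull M) σ⁻¹ • x, ?_, ?_⟩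
    · intro x hx hi
      refine ⟨polInf_smul hx σ, ?_, ?_⟩
      · intro n
        rw [coe_arithmeticGalois_smul, coeffMap_coeff]
        exact (Q.frobenius_residue hσ ⟨_, hi n⟩).1
      · ext n
        rw [rd_coeff, coe_arithmeticGalois_smul, coeffMap_coeff, coeffMap_coeff, rd_coeff, hφ]
        obtain ⟨h1, h2⟩ := Q.frobenius_residue hσ ⟨_, hi n⟩
        rw [resid_of_mem A h1, h2, resid_of_mem A (hi n)]
    · intro x hx hi
      refine ⟨polInf_smul hx σ⁻¹, ?_, ?_⟩
      · intro n
        rw [coe_arithmeticGalois_smul, coeffMap_coeff]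
        exact (IsFrobAt_inv hσ ⟨_, hi n⟩).1
      · ext n
        rw [coeffMap_coeff, rd_coeff, coe_arithmeticGalois_smul, coeffMap_coeff, rd_coeff, hφ]
        obtain ⟨h1, h2⟩ := IsFrobAt_inv hσ ⟨_, hi n⟩
        have h3 : ((σ⁻¹ : Qb ≃ₐ[ℚ] Qb) : Qb →+* Qb) ((x : LaurentSeries Qb).coeff n) ∈ A := h1
        rw [resid_of_mem A h3, resid_of_mem A (hi n)]
        exact h2
  · intro x hx v hv
    obtain ⟨y, hy, rfl⟩ := (cuspMod hℓ hA hM C hC).mem_O.1 hx
    rw [mem_Vv_iff]
    refine ⟨y, rfl, ?_⟩
    exact OO_regular (cuspMod hℓ hA hM C hC) (P := P) (fun z _ => (hP z).symm) hy hv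

/-- the special fibre has a separating element -/
theorem sepFF_full {k : Type*} [Field k] [IsAlgClosed k] (hM : (M : k) ≠ 0) :
    SepFF k (modularFunctionFieldFullC k M) := by
  refine ⟨H27.tK k M, ?_, H27.finite_Fk k M hM, H27.isSeparable_Fk k M hM⟩
  intro halg
  exact H05.transcendental_j k (halg.algHom (modularFunctionFieldFullC k M).val)

end Mod

end Fermat.Agent.NN
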