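import Fermat.Agent.NN.ModI

/-!
# The degree of the supersingular divisor and the genus relation
-/

set_option autoImplicit false
set_option linter.style.haveILetI false
set_option linter.unusedSectionVars false
set_option maxSynthPendingDepth 3

noncomputable section

attribute [-instance] HahnSeries.instModule HahnSeries.instSMul HahnSeries.instDistribMulAction
  HahnSeries.instSMulZeroClass

attribute [local instance 10000] Fermat.Agent.H29.instLS Fermat.Agent.H29.instIF
  Fermat.Agent.H29.instIF2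

namespace Fermat.Agent.NN

open ModularCurve HahnSeries Fermat.Agent.Igusa AlgebraicCurve Fermat.Agent.FF Fermat.Agent.H11Q
  Fermat.Agent.Q Module IntermediateField

local notation "kk" => IsLocalRing.ResidueField
local notation "Qb" => AlgebraicClosure ℚ

section Le

variable {F E : Type*} [Field F] [Field E] [Algebra F E] {B C : IntermediateField F E}

theorem isSeparable_of_le (h : B ≤ C) [Algebra.IsSeparable B E] : Algebra.IsSeparable C E := by
  letI : Algebra B C := (IntermediateField.inclusion h).toRingHom.toAlgebra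
  haveI : IsScalarTower B C E := IsScalarTower.of_algebraMap_eq fun _ => rfl
  exact Algebra.isSeparable_tower_top_of_isSeparable B C E

theorem finiteDimensional_of_le (h : B ≤ C) [FiniteDimensional B E] : FiniteDimensional C E := by
  letI : Algebra B C := (IntermediateField.inclusion h).toRingHom.toAlgebra
  haveI : IsScalarTower B C E := IsScalarTower.of_algebraMap_eq fun _ => rfl
  exact Module.Finite.of_restrictScalars_finite B C E

end Le

section Deg

variable {k : Type*} [Field k] {M : ℕ} [NeZero M]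

/-- the hauptmodul in the function field, shifted -/
def tS (h4 : 4 ∣ M) (hM : (M : k) ≠ 0) (σ : k) : modularFunctionFieldFullC k M :=
  ⟨H4.tq k, tq_mem_full k h4 hM⟩ - algebraMap k _ σ

theorem four_ne {h4 : 4 ∣ M} (hM : (M : k) ≠ 0) : ((4 : ℕ) : k) ≠ 0 := by
  obtain ⟨m, hm⟩ := h4
  intro h0
  apply hM
  rw [hm, Nat.cast_mul, h0, zero_mul]

theorem adjoin_tS (h4 : 4 ∣ M) (hM : (M : k) ≠ 0) (σ : k) :
    k⟮tS h4 hM σ⟯ = (modularFunctionFieldFullC k 4).comap (modularFunctionFieldFullC k M).val := by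
  have h1 := IntermediateField.comap_map (modularFunctionFieldFullC k M).val k⟮tS h4 hM σ⟯
  rw [← h1, IntermediateField.adjoin_map, Set.image_singleton,
    H4.full_eq k (four_ne (h4 := h4) hM)]
  congr 1
  have h2 : (modularFunctionFieldFullC k M).val (tS h4 hM σ) =
      H4.tq k - algebraMap k (LaurentSeries k) σ := rfl
  rw [h2]
  apply le_antisymm
  · rw [adjoin_simple_le_iff]
    exact sub_mem (mem_adjoin_simple_self k _) ((k⟮H4.tq k⟯).algebraMap_mem σ)
  · rw [adjoin_simple_le_iff]
    have h3 := add_mem (mem_adjoin_simple_self k (H4.tq k - algebraMap k (LaurentSeries k) σ))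
      ((k⟮H4.tq k - algebraMap k (LaurentSeries k) σ⟯).algebraMap_mem σ)
    rwa [sub_add_cancel] at h3

theorem finrank_tS (h4 : 4 ∣ M) (hM : (M : k) ≠ 0) (σ : k) :
    6 * Module.finrank k⟮tS h4 hM σ⟯ (modularFunctionFieldFullC k M) = dedekindPsi M := by
  rw [adjoin_tS, IntermediateField.finrank_comap, IntermediateField.fieldRange_val]
  have h1 := IntermediateField.relfinrank_mul_relfinrank
    (full_degeneracyC_le k (one_dvd 4)) (full_degeneracyC_le k h4)
  have h2 := relrank_full (k := k) M hM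
  have h3 := relrank_full (k := k) 4 (four_ne (h4 := h4) hM)
  rw [IntermediateField.relfinrank_eq_toNat_relrank (modularFunctionFieldFullC k 1)
    (modularFunctionFieldFullC k 4), IntermediateField.relfinrank_eq_toNat_relrank
    (modularFunctionFieldFullC k 1) (modularFunctionFieldFullC k M), h2, h3,
    Cardinal.toNat_natCast, Cardinal.toNat_natCast, psi_four] at h1
  exact h1

theorem tS_transcendental (h4 : 4 ∣ M) (hM : (M : k) ≠ 0) (σ : k) :
    Transcendental k (tS h4 hM σ) := by
  intro h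
  have h1 : IsAlgebraic k (tS h4 hM σ + algebraMap k _ σ) := h.add (isAlgebraic_algebraMap σ)
  have h2 : IsAlgebraic k (H4.tq k) := by
    have h3 := h1.algHom (modularFunctionFieldFullC k M).val
    have h4 : (modularFunctionFieldFullC k M).val (tS h4 hM σ + algebraMap k _ σ) = H4.tq k := by
      rw [tS, sub_add_cancel]
      rfl
    rwa [h4] at h3
  obtain ⟨p, hp0, hp⟩ := h2
  have h3 : evC (H4.tq k) p = 0 := by
    rw [← hp, evC_apply, Polynomial.aeval_def]
    congr 1
    exact (RingHom.ext fun c => algebraMap_eq_C c).symm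
  exact hp0 (evC_injective (H4.mn_tq k) (by rw [h3, map_zero]))

variable [IsAlgClosed k]

theorem adjoin_j_le (h4 : 4 ∣ M) (hM : (M : k) ≠ 0) (σ : k) :
    k⟮H27.tK k M⟯ ≤ k⟮tS h4 hM σ⟯ := by
  rw [adjoin_simple_le_iff, adjoin_tS]
  exact jqModC_mem_full k 4

theorem separable_tS (h4 : 4 ∣ M) (hM : (M : k) ≠ 0) (σ : k) :
    Algebra.IsSeparable k⟮tS h4 hM σ⟯ (modularFunctionFieldFullC k M) := by
  haveI := H27.isSeparable_Fk k M hM
  exact isSeparable_of_le (adjoin_j_le h4 hM σ)

theorem finite_tS (h4 : 4 ∣ M) (hM : (M : k) ≠ 0) (σ : k) :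
    FiniteDimensional k⟮tS h4 hM σ⟯ (modularFunctionFieldFullC k M) := by
  haveI := H27.finite_Fk k M hM
  exact finiteDimensional_of_le (adjoin_j_le h4 hM σ)

/-- the degree of the divisor `T` -/
theorem degree_T (h4 : 4 ∣ M) (hM : (M : k) ≠ 0) (S : Finset k)
    (T : Divisor k (modularFunctionFieldFullC k M))
    (hT : ∀ v, T v = ∑ σ ∈ S, max (v.ord (tS h4 hM σ)) 0) :
    6 * Divisor.degree T = S.card * dedekindPsi M := by
  classical
  haveI : SepFF k (modularFunctionFieldFullC k M) := sepFF_full hM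
  have hdeg : ∀ v : Place k (modularFunctionFieldFullC k M), v.deg = 1 :=
    fun v => SepFF.deg_eq_one v
  have h1 : ∀ σ : k, ∃ Tσ : Divisor k (modularFunctionFieldFullC k M),
      (∀ v, Tσ v = max (v.ord (tS h4 hM σ)) 0) ∧
      Divisor.degree Tσ = Module.finrank k⟮tS h4 hM σ⟯ (modularFunctionFieldFullC k M) := by
    intro σ
    haveI := separable_tS h4 hM σ
    haveI := finite_tS h4 hM σ
    obtain ⟨hfin, hsum⟩ := H18.sum_ord_pos (tS h4 hM σ) (tS_transcendental h4 hM σ)
    refine ⟨∑ w ∈ hfin.toFinset, Finsupp.single w (w.ord (tS h4 hM σ)), fun v => ?_, ?_⟩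
    · rw [Finsupp.finsetSum_apply]
      by_cases hv : 0 < v.ord (tS h4 hM σ)
      · rw [Finset.sum_eq_single_of_mem v (hfin.mem_toFinset.mpr hv), Finsupp.single_eq_same,
          max_eq_left hv.le]
        intro w _ hw
        exact Finsupp.single_eq_of_ne hw.symm
      · rw [max_eq_right (not_lt.mp hv)]
        refine Finset.sum_eq_zero fun w hw => Finsupp.single_eq_of_ne ?_
        rintro rfl
        exact hv (hfin.mem_toFinset.mp hw)
    · rw [map_sum, ← hsum]
      refine Finset.sum_congr rfl fun w _ => ?_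
      rw [Divisor.degree_single, hdeg, Nat.cast_one, mul_one]
  choose Tσ hTσ hTdeg using h1
  have h2 : T = ∑ σ ∈ S, Tσ σ := by
    ext v
    rw [hT, Finsupp.finsetSum_apply]
    exact Finset.sum_congr rfl fun σ _ => (hTσ σ v).symm
  rw [h2, map_sum, Finset.mul_sum]
  rw [Finset.sum_congr rfl (fun σ _ => (by
    rw [hTdeg, ← finrank_tS h4 hM σ]; push_cast; rfl :
      6 * Divisor.degree (Tσ σ) = (dedekindPsi M : ℤ)))]
  rw [Finset.sum_const, nsmul_eq_mul]

end Deg

section Genus

theorem nuTwo_eq_zero {N : ℕ} (h : 4 ∣ N) : nuTwo N = 0 := by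
  rw [nuTwo]
  haveI : IsEmpty {x : ZMod N // x ^ 2 + 1 = 0} := by
    refine ⟨fun x => ?_⟩
    have h1 := congrArg (ZMod.castHom h (ZMod 4)) x.2
    rw [map_add, map_pow, map_one, map_zero] at h1
    have h2 : ∀ y : ZMod 4, y ^ 2 + 1 ≠ 0 := by decide
    exact h2 _ h1
  exact Nat.card_of_isEmpty

theorem nuThree_eq_zero {N : ℕ} (h : 2 ∣ N) : nuThree N = 0 := by
  rw [nuThree]
  haveI : IsEmpty {x : ZMod N // x ^ 2 + x + 1 = 0} := by
    refine ⟨fun x => ?_⟩
    have h1 := congrArg (ZMod.castHom h (ZMod 2)) x.2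
    rw [map_add, map_add, map_pow, map_one, map_zero] at h1
    have h2 : ∀ y : ZMod 2, y ^ 2 + y + 1 ≠ 0 := by decide
    exact h2 _ h1
  exact Nat.card_of_isEmpty

theorem cuspCount_mul {M r : ℕ} (hM : M ≠ 0) (hr : r.Prime) (h : ¬ r ∣ M) :
    cuspCount (M * r) = 2 * cuspCount M := by
  classical
  have hr0 := hr.ne_zero
  have hinj : Function.Injective (fun d : ℕ => d * r) := fun a b hab =>
    Nat.eq_of_mul_eq_mul_right hr.pos hab
  have hdisj : Disjoint M.divisors (M.divisors.map ⟨fun d => d * r, hinj⟩) := by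
    rw [Finset.disjoint_left]
    intro d hd hd'
    rw [Finset.mem_map] at hd'
    obtain ⟨e, -, he⟩ := hd'
    apply h
    rw [Nat.mem_divisors] at hd
    exact (Dvd.intro_left e he).trans hd.1
  have hdiv : (M * r).divisors = M.divisors.disjUnion (M.divisors.map ⟨fun d => d * r, hinj⟩)
      hdisj := by
    ext d
    rw [Finset.mem_disjUnion, Finset.mem_map, Nat.mem_divisors, Nat.mem_divisors]
    constructor
    · rintro ⟨hd, -⟩
      by_cases hrd : r ∣ d
      · right
        obtain ⟨e, rfl⟩ := hrd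
        refine ⟨e, ?_, mul_comm e r⟩
        rw [Nat.mem_divisors]
        rw [mul_comm M r] at hd
        exact ⟨Nat.dvd_of_mul_dvd_mul_left hr.pos hd, hM⟩
      · left
        exact ⟨(Nat.Coprime.dvd_of_dvd_mul_right
          ((Nat.Prime.coprime_iff_not_dvd hr).mpr hrd).symm hd), hM⟩
    · rintro (⟨hd, -⟩ | ⟨e, he, rfl⟩)
      · exact ⟨hd.mul_right r, mul_ne_zero hM hr0⟩
      · rw [Nat.mem_divisors] at he
        exact ⟨mul_dvd_mul_right he.1 r, mul_ne_zero hM hr0⟩
  have hcop : ∀ d, d ∣ M → Nat.Coprime r d := fun d hd =>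
    (Nat.Prime.coprime_iff_not_dvd hr).mpr fun h' => h (h'.trans hd)
  rw [cuspCount, cuspCount, hdiv, Finset.sum_disjUnion, Finset.sum_map, two_mul]
  congr 1
  · refine Finset.sum_congr rfl fun d hd => ?_
    rw [Nat.mem_divisors] at hd
    rw [Nat.mul_div_right_comm hd.1, Nat.Coprime.gcd_mul_right_cancel_right _ (hcop d hd.1)]
  · refine Finset.sum_congr rfl fun d hd => ?_
    rw [Nat.mem_divisors] at hd
    change (Nat.gcd (d * r) (M * r / (d * r))).totient = _
    rw [Nat.mul_div_mul_right _ _ hr.pos,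
      Nat.Coprime.gcd_mul_right_cancel _ (hcop _ (Nat.div_dvd_of_dvd hd.1))]

/-- **the genus relation** -/
theorem genusFormula_rel {M r : ℕ} (hM : M ≠ 0) (hr : r.Prime) (h : ¬ r ∣ M) (h4 : 4 ∣ M) :
    genusFormula (M * r) + 1 = 2 * genusFormula M + ((r : ℚ) - 1) * dedekindPsi M / 12 := by
  have h2 : 2 ∣ M := (by norm_num : 2 ∣ 4).trans h4
  rw [genusFormula, genusFormula, nuTwo_eq_zero (h4.mul_right r), nuTwo_eq_zero h4,
    nuThree_eq_zero (h2.mul_right r), nuThree_eq_zero h2, cuspCount_mul hM hr h,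
    dedekindPsi_mul_prime hr hM, if_neg h]
  push_cast
  ring

end Genus

end Fermat.Agent.NN
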