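import Fermat.Agent.NN.Mod
import Fermat.Agent.H11N.Main
import Fermat.Agent.H05.ALJac
import Fermat.Agent.H05.GalHecke

/-!
# Norms, semilinear automorphisms; ramification in `X₀(2M) → X₀(M)`
-/

set_option autoImplicit false
set_option linter.style.haveILetI false
set_option linter.unusedSectionVars false
set_option maxSynthPendingDepth 3

noncomputable section

attribute [-instance] HahnSeries.instModule HahnSeries.instSMul HahnSeries.instDistribMulAction
  HahnSeries.instSMulZeroClass

attribute [local instance 10000] Fermat.Agent.H29.instLS Fermat.Agent.H29.instIF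
  Fermat.Agent.H29.instIF2

namespace Fermat.Agent.NN

open ModularCurve HahnSeries Fermat.Agent.Igusa AlgebraicCurve Fermat.Agent.FF Fermat.Agent.H11Q
  Fermat.Agent.Q Module IntermediateField

local notation "kk" => IsLocalRing.ResidueField
local notation "Qb" => AlgebraicClosure ℚ

section General

variable {K F F' : Type*} [Field K] [Field F] [Field F'] [Algebra K F] [Algebra K F']

/-- norms and ring automorphisms -/
theorem normAlong_ringEquiv (φ : F →ₐ[K] F') (e₁ : F ≃+* F) (e₂ : F' ≃+* F')
    (h : ∀ x, e₂ (φ x) = φ (e₁ x)) (z : F') :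
    H05.normAlong φ (e₂ z) = e₁ (H05.normAlong φ z) := by
  have h1 := @Algebra.norm_eq_of_equiv_equiv F F' F F' _ _ _ _ (algebraAlong φ) (algebraAlong φ)
    e₁ e₂ (by
      ext x
      change φ (e₁ x) = e₂ (φ x)
      rw [h]) z
  have h2 : e₁ (H05.normAlong φ z) = H05.normAlong φ (e₂ z) := by
    rw [H05.normAlong, H05.normAlong]
    rw [h1]
    exact RingEquiv.apply_symm_apply e₁ _
  exact h2.symm

/-- the ramification indices of an extension of degree `2` over an algebraically closed field -/
theorem dvd_two_mul_ord [HasPrincipalDivisors K F'] (φ : F →ₐ[K] F')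
    (hφ : φ.toRingHom.IsIntegral)
    (hFI : FundamentalIdentityAlong K φ hφ) (h2 : finrankAlong K φ = 2)
    (hdeg : ∀ w : Place K F', w.deg = 1) {m : ℤ} {u : F}
    (v : Place K F) (hvdeg : v.deg = 1) (h : ∀ w : Place K F', m ∣ w.ord (φ u)) :
    m ∣ 2 * v.ord u := by
  letI := algebraAlong φ
  haveI := isScalarTower_along φ
  haveI := isIntegral_along φ hφ
  haveI : FundamentalIdentity K F F' := hFI
  have h1 := FundamentalIdentity.sum_ramificationIndex_mul_deg (K := K) (F := F) (F' := F') v
  have h3 : (Module.finrank F F' : ℤ) = 2 := by exact_mod_cast h2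
  rw [h3, hvdeg] at h1
  have h4 : (2 : ℤ) * v.ord u = ∑ w ∈ v.fiber F', w.ord (algebraMap F F' u) := by
    have h5 : (2 : ℤ) * v.ord u = (∑ w ∈ v.fiber F', (w.ramificationIndex F : ℤ) * (w.deg : ℤ)) *
        v.ord u := by rw [h1]; push_cast; ring
    rw [h5, Finset.sum_mul]
    refine Finset.sum_congr rfl fun w hw => ?_
    rw [w.ord_restrict, (Place.mem_fiber).1 hw, hdeg w]
    push_cast
    ring
  rw [h4]
  exact Finset.dvd_sum fun w _ => h w

end General

section Deg2

variable {k : Type*} [Field k] {M : ℕ} [NeZero M]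

instance neZero_two_mul : NeZero (M * 2) := ⟨Nat.mul_ne_zero (NeZero.ne M) two_ne_zero⟩

theorem finrank_two (h2 : 2 ∣ M) (hM : ((M * 2 : ℕ) : k) ≠ 0) :
    finrankAlong k (Q.incl k M 2) = 2 := by
  have hM' : (M : k) ≠ 0 := by
    intro h0; apply hM; push_cast; rw [h0, zero_mul]
  apply Igusa.finrankAlong_inclusion
  have h1 := IntermediateField.relrank_mul_relrank
    (full_degeneracyC_le k (one_dvd M)) (full_degeneracyC_le k (dvd_mul_right M 2))
  rw [relrank_full M hM', relrank_full (M * 2) hM,
    dedekindPsi_mul_prime Nat.prime_two (NeZero.ne M), if_pos h2, Nat.cast_mul] at h1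
  have h3 : (dedekindPsi M : Cardinal) ≠ 0 := by
    exact_mod_cast (dedekindPsi_pos (NeZero.ne M)).ne'
  rw [← Nat.cast_mul] at h1
  rcases lt_or_ge ((modularFunctionFieldFullC k M).relrank (modularFunctionFieldFullC k (M * 2)))
    Cardinal.aleph0 with h5 | h5
  · obtain ⟨n, hn⟩ := Cardinal.lt_aleph0.1 h5
    rw [hn, ← Nat.cast_mul, Nat.cast_inj] at h1
    rw [hn, Nat.eq_of_mul_eq_mul_left (dedekindPsi_pos (NeZero.ne M)) h1]
  · have h6 := h5.trans (Cardinal.le_mul_left h3)
    rw [h1] at h6
    exact absurd h6 (not_le.2 Cardinal.natCast_lt_aleph0)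

end Deg2

section Inter

variable {K F F' : Type*} [Field K] [Field F] [Field F'] [Algebra K F] [Algebra K F']

theorem nm_intertwines {α β : F →ₐ[K] F'} {g : SemilinearAut K F} {g' : SemilinearAut K F'}
    (hα : SemilinearAut.IntertwinesAlong α.toRingHom g g')
    (hβ : SemilinearAut.IntertwinesAlong β.toRingHom g g') (x : F) :
    H05.normAlong α (β (g • x)) = g • H05.normAlong α (β x) := by
  have h1 : β (g • x) = SemilinearAut.toRingAut g' (β x) := (hβ x).symm
  rw [h1]
  exact normAlong_ringEquiv α (SemilinearAut.toRingAut g) (SemilinearAut.toRingAut g')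
    (fun y => hα y) (β x)

end Inter

section NmF

/-- the function underlying the Hecke correspondence -/
def nmF {N : ℕ} [NeZero N] (l : ℕ) [NeZero l] (f : modularFunctionFieldBar N) :
    modularFunctionFieldBar N :=
  H05.normAlong (heckeAlphaBar Qb N l) (heckeBetaBar Qb N l f)

variable {M r l : ℕ} [NeZero M] [hr : Fact r.Prime] [NeZero l]

theorem nmF_wBar (hrM : Nat.Coprime r M) (hl : Nat.Coprime r l)
    (f : modularFunctionFieldBar (M * r)) :
    nmF l (wBar M r hrM f) = wBar M r hrM (nmF l f) := by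
  obtain ⟨g', hg1, hg2⟩ := H05.exists_w_level (M := M) (r := r) (N' := M * r * l) (ℓ := l)
    (by ring) hrM (Nat.Coprime.mul_right hrM hl) (dvd_mul_right _ _) (dvd_refl _)
  exact nm_intertwines (α := heckeAlphaBar Qb (M * r) l) (β := heckeBetaBar Qb (M * r) l)
    (g := wS M r hrM) hg1 hg2 f

theorem nmF_galois {N : ℕ} [NeZero N] (σ : Qb ≃ₐ[ℚ] Qb) (f : modularFunctionFieldBar N) :
    nmF l (arithmeticGalois (modularFunctionFieldFull N) σ • f) =
      arithmeticGalois (modularFunctionFieldFull N) σ • nmF l f := by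
  exact nm_intertwines (H05.intertwines_alpha Qb N l σ) (H05.intertwines_beta Qb N l σ) f

end NmF

end Fermat.Agent.NN
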