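import Fermat.Agent.NN.Kum7

/-!
# The Kummer cover attached to a new class in the toric part
-/

set_option autoImplicit false
set_option linter.style.haveILetI false
set_option linter.unusedSectionVars false
set_option maxSynthPendingDepth 3

noncomputable section

attribute [-instance] HahnSeries.instModule HahnSeries.instSMul HahnSeries.instDistribMulAction
  HahnSeries.instSMulZeroClass

attribute [local instance 10000] Fermat.Agent.H29.instLS Fermat.Agent.H29.instIF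
  Fermat.Agent.H29.instIF2

namespace Fermat.Agent.NN

open ModularCurve HahnSeries Fermat.Agent.Igusa AlgebraicCurve Fermat.Agent.FF Fermat.Agent.H11Q
  Fermat.Agent.Q Module IntermediateField Fermat.Agent.H11N Fermat.Agent.P

local notation "kk" => IsLocalRing.ResidueField
local notation "Qb" => AlgebraicClosure ℚ

section Abs

variable {K : Type*} [Field K] [CharZero K] [IsAlgClosed K] [Algebra ℚ K]
  [Algebra.IsAlgebraic ℚ K] {p : ℕ} [hp : Fact p.Prime] {D : ALData K p}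
  {A : ValuationSubring K} {Eb : IntermediateField (kk A) (LaurentSeries (kk A))}

theorem KumDat.exists_of_local (R : D.RedHyp A Eb) {ζ : K} (hζ : IsPrimitiveRoot ζ p) {f : D.S}
    (hn : ∀ g : D.S, g ^ p ≠ f) (hlf : (D.e 0 f).leadingCoeff = 1)
    (hloc : ∀ j : Fin 2, ∃ (k : D.S) (H s : LaurentSeries K), k ≠ 0 ∧ H ∈ FL A ∧
      H ^ p = D.e j (f * k ^ p) ∧ Red A s 0 ∧ H = 1 + HahnSeries.C (ζ - 1) * s) :
    ∃ Y : KumDat D A, Y.f = f ∧ Y.ζ = ζ ∧ (Y.h 0).leadingCoeff = 1 := by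
  choose k H s hk hHF hHp hs hHs using hloc
  have hf0 : f ≠ 0 := fun h => hn 0 (by rw [h, zero_pow hp.out.ne_zero])
  have hek : ∀ j, D.e j (k j) ≠ 0 := fun j =>
    (map_ne_zero_iff _ (D.e j).injective).mpr (hk j)
  have hH0 : ∀ j, H j ≠ 0 := by
    intro j h
    have h1 := hHp j
    rw [h, zero_pow hp.out.ne_zero] at h1
    refine (map_ne_zero_iff _ (D.e j).injective).mpr ?_ h1.symm
    exact mul_ne_zero hf0 (pow_ne_zero _ (hk j))
  -- normalisation at the first cusp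
  obtain ⟨h0, hh0⟩ : ∃ h0 : Fin 2 → LaurentSeries K, ∀ j, h0 j = H j / D.e j (k j) :=
    ⟨_, fun _ => rfl⟩
  have hh0p : ∀ j, h0 j ^ p = D.e j f := by
    intro j
    rw [hh0, div_pow, hHp, map_mul, map_pow]
    exact mul_div_cancel_right₀ _ (pow_ne_zero _ (hek j))
  have hh0ne : ∀ j, h0 j ≠ 0 := fun j => by rw [hh0]; exact div_ne_zero (hH0 j) (hek j)
  obtain ⟨η, hη⟩ : ∃ η, η = (h0 0).leadingCoeff := ⟨_, rfl⟩
  have hη0 : η ≠ 0 := hη ▸ leadingCoeff_ne (hh0ne 0)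
  have hηp : η ^ p = 1 := by
    have h1 := congrArg HahnSeries.leadingCoeff (hh0p 0)
    rw [H23.R.leadingCoeff_pow, ← hη, hlf] at h1
    exact h1
  refine ⟨{
    f := f
    nroot := hn
    ζ := ζ
    prim := hζ
    h := fun j => HahnSeries.C η⁻¹ * h0 j
    h_pow := fun j => ?_
    h_FL := fun j => ?_
    k := fun j => algebraMap K D.S η * k j
    s := s
    s_red := hs
    loc := fun j => ?_ }, rfl, rfl, ?_⟩
  · rw [mul_pow, ← map_pow, inv_pow, hηp, inv_one, map_one, one_mul, hh0p]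
  · rw [hh0]
    exact mul_mem (C_mem_FL _) (div_mem (hHF j) (R.e_mem_FL j _))
  · rw [map_mul, AlgHom.commutes, algebraMap_eq_C, hh0, ← hHs]
    have h1 : (HahnSeries.C η⁻¹ : LaurentSeries K) * HahnSeries.C η = 1 := by
      rw [← map_mul, inv_mul_cancel₀ hη0, map_one]
    calc HahnSeries.C η⁻¹ * (H j / D.e j (k j)) * (HahnSeries.C η * D.e j (k j)) =
        (HahnSeries.C η⁻¹ * HahnSeries.C η) * (H j / D.e j (k j) * D.e j (k j)) := by ring
      _ = H j := by rw [h1, one_mul, div_mul_cancel₀ _ (hek j)]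
  · change (HahnSeries.C η⁻¹ * h0 0).leadingCoeff = 1
    rw [leadingCoeff_mul', leadingCoeff_C', ← hη, inv_mul_cancel₀ hη0]

end Abs

variable {M p : ℕ} [NeZero M] [hp : Fact p.Prime] {A : ValuationSubring Qb}

/-- normalised Kummer functions -/
theorem exists_kum_lead {N m : ℕ} [NeZero N] {x : JZero N} (hx : m • x = 0) :
    ∃ f : modularFunctionFieldBar N, H05.Kum m x f ∧ (f : LaurentSeries Qb).leadingCoeff = 1 := by
  obtain ⟨f, hf⟩ := H05.exists_kum hx
  have hf0 : (f : LaurentSeries Qb) ≠ 0 := fun h => hf.ne_zero (Subtype.ext h)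
  obtain ⟨l, hl⟩ : ∃ l, l = (f : LaurentSeries Qb).leadingCoeff := ⟨_, rfl⟩
  have hl0 : l ≠ 0 := hl ▸ leadingCoeff_ne hf0
  refine ⟨f * algebraMap Qb _ l⁻¹, ?_, ?_⟩
  · have := hf.mul (H05.kum_zero_algebraMap (F := modularFunctionFieldBar N) m (inv_ne_zero hl0))
    rwa [add_zero] at this
  · change ((f : LaurentSeries Qb) * algebraMap Qb (LaurentSeries Qb) _).leadingCoeff = 1
    rw [leadingCoeff_mul', ← hl, algebraMap_eq_C, leadingCoeff_C', mul_inv_cancel₀ hl0]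

/-- a class with Kummer function a power is trivial -/
theorem eq_zero_of_kum_pow {N m : ℕ} [NeZero N] (hm : m ≠ 0) {y : JZero N}
    {g : modularFunctionFieldBar N} (hg : H05.Kum m y (g ^ m)) : y = 0 := by
  have hg0 : g ≠ 0 := by
    rintro rfl
    exact hg.ne_zero (zero_pow hm)
  exact hg.unique_left hm (H05.kum_zero_pow m hg0)

/-- **The Kummer cover attached to `y`.** -/
theorem exists_kumDat (hpM : Nat.Coprime p M) (h2 : 2 ∣ M) (hA : A.LiesOverPrime p) {ζ : Qb}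
    (hζ : IsPrimitiveRoot ζ p) {y : JZero (M * p)} (hy0 : y ≠ 0) (hy : y ∈ TSub A M p p hpM)
    (ha0 : aStar M p y = 0) (ha1 : aStar M p (wS M p hpM • y) = 0)
    (heis : ∃ l : Nat.Primes, ¬ (l : ℕ) ∣ M * p ∧ ∃ c : ℤ,
      heckeOperatorBar (M * p) l y = c • y ∧ ¬ (p : ℤ) ∣ c - (l + 1)) :
    ∃ (f : modularFunctionFieldBar (M * p)) (Y : KumDat (alData M p hpM) A), H05.Kum p y f ∧
      Y.f = f ∧ Y.ζ = ζ ∧ ∀ σ ∈ A.inertiaSubgroupIn ℚ,
        ∃ (a : ℕ) (g : (alData M p hpM).S), (σ : Qb →+* Qb) Y.ζ = Y.ζ ^ a ∧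
        ∀ j, coeffMap (σ : Qb →+* Qb) (Y.h j) = (Y.h j) ^ a * (alData M p hpM).e j g := by
  have hyT := hy
  rw [mem_TSub] at hyT
  obtain ⟨hy0', hy1'⟩ := hyT
  obtain ⟨u, hw⟩ := exists_varpi hA hζ
  obtain ⟨f, hf, hlf⟩ := exists_kum_lead (nsmul_eq_zero_of_mem_KInf hy0')
  have hloc := LR26.exists_local_roots hpM h2 hA hw hy0' hy1' ha0 ha1 hf
  have hn : ∀ g : modularFunctionFieldBar (M * p), g ^ p ≠ f := by
    rintro g rfl
    exact hy0 (eq_zero_of_kum_pow hp.out.ne_zero hf)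
  have hlf' : ((alData M p hpM).e 0 f).leadingCoeff = 1 :=
    (congrArg HahnSeries.leadingCoeff (al_e0 hpM f)).trans hlf
  obtain ⟨Y, hYf, hYζ, hYl⟩ := KumDat.exists_of_local (D := alData M p hpM) (redHyp hpM hA)
    (f := f) hζ hn hlf' hloc
  refine ⟨f, Y, hf, hYf, hYζ, fun σ hσ => ?_⟩
  -- the cyclotomic character
  have hσζ : ∃ a : ℕ, σ ζ = ζ ^ a := by
    have h1 : (σ ζ) ^ p = 1 := by rw [← map_pow, hζ.pow_eq_one, map_one]
    obtain ⟨a, -, ha⟩ := hζ.eq_pow_of_pow_eq_one h1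
    exact ⟨a, ha.symm⟩
  obtain ⟨a, ha⟩ := hσζ
  have hσy : σ • y = a • y := inertia_new hpM hA hζ hy0' ha0 ha1 hσ ha
  obtain ⟨l, hl, c, hc, hne⟩ := heis
  haveI : Fact (l : ℕ).Prime := ⟨l.2⟩
  have hh0 := Y.h_pow 0
  have hh1 := Y.h_pow 1
  rw [hYf] at hh0 hh1
  obtain ⟨g, hg0, hg1, hg2⟩ := H02N.exists_common hpM h2 hζ hf hlf
    (hh0.trans (al_e0 hpM f)) hYl (hh1.trans (al_e1 hpM f)) hl (c := c) hc hne ha hσy
  refine ⟨a, g, ?_, fun j => ?_⟩
  · rw [hYζ]; exact ha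
  · rcases fin2_cases j with rfl | rfl
    · exact hg1.trans (congrArg (fun x => Y.h 0 ^ a * x) (al_e0 hpM g).symm)
    · exact hg2.trans (congrArg (fun x => Y.h 1 ^ a * x) (al_e1 hpM g).symm)

end Fermat.Agent.NN
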