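import Fermat.Agent.NN.N3a

/-!
# The abstract core of N3
-/

set_option autoImplicit false
set_option linter.style.haveILetI false
set_option linter.unusedSectionVars false
set_option maxSynthPendingDepth 3

noncomputable section

attribute [-instance] HahnSeries.instModule HahnSeries.instSMul HahnSeries.instDistribMulAction
  HahnSeries.instSMulZeroClass

attribute [local instance 10000] Fermat.Agent.H29.instLS Fermat.Agent.H29.instIF
  Fermat.Agent.H29.instIF2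

namespace Fermat.Agent.NN

open ModularCurve HahnSeries Fermat.Agent.Igusa AlgebraicCurve Fermat.Agent.FF Fermat.Agent.H11Q
  Fermat.Agent.Q Module IntermediateField Fermat.Agent.H11N Fermat.Agent.P

local notation "kk" => IsLocalRing.ResidueField

variable {K : Type*} [Field K] [CharZero K] [IsAlgClosed K] [Algebra ℚ K]
  [Algebra.IsAlgebraic ℚ K] {p : ℕ} [hp : Fact p.Prime] {D : ALData K p}
  {A : ValuationSubring K} {Eb : IntermediateField (kk A) (LaurentSeries (kk A))}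
  {K₀ : Subfield K}

theorem coe_algebraMap_Eb (a : kk A) : ((algebraMap (kk A) Eb a : Eb) : LaurentSeries (kk A)) =
    HahnSeries.C a := by rw [← algebraMap_eq_C]; rfl

set_option maxHeartbeats 800000 in
/-- **The abstract core.** -/
theorem core_abs (R : D.RedHyp A Eb) (lp : LevelPack A D.S₀ Eb p) (I : InertData D A K₀)
    {H : Type*} [Group H] (G : GalAct D H) (hI' : ∀ τ ∈ I.G, ∃ σ : H, G.γ σ = τ)
    (Y : KumDat D A)
    (hG : ∀ σ : H, ∃ (a : ℕ) (g : D.S), (G.γ σ).σ Y.ζ = Y.ζ ^ a ∧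
      ∀ j, coeffMap (G.γ σ).σ (Y.h j) = (Y.h j) ^ a * D.e j g)
    {K' : Type*} [Field K'] (ι : K' →+* D.S) (hι : ∀ σ z, (G.γ σ).g • ι z = ι z)
    {fx : D.S} (hfx : fx ≠ 0) (hint : ι.IsIntegralElem fx) (hlx : (D.e 0 fx).leadingCoeff = 1)
    {v : K} (hv : v ∈ A) (hv' : v⁻¹ ∈ A) (hv0 : v ≠ 0)
    (hx : ∀ σ : H, ∃ (b : ℕ) (g₁ : D.S), (G.γ σ).g • fx = fx * (Y.f ^ b * g₁ ^ p) ∧
      (G.γ σ).σ v = Y.ζ ^ b * v)
    {u₀ : Eb} (hu₀ : u₀ ≠ 0) {c : K}
    (hred : Red A (HahnSeries.C c * D.e 0 fx) (u₀ : LaurentSeries (kk A))) :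
    ∃ κ : ℤ, ∀ {D' : ALData K p} {Eb' : IntermediateField (kk A) (LaurentSeries (kk A))}
      [SepFF (kk A) Eb'] (N : NodeLevel D' A Eb') (I' : InertData D' A K₀)
      (_ : ∀ τ ∈ I'.G, ∃ σ : H, (G.γ σ).σ = τ.σ) {d : ℕ} [NeZero d] (δ : Deg D D' d)
      (_ : ∀ v : Place K D'.S, (p : ℤ) ∣ v.ord (δ.δ fx))
      (_ : ∀ v : Place K D'.S, (p : ℤ) ∣ v.ord (δ.δ Y.f)) (ι' : Eb →+* Eb')
      (_ : ∀ x : Eb, (ι' x : LaurentSeries (kk A)) = qExpand (kk A) d x)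
      (v : Place (kk A) Eb'), (p : ℤ) ∣ v.ord (ι' u₀) - κ * N.T v := by
  have hpK : (p : K) ≠ 0 := by exact_mod_cast hp.out.ne_zero
  obtain ⟨k, hk, hfix⟩ := Y.hilbert G hG ι hι hfx hint hlx
    (fun σ => by obtain ⟨b, g₁, h, -⟩ := hx σ; exact ⟨b, g₁, h⟩)
  have hGal : GalCov (Y.cov R) I := by
    intro τ hτ
    obtain ⟨σ, rfl⟩ := hI' τ hτ
    exact ⟨Y.Gm G hG σ, Y.e_Gm G hG σ⟩
  have hRat : RatE (Y.cov R) K₀ (k ^ p * algebraMap D.S Y.E fx) := by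
    refine ratE_of_fix (I := I) fun τ hτ => ?_
    obtain ⟨σ, rfl⟩ := hI' τ hτ
    exact ⟨Y.Gm G hG σ, Y.e_Gm G hG σ, hfix σ⟩
  have hf0 : k ^ p * algebraMap D.S Y.E fx ≠ 0 :=
    mul_ne_zero (pow_ne_zero _ hk) ((_root_.map_ne_zero _).mpr hfx)
  choose n φ hval using fun j c => exists_hasValE R lp hGal hf0 hRat j c
  have hcong := Y.val_cong G hG R lp I hI' hfx hk hfix hv hv' hv0 hx hval
  -- comparison of the reductions
  obtain ⟨a, ha, w, hw0, hw⟩ := Q.exists_red hp.out R.lies (Y.e_mem_FL R 0 0 k)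
    ((map_ne_zero_iff _ (Y.e_inj 0 0)).mpr hk)
  have hwE : w ∈ Eb := by
    refine Y.red_mem R 0 0 (algebraMap K Y.E a * k) w ?_
    rw [map_mul, AlgHom.commutes, algebraMap_eq_C]
    exact hw
  obtain ⟨e, he0, hφ⟩ : ∃ e : kk A, e ≠ 0 ∧
      φ 0 0 = algebraMap (kk A) Eb e * (u₀ * (⟨w, hwE⟩ : Eb) ^ p) := by
    have h1 := (hval 0 0).2
    have h2 := hred.mul (hw.pow p)
    have hc0 : c ≠ 0 := by
      rintro rfl
      rw [map_zero, zero_mul] at hred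
      exact hu₀ (Subtype.ext (hred.unique Red.zero))
    have hne : (u₀ : LaurentSeries (kk A)) * w ^ p ≠ 0 :=
      mul_ne_zero (fun h => hu₀ (Subtype.ext h)) (pow_ne_zero _ hw0)
    have h3 : (p : K) ^ (-(n 0 0)) • (Y.cov R).e 0 0 (k ^ p * algebraMap D.S Y.E fx) =
        HahnSeries.C ((p : K) ^ (-(n 0 0)) * (c * a ^ p)⁻¹) *
          (HahnSeries.C c * D.e 0 fx * (HahnSeries.C a * Y.e 0 0 k) ^ p) := by
      have h4 : (Y.cov R).e 0 0 (k ^ p * algebraMap D.S Y.E fx) =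
          (Y.e 0 0 k) ^ p * D.e 0 fx := by
        rw [Y.cov_e R, map_mul, map_pow, Y.algebraMap_eq, Y.e_of]
      have h5 : (HahnSeries.C (c * a ^ p)⁻¹ : LaurentSeries K) *
          (HahnSeries.C c * HahnSeries.C a ^ p) = 1 := by
        rw [← map_pow, ← map_mul, ← map_mul, inv_mul_cancel₀
          (mul_ne_zero hc0 (pow_ne_zero _ ha)), map_one]
      rw [h4, Algebra.smul_def, algebraMap_eq_C, map_mul HahnSeries.C, mul_pow]
      calc HahnSeries.C ((p : K) ^ (-(n 0 0))) * ((Y.e 0 0 k) ^ p * D.e 0 fx) =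
          HahnSeries.C ((p : K) ^ (-(n 0 0))) * ((HahnSeries.C (c * a ^ p)⁻¹ *
          (HahnSeries.C c * HahnSeries.C a ^ p)) * ((Y.e 0 0 k) ^ p * D.e 0 fx)) := by
            rw [h5, one_mul]
        _ = _ := by ring
    rw [h3] at h1
    obtain ⟨hcA, hcu⟩ := h1.scale h2 hne
    obtain ⟨e, he⟩ : ∃ e, e = IsLocalRing.residue A
      ⟨(p : K) ^ (-n 0 0) * (c * a ^ p)⁻¹, hcA⟩ := ⟨_, rfl⟩
    rw [← he] at hcu
    refine ⟨e, ?_, Subtype.ext ?_⟩
    · intro h0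
      rw [h0, map_zero, zero_mul] at hcu
      exact (hval 0 0).1 (Subtype.ext hcu)
    · have h6 : ((algebraMap (kk A) Eb e * (u₀ * (⟨w, hwE⟩ : Eb) ^ p) : Eb) :
          LaurentSeries (kk A)) = HahnSeries.C e * ((u₀ : LaurentSeries (kk A)) * w ^ p) := by
        rw [← coe_algebraMap_Eb (Eb := Eb)]
        rfl
      rw [h6]
      exact hcu
  refine ⟨n 1 0 - n 0 0, ?_⟩
  intro D' Eb' _ N I' hS' d _ δ hdx hdy ι' hι' w'
  have key := node_pull Y R (S := {s | ∃ σ : H, (G.γ σ).σ = s})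
    (by rintro _ ⟨σ, rfl⟩; exact hG σ) N I' (fun τ hτ => hS' τ hτ) δ hfx hk hRat hdx hdy hval
    hcong (φ' := fun j c => ι' (φ j c)) (fun j c => hι' _) w'
  have hconst : ι' (algebraMap (kk A) Eb e) = algebraMap (kk A) Eb' e := by
    apply Subtype.ext
    rw [hι', coe_algebraMap_Eb, coe_algebraMap_Eb, qExpand_C]
  have hw1 : ι' (⟨w, hwE⟩ : Eb) ≠ 0 := (_root_.map_ne_zero ι').mpr
    (fun h => hw0 (congrArg Subtype.val h))
  have hu1 : ι' u₀ ≠ 0 := (_root_.map_ne_zero ι').mpr hu₀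
  have he1 : algebraMap (kk A) Eb' e ≠ 0 := (_root_.map_ne_zero _).mpr he0
  have hord : w'.ord (ι' (φ 0 0)) = w'.ord (ι' u₀) + p * w'.ord (ι' (⟨w, hwE⟩ : Eb)) := by
    rw [hφ, map_mul, map_mul, map_pow, hconst, w'.ord_mul he1 (mul_ne_zero hu1
      (pow_ne_zero _ hw1)), H18.ord_algebraMap, w'.ord_mul hu1 (pow_ne_zero _ hw1), H18.ord_pow,
      zero_add]
  change (p : ℤ) ∣ w'.ord (ι' (φ 0 0)) - _ at key
  rw [hord] at key
  have h9 : w'.ord (ι' u₀) - (n 1 0 - n 0 0) * N.T w' =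
      (w'.ord (ι' u₀) + p * w'.ord (ι' (⟨w, hwE⟩ : Eb)) - (n 1 0 - n 0 0) * N.T w') -
      p * w'.ord (ι' (⟨w, hwE⟩ : Eb)) := by ring
  rw [h9]
  exact dvd_sub key (dvd_mul_right _ _)

end Fermat.Agent.NN
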