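import Fermat.Agent.NN.Main

/-!
# The node theorem: final count
-/

set_option autoImplicit false
set_option linter.style.haveILetI false
set_option linter.unusedSectionVars false
set_option maxSynthPendingDepth 3

noncomputable section

attribute [-instance] HahnSeries.instModule HahnSeries.instSMul HahnSeries.instDistribMulAction
  HahnSeries.instSMulZeroClass

attribute [local instance 10000] Fermat.Agent.H29.instLS Fermat.Agent.H29.instIF
  Fermat.Agent.H29.instIF2

namespace Fermat.Agent.NN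

open ModularCurve HahnSeries Fermat.Agent.Igusa AlgebraicCurve Fermat.Agent.FF Fermat.Agent.H11Q
  Fermat.Agent.Q Module

local notation "kk" => IsLocalRing.ResidueField

variable {K : Type*} [Field K] [CharZero K] [IsAlgClosed K] [Algebra ℚ K]
  [Algebra.IsAlgebraic ℚ K]
variable {r : ℕ} [NeZero r] {D : ALData K r} {A : ValuationSubring K}
  {Eb : IntermediateField (kk A) (LaurentSeries (kk A))}

section O

variable [SepFF (kk A) Eb] (lp : LevelPack A D.S₀ Eb r) (P : Place (kk A) Eb)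
  (hP : ∀ x : Eb, P.ord x = (x : LaurentSeries (kk A)).order)
  (hO : ∀ x ∈ lp.O, ∀ v : Place (kk A) Eb, v ≠ P → x ∈ Vv v)

include hP hO

theorem exists_y : ∃ y : Eb, (y : LaurentSeries (kk A)) ∈ lp.O ∧ P.ord y < 0 ∧
    ∀ v, v ≠ P → 0 ≤ v.ord y := by
  obtain ⟨n₀, h⟩ := lp.exact
  obtain ⟨x, hx, hl⟩ := h (n₀ + 1) (Nat.le_succ _)
  have h1 := lp.red x hx hl.int
  refine ⟨⟨_, lp.O_le _ h1⟩, h1, ?_, fun v hv => ?_⟩
  · rw [hP]
    change (rd A (x : LaurentSeries K)).order < 0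
    rw [hl.order_rd]
    push_cast
    omega
  · exact (H18.mem_iff v).mp (mem_Vv.mp (hO _ h1 v hv))

theorem mem_O_iff (x : Eb) : (x : LaurentSeries (kk A)) ∈ lp.O ↔
    ∀ v, v ≠ P → x ∈ v.toValuationSubring := by
  constructor
  · intro h v hv
    exact mem_Vv.mp (hO _ h v hv)
  · intro h
    obtain ⟨y, hyO, hyP, hy⟩ := exists_y lp P hP hO
    have hint := isIntegral_of_places (k := kk A) y x (fun v hv => h v (by
      rintro rfl
      rw [H18.mem_iff] at hv
      omega))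
    obtain ⟨p, hp, hpx⟩ := hint
    have hadj : ∀ z ∈ Algebra.adjoin (kk A) {y}, (z : LaurentSeries (kk A)) ∈ lp.O := by
      intro z hz
      induction hz using Algebra.adjoin_induction with
      | mem z hz =>
        rw [Set.mem_singleton_iff] at hz
        rw [hz]; exact hyO
      | algebraMap c => exact lp.O.algebraMap_mem c
      | add a b _ _ ha hb => exact lp.O.add_mem ha hb
      | mul a b _ _ ha hb => exact lp.O.mul_mem ha hb
    refine lp.O_int _ x.2 ⟨p.map ((algebraMap Eb (LaurentSeries (kk A))).comp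
      (algebraMap (Algebra.adjoin (kk A) {y}) Eb)), hp.map _, fun i => ?_, ?_⟩
    · rw [Polynomial.coeff_map]
      exact hadj _ (p.coeff i).2
    · rw [Polynomial.eval_map]
      have h2 := congrArg (algebraMap Eb (LaurentSeries (kk A))) hpx
      rw [map_zero, Polynomial.hom_eval₂] at h2
      exact h2

theorem dim_nP : ∃ n₀ : ℕ, ∀ n : ℕ, n₀ ≤ n →
    Module.Finite (kk A) (riemannRochSpace (Finsupp.single P (n : ℤ))) ∧
      finrank (kk A) (riemannRochSpace (Finsupp.single P (n : ℤ))) + lp.g' = n + 1 := by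
  obtain ⟨n₀, h⟩ := lp.O_dim
  refine ⟨n₀, fun n hn => ?_⟩
  let ι : Eb →ₗ[kk A] LaurentSeries (kk A) := Eb.val.toLinearMap
  have hι : Function.Injective ι := Subtype.val_injective
  obtain ⟨h1, h2⟩ := h n hn ((riemannRochSpace (Finsupp.single P (n : ℤ))).map ι) (by
    intro x
    rw [Submodule.mem_map]
    constructor
    · rintro ⟨z, hz, rfl⟩
      change (z : LaurentSeries (kk A)) ∈ lp.O ∧ Low (z : LaurentSeries (kk A)) (-n)
      rw [mem_riemannRochSpace_iff] at hz
      by_cases hz0 : z = 0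
      · subst hz0
        exact ⟨lp.O.zero_mem, low_zero _⟩
      refine ⟨(mem_O_iff lp P hP hO z).mpr fun v hv => ?_, ?_⟩
      · have := (hz v).resolve_left hz0
        rw [Finsupp.single_eq_of_ne hv, neg_zero] at this
        exact (H18.mem_iff v).mpr this
      · have := (hz P).resolve_left hz0
        rw [Finsupp.single_eq_same, hP] at this
        exact (low_iff fun h => hz0 (Subtype.ext h)).mpr this
    · rintro ⟨hx, hlow⟩
      refine ⟨⟨x, lp.O_le x hx⟩, ?_, rfl⟩
      rw [mem_riemannRochSpace_iff]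
      intro v
      by_cases hx0 : (⟨x, lp.O_le x hx⟩ : Eb) = 0
      · exact Or.inl hx0
      right
      by_cases hv : v = P
      · subst hv
        rw [Finsupp.single_eq_same, hP]
        exact (low_iff fun h => hx0 (Subtype.ext h)).mp hlow
      · rw [Finsupp.single_eq_of_ne hv, neg_zero]
        exact (H18.mem_iff v).mp (mem_Vv.mp (hO _ hx v hv)))
  have he := Submodule.equivMapOfInjective ι hι (riemannRochSpace (Finsupp.single P (n : ℤ)))
  refine ⟨?_, ?_⟩
  · haveI := h1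
    exact Module.Finite.equiv he.symm
  · rw [he.finrank_eq]; exact h2

end O

section Final

variable {E : Type*} [Field E] [Algebra K E] [Algebra D.S E] [IsScalarTower K D.S E]
  [FiniteDimensional D.S E] {C : Type*} [Fintype C] (Y : Cov D A Eb E C)

/-- inclusion of tuples -/
def incT (A : ValuationSubring K) (Eb : IntermediateField (kk A) (LaurentSeries (kk A)))
    (ι : Type*) : (ι → Eb) →ₗ[kk A] (ι → LaurentSeries (kk A)) :=
  LinearMap.pi fun i => Eb.val.toLinearMap.comp (LinearMap.proj i)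

theorem incT_apply {ι : Type*} (x : ι → Eb) (i : ι) :
    incT A Eb ι x i = (x i : LaurentSeries (kk A)) := rfl

theorem incT_injective (ι : Type*) : Function.Injective (incT A Eb ι) := by
  intro x y h
  funext i
  apply Subtype.ext
  exact congrFun h i

theorem smul_mul_div_aux {K : Type*} [Field K] (c : K) {x y : LaurentSeries K} (hy : y ≠ 0) :
    (c • (x * y)) / y = c • x := by
  rw [Algebra.smul_def, Algebra.smul_def, ← mul_assoc, mul_div_assoc, div_self hy, mul_one]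

theorem isIntegral_const_mul (a : K) {x : E} (hx : IsIntegral (rgA D) x) :
    IsIntegral (rgA D) (algebraMap K E a * x) :=
  IsIntegral.mul (isIntegral_const a) hx

set_option maxHeartbeats 1600000 in
/-- **The node theorem.** -/
theorem node_theorem (R : D.RedHyp A Eb) [SepFF (kk A) Eb] (lp : LevelPack A D.S₀ Eb r)
    (Z : ZDat D A Eb) (P : Place (kk A) Eb)
    (hP : ∀ x : Eb, P.ord x = (x : LaurentSeries (kk A)).order)
    (hO : ∀ x ∈ lp.O, ∀ v : Place (kk A) Eb, v ≠ P → x ∈ Vv v)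
    (K₀ : Subfield K) (hk : ∀ c : kk A, ∃ z ∈ K₀, z ∈ A ∧ resid A z = c)
    (hval : ∀ z ∈ K₀, z ≠ 0 → ∃ n : ℤ, A.valuation z = A.valuation (r : K) ^ n)
    (g : ℕ) (T : Divisor (kk A) Eb)
    (hT : ∀ v, T v = ∑ σ ∈ Z.S, max (v.ord (Z.tb - algebraMap (kk A) Eb σ)) 0)
    (hS : (g : ℤ) + 1 ≤ 2 * lp.g' + Divisor.degree T)
    {m : ℕ} (hm : 0 < m) {f : E} (hf0 : f ≠ 0) (hf : IsIntegral (rgA D) f)
    (hfK : ∀ j c l, (Y.e j c f).coeff l ∈ K₀) (a : Fin 2 → C → ℤ) (β : ℕ) (hβ : β ≤ m)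
    (φ : Fin 2 → C → Eb) (hφ : ∀ j c, φ j c ≠ 0)
    (hred : ∀ j c, Red A ((r : K) ^ (-((m : ℤ) * a j c + bet β j)) • Y.e j c f)
      (φ j c : LaurentSeries (kk A)))
    (hV : ∃ n₀ : ℕ, ∀ n : ℕ, n₀ ≤ n →
      FiniteDimensional K (VSp Y m hm.ne' f n) ∧
      VSp Y m hm.ne' f n ≤ Submodule.span K {u | u ∈ VSp Y m hm.ne' f n ∧
        ∀ j c l, (Y.e j c u).coeff l ∈ K₀} ∧
      (Fintype.card C : ℤ) * (2 * n + 1 - g) ≤ finrank K (VSp Y m hm.ne' f n)) :
    ∀ c, ∀ v : Place (kk A) Eb, (m : ℤ) ∣ v.ord (φ 0 c) - β * T v ∧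
      (m : ℤ) ∣ v.ord (φ 1 c) + β * T v := by
  classical
  haveI : IsAlgClosed (kk A) := H11Q.isAlgClosed_residueField A
  haveI := SepFF.hasPrincipalDivisors (k := kk A) (κ := Eb)
  haveI := Y.nonempty
  have hdeg : ∀ v : Place (kk A) Eb, v.deg = 1 := fun v => SepFF.deg_eq_one v
  obtain ⟨y, hyO, hyP, hy⟩ := exists_y lp P hP hO
  have hRR := rr_upper hdeg P lp.g' hy hyP (dim_nP lp P hP hO)
  have hrK : (r : K) ≠ 0 := by exact_mod_cast R.prime.ne_zero
  have hrK₀ : (r : K) ∈ K₀ := natCast_mem K₀ r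
  -- the spaces
  let X : ℕ → Submodule (kk A) ((Fin 2 × C) → Eb) := fun n =>
    (red0 A K₀ hk (VSp Y m hm.ne' f n) (EI Y m f a β)).comap (incT A Eb (Fin 2 × C))
  let rr : ℕ → Fin 2 → C → (((Fin 2 × C) → Eb) →ₗ[kk A] Eb) := fun _ j c =>
    (LinearMap.mulRight (kk A) (φ j c)⁻¹).comp (LinearMap.proj (j, c))
  have hrr : ∀ n j c x, rr n j c x = x (j, c) * (φ j c)⁻¹ := fun n j c x => rfl
  -- elements of `X`
  have hX : ∀ n, ∀ x ∈ X n, ∃ u, u ∈ VSp Y m hm.ne' f n ∧ Rat K₀ (EI Y m f a β) u ∧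
      (∀ i, IsInt A (EI Y m f a β i u)) ∧
      ∀ i, (x i : LaurentSeries (kk A)) = rd A (EI Y m f a β i u) := by
    intro n x hx
    obtain ⟨u, hu, h1, h2, h3⟩ := hx
    exact ⟨u, hu, h1, h2, h3⟩
  -- regularity of the reductions
  have hreg : ∀ (n : ℕ) (u : E), u ∈ VSp Y m hm.ne' f n → (∀ i, IsInt A (EI Y m f a β i u)) →
      ∀ (ρ : Fin 2 × C → Eb), (∀ i, (ρ i : LaurentSeries (kk A)) = rd A (EI Y m f a β i u)) →
      ∀ j c, ρ (j, c) ≠ 0 →
      (-(m * n : ℤ) ≤ P.ord ((ρ (j, c) * (φ j c)⁻¹) ^ m * φ j c)) := by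
    intro n u hu hi ρ hρ j c hne
    obtain ⟨h1, h2⟩ := red_umf Y R hm hf a β φ hφ hred hu.1 j c (hi (j, c)) (ρ (j, c)) (hρ (j, c))
    rw [hP, ← h2]
    have h3 : rd A ((r : K) ^ (-(bet β j : ℤ)) • Y.e j c (u ^ m * f)) ≠ 0 := by
      rw [h2]
      intro h4
      have h5 : (ρ (j, c) * (φ j c)⁻¹) ^ m * φ j c = 0 := Subtype.ext h4
      exact mul_ne_zero (pow_ne_zero _ (mul_ne_zero hne (inv_ne_zero (hφ j c)))) (hφ j c) h5
    rw [← low_iff h3]
    have h6 := ((hu.2 j c).smul ((r : K) ^ (-(bet β j : ℤ)))).rd (A := A)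
    convert h6 using 1
    ring
  refine counting (k := kk A) (κ := Eb) hdeg P lp.g' hRR T m hm φ hφ β g
    (V := fun _ => (Fin 2 × C) → Eb) X rr ?_ ?_ ?_ ?_ hS
  · -- separation
    intro n x _ h
    funext ⟨j, c⟩
    have h1 : x (j, c) * (φ j c)⁻¹ = 0 := h j c
    exact (mul_eq_zero.mp h1).resolve_right (inv_ne_zero (hφ j c))
  · -- dimensions
    obtain ⟨n₀, hn₀⟩ := hV
    refine ⟨n₀, fun n hn => ?_⟩
    obtain ⟨h1, h2, h3⟩ := hn₀ n hn
    haveI := h1
    have hrat : VSp Y m hm.ne' f n ≤ Submodule.span K {u | u ∈ VSp Y m hm.ne' f n ∧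
        Rat K₀ (EI Y m f a β) u} := by
      refine h2.trans (Submodule.span_mono ?_)
      rintro u ⟨hu, huK⟩
      refine ⟨hu, fun i l => ?_⟩
      rw [EI_apply, H11Q.coeff_smul', map_mul]
      refine K₀.mul_mem (zpow_mem hrK₀ _) ?_
      exact (CoefIn.mul (R := K₀.toSubring) (huK i.1 i.2) (hfK i.1 i.2)) l
    have hatt : JAtt A (VSp Y m hm.ne' f n) (EI Y m f a β) := by
      apply jatt_of_att
      intro u hu hu0 i
      refine att_of_DD R (EI_mem_DD Y R hm hf a β hu.1 i) ?_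
      rw [EI_apply']
      refine (map_ne_zero_iff _ (Y.e i.1 i.2).injective).mpr ?_
      exact mul_ne_zero ((_root_.map_ne_zero _).mpr (zpow_ne_zero _ hrK)) (mul_ne_zero hu0 hf0)
    have h4 := finrank_red0 hk hrat hatt
    have hmap : (X n).map (incT A Eb (Fin 2 × C)) =
        red0 A K₀ hk (VSp Y m hm.ne' f n) (EI Y m f a β) := by
      apply le_antisymm
      · exact Submodule.map_comap_le _ _
      · intro x hx
        obtain ⟨u, hu, h5, h6, h7⟩ := hx
        have hmem : ∀ i, x i ∈ Eb := by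
          intro i
          rw [h7]
          refine Y.red_mem i.1 i.2
            (algebraMap K E ((r : K) ^ (-(((m : ℤ) - 1) * a i.1 i.2 + bet β i.1))) * (u * f)) _ ?_
          rw [← EI_apply']
          exact red_rd (h6 i)
        refine ⟨fun i => ⟨x i, hmem i⟩, ?_, rfl⟩
        exact ⟨u, hu, h5, h6, h7⟩
    have h5 : finrank (kk A) (X n) =
        finrank (kk A) (red0 A K₀ hk (VSp Y m hm.ne' f n) (EI Y m f a β)) := by
      rw [← hmap]
      exact (Submodule.equivMapOfInjective (incT A Eb (Fin 2 × C))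
        (incT_injective (A := A) (Eb := Eb) (Fin 2 × C)) (X n)).finrank_eq
    rw [h5, h4]
    exact h3
  · -- the first bound
    intro n x hx c hne v
    obtain ⟨u, hu, huR, hi, hρ⟩ := hX n x hx
    rw [hrr n] at hne ⊢
    have hx0 : x (0, c) ≠ 0 := left_ne_zero_of_mul hne
    obtain ⟨h1, h2⟩ := red_umf Y R hm hf a β φ hφ hred hu.1 0 c (hi (0, c)) (x (0, c))
      (hρ (0, c))
    set yb : Eb := (x (0, c) * (φ 0 c)⁻¹) ^ m * φ 0 c with hyb
    have hyb0 : yb ≠ 0 := mul_ne_zero (pow_ne_zero _ hne) (hφ 0 c)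
    have hord : v.ord yb = m * v.ord (x (0, c) * (φ 0 c)⁻¹) + v.ord (φ 0 c) := by
      rw [hyb, v.ord_mul (pow_ne_zero _ hne) (hφ 0 c), H18.ord_pow]
    -- integrality of `u ^ m f`
    have hi0 : ∀ c, IsInt A (Y.e 0 c (u ^ m * f)) := by
      intro c'
      obtain ⟨h3, -⟩ := red_umf Y R hm hf a β φ hφ hred hu.1 0 c' (hi (0, c')) (x (0, c'))
        (hρ (0, c'))
      have h4 : (r : K) ^ (-(bet β 0 : ℤ)) • Y.e 0 c' (u ^ m * f) = Y.e 0 c' (u ^ m * f) := by
        have : (bet β 0 : ℤ) = 0 := rfl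
        rw [this, neg_zero, zpow_zero, Algebra.smul_def, map_one, one_mul]
      rwa [h4] at h3
    have hi1 : ∀ c, IsInt A (((r : K)⁻¹) ^ β • Y.e 1 c (u ^ m * f)) := by
      intro c'
      obtain ⟨h3, -⟩ := red_umf Y R hm hf a β φ hφ hred hu.1 1 c' (hi (1, c')) (x (1, c'))
        (hρ (1, c'))
      have h4 : (r : K) ^ (-(bet β 1 : ℤ)) = ((r : K)⁻¹) ^ β := by
        have : (bet β 1 : ℤ) = β := rfl
        rw [this, zpow_neg, zpow_natCast, inv_pow]
      rwa [h4] at h3
    have hrd : rd A (Y.e 0 c (u ^ m * f)) = (yb : LaurentSeries (kk A)) := by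
      have h4 : (r : K) ^ (-(bet β 0 : ℤ)) • Y.e 0 c (u ^ m * f) = Y.e 0 c (u ^ m * f) := by
        have : (bet β 0 : ℤ) = 0 := rfl
        rw [this, neg_zero, zpow_zero, Algebra.smul_def, map_one, one_mul]
      rw [← h4]; exact h2
    have hi1' : ∀ c, IsInt A (Y.e 1 c (u ^ m * f)) := by
      intro c'
      have h3 := (hi1 c').smul (c := (r : K) ^ β) (A.toSubring.pow_mem (natCast_mem A r) β)
      rwa [smul_smul, inv_pow, mul_inv_cancel₀ (pow_ne_zero _ hrK), one_smul] at h3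
    have hall : ∀ j c, IsInt A (Y.e j c (u ^ m * f)) := by
      intro j c'
      rcases fin2_cases j with rfl | rfl
      · exact hi0 c'
      · exact hi1' c'
    by_cases hv : v = P
    · subst hv
      have h3 := hreg n u hu hi x hρ 0 c hx0
      rw [← hyb, hord] at h3
      have hT0 : T v = 0 := by
        rcases Z.T_cases hP v with h4 | h4
        · rw [hT]; exact h4
        · exact absurd rfl h4.1
      rw [hT0, Finsupp.single_eq_same, mul_zero, sub_zero]
      linarith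
    · rw [Finsupp.single_eq_of_ne hv, add_zero]
      rcases Z.T_cases hP v with h4 | ⟨-, σ, hσ, hvσ, h4⟩
      · rw [hT, h4, mul_zero, sub_zero, ← hord]
        have h5 := Y.rd_mem_O R lp hu.1 hall 0 c
        rw [hrd] at h5
        exact (H18.mem_iff v).mp (mem_Vv.mp (hO _ h5 v hv))
      · have h5 := Z.bound Y R 0 (Cov.cusp_of_rg R hu.1) β hi0 hi1 hσ hvσ c yb hrd.symm hyb0
        rw [hT, h4]
        rw [hord] at h5
        linarith
  · -- the second bound
    intro n x hx hz c hne v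
    obtain ⟨u, hu, huR, hi, hρ⟩ := hX n x hx
    have hz0 : ∀ c, rd A (EI Y m f a β (0, c) u) = 0 := by
      intro c'
      have h1 := hz c'
      rw [hrr n] at h1
      have h2 := (mul_eq_zero.mp h1).resolve_right (inv_ne_zero (hφ 0 c'))
      rw [← hρ (0, c'), h2]
      rfl
    rw [hrr n] at hne ⊢
    have hx0 : x (1, c) ≠ 0 := left_ne_zero_of_mul hne
    -- the function `r^{-β} u^m f`
    set h : E := algebraMap K E (((r : K)⁻¹) ^ β) * (u ^ m * f) with hh
    have hhint : IsIntegral (rgA D) h := isIntegral_const_mul _ hu.1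
    have hr1 : (r : K) ^ (-(bet β 1 : ℤ)) = ((r : K)⁻¹) ^ β := by
      have : (bet β 1 : ℤ) = β := rfl
      rw [this, zpow_neg, zpow_natCast, inv_pow]
    have heh : ∀ j c, Y.e j c h = ((r : K)⁻¹) ^ β • Y.e j c (u ^ m * f) := by
      intro j c'
      rw [hh, ← Algebra.smul_def, map_smul]
    have hi1 : ∀ c, IsInt A (Y.e 1 c h) := by
      intro c'
      obtain ⟨h3, -⟩ := red_umf Y R hm hf a β φ hφ hred hu.1 1 c' (hi (1, c')) (x (1, c'))
        (hρ (1, c'))
      rw [heh, ← hr1]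
      exact h3
    have hi0 : ∀ c, IsInt A (((r : K)⁻¹) ^ (m - β) • Y.e 0 c h) := by
      intro c'
      have h3 : IsInt A ((r : K)⁻¹ • EI Y m f a β (0, c') u) :=
        isInt_inv_smul hval R.lies hrK (fun l => huR (0, c') l) (hi (0, c')) (hz0 c')
      have h4 := key_identity Y R hm f a β 0 c' u
      have h5 : (r : K) ^ (-(bet β 0 : ℤ)) • Y.e 0 c' (u ^ m * f) = Y.e 0 c' (u ^ m * f) := by
        have : (bet β 0 : ℤ) = 0 := rfl
        rw [this, neg_zero, zpow_zero, Algebra.smul_def, map_one, one_mul]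
      rw [h5] at h4
      have h6 : ((r : K)⁻¹) ^ (m - β) • Y.e 0 c' h = ((r : K)⁻¹) ^ m • Y.e 0 c' (u ^ m * f) := by
        rw [heh, smul_smul, ← _root_.pow_add, Nat.sub_add_cancel hβ]
      rw [h6]
      have hφ0 : (φ 0 c' : LaurentSeries (kk A)) ≠ 0 := fun h => hφ 0 c' (Subtype.ext h)
      have h7 := (hred 0 c').pow (m - 1)
      have h8 := ((red_rd h3).pow m).div h7 (pow_ne_zero _ hφ0)
      have hne' := h7.ne_zero (pow_ne_zero _ hφ0)
      have h9 : ((r : K)⁻¹ • EI Y m f a β (0, c') u) ^ m /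
          ((r : K) ^ (-((m : ℤ) * a 0 c' + bet β 0)) • Y.e 0 c' f) ^ (m - 1) =
          ((r : K)⁻¹) ^ m • Y.e 0 c' (u ^ m * f) := by
        rw [smul_pow, ← h4, smul_mul_div_aux _ hne']
      rw [h9] at h8
      exact (isInt_of_red R (DD_smul A (Y.e_mem_DD R hu.1 0 c') _) h8).1
    obtain ⟨h1, h2⟩ := red_umf Y R hm hf a β φ hφ hred hu.1 1 c (hi (1, c)) (x (1, c))
      (hρ (1, c))
    set yb : Eb := (x (1, c) * (φ 1 c)⁻¹) ^ m * φ 1 c with hyb
    have hyb0 : yb ≠ 0 := mul_ne_zero (pow_ne_zero _ hne) (hφ 1 c)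
    have hord : v.ord yb = m * v.ord (x (1, c) * (φ 1 c)⁻¹) + v.ord (φ 1 c) := by
      rw [hyb, v.ord_mul (pow_ne_zero _ hne) (hφ 1 c), H18.ord_pow]
    have hrd : rd A (Y.e 1 c h) = (yb : LaurentSeries (kk A)) := by
      rw [heh, ← hr1]; exact h2
    have hi0' : ∀ c, IsInt A (Y.e 0 c h) := by
      intro c'
      have h3 := (hi0 c').smul (c := (r : K) ^ (m - β))
        (A.toSubring.pow_mem (natCast_mem A r) (m - β))
      rwa [smul_smul, inv_pow, mul_inv_cancel₀ (pow_ne_zero _ hrK), one_smul] at h3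
    have hall : ∀ j c, IsInt A (Y.e j c h) := by
      intro j c'
      rcases fin2_cases j with rfl | rfl
      · exact hi0' c'
      · exact hi1 c'
    by_cases hv : v = P
    · subst hv
      have h3 := hreg n u hu hi x hρ 1 c hx0
      rw [← hyb, hord] at h3
      have hT0 : T v = 0 := by
        rcases Z.T_cases hP v with h4 | h4
        · rw [hT]; exact h4
        · exact absurd rfl h4.1
      rw [hT0, Finsupp.single_eq_same, mul_zero, sub_zero]
      linarith
    · rw [Finsupp.single_eq_of_ne hv, add_zero]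
      rcases Z.T_cases hP v with h4 | ⟨-, σ, hσ, hvσ, h4⟩
      · rw [hT, h4, mul_zero, sub_zero, ← hord]
        have h5 := Y.rd_mem_O R lp hhint hall 1 c
        rw [hrd] at h5
        exact (H18.mem_iff v).mp (mem_Vv.mp (hO _ h5 v hv))
      · have h5 := Z.bound Y R 1 (Cov.cusp_of_rg R hhint) (m - β) hi1 hi0 hσ hvσ c yb hrd.symm hyb0
        rw [hT, h4]
        rw [hord, Nat.cast_sub hβ] at h5
        linarith

end Final

end Fermat.Agent.NN
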